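/-
P7 / S52 -- IRR3 route (helper15, 02:00Z).  Comment-only notes file.

GOAL (IRR3): for the chosen member W' of the family E_t (E_t[5] = E[5]) show
  W'.ModRepIsIrreducible 3.

(0) WHY the "finite check at one fixed small prime" CANNOT work: E is arbitrary, so E may be
    bad at every prime below any bound, and at a bad (multiplicative) prime every member of
    the family is a Tate curve, which always has a stable line in its 3-torsion.  Quadratic
    reciprocity tricks also fail: the parity of the number of useful primes is a product of
    local terms at 2, 3, infinity, which equals +1 as soon as W' is locally like the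
    (reducible) curve E.  So one needs a prime q chosen by (weak) Chebotarev.

(1) CRITERION (LANDED, helper15_Irr3Crit.lean, elementary, uses only S51.exists_three_data):
      theorem irr3_of_prime (W : WeierstrassCurve Z) (hD : W.Δ ≠ 0) (q) [Fact q.Prime]
        (h3 : ¬ IsSquare (3 : ZMod q)) (h6 : q ∣ W.c₆) (h4 : ¬ q ∣ W.c₄) :
        W.ModRepIsIrreducible 3
    Reason: j = 1728 mod q, and with xi = 12 x + b2:
      (xi^2 - 3 c4)^2 - 12 c4^2 = 6912 psi3(x) + 8 c6 xi.
    A rational root of psi3 reduces mod q and makes 3 a square mod q.

(2) EXISTENCE of q.  Let T_E(t) = T(v0 + t w0) (degree 30, c6 of E_t up to a constant).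
    Wanted: a prime q outside a given finite set S with 3 a non-square mod q such that T_E
    has a root t0 mod q.  Then every t = t0 mod q (q-integral) gives q | c6(W'), and q does
    not divide c4(W') (resultant), so (1) applies.
    (a) GALOIS SIDE (helper15 takes it): for W semistable at 3 there is g in G_Q with
          g(sqrt 3) = - sqrt 3,  g fixes all 20-th roots of unity,  g = 1 on W[5].
        Proof: tau in the inertia group at 3 with tau(sqrt 3) = - sqrt 3 (3 ramifies in
        Q(sqrt 3)); inertia at 3 fixes zeta_20; good reduction at 3 => tau = 1 on W[5];
        multiplicative reduction at 3 => tau unipotent on W[5] (node analysis, as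
        S13.helper1.NodeData.map_sub_fixed but with a centre that tau may move), g := tau^5.
        Weak Chebotarev (Cheb.helper40.chebW_open_uncond) with U = stabiliser of
        W[5], zeta_20, sqrt 3 gives q outside S and a Frobenius phi at q with
          phi = 1 on W[5], phi fixes zeta_20, phi(sqrt 3) = - sqrt 3  (=> 3 non-square mod q).
    (b) DICTIONARY (FAM side, needed anyway for E_t[5] = E[5]):
          sigma = 1 on W[5] and on zeta_20  =>  sigma fixes every root theta of T_E.
        [sigma v0 = eps M v0 with M = +-1 because the basis (P(v0), Q(v0)) is fixed;
         the 30 linear factors of T are defined over Q(zeta_20); w0 = J grad f(v0)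
         transforms like v0.]
    (c) ROOT (helper15): theta integral at q and fixed by a Frobenius at q
          => theta = t0 mod the place, t0 in Z  => q | T_E(t0).

(3) REMARK: sqrt 3 and the prime 3 are forced: the auxiliary quadratic character must be
    ramified at a prime where both E[5] and the level-5 structure of y^2 = x^3 - x are
    (odd-)unramified; inertia at 2 moves i = zeta_4, hence swaps the two roots of each
    quadratic factor of T_E.
-/
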