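import Fermat.Agent.P7.helper52_CEDefs

/-!
# P7 / S52, module CE-MANIN, leaf [CNT-GEOM] (helper11)

The geometric half of Manin's count, in the shapes of `helper52_CEDefs`:

* `frobKPt_sub_generic` **(G1)**: for the generic point `P₀ = (x, y)` of `W` over `k(E)`, the
  point `Φ P₀ - P₀` is affine with `x`-coordinate
  `chordX = (M/D)² + a₁ (M/D) - a₂ - x^ℓ - x`, `M = y^ℓ + y + a₁ x + a₃`, `D = x^ℓ - x ≠ 0`.
* `coordN_eq_map` **(G2)**: base change `F → K` of a polynomial representative of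
  `N = M² + a₁ M D - (a₂ + X^n + X) D²` in the coordinate ring (`coordN`).
* `IsXDeg`, `isXDeg_unique`, `xDeg` **(G3)**: "the `x`-coordinate of `X` is a rational function of
  `x` of degree `d`" (reduced fraction `num / den` in `k[X]`, `d = max (deg num) (deg den)`), and
  `isXDeg_frobKPt_sub_generic`: the degree of `x(Φ P₀ - P₀)` is `max (deg num) (deg den)` for ANY
  coprime `num, den : (ZMod ℓ)[X]` with `n * den = D² * num`, `n` a representative of `coordN`
  over `𝔽_ℓ` (the output of the polynomial count [CE-COUNT]).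
-/

set_option autoImplicit false

open WeierstrassCurve WeierstrassCurve.Affine
open scoped WeierstrassCurve.Affine Classical
open Polynomial

namespace Fermat.Agent.P7.helper11

open Fermat.Agent.P6.helper78 Fermat.Agent.P7.helper52

/-! ## Polynomial objects and base change -/

section coord

variable {F K : Type} [CommRing F] [CommRing K]

/-- `D = X^n - X`. -/
noncomputable def polyD (F : Type) [CommRing F] (n : ℕ) : F[X] := X ^ n - X

/-- The bivariate polynomial `Y^n + Y + a₁ X + a₃`. -/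
noncomputable def biM (V : Affine F) (n : ℕ) : F[X][X] :=
  Polynomial.X ^ n + Polynomial.X + C (C V.a₁ * X + C V.a₃)

/-- The bivariate polynomial `M² + a₁ M D - (a₂ + X^n + X) D²`. -/
noncomputable def biN (V : Affine F) (n : ℕ) : F[X][X] :=
  biM V n ^ 2 + C (C V.a₁ * polyD F n) * biM V n - C ((C V.a₂ + X ^ n + X) * polyD F n ^ 2)

/-- `M = Y^n + Y + a₁ X + a₃` in the coordinate ring. -/
noncomputable def coordM (V : Affine F) (n : ℕ) : V.CoordinateRing :=
  CoordinateRing.mk V (biM V n)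

/-- `N = M² + a₁ M D - (a₂ + X^n + X) D²` in the coordinate ring. -/
noncomputable def coordN (V : Affine F) (n : ℕ) : V.CoordinateRing :=
  CoordinateRing.mk V (biN V n)

lemma coordN_eq (V : Affine F) (n : ℕ) :
    coordN V n = coordM V n ^ 2 + CoordinateRing.mk V (C (C V.a₁ * polyD F n)) * coordM V n
      - CoordinateRing.mk V (C ((C V.a₂ + X ^ n + X) * polyD F n ^ 2)) := by
  simp only [coordN, coordM, biN, map_sub, map_add, map_mul, map_pow]

lemma polyD_map (φ : F →+* K) (n : ℕ) : (polyD F n).map φ = polyD K n := by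
  simp [polyD]

lemma biM_map (φ : F →+* K) (V : Affine F) (n : ℕ) :
    (biM V n).map (mapRingHom φ) = biM (V.map φ) n := by
  simp [biM]

lemma biN_map (φ : F →+* K) (V : Affine F) (n : ℕ) :
    (biN V n).map (mapRingHom φ) = biN (V.map φ) n := by
  simp [biN, biM_map, polyD_map]

/-- **(G2)** base change of a polynomial representative of `coordN`. -/
lemma coordN_eq_map (φ : F →+* K) (V : Affine F) (n : ℕ) (p : F[X])
    (h : CoordinateRing.mk V (C p) = coordN V n) (V' : Affine K) (hV' : V' = V.map φ) :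
    CoordinateRing.mk V' (C (p.map φ)) = coordN V' n := by
  subst hV'
  have := congrArg (CoordinateRing.map V φ) h
  rw [coordN, CoordinateRing.map_mk, CoordinateRing.map_mk, biN_map, Polynomial.map_C,
    Polynomial.coe_mapRingHom] at this
  exact this

end coord

/-! ## The function field side -/

section geom

variable (W : WeierstrassCurve ℤ) (k : Type) [Field k]

/-- The curve over the function field `k(E)`. -/
noncomputable abbrev WKE : Affine (KE W k) := (W.map (Int.castRingHom (KE W k))).toAffine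

lemma ofCoord_injective : Function.Injective (ofCoord W k) :=
  IsFractionRing.injective (WkE W k).CoordinateRing (WkE W k).FunctionField

/-- The inclusion `k[X] → k(E)`. -/
noncomputable def polyK : k[X] →+* KE W k :=
  (ofCoord W k).comp (algebraMap k[X] (WkE W k).CoordinateRing)

lemma polyK_injective : Function.Injective (polyK W k) :=
  (ofCoord_injective W k).comp (FaithfulSMul.algebraMap_injective _ _)

lemma polyK_X : polyK W k X = xK W k := by
  simp only [polyK, xK, RingHom.comp_apply]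
  rfl

lemma polyK_C (c : k) : polyK W k (C c) = algebraMap k (KE W k) c := by
  simp only [polyK, RingHom.comp_apply]
  rfl

/-- The map `k[X][Y] → k(E)`. -/
noncomputable def biK : k[X][X] →+* KE W k :=
  (ofCoord W k).comp (CoordinateRing.mk (WkE W k))

lemma biK_Y : biK W k Polynomial.X = yK W k := rfl

lemma biK_C (p : k[X]) : biK W k (C p) = polyK W k p := rfl

lemma biK_apply (p : k[X][X]) : biK W k p = ofCoord W k (CoordinateRing.mk (WkE W k) p) := rfl

lemma algebraMap_WkE_a₁ : algebraMap k (KE W k) (WkE W k).a₁ = (WKE W k).a₁ := by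
  simp

lemma algebraMap_WkE_a₂ : algebraMap k (KE W k) (WkE W k).a₂ = (WKE W k).a₂ := by
  simp

lemma algebraMap_WkE_a₃ : algebraMap k (KE W k) (WkE W k).a₃ = (WKE W k).a₃ := by
  simp

lemma xK_pow_sub_ne_zero (n : ℕ) (hn : 2 ≤ n) : xK W k ^ n - xK W k ≠ 0 := by
  have h : (X ^ n - X : k[X]) ≠ 0 := by
    intro h0
    have := congrArg (fun p => p.coeff n) h0
    simp only [coeff_sub, coeff_X_pow, if_true, coeff_X, coeff_zero] at this
    rw [if_neg (by omega)] at this
    simp at this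
  have := (map_ne_zero_iff (polyK W k) (polyK_injective W k)).mpr h
  simpa [polyK_X] using this

variable (ℓ : ℕ)

/-- The numerator function `M = y^ℓ + y + a₁ x + a₃` of the chord slope of `Φ P₀ + (-P₀)`. -/
noncomputable def chordM : KE W k :=
  yK W k ^ ℓ + yK W k + (WKE W k).a₁ * xK W k + (WKE W k).a₃

/-- The denominator function `D = x^ℓ - x` of the chord slope. -/
noncomputable def chordD : KE W k := xK W k ^ ℓ - xK W k

/-- The `x`-coordinate of `Φ P₀ - P₀`. -/
noncomputable def chordX : KE W k :=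
  (chordM W k ℓ / chordD W k ℓ) ^ 2 + (WKE W k).a₁ * (chordM W k ℓ / chordD W k ℓ)
    - (WKE W k).a₂ - xK W k ^ ℓ - xK W k

lemma chordD_ne_zero (hℓ : 2 ≤ ℓ) : chordD W k ℓ ≠ 0 :=
  xK_pow_sub_ne_zero W k ℓ hℓ

lemma polyK_polyD : polyK W k (polyD k ℓ) = chordD W k ℓ := by
  simp [polyD, chordD, polyK_X]

lemma biK_biM : biK W k (biM (WkE W k) ℓ) = chordM W k ℓ := by
  simp only [biM, chordM, map_add, map_pow, map_mul, biK_Y, biK_C, polyK_C, polyK_X,
    algebraMap_WkE_a₁, algebraMap_WkE_a₃]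
  ring

lemma biK_biN : biK W k (biN (WkE W k) ℓ) =
    chordM W k ℓ ^ 2 + (WKE W k).a₁ * chordM W k ℓ * chordD W k ℓ
      - ((WKE W k).a₂ + xK W k ^ ℓ + xK W k) * chordD W k ℓ ^ 2 := by
  simp only [biN, map_add, map_sub, map_pow, map_mul, biK_biM, biK_C, polyK_C, polyK_X,
    algebraMap_WkE_a₂, algebraMap_WkE_a₁, polyK_polyD]
  ring

/-- Cleared form of `chordX`. -/
lemma chordX_mul (hℓ : 2 ≤ ℓ) : chordX W k ℓ * chordD W k ℓ ^ 2 =
    chordM W k ℓ ^ 2 + (WKE W k).a₁ * chordM W k ℓ * chordD W k ℓ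
      - ((WKE W k).a₂ + xK W k ^ ℓ + xK W k) * chordD W k ℓ ^ 2 := by
  have hD := chordD_ne_zero W k ℓ hℓ
  rw [chordX]
  field_simp
  ring

/-- `chordX * D² = ofCoord N`. -/
lemma chordX_mul_eq_ofCoord (hℓ : 2 ≤ ℓ) :
    chordX W k ℓ * chordD W k ℓ ^ 2 = ofCoord W k (coordN (WkE W k) ℓ) := by
  rw [chordX_mul W k ℓ hℓ, coordN, ← biK_apply, biK_biN]

lemma some_congr_x {F : Type} [Field F] {V : Affine F} {x x' y : F} (h : V.Nonsingular x y)
    (e : x = x') : ∃ h', Point.some x y h = Point.some x' y h' := by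
  subst e
  exact ⟨h, rfl⟩

variable [Fact ℓ.Prime] [CharP k ℓ]

lemma frobKPt_some {x y : KE W k} (h : (WKE W k).Nonsingular x y) :
    ∃ h', frobKPt W k ℓ (Point.some x y h) = Point.some (x ^ ℓ) (y ^ ℓ) h' :=
  ⟨_, rfl⟩

/-- **(G1)** `Φ P₀ - P₀` is the affine point with `x`-coordinate `chordX`. -/
theorem frobKPt_sub_generic (P₀ : PtK W (KE W k)) (hP₀ : IsGenericPt W k P₀) :
    ∃ y₃ h₃, frobKPt W k ℓ P₀ - P₀ = Point.some (chordX W k ℓ) y₃ h₃ := by
  obtain ⟨h, rfl⟩ := hP₀
  obtain ⟨h', e⟩ := frobKPt_some W k ℓ h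
  have hx : xK W k ^ ℓ ≠ xK W k := fun h0 =>
    chordD_ne_zero W k ℓ (Fact.out : ℓ.Prime).two_le (sub_eq_zero.mpr h0)
  rw [e, sub_eq_add_neg, Point.neg_some, Point.add_of_X_ne hx]
  have hX : (WKE W k).addX (xK W k ^ ℓ) (xK W k)
      ((WKE W k).slope (xK W k ^ ℓ) (xK W k) (yK W k ^ ℓ) ((WKE W k).negY (xK W k) (yK W k)))
      = chordX W k ℓ := by
    rw [slope_of_X_ne hx]
    simp only [addX, negY, chordX, chordM, chordD]
    ring
  obtain ⟨h₃, e₃⟩ := some_congr_x (nonsingular_add h' ((nonsingular_neg ..).mpr h)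
    (fun hxy => hx hxy.left)) hX
  exact ⟨_, h₃, e₃⟩

end geom

/-! ## Degrees of `x`-coordinates -/

section deg

variable (W : WeierstrassCurve ℤ) (k : Type) [Field k]

/-- The `x`-coordinate of the point `X` of `W(k(E))` is a rational function of `x` of degree `d`:
`x(X) = num / den` with `num, den ∈ k[X]` coprime and `d = max (deg num) (deg den)`;
the point at infinity has degree `0`. -/
def IsXDeg (X : PtK W (KE W k)) (d : ℕ) : Prop :=
  (X = 0 ∧ d = 0) ∨
    ∃ (x y : KE W k) (h : (WKE W k).Nonsingular x y) (num den : k[X]),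
      X = Point.some x y h ∧ IsCoprime num den ∧ x * polyK W k den = polyK W k num ∧
        d = max num.natDegree den.natDegree

lemma isXDeg_zero : IsXDeg W k 0 0 := Or.inl ⟨rfl, rfl⟩

lemma natDegree_eq_of_cross {a b a' b' : k[X]} (h : IsCoprime a b) (h' : IsCoprime a' b')
    (e : a * b' = a' * b) : a.natDegree = a'.natDegree ∧ b.natDegree = b'.natDegree := by
  have h1 : a ∣ a' := h.dvd_of_dvd_mul_right (Dvd.intro _ e)
  have h2 : a' ∣ a := h'.dvd_of_dvd_mul_right (Dvd.intro _ e.symm)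
  have h3 : b ∣ b' := h.symm.dvd_of_dvd_mul_left (Dvd.intro_left _ e.symm)
  have h4 : b' ∣ b := h'.symm.dvd_of_dvd_mul_left (Dvd.intro_left _ e)
  exact ⟨Polynomial.natDegree_eq_of_degree_eq (Polynomial.degree_eq_degree_of_associated
      (associated_of_dvd_dvd h1 h2)),
    Polynomial.natDegree_eq_of_degree_eq (Polynomial.degree_eq_degree_of_associated
      (associated_of_dvd_dvd h3 h4))⟩

/-- The degree is unique. -/
lemma isXDeg_unique {X : PtK W (KE W k)} {d d' : ℕ} (h : IsXDeg W k X d) (h' : IsXDeg W k X d') :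
    d = d' := by
  rcases h with ⟨rfl, rfl⟩ | ⟨x, y, hxy, num, den, rfl, hc, hx, rfl⟩
  · rcases h' with ⟨-, rfl⟩ | ⟨x', y', hxy', num', den', e, -⟩
    · rfl
    · exact absurd e (by intro h0; cases h0)
  · rcases h' with ⟨e, -⟩ | ⟨x', y', hxy', num', den', e, hc', hx', rfl⟩
    · exact absurd e (by intro h0; cases h0)
    · obtain ⟨rfl, rfl⟩ : x = x' ∧ y = y' := by
        simpa only [Point.some.injEq] using e
      have hcross : num * den' = num' * den := by
        apply polyK_injective W k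
        rw [map_mul, map_mul, ← hx, ← hx']
        ring
      obtain ⟨e1, e2⟩ := natDegree_eq_of_cross k hc hc' hcross
      rw [e1, e2]

/-- The degree function `deg x(X)` (junk value `0` if `x(X) ∉ k(x)`). -/
noncomputable def xDeg (X : PtK W (KE W k)) : ℤ :=
  if h : ∃ d, IsXDeg W k X d then ((Classical.choose h : ℕ) : ℤ) else 0

lemma xDeg_eq_of_isXDeg {X : PtK W (KE W k)} {d : ℕ} (h : IsXDeg W k X d) :
    xDeg W k X = d := by
  have hex : ∃ d, IsXDeg W k X d := ⟨d, h⟩
  rw [xDeg, dif_pos hex]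
  exact_mod_cast isXDeg_unique W k (Classical.choose_spec hex) h

variable (ℓ : ℕ) [Fact ℓ.Prime] [CharP k ℓ]

lemma WkE_eq_map : WkE W k =
    ((W.reductionMod ℓ).toAffine).map (ZMod.castHom (dvd_refl ℓ) k) := by
  show W.map (Int.castRingHom k) =
    (W.map (Int.castRingHom (ZMod ℓ))).map (ZMod.castHom (dvd_refl ℓ) k)
  rw [WeierstrassCurve.map_map]
  congr 1
  exact Subsingleton.elim _ _

/-- **(G3)** the degree of `x(Φ P₀ - P₀)`: for ANY `n, num, den : (ZMod ℓ)[X]` with `n`
representing `coordN` of the curve over `𝔽_ℓ`, `num`, `den` coprime and `n * den = D² * num`,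
the `x`-coordinate of `Φ P₀ - P₀` has degree `max (deg num) (deg den)`. -/
theorem isXDeg_frobKPt_sub_generic (P₀ : PtK W (KE W k)) (hP₀ : IsGenericPt W k P₀)
    (n num den : (ZMod ℓ)[X])
    (hn : CoordinateRing.mk (W.reductionMod ℓ).toAffine (C n) =
      coordN (W.reductionMod ℓ).toAffine ℓ)
    (hcop : IsCoprime num den) (hnd : n * den = polyD (ZMod ℓ) ℓ ^ 2 * num) :
    IsXDeg W k (frobKPt W k ℓ P₀ - P₀) (max num.natDegree den.natDegree) := by
  have hℓ : 2 ≤ ℓ := (Fact.out : ℓ.Prime).two_le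
  obtain ⟨y₃, h₃, e₃⟩ := frobKPt_sub_generic W k ℓ P₀ hP₀
  set φ : ZMod ℓ →+* k := ZMod.castHom (dvd_refl ℓ) k with hφ
  refine Or.inr ⟨_, y₃, h₃, num.map φ, den.map φ, e₃, ?_, ?_, ?_⟩
  · exact hcop.map (mapRingHom φ)
  · have h1 := coordN_eq_map φ (W.reductionMod ℓ).toAffine ℓ n hn (WkE W k) (WkE_eq_map W k ℓ)
    have h2 : polyK W k (n.map φ) = chordX W k ℓ * chordD W k ℓ ^ 2 := by
      rw [chordX_mul_eq_ofCoord W k ℓ hℓ, ← h1]
      rfl
    have h3 : polyK W k (n.map φ) * polyK W k (den.map φ) =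
        chordD W k ℓ ^ 2 * polyK W k (num.map φ) := by
      rw [← polyK_polyD, ← polyD_map φ, ← map_pow, ← map_mul, ← map_mul, ← Polynomial.map_pow,
        ← Polynomial.map_mul, ← Polynomial.map_mul, hnd]
    have hD : chordD W k ℓ ^ 2 ≠ 0 := pow_ne_zero _ (chordD_ne_zero W k ℓ hℓ)
    apply mul_left_cancel₀ hD
    rw [← h3, h2]
    ring
  · rw [Polynomial.natDegree_map, Polynomial.natDegree_map]

/-- **[CNT]** in `xDeg` form: if moreover `deg num = #W(𝔽_ℓ)` and `deg den + 1 = #W(𝔽_ℓ)`, then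
`xDeg (Φ P₀ - P₀) = #W(𝔽_ℓ)` (the field `h_count` of `helper52.IsManin` for `h = xDeg`). -/
theorem xDeg_frobKPt_sub_generic (P₀ : PtK W (KE W k)) (hP₀ : IsGenericPt W k P₀)
    (n num den : (ZMod ℓ)[X])
    (hn : CoordinateRing.mk (W.reductionMod ℓ).toAffine (C n) =
      coordN (W.reductionMod ℓ).toAffine ℓ)
    (hcop : IsCoprime num den) (hnd : n * den = polyD (ZMod ℓ) ℓ ^ 2 * num)
    (hnum : num.natDegree = Nat.card (W.reductionMod ℓ).toAffine.Point)
    (hden : den.natDegree + 1 = Nat.card (W.reductionMod ℓ).toAffine.Point) :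
    xDeg W k (frobKPt W k ℓ P₀ - P₀) = Nat.card (W.reductionMod ℓ).toAffine.Point := by
  rw [xDeg_eq_of_isXDeg W k (isXDeg_frobKPt_sub_generic W k ℓ P₀ hP₀ n num den hn hcop hnd)]
  congr 1
  omega

end deg

end Fermat.Agent.P7.helper11
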