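import Mathlib
import Fermat.Agent.S51.Three

/-!
# P7 / S52, IRR3 criterion (helper15)

Elementary criterion for irreducibility of the mod `3` representation of an integral
Weierstrass curve `W`: if a prime `q` with `3` a non-square mod `q` divides `c₆` but not `c₄`,
then `W[3]` is irreducible.

Reason: `j ≡ 1728` mod `q`, and for such curves the `3`-division polynomial is a norm form from
`F_q(√3)`:  with `ξ = 12 x + b₂`,
`(ξ² - 3 c₄)² - 12 c₄² = 6912 ψ₃(x) + 8 c₆ ξ`.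
A rational root of `ψ₃` (which exists if `W[3]` is reducible, by `exists_three_data` of S51)
reduces mod `q` and makes `3 = ((ξ² - 3 c₄) / (2 c₄))²` a square mod `q`.
-/

set_option autoImplicit false

namespace Fermat.Agent.P7.helper15

open WeierstrassCurve

/-- The key polynomial identity (homogeneous form, `x = m / k`, `Ξ = 12 m + b₂ k`). -/
theorem psi3_norm_identity {R : Type*} [CommRing R] (W : WeierstrassCurve R) (m k : R) :
    ((12 * m + W.b₂ * k) ^ 2 - 3 * W.c₄ * k ^ 2) ^ 2 - 3 * (2 * W.c₄ * k ^ 2) ^ 2 =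
      6912 * (3 * m ^ 4 + W.b₂ * m ^ 3 * k + 3 * W.b₄ * m ^ 2 * k ^ 2 + 3 * W.b₆ * m * k ^ 3
        + W.b₈ * k ^ 4) + 8 * W.c₆ * (12 * m + W.b₂ * k) * k ^ 3 := by
  simp only [WeierstrassCurve.c₄, WeierstrassCurve.c₆, WeierstrassCurve.b₂, WeierstrassCurve.b₄,
    WeierstrassCurve.b₆, WeierstrassCurve.b₈]
  ring

/-- If `ψ₃` of an integral Weierstrass curve has a rational root, then `3` is a square modulo
every prime `q ∣ c₆`, `q ∤ c₄`, `q ≠ 2, 3`. Here in the form: a prime `q` dividing `c₆` and not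
`c₄`, for which `3` is not a square, gives a contradiction. -/
theorem isSquare_three_of_root (W : WeierstrassCurve ℤ) (q : ℕ) [hq : Fact q.Prime]
    (h6 : (q : ℤ) ∣ W.c₆) (h4 : ¬ (q : ℤ) ∣ W.c₄) (x : ℚ)
    (hx : 3 * x ^ 4 + (W.b₂ : ℚ) * x ^ 3 + 3 * (W.b₄ : ℚ) * x ^ 2 + 3 * (W.b₆ : ℚ) * x
      + (W.b₈ : ℚ) = 0) :
    IsSquare (3 : ZMod q) := by
  by_contra h3
  -- `q ≠ 2`, `q ≠ 3`
  have hq2 : ((2 : ℤ) : ZMod q) ≠ 0 := by
    intro h
    apply h3
    have h2 : (2 : ZMod q) = 0 := by exact_mod_cast h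
    refine ⟨1, ?_⟩
    have : (3 : ZMod q) = 2 + 1 := by norm_num
    rw [this, h2]; ring
  have hq3 : ((3 : ℤ) : ZMod q) ≠ 0 := by
    intro h
    apply h3
    have h3' : (3 : ZMod q) = 0 := by exact_mod_cast h
    exact ⟨0, by rw [h3']; ring⟩
  -- integer form of the root equation
  set m : ℤ := x.num with hm
  set k : ℤ := (x.den : ℤ) with hk
  have hk0 : (k : ℚ) ≠ 0 := by
    rw [hk]; exact_mod_cast x.den_ne_zero
  have hxmk : x = (m : ℚ) / (k : ℚ) := by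
    rw [hm, hk]
    exact_mod_cast (Rat.num_div_den x).symm
  have hint : 3 * m ^ 4 + W.b₂ * m ^ 3 * k + 3 * W.b₄ * m ^ 2 * k ^ 2 + 3 * W.b₆ * m * k ^ 3
      + W.b₈ * k ^ 4 = 0 := by
    have h1 : ((3 * m ^ 4 + W.b₂ * m ^ 3 * k + 3 * W.b₄ * m ^ 2 * k ^ 2 + 3 * W.b₆ * m * k ^ 3
        + W.b₈ * k ^ 4 : ℤ) : ℚ) = 0 := by
      push_cast
      rw [hxmk] at hx
      field_simp at hx
      linear_combination hx
    exact_mod_cast h1
  have hcop : IsCoprime m k := by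
    rw [hm, hk]
    have := x.reduced
    rw [Int.isCoprime_iff_gcd_eq_one]
    simpa [Int.gcd, Nat.Coprime] using this
  -- `q ∤ k`
  have hqk : ((k : ℤ) : ZMod q) ≠ 0 := by
    intro hk'
    have hdk : (q : ℤ) ∣ k := (ZMod.intCast_zmod_eq_zero_iff_dvd k q).mp hk'
    have hcast := congrArg (Int.cast : ℤ → ZMod q) hint
    push_cast at hcast
    have hk'' : ((k : ℤ) : ZMod q) = 0 := hk'
    rw [hk''] at hcast
    have h3m : (3 : ZMod q) * (m : ZMod q) ^ 4 = 0 := by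
      have : (3 : ZMod q) * (m : ZMod q) ^ 4 = 3 * (m : ZMod q) ^ 4
          + (W.b₂ : ZMod q) * (m : ZMod q) ^ 3 * 0
          + 3 * (W.b₄ : ZMod q) * (m : ZMod q) ^ 2 * 0 ^ 2
          + 3 * (W.b₆ : ZMod q) * (m : ZMod q) * 0 ^ 3 + (W.b₈ : ZMod q) * 0 ^ 4 := by ring
      rw [this]; exact hcast
    have h3ne : (3 : ZMod q) ≠ 0 := by exact_mod_cast hq3
    have hm0 : ((m : ℤ) : ZMod q) = 0 := by
      rcases mul_eq_zero.mp h3m with h | h
      · exact absurd h h3ne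
      · exact pow_eq_zero_iff (by norm_num) |>.mp h
    have hdm : (q : ℤ) ∣ m := (ZMod.intCast_zmod_eq_zero_iff_dvd m q).mp hm0
    have hunit : IsUnit (q : ℤ) := hcop.isUnit_of_dvd' hdm hdk
    have hq1 : (q : ℤ).natAbs = 1 := Int.isUnit_iff_natAbs_eq.mp hunit
    have : q = 1 := by simpa using hq1
    exact hq.out.one_lt.ne' this
  have hc4 : ((W.c₄ : ℤ) : ZMod q) ≠ 0 := by
    intro h
    exact h4 ((ZMod.intCast_zmod_eq_zero_iff_dvd _ q).mp h)
  have hc6 : ((W.c₆ : ℤ) : ZMod q) = 0 := (ZMod.intCast_zmod_eq_zero_iff_dvd _ q).mpr h6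
  -- the identity mod `q`
  have hid := psi3_norm_identity W m k
  rw [hint] at hid
  have hidq := congrArg (Int.cast : ℤ → ZMod q) hid
  push_cast at hidq
  rw [hc6] at hidq
  set Ξ : ZMod q := ((12 * (m : ZMod q) + (W.b₂ : ZMod q) * (k : ZMod q)) ^ 2
    - 3 * (W.c₄ : ZMod q) * (k : ZMod q) ^ 2) with hΞ
  set D : ZMod q := 2 * (W.c₄ : ZMod q) * (k : ZMod q) ^ 2 with hD
  have hD0 : D ≠ 0 := by
    rw [hD]
    have h2 : (2 : ZMod q) ≠ 0 := by exact_mod_cast hq2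
    exact mul_ne_zero (mul_ne_zero h2 hc4) (pow_ne_zero _ hqk)
  have hkey : Ξ ^ 2 = 3 * D ^ 2 := by
    have : Ξ ^ 2 - 3 * D ^ 2 = 0 := by
      rw [hidq]; ring
    linear_combination this
  apply h3
  refine ⟨Ξ / D, ?_⟩
  field_simp
  linear_combination -hkey

/-- **IRR3 criterion.** Let `W` be an integral Weierstrass curve with `Δ ≠ 0` and `q` a prime
such that `3` is not a square mod `q`, `q ∣ c₆(W)` and `q ∤ c₄(W)`. Then the mod `3`
representation of `W` is irreducible. -/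
theorem irr3_of_prime (W : WeierstrassCurve ℤ) (hΔ : W.Δ ≠ 0) (q : ℕ) [Fact q.Prime]
    (h3 : ¬ IsSquare (3 : ZMod q)) (h6 : (q : ℤ) ∣ W.c₆) (h4 : ¬ (q : ℤ) ∣ W.c₄) :
    W.ModRepIsIrreducible 3 := by
  by_contra h
  obtain ⟨x, hx⟩ := Fermat.Agent.S51.exists_three_data W hΔ h
  exact h3 (isSquare_three_of_root W q h6 h4 x hx)

end Fermat.Agent.P7.helper15
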