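import Mathlib

/-!
# Bezout certificates for Klein's icosahedral forms (helper80, P7 / S52, formula item (v))

Klein's forms (conventions of the P7 formula package):
`f = u v (u^10 + 11 u^5 v^5 - v^10)`,
`H = -(u^20 + v^20) + 228 (u^15 v^5 - u^5 v^15) - 494 u^10 v^10`,
`T = (u^30 + v^30) + 522 (u^25 v^5 - u^5 v^25) - 10005 (u^20 v^10 + u^10 v^20)`,
with `T^2 + H^3 = 1728 f^5`.

We record, over an arbitrary commutative ring, explicit identities
`A f + B H = 5^5 u^31`, `A' f + B' H = 5^5 v^31` (and the analogues for the pairs `(f, T)`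
and `(H, T)`), so that `f` and `H` have no common zero at a primitive vector over any field of
characteristic different from `5` (resp. `2, 3, 5` for `(H, T)`).
All statements are plain polynomial identities; the forms are also packaged as functions
`kF`, `kH`, `kT`.
-/

set_option autoImplicit false

namespace Fermat.Agent.P7.helper80

variable {R : Type*} [CommRing R]

/-- Klein's form `f` of degree 12. -/
def kF (u v : R) : R := u * v * (u ^ 10 + 11 * u ^ 5 * v ^ 5 - v ^ 10)

/-- Klein's form `H` of degree 20. -/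
def kH (u v : R) : R :=
  -(u ^ 20 + v ^ 20) + 228 * (u ^ 15 * v ^ 5 - u ^ 5 * v ^ 15) - 494 * u ^ 10 * v ^ 10

/-- Klein's form `T` of degree 30. -/
def kT (u v : R) : R :=
  (u ^ 30 + v ^ 30) + 522 * (u ^ 25 * v ^ 5 - u ^ 5 * v ^ 25)
    - 10005 * (u ^ 20 * v ^ 10 + u ^ 10 * v ^ 20)

/-- Klein's relation `T^2 + H^3 = 1728 f^5`. -/
theorem kT_sq_add_kH_cube (u v : R) : kT u v ^ 2 + kH u v ^ 3 = 1728 * kF u v ^ 5 := by
  simp only [kT, kH, kF]; ring

theorem kF_smul (c u v : R) : kF (c * u) (c * v) = c ^ 12 * kF u v := by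
  simp only [kF]; ring

theorem kH_smul (c u v : R) : kH (c * u) (c * v) = c ^ 20 * kH u v := by
  simp only [kH]; ring

theorem kT_smul (c u v : R) : kT (c * u) (c * v) = c ^ 30 * kT u v := by
  simp only [kT]; ring

/-- Bezout certificate for `(f, H)` with right-hand side `5^5 u^31`. -/
theorem bezout_kF_kH_left (u v : R) :
    (679478 * u ^ 15 * v ^ 4 - 1485989 * u ^ 10 * v ^ 9 - 684695 * u ^ 5 * v ^ 14
        - 3003 * v ^ 19) * kF u v
      + (-3125 * u ^ 11 - 33022 * u ^ 6 * v ^ 5 + 3003 * u * v ^ 10) * kH u v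
      = 3125 * u ^ 31 := by
  simp only [kH, kF]; ring

/-- Bezout certificate for `(f, H)` with right-hand side `5^5 v^31`. -/
theorem bezout_kF_kH_right (u v : R) :
    (3003 * u ^ 19 - 684695 * u ^ 14 * v ^ 5 + 1485989 * u ^ 9 * v ^ 10
        + 679478 * u ^ 4 * v ^ 15) * kF u v
      + (3003 * u ^ 10 * v + 33022 * u ^ 5 * v ^ 6 - 3125 * v ^ 11) * kH u v
      = 3125 * v ^ 31 := by
  simp only [kH, kF]; ring

/-- Bezout certificate for `(f, T)` with right-hand side `5^9 u^41`. -/
theorem bezout_kF_kT_left (u v : R) :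
    (-1041183386 * u ^ 25 * v ^ 4 + 19693586131 * u ^ 20 * v ^ 9 - 13582603 * u ^ 15 * v ^ 14
        + 19691649129 * u ^ 10 * v ^ 19 + 1027428908 * u ^ 5 * v ^ 24
        - 1968252 * v ^ 29) * kF u v
      + (1953125 * u ^ 11 + 21652136 * u ^ 6 * v ^ 5 - 1968252 * u * v ^ 10) * kT u v
      = 1953125 * u ^ 41 := by
  simp only [kT, kF]; ring

/-- Bezout certificate for `(f, T)` with right-hand side `5^9 v^41`. -/
theorem bezout_kF_kT_right (u v : R) :
    (1968252 * u ^ 29 + 1027428908 * u ^ 24 * v ^ 5 - 19691649129 * u ^ 19 * v ^ 10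
        - 13582603 * u ^ 14 * v ^ 15 - 19693586131 * u ^ 9 * v ^ 20
        - 1041183386 * u ^ 4 * v ^ 25) * kF u v
      + (-1968252 * u ^ 10 * v - 21652136 * u ^ 5 * v ^ 6 + 1953125 * v ^ 11) * kT u v
      = 1953125 * v ^ 41 := by
  simp only [kT, kF]; ring

/-- Bezout certificate for `(H, T)` with right-hand side `2^4 3^2 5^10 u^45`. -/
theorem bezout_kH_kT_left (u v : R) :
    (-950431323 * u ^ 25 + 20237705983 * u ^ 20 * v ^ 5 + 103588896 * u ^ 15 * v ^ 10
        + 20237108822 * u ^ 10 * v ^ 15 + 1055557719 * u ^ 5 * v ^ 20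
        - 2022161 * v ^ 25) * kH u v
      + (455818677 * u ^ 15 - 1001301767 * u ^ 10 * v ^ 5 - 461063031 * u ^ 5 * v ^ 10
        - 2022161 * v ^ 15) * kT u v
      = 1406250000 * u ^ 45 := by
  simp only [kT, kH]; ring

/-- Bezout certificate for `(H, T)` with right-hand side `2^4 3^2 5^10 v^45`. -/
theorem bezout_kH_kT_right (u v : R) :
    (2022161 * u ^ 25 + 1055557719 * u ^ 20 * v ^ 5 - 20237108822 * u ^ 15 * v ^ 10
        + 103588896 * u ^ 10 * v ^ 15 - 20237705983 * u ^ 5 * v ^ 20
        - 950431323 * v ^ 25) * kH u v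
      + (2022161 * u ^ 15 - 461063031 * u ^ 10 * v ^ 5 + 1001301767 * u ^ 5 * v ^ 10
        + 455818677 * v ^ 15) * kT u v
      = 1406250000 * v ^ 45 := by
  simp only [kT, kH]; ring

section Field

variable {K : Type*} [Field K]

/-- Over a field in which `5` is invertible, `f` and `H` have no common zero except `(0, 0)`. -/
theorem eq_zero_of_kF_kH (h5 : (5 : K) ≠ 0) {u v : K} (hf : kF u v = 0) (hH : kH u v = 0) :
    u = 0 ∧ v = 0 := by
  have h3125 : (3125 : K) ≠ 0 := by
    have : (3125 : K) = 5 ^ 5 := by norm_num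
    rw [this]; exact pow_ne_zero _ h5
  have hu := bezout_kF_kH_left u v
  have hv := bezout_kF_kH_right u v
  rw [hf, hH, mul_zero, mul_zero, add_zero] at hu hv
  constructor
  · have := (mul_eq_zero.mp hu.symm).resolve_left h3125
    exact pow_eq_zero_iff (by norm_num) |>.mp this
  · have := (mul_eq_zero.mp hv.symm).resolve_left h3125
    exact pow_eq_zero_iff (by norm_num) |>.mp this

/-- Over a field in which `5` is invertible, `f` and `T` have no common zero except `(0, 0)`. -/
theorem eq_zero_of_kF_kT (h5 : (5 : K) ≠ 0) {u v : K} (hf : kF u v = 0) (hT : kT u v = 0) :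
    u = 0 ∧ v = 0 := by
  have hc : (1953125 : K) ≠ 0 := by
    have : (1953125 : K) = 5 ^ 9 := by norm_num
    rw [this]; exact pow_ne_zero _ h5
  have hu := bezout_kF_kT_left u v
  have hv := bezout_kF_kT_right u v
  rw [hf, hT, mul_zero, mul_zero, add_zero] at hu hv
  constructor
  · have := (mul_eq_zero.mp hu.symm).resolve_left hc
    exact pow_eq_zero_iff (by norm_num) |>.mp this
  · have := (mul_eq_zero.mp hv.symm).resolve_left hc
    exact pow_eq_zero_iff (by norm_num) |>.mp this

/-- Over a field in which `2`, `3`, `5` are invertible, `H` and `T` have no common zero except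
`(0, 0)`. -/
theorem eq_zero_of_kH_kT (h2 : (2 : K) ≠ 0) (h3 : (3 : K) ≠ 0) (h5 : (5 : K) ≠ 0) {u v : K}
    (hH : kH u v = 0) (hT : kT u v = 0) : u = 0 ∧ v = 0 := by
  have hc : (1406250000 : K) ≠ 0 := by
    have : (1406250000 : K) = 2 ^ 4 * 3 ^ 2 * 5 ^ 10 := by norm_num
    rw [this]
    exact mul_ne_zero (mul_ne_zero (pow_ne_zero _ h2) (pow_ne_zero _ h3)) (pow_ne_zero _ h5)
  have hu := bezout_kH_kT_left u v
  have hv := bezout_kH_kT_right u v
  rw [hH, hT, mul_zero, mul_zero, add_zero] at hu hv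
  constructor
  · have := (mul_eq_zero.mp hu.symm).resolve_left hc
    exact pow_eq_zero_iff (by norm_num) |>.mp this
  · have := (mul_eq_zero.mp hv.symm).resolve_left hc
    exact pow_eq_zero_iff (by norm_num) |>.mp this

end Field

end Fermat.Agent.P7.helper80
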