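/-
P7 / S52, module FAM, leaf [FIBRE-EXIST] (helper18).

Over an algebraically closed field the map `(u, v) ↦ (kH u v, kT u v)` given by Klein's
icosahedral forms of degree 20 and 30 is surjective: every pair `(a, b)` is of the form
`(H(w), T(w))`.  This is the existence of the base vector `w₀` of the Klein cone over a given
elliptic curve (`c₄ ~ H(w₀)`, `c₆ ~ T(w₀)`), for any normalisation of the constants.
-/
import Fermat.Agent.P7.helper80_KleinBezout

set_option autoImplicit false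

namespace Fermat.Agent.P7.helper18

open Polynomial Fermat.Agent.P7.helper80

section Maps

variable {R S : Type*} [CommRing R] [CommRing S]

lemma map_kH (φ : R →+* S) (u v : R) : φ (kH u v) = kH (φ u) (φ v) := by
  simp only [kH, map_sub, map_add, map_neg, map_mul, map_pow, map_ofNat]

lemma map_kT (φ : R →+* S) (u v : R) : φ (kT u v) = kT (φ u) (φ v) := by
  simp only [kT, map_sub, map_add, map_mul, map_pow, map_ofNat]

end Maps

variable {K : Type*} [Field K]

/-- The polynomial `H(X, 1)`. -/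
noncomputable def hPoly (K : Type*) [Field K] : K[X] := kH (X : K[X]) 1

/-- The polynomial `T(X, 1)`. -/
noncomputable def tPoly (K : Type*) [Field K] : K[X] := kT (X : K[X]) 1

lemma eval_hPoly (x : K) : (hPoly K).eval x = kH x 1 := by
  have h := map_kH (Polynomial.evalRingHom x) (X : K[X]) 1
  simpa [hPoly] using h

lemma eval_tPoly (x : K) : (tPoly K).eval x = kT x 1 := by
  have h := map_kT (Polynomial.evalRingHom x) (X : K[X]) 1
  simpa [tPoly] using h

lemma natDegree_hPoly_le : (hPoly K).natDegree ≤ 20 := by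
  unfold hPoly kH
  compute_degree

lemma coeff_hPoly : (hPoly K).coeff 20 = -1 := by
  unfold hPoly kH
  simp [coeff_X_pow, coeff_one, coeff_ofNat_mul]

lemma natDegree_tPoly_le : (tPoly K).natDegree ≤ 30 := by
  unfold tPoly kT
  compute_degree

lemma coeff_tPoly : (tPoly K).coeff 30 = 1 := by
  unfold tPoly kT
  simp [coeff_X_pow, coeff_one, coeff_ofNat_mul]


/-- The polynomial `b² H(X,1)³ - a³ T(X,1)²`, whose roots are the points of the `λ`-line over
the `j`-invariant of `(a, b)`. -/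
noncomputable def fibPoly (a b : K) : K[X] :=
  C (b ^ 2) * hPoly K ^ 3 - C (a ^ 3) * tPoly K ^ 2

lemma eval_fibPoly (a b x : K) :
    (fibPoly a b).eval x = b ^ 2 * kH x 1 ^ 3 - a ^ 3 * kT x 1 ^ 2 := by
  simp only [fibPoly, eval_sub, eval_mul, eval_C, eval_pow, eval_hPoly, eval_tPoly]

lemma coeff_fibPoly (a b : K) : (fibPoly a b).coeff 60 = -(a ^ 3 + b ^ 2) := by
  have h1 : (hPoly K ^ 3).coeff (3 * 20) = (hPoly K).coeff 20 ^ 3 :=
    coeff_pow_of_natDegree_le natDegree_hPoly_le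
  have h2 : (tPoly K ^ 2).coeff (2 * 30) = (tPoly K).coeff 30 ^ 2 :=
    coeff_pow_of_natDegree_le natDegree_tPoly_le
  rw [coeff_hPoly] at h1
  rw [coeff_tPoly] at h2
  norm_num at h1 h2
  rw [fibPoly, coeff_sub, coeff_C_mul, coeff_C_mul, h1, h2]
  ring

lemma degree_fibPoly_ne_zero {a b : K} (hab : a ^ 3 + b ^ 2 ≠ 0) :
    (fibPoly a b).degree ≠ 0 := by
  have hc : (fibPoly a b).coeff 60 ≠ 0 := by
    rw [coeff_fibPoly]; exact neg_ne_zero.mpr hab
  have hle : 60 ≤ (fibPoly a b).natDegree := le_natDegree_of_ne_zero hc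
  have hpos : 0 < (fibPoly a b).natDegree := by omega
  exact (natDegree_pos_iff_degree_pos.mp hpos).ne'

/-- **[FIBRE-EXIST]** Over an algebraically closed field in which `2, 3, 5` are invertible,
every pair `(a, b)` is the value `(H(w), T(w))` of Klein's forms at some vector `w = (u, v)`. -/
theorem exists_kH_kT_eq [IsAlgClosed K] (h2 : (2 : K) ≠ 0) (h3 : (3 : K) ≠ 0)
    (h5 : (5 : K) ≠ 0) (a b : K) : ∃ u v : K, kH u v = a ∧ kT u v = b := by
  by_cases hab : a ^ 3 + b ^ 2 = 0
  · by_cases ha : a = 0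
    · have hb : b = 0 := by
        rw [ha] at hab
        have : b ^ 2 = 0 := by simpa using hab
        exact pow_eq_zero_iff (two_ne_zero) |>.mp this
      refine ⟨0, 0, ?_, ?_⟩
      · rw [ha]; simp [kH]
      · rw [hb]; simp [kT]
    · obtain ⟨κ, hκ⟩ := IsAlgClosed.exists_pow_nat_eq (-b / a) (n := 10) (by norm_num)
      have hb2 : b ^ 2 = -a ^ 3 := by linear_combination hab
      have h20 : κ ^ 20 = -a := by
        have : κ ^ 20 = (κ ^ 10) ^ 2 := by ring
        rw [this, hκ]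
        field_simp
        linear_combination hb2
      have h30 : κ ^ 30 = b := by
        have : κ ^ 30 = (κ ^ 10) ^ 3 := by ring
        rw [this, hκ]
        field_simp
        linear_combination (-b) * hb2
      refine ⟨κ, 0, ?_, ?_⟩
      · simp only [kH]
        linear_combination -h20
      · simp only [kT]
        linear_combination h30
  · obtain ⟨l, hl⟩ := IsAlgClosed.exists_root (fibPoly a b) (degree_fibPoly_ne_zero hab)
    rw [IsRoot.def, eval_fibPoly] at hl
    have hroot : b ^ 2 * kH l 1 ^ 3 = a ^ 3 * kT l 1 ^ 2 := by linear_combination hl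
    have hne : ¬(kH l 1 = 0 ∧ kT l 1 = 0) := by
      rintro ⟨hH, hT⟩
      exact one_ne_zero (eq_zero_of_kH_kT h2 h3 h5 hH hT).2
    by_cases hH : kH l 1 = 0
    · have hT : kT l 1 ≠ 0 := fun h => hne ⟨hH, h⟩
      have ha : a = 0 := by
        rw [hH] at hroot
        have h0 : a ^ 3 * kT l 1 ^ 2 = 0 := by rw [← hroot]; ring
        rcases mul_eq_zero.mp h0 with h | h
        · exact pow_eq_zero_iff (by norm_num) |>.mp h
        · exact absurd (pow_eq_zero_iff (by norm_num) |>.mp h) hT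
      obtain ⟨κ, hκ⟩ := IsAlgClosed.exists_pow_nat_eq (b / kT l 1) (n := 30) (by norm_num)
      refine ⟨κ * l, κ * 1, ?_, ?_⟩
      · rw [kH_smul, hH, ha, mul_zero]
      · rw [kT_smul, hκ]
        field_simp
    · by_cases hT : kT l 1 = 0
      · have hb : b = 0 := by
          rw [hT] at hroot
          have h0 : b ^ 2 * kH l 1 ^ 3 = 0 := by rw [hroot]; ring
          rcases mul_eq_zero.mp h0 with h | h
          · exact pow_eq_zero_iff (by norm_num) |>.mp h
          · exact absurd (pow_eq_zero_iff (by norm_num) |>.mp h) hH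
        obtain ⟨κ, hκ⟩ := IsAlgClosed.exists_pow_nat_eq (a / kH l 1) (n := 20) (by norm_num)
        refine ⟨κ * l, κ * 1, ?_, ?_⟩
        · rw [kH_smul, hκ]
          field_simp
        · rw [kT_smul, hT, hb, mul_zero]
      · have ha : a ≠ 0 := by
          intro ha
          apply hab
          rw [ha] at hroot ⊢
          have h0 : b ^ 2 * kH l 1 ^ 3 = 0 := by rw [hroot]; ring
          rcases mul_eq_zero.mp h0 with h | h
          · rw [h]; ring
          · exact absurd (pow_eq_zero_iff (by norm_num) |>.mp h) hH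
        obtain ⟨κ, hκ⟩ :=
          IsAlgClosed.exists_pow_nat_eq (b * kH l 1 / (a * kT l 1)) (n := 10) (by norm_num)
        have h20 : κ ^ 20 * kH l 1 = a := by
          have : κ ^ 20 = (κ ^ 10) ^ 2 := by ring
          rw [this, hκ]
          field_simp
          linear_combination hroot
        have h30 : κ ^ 30 * kT l 1 = b := by
          have : κ ^ 30 = (κ ^ 10) ^ 3 := by ring
          rw [this, hκ]
          field_simp
          linear_combination b * hroot
        refine ⟨κ * l, κ * 1, ?_, ?_⟩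
        · rw [kH_smul, h20]
        · rw [kT_smul, h30]

/-- On the fibre over a pair `(a, b)` with `a³ + b² ≠ 0` the form `f` does not vanish. -/
theorem kF_ne_zero_of_fibre {u v a b : K} (hH : kH u v = a) (hT : kT u v = b)
    (hab : a ^ 3 + b ^ 2 ≠ 0) : kF u v ≠ 0 := by
  intro hf
  apply hab
  have h := kT_sq_add_kH_cube u v
  rw [hH, hT, hf] at h
  linear_combination h

/-- A vector of the fibre over `(a, b)`, `a³ + b² ≠ 0`, is nonzero. -/
theorem ne_zero_of_fibre {u v a b : K} (hH : kH u v = a) (hT : kT u v = b)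
    (hab : a ^ 3 + b ^ 2 ≠ 0) : ¬(u = 0 ∧ v = 0) := by
  rintro ⟨rfl, rfl⟩
  exact kF_ne_zero_of_fibre hH hT hab (by simp [kF])


/-! ### The second vector `J ∇f` and the family `w₀ + t w₁` -/

section Family

variable {R : Type*} [CommRing R]

/-- `∂f/∂u` for Klein's form `f`. -/
def kFu (u v : R) : R := v * (11 * u ^ 10 + 66 * u ^ 5 * v ^ 5 - v ^ 10)

/-- `∂f/∂v` for Klein's form `f`. -/
def kFv (u v : R) : R := u * (u ^ 10 + 66 * u ^ 5 * v ^ 5 - 11 * v ^ 10)

/-- Euler's relation for `f` (degree 12). -/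
theorem euler_kF (u v : R) : u * kFu u v + v * kFv u v = 12 * kF u v := by
  simp only [kFu, kFv, kF]; ring

theorem kFu_smul (c u v : R) : kFu (c * u) (c * v) = c ^ 11 * kFu u v := by
  simp only [kFu]; ring

theorem kFv_smul (c u v : R) : kFv (c * u) (c * v) = c ^ 11 * kFv u v := by
  simp only [kFv]; ring

/-- The second vector of the family: `w₁ = J ∇f (w₀) = (-f_v, f_u)`. -/
def wOneU (u v : R) : R := -kFv u v

/-- Second coordinate of `w₁ = (-f_v, f_u)`. -/
def wOneV (u v : R) : R := kFu u v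

/-- `det(w₀, w₁) = 12 f(w₀)`. -/
theorem det_wOne (u v : R) : u * wOneV u v - v * wOneU u v = 12 * kF u v := by
  simp only [wOneU, wOneV, kFu, kFv, kF]; ring

theorem wOneU_smul (c u v : R) : wOneU (c * u) (c * v) = c ^ 11 * wOneU u v := by
  simp only [wOneU, kFv]; ring

theorem wOneV_smul (c u v : R) : wOneV (c * u) (c * v) = c ^ 11 * wOneV u v := by
  simp only [wOneV, kFu]; ring

/-- If `c ^ 10 = 1` then `w₁` scales like `w₀` under `w ↦ c w`. -/
theorem wOne_smul_of_pow_ten {c : R} (hc : c ^ 10 = 1) (u v : R) :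
    wOneU (c * u) (c * v) = c * wOneU u v ∧ wOneV (c * u) (c * v) = c * wOneV u v := by
  have h11 : c ^ 11 = c := by
    have : c ^ 11 = c ^ 10 * c := by ring
    rw [this, hc, one_mul]
  rw [wOneU_smul, wOneV_smul, h11]
  exact ⟨rfl, rfl⟩

/-! ### The special point `(s, 1)`, `s² = -1` (the member with `j = 1728`) -/

/-- `T` vanishes at the special points `κ (s, 1)`, `s² = -1`. -/
theorem kT_special {s : R} (hs : s ^ 2 = -1) (κ : R) : kT (κ * s) κ = 0 := by
  have h4 : s ^ 4 = 1 := by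
    have : s ^ 4 = (s ^ 2) ^ 2 := by ring
    rw [this, hs]; ring
  simp only [kT]
  have e30 : s ^ 30 = -1 := by
    have : s ^ 30 = (s ^ 4) ^ 7 * s ^ 2 := by ring
    rw [this, h4, hs]; ring
  have e25 : s ^ 25 = s := by
    have : s ^ 25 = (s ^ 4) ^ 6 * s := by ring
    rw [this, h4]; ring
  have e20 : s ^ 20 = 1 := by
    have : s ^ 20 = (s ^ 4) ^ 5 := by ring
    rw [this, h4]; ring
  have e10 : s ^ 10 = -1 := by
    have : s ^ 10 = (s ^ 4) ^ 2 * s ^ 2 := by ring
    rw [this, h4, hs]; ring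
  have e5 : s ^ 5 = s := by
    have : s ^ 5 = s ^ 4 * s := by ring
    rw [this, h4]; ring
  linear_combination κ ^ 30 * e30 + 522 * κ ^ 30 * e25 - 522 * κ ^ 30 * e5
    - 10005 * κ ^ 30 * e20 - 10005 * κ ^ 30 * e10

/-- The value of `H` at the special points: `H(κ s, κ) = κ²⁰ (492 - 456 s)`. -/
theorem kH_special {s : R} (hs : s ^ 2 = -1) (κ : R) :
    kH (κ * s) κ = κ ^ 20 * (492 - 456 * s) := by
  have h4 : s ^ 4 = 1 := by
    have : s ^ 4 = (s ^ 2) ^ 2 := by ring
    rw [this, hs]; ring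
  simp only [kH]
  have e20 : s ^ 20 = 1 := by
    have : s ^ 20 = (s ^ 4) ^ 5 := by ring
    rw [this, h4]; ring
  have e15 : s ^ 15 = -s := by
    have : s ^ 15 = (s ^ 4) ^ 3 * s ^ 2 * s := by ring
    rw [this, h4, hs]; ring
  have e10 : s ^ 10 = -1 := by
    have : s ^ 10 = (s ^ 4) ^ 2 * s ^ 2 := by ring
    rw [this, h4, hs]; ring
  have e5 : s ^ 5 = s := by
    have : s ^ 5 = s ^ 4 * s := by ring
    rw [this, h4]; ring
  linear_combination -κ ^ 20 * e20 + 228 * κ ^ 20 * e15 - 228 * κ ^ 20 * e5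
    - 494 * κ ^ 20 * e10

/-- `(492 - 456 s)(492 + 456 s) = 2⁴ 3² 5⁵`. -/
theorem special_norm {s : R} (hs : s ^ 2 = -1) :
    (492 - 456 * s) * (492 + 456 * s) = 2 ^ 4 * 3 ^ 2 * 5 ^ 5 := by
  linear_combination -207936 * hs

end Family

section Special

/-- `H` does not vanish at the special points (when `2, 3, 5` are invertible). -/
theorem kH_special_ne_zero (h2 : (2 : K) ≠ 0) (h3 : (3 : K) ≠ 0) (h5 : (5 : K) ≠ 0)
    {s κ : K} (hs : s ^ 2 = -1) (hκ : κ ≠ 0) : kH (κ * s) κ ≠ 0 := by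
  rw [kH_special hs]
  refine mul_ne_zero (pow_ne_zero _ hκ) ?_
  intro h0
  have h := special_norm hs
  rw [h0, zero_mul] at h
  exact mul_ne_zero (mul_ne_zero (pow_ne_zero _ h2) (pow_ne_zero _ h3)) (pow_ne_zero _ h5) h.symm

/-- **[SPEC]** Hitting the special point.  If `w₀ = (u₀, v₀)` and `w₁ = (u₁, v₁)` are linearly
independent and `i² = -1`, then some member `w₀ + t w₁` of the pencil is `κ (s, 1)` with
`s = ± i` and `κ ≠ 0`; moreover `t` is given by the explicit formula
`t = -(u₀ - s v₀) / (u₁ - s v₁)` (so it is fixed by every field automorphism which fixes `i`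
and multiplies `w₀, w₁` by a common scalar). -/
theorem exists_special (h2 : (2 : K) ≠ 0) {i : K} (hi : i ^ 2 = -1) {u₀ v₀ u₁ v₁ : K}
    (hdet : u₀ * v₁ - v₀ * u₁ ≠ 0) :
    ∃ s t κ : K, (s = i ∨ s = -i) ∧ u₁ - s * v₁ ≠ 0 ∧ t = -(u₀ - s * v₀) / (u₁ - s * v₁) ∧
      κ ≠ 0 ∧ u₀ + t * u₁ = κ * s ∧ v₀ + t * v₁ = κ := by
  have key : ∀ s : K, u₁ - s * v₁ ≠ 0 →
      ∃ t κ : K, t = -(u₀ - s * v₀) / (u₁ - s * v₁) ∧ κ ≠ 0 ∧
        u₀ + t * u₁ = κ * s ∧ v₀ + t * v₁ = κ := by
    intro s hB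
    refine ⟨-(u₀ - s * v₀) / (u₁ - s * v₁), v₀ + -(u₀ - s * v₀) / (u₁ - s * v₁) * v₁,
      rfl, ?_, ?_, rfl⟩
    · intro h0
      apply hdet
      have h0' : v₀ * (u₁ - s * v₁) - (u₀ - s * v₀) * v₁ = 0 := by
        have := congrArg (fun z => z * (u₁ - s * v₁)) h0
        simp only [zero_mul] at this
        rw [← this]
        field_simp
        ring
      linear_combination -h0'
    · field_simp
      ring
  by_cases hB : u₁ - i * v₁ = 0
  · have hB' : u₁ - (-i) * v₁ ≠ 0 := by
      intro h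
      apply hdet
      have hu : u₁ = 0 := by
        have : 2 * u₁ = 0 := by linear_combination hB + h
        exact (mul_eq_zero.mp this).resolve_left h2
      have hv : i * v₁ = 0 := by linear_combination -hB + hu
      have hi0 : i ≠ 0 := by
        rintro rfl
        have h01 : (0 : K) = -1 := by
          have h00 : (0 : K) ^ 2 = 0 := by ring
          rw [← h00]; exact hi
        have h10 : (1 : K) = 0 := by linear_combination h01
        exact one_ne_zero h10
      have hv' : v₁ = 0 := (mul_eq_zero.mp hv).resolve_left hi0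
      rw [hu, hv']; ring
    obtain ⟨t, κ, ht, hκ, h1, h2'⟩ := key (-i) hB'
    exact ⟨-i, t, κ, Or.inr rfl, hB', ht, hκ, h1, h2'⟩
  · obtain ⟨t, κ, ht, hκ, h1, h2'⟩ := key i hB
    exact ⟨i, t, κ, Or.inl rfl, hB, ht, hκ, h1, h2'⟩

/-- At the parameter of `exists_special` the member of the family has `T = 0`, `H ≠ 0`. -/
theorem kT_eq_zero_kH_ne_zero_of_special (h2 : (2 : K) ≠ 0) (h3 : (3 : K) ≠ 0)
    (h5 : (5 : K) ≠ 0) {i : K} (hi : i ^ 2 = -1) {u₀ v₀ u₁ v₁ : K}
    (hdet : u₀ * v₁ - v₀ * u₁ ≠ 0) :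
    ∃ t : K, kT (u₀ + t * u₁) (v₀ + t * v₁) = 0 ∧ kH (u₀ + t * u₁) (v₀ + t * v₁) ≠ 0 ∧
      ((u₁ - i * v₁ ≠ 0 ∧ t = -(u₀ - i * v₀) / (u₁ - i * v₁)) ∨
        (u₁ + i * v₁ ≠ 0 ∧ t = -(u₀ + i * v₀) / (u₁ + i * v₁))) := by
  obtain ⟨s, t, κ, hs, hB, ht, hκ, h1, h2'⟩ := exists_special h2 hi hdet
  have hs2 : s ^ 2 = -1 := by
    rcases hs with rfl | rfl
    · exact hi
    · rw [neg_sq]; exact hi
  refine ⟨t, ?_, ?_, ?_⟩
  · rw [h1, h2']; exact kT_special hs2 κ
  · rw [h1, h2']; exact kH_special_ne_zero h2 h3 h5 hs2 hκ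
  · rcases hs with rfl | rfl
    · exact Or.inl ⟨hB, ht⟩
    · refine Or.inr ⟨by simpa [sub_neg_eq_add] using hB, ?_⟩
      rw [ht]; simp [sub_neg_eq_add]

end Special

end Fermat.Agent.P7.helper18
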