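import Fermat.Agent.P7.helper19_RedAdd
import Fermat.Agent.P6.helper65_NRed
import Fermat.Agent.S54.helper91_Frobenius
import Fermat.Agent.P6.helper38_NWL

/-!
# P7 [RED-ADD-l] + [CONG] (helper19)

* `RedAddStatement` / `redAdd` : the reduction map of P6 [N-RED] (helper65, vocabulary of
  helper78 `NDefs`) is ADDITIVE: an injective group homomorphism
  `Tors W p →+ PtK W (ResidueField A)`, onto the `p`-torsion, compatible with Frobenius.
* `CEAt W ℓ k` : the characteristic equation of Frobenius on the points of `W` over `k`, in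
  relational form (vocabulary `IsFrobImage` of helper78).
* `cong_of_CE` : **the `a_ℓ`-congruence**: a Galois-equivariant isomorphism `E[p] ≃ E'[p]` and the
  characteristic equation on both reductions at one place over `ℓ` give
  `p ∣ a_ℓ(W') - a_ℓ(W)`.
-/

set_option autoImplicit false
set_option linter.style.haveILetI false

open WeierstrassCurve WeierstrassCurve.Affine
open scoped WeierstrassCurve.Affine
open Fermat.Agent.P6.helper78

namespace Fermat.Agent.P7.helper19

/-- **[N-RED], additive form**: at a place `A` of `ℚ̄` over a good prime `ℓ ≠ p` the reduction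
of `p`-torsion is an injective group homomorphism onto the `p`-torsion of the reduced curve,
compatible with Frobenius. -/
def RedAddStatement : Prop :=
  ∀ (W : WeierstrassCurve ℤ) (p ℓ : ℕ), p.Prime → p ≠ 2 → ℓ.Prime → ℓ ≠ p →
    W.IsGoodPrimeFor ℓ →
    ∀ (A : ValuationSubring NQbar), A.LiesOverPrime ℓ →
    ∀ [DecidableEq (IsLocalRing.ResidueField A)],
      ∃ red : Tors W p →+ PtK W (IsLocalRing.ResidueField A),
        Function.Injective red ∧
        (∀ Q : PtK W (IsLocalRing.ResidueField A), p • Q = 0 → ∃ P, red P = Q) ∧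
        (∀ σ : NGQ, A.IsFrobeniusAt σ ℓ →
          ∀ P, IsFrobImage W (IsLocalRing.ResidueField A) ℓ (red P) (red (σ • P)))

/-- The characteristic equation of the `ℓ`-power Frobenius on the points of `W` over `k`,
relational form: if `Q₁ = φ Q` and `Q₂ = φ Q₁` then `Q₂ - a_ℓ Q₁ + ℓ Q = 0`. -/
def CEAt (W : WeierstrassCurve ℤ) (ℓ : ℕ) (k : Type) [Field k] [DecidableEq k] : Prop :=
  ∀ Q Q₁ Q₂ : PtK W k, IsFrobImage W k ℓ Q Q₁ → IsFrobImage W k ℓ Q₁ Q₂ →
    Q₂ - W.apOfModel ℓ • Q₁ + (ℓ : ℤ) • Q = 0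

/-- The points of `Tors W p` are killed by `p`. -/
theorem tors_nsmul (W : WeierstrassCurve ℤ) (p : ℕ) (P : Tors W p) :
    p • (P : ((W.map (Int.castRingHom ℚ))⁄(AlgebraicClosure ℚ)).Point) = 0 :=
  Fermat.Agent.P6.helper65.nred_tors_nsmul W p P

theorem redAdd : RedAddStatement := by
  intro W p ℓ hp hp2 hℓ hℓp hW A hA _
  have hE := Fermat.Agent.P6.helper65.nred_curve_eq W
  have hgood := Fermat.Agent.P6.helper65.nred_good A W hℓ hA hW
  have hn : ((p : ℕ) : NQbar) ∉ A.nonunits :=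
    Fermat.Agent.P6.helper65.nred_natCast_not_mem_nonunits A hℓ hp hℓp hA
  have hn1 : A.valuation ((p : ℕ) : NQbar) = 1 := valuation_natCast_eq_one A hn
  have hWL : ((W.map (Int.castRingHom ℚ))⁄(AlgebraicClosure ℚ) : Affine (AlgebraicClosure ℚ)) =
      (W.map (Int.castRingHom A)).map A.subtype :=
    hE.trans (Fermat.Agent.P6.helper65.nred_map_subtype A W).symm
  have hWk : (W.map (Int.castRingHom (IsLocalRing.ResidueField A)) :
      Affine (IsLocalRing.ResidueField A)) =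
      (W.map (Int.castRingHom A)).map (IsLocalRing.residue A) :=
    (Fermat.Agent.P6.helper65.nred_map_residue A W).symm
  have hΔ : IsLocalRing.residue A (W.map (Int.castRingHom A)).Δ ≠ 0 := by
    rw [← WeierstrassCurve.map_Δ, ← hWk]; exact hgood
  have hr := residue_eq_zero_iff_mem A
  set ρ : ((W.map (Int.castRingHom ℚ))⁄(AlgebraicClosure ℚ)).Point →+
      PtK W (IsLocalRing.ResidueField A) :=
    redHomOf A (IsLocalRing.residue A) (W.map (Int.castRingHom A)) hr hΔ hWL hWk with hρ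
  have hinj : Function.Injective
      (ρ.comp (Submodule.torsionBy ℤ _ (p : ℤ)).subtype.toAddMonoidHom) := by
    intro P Q h
    apply Subtype.ext
    exact redHomOf_injOn_torsion A (IsLocalRing.residue A) (W.map (Int.castRingHom A)) hr hΔ
      hWL hWk hn1 (tors_nsmul W p P) (tors_nsmul W p Q) h
  refine ⟨ρ.comp (Submodule.torsionBy ℤ _ (p : ℤ)).subtype.toAddMonoidHom, hinj, ?_, ?_⟩
  · -- onto the torsion, by counting
    intro Q hQ
    obtain ⟨m, hm⟩ : ∃ m, p = 2 * m + 1 := hp.eq_two_or_odd'.resolve_left hp2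
    subst hm
    have hΔW : W.Δ ≠ 0 := by
      intro h0
      apply hW
      rw [h0]
      exact dvd_zero _
    have hΔQ : (W.map (Int.castRingHom ℚ)).Δ ≠ 0 := by
      rw [WeierstrassCurve.map_Δ, eq_intCast]
      exact_mod_cast hΔW
    have hcardT : Nat.card (Tors W (2 * m + 1)) = (2 * m + 1) ^ 2 :=
      Fermat.Agent.P6.helper78.card_torsionBy_Qbar (W.map (Int.castRingHom ℚ)) hΔQ
        hp.one_le
    have hpk : ((2 * m + 1 : ℕ) : IsLocalRing.ResidueField A) ≠ 0 :=
      Fermat.Agent.P6.helper65.nred_natCast_residueField_ne_zero A hℓ hp hℓp hA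
    obtain ⟨hfin, hcard⟩ := Fermat.Agent.S13.helper64.finite_torsion_and_card_le
      (W.map (Int.castRingHom (IsLocalRing.ResidueField A))) hgood m hpk
    have htors : ∀ P : Tors W (2 * m + 1), (2 * m + 1) • ρ P.1 = 0 := by
      intro P
      rw [← map_nsmul, tors_nsmul W _ P, map_zero]
    let f : Tors W (2 * m + 1) →
        {Q : (W.map (Int.castRingHom (IsLocalRing.ResidueField A))).toAffine.Point |
          (2 * m + 1) • Q = 0} :=
      fun P => ⟨ρ P.1, htors P⟩
    have hf : Function.Injective f := by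
      intro P P' h
      exact hinj (congrArg Subtype.val h)
    have hbij := hf.bijective_of_nat_card_le (hcard.trans (le_of_eq hcardT.symm))
    obtain ⟨P, hP⟩ := hbij.2 ⟨Q, hQ⟩
    exact ⟨P, congrArg Subtype.val hP⟩
  · -- Frobenius
    intro σ hσ P
    obtain ⟨Q, hQ⟩ := P
    cases Q with
    | zero =>
      have e0 : (σ • (0 : ((W.map (Int.castRingHom ℚ))⁄(AlgebraicClosure ℚ)).Point)) = 0 := rfl
      show IsFrobImage W _ ℓ (ρ 0)
        (ρ (σ • (0 : ((W.map (Int.castRingHom ℚ))⁄(AlgebraicClosure ℚ)).Point)))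
      rw [e0, map_zero]
      show (0 : PtK W (IsLocalRing.ResidueField A)) = 0
      rfl
    | some x y hxy =>
      have hQ0 := tors_nsmul W _ ⟨Point.some x y hxy, hQ⟩
      have hσQ0 := tors_nsmul W _ (σ • (⟨Point.some x y hxy, hQ⟩ : Tors W p))
      obtain ⟨hx, hy, h', e⟩ := redHomOf_torsion A (IsLocalRing.residue A)
        (W.map (Int.castRingHom A)) hr hΔ hWL hWk hn1 hxy hQ0
      have hσ' : ((σ • (⟨Point.some x y hxy, hQ⟩ : Tors W p) : Tors W p) :
          ((W.map (Int.castRingHom ℚ))⁄(AlgebraicClosure ℚ)).Point) =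
          Point.some (σ x) (σ y)
            ((baseChange_nonsingular _ σ.toAlgHom.injective x y).mpr hxy) := rfl
      rw [hσ'] at hσQ0
      obtain ⟨hx', hy', h'', e'⟩ := redHomOf_torsion A (IsLocalRing.residue A)
        (W.map (Int.castRingHom A)) hr hΔ hWL hWk hn1 _ hσQ0
      show IsFrobImage W _ ℓ (ρ (Point.some x y hxy))
        (ρ ((σ • (⟨Point.some x y hxy, hQ⟩ : Tors W p) : Tors W p) :
          ((W.map (Int.castRingHom ℚ))⁄(AlgebraicClosure ℚ)).Point))
      rw [hσ', hρ, e, e']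
      exact ⟨Fermat.Agent.P6.helper65.nred_residue_frob A hσ hx hx',
        Fermat.Agent.P6.helper65.nred_residue_frob A hσ hy hy'⟩

/-- **[CONG]** the `a_ℓ`-congruence from a Galois-equivariant isomorphism of `p`-torsion and the
characteristic equation of Frobenius on both reductions. -/
theorem cong_of_CE (W W' : WeierstrassCurve ℤ) {p ℓ : ℕ} (hp : p.Prime) (hp2 : p ≠ 2)
    (hℓ : ℓ.Prime) (hℓp : ℓ ≠ p) (hW : W.IsGoodPrimeFor ℓ) (hW' : W'.IsGoodPrimeFor ℓ)
    (ψ : Tors W p ≃+ Tors W' p) (hψ : ∀ (σ : NGQ) (P : Tors W p), ψ (σ • P) = σ • ψ P)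
    (A : ValuationSubring NQbar) (hA : A.LiesOverPrime ℓ)
    [DecidableEq (IsLocalRing.ResidueField A)]
    (hCE : CEAt W ℓ (IsLocalRing.ResidueField A))
    (hCE' : CEAt W' ℓ (IsLocalRing.ResidueField A)) :
    (p : ℤ) ∣ W'.apOfModel ℓ - W.apOfModel ℓ := by
  obtain ⟨σ, hσ⟩ := Fermat.Agent.S54.helper91.exists_isFrobeniusAt_of_liesOver A hℓ hA
  obtain ⟨red, hinj, -, hfrob⟩ := redAdd W p ℓ hp hp2 hℓ hℓp hW A hA
  obtain ⟨red', hinj', -, hfrob'⟩ := redAdd W' p ℓ hp hp2 hℓ hℓp hW' A hA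
  -- the characteristic equation on `E[p]` and on `E'[p]`
  have hup : ∀ P : Tors W p, σ • σ • P - W.apOfModel ℓ • (σ • P) + (ℓ : ℤ) • P = 0 := by
    intro P
    apply hinj
    rw [map_zero, map_add, map_sub, map_zsmul, map_zsmul]
    exact hCE (red P) (red (σ • P)) (red (σ • σ • P)) (hfrob σ hσ P) (hfrob σ hσ (σ • P))
  have hup' : ∀ P : Tors W' p, σ • σ • P - W'.apOfModel ℓ • (σ • P) + (ℓ : ℤ) • P = 0 := by
    intro P
    apply hinj'
    rw [map_zero, map_add, map_sub, map_zsmul, map_zsmul]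
    exact hCE' (red' P) (red' (σ • P)) (red' (σ • σ • P)) (hfrob' σ hσ P)
      (hfrob' σ hσ (σ • P))
  -- transport along `ψ` and subtract
  have hdiff : ∀ P : Tors W p, (W'.apOfModel ℓ - W.apOfModel ℓ) • (σ • P) = 0 := by
    intro P
    have h1 := hup P
    have h2 := hup' (ψ P)
    rw [← hψ, ← hψ, ← map_zsmul, ← map_zsmul, ← map_sub, ← map_add] at h2
    have h3 : σ • σ • P - W'.apOfModel ℓ • (σ • P) + (ℓ : ℤ) • P = 0 :=
      ψ.injective (h2.trans (map_zero ψ).symm)
    have e : (W'.apOfModel ℓ - W.apOfModel ℓ) • (σ • P) =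
        (σ • σ • P - W.apOfModel ℓ • (σ • P) + (ℓ : ℤ) • P) -
          (σ • σ • P - W'.apOfModel ℓ • (σ • P) + (ℓ : ℤ) • P) := by
      rw [sub_smul]; abel
    rw [e, h1, h3, sub_zero]
  have hall : ∀ P₀ : Tors W p, (W'.apOfModel ℓ - W.apOfModel ℓ) • P₀ = 0 := by
    intro P₀
    have := hdiff (σ⁻¹ • P₀)
    rwa [smul_inv_smul] at this
  -- a nonzero point of `E[p]`
  have hΔW : W.Δ ≠ 0 := by
    intro h0
    apply hW
    rw [h0]
    exact dvd_zero _
  have hΔQ : (W.map (Int.castRingHom ℚ)).Δ ≠ 0 := by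
    rw [WeierstrassCurve.map_Δ, eq_intCast]
    exact_mod_cast hΔW
  have hcardT : Nat.card (Tors W p) = p ^ 2 :=
    Fermat.Agent.P6.helper78.card_torsionBy_Qbar (W.map (Int.castRingHom ℚ)) hΔQ hp.one_le
  have hlt : 1 < Nat.card (Tors W p) := by
    rw [hcardT]
    have := hp.two_le
    nlinarith
  have hfin : Finite (Tors W p) := Nat.finite_of_card_ne_zero (by omega)
  have hnt : Nontrivial (Tors W p) := Finite.one_lt_card_iff_nontrivial.mp hlt
  obtain ⟨P₀, hP₀⟩ := exists_ne (0 : Tors W p)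
  by_contra hnd
  have hpZ : Prime (p : ℤ) := Nat.prime_iff_prime_int.mp hp
  have hcop : IsCoprime (p : ℤ) (W'.apOfModel ℓ - W.apOfModel ℓ) :=
    (Prime.coprime_iff_not_dvd hpZ).mpr hnd
  obtain ⟨u, v, huv⟩ := hcop
  apply hP₀
  have hpP : (p : ℤ) • P₀ = 0 := Submodule.smul_torsionBy _ P₀
  calc P₀ = (1 : ℤ) • P₀ := (one_smul _ _).symm
    _ = (u * (p : ℤ) + v * (W'.apOfModel ℓ - W.apOfModel ℓ)) • P₀ := by rw [huv]
    _ = u • ((p : ℤ) • P₀) + v • ((W'.apOfModel ℓ - W.apOfModel ℓ) • P₀) := by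
        rw [add_smul, mul_smul, mul_smul]
    _ = 0 := by rw [hpP, hall P₀, smul_zero, smul_zero, add_zero]

/-- **CE**, the deliverable of the CE module: the characteristic equation of Frobenius on the
points of `W` over every algebraically closed field of characteristic `ℓ`, `ℓ` a good prime. -/
def CEStatement : Prop :=
  ∀ (W : WeierstrassCurve ℤ) (ℓ : ℕ), ℓ.Prime → W.IsGoodPrimeFor ℓ →
    ∀ (k : Type) [Field k] [DecidableEq k] [CharP k ℓ] [IsAlgClosed k], CEAt W ℓ k

/-- **[CONG], final form** (the last clause of S52): `CEStatement` and a Galois-equivariant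
isomorphism `E[p] ≃ E'[p]` (`p` odd) give `p ∣ a_ℓ(W') - a_ℓ(W)` at all common good primes
`ℓ ≠ p`. -/
theorem cong_of_CEStatement (hCE : CEStatement) (W W' : WeierstrassCurve ℤ) {p : ℕ}
    (hp : p.Prime) (hp2 : p ≠ 2) (ψ : Tors W p ≃+ Tors W' p)
    (hψ : ∀ (σ : NGQ) (P : Tors W p), ψ (σ • P) = σ • ψ P) :
    ∀ ℓ : ℕ, ℓ.Prime → W.IsGoodPrimeFor ℓ → W'.IsGoodPrimeFor ℓ → ℓ ≠ p →
      (p : ℤ) ∣ W'.apOfModel ℓ - W.apOfModel ℓ := by
  intro ℓ hℓ hW hW' hℓp
  classical
  obtain ⟨A, hA⟩ := Fermat.Agent.S54.helper91.exists_valuationSubring_liesOver hℓ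
  haveI : CharP (IsLocalRing.ResidueField A) ℓ := Fermat.Agent.P6.helper65.nred_charP A hℓ hA
  haveI : IsAlgClosed (IsLocalRing.ResidueField A) :=
    Fermat.Agent.P6.helper38.isAlgClosed_resField A
  exact cong_of_CE W W' hp hp2 hℓ hℓp hW hW' ψ hψ A hA
    (hCE W ℓ hℓ hW (IsLocalRing.ResidueField A))
    (hCE W' ℓ hℓ hW' (IsLocalRing.ResidueField A))

end Fermat.Agent.P7.helper19
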