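import Fermat.Agent.P6.helper78_NFrob

/-!
# P7 / S52, module CE (characteristic equation of Frobenius): interface (helper52, CE architect)

Consumer shapes and the internal cut of the module CE of P7 (the 3-5 switch).

* `CEStatement`      [CE-FIN]  `φ² - a_ℓ φ + ℓ = 0` on `W(k)`, `k` algebraically closed of
  characteristic `ℓ`, `ℓ` good for the integral model `W`, `a_ℓ = W.apOfModel ℓ`.
* `RedAddStatement`  [RED-INST] an ADDITIVE injective Frobenius-compatible reduction
  `E[p] → W(k_A)` in the vocabulary of P6 (N) (`helper78_NDefs`).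
* `CongStatement`    [CONG]   a Galois-equivariant additive bijection `E[p] ≃ E'[p]` forces
  `p ∣ a_ℓ(W') - a_ℓ(W)` at all common good primes `ℓ ≠ p`.
* `IsManin`, `ManinStatement`  [CE-MANIN] the height package over the function field
  (Manin form: heights are degrees in `k(x)`); `SubstStatement` [CE-SUBST] substitution
  endomorphisms of the function field attached to non-constant points.

All points are points of the integral model `W : WeierstrassCurve ℤ` over a field `F`
(`PtK W F`), so every ring homomorphism of fields induces an additive map on points by Mathlib's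
`Point.map` (no semilinearity issue for Frobenius).
-/

set_option autoImplicit false

open WeierstrassCurve WeierstrassCurve.Affine
open scoped WeierstrassCurve.Affine Classical

namespace Fermat.Agent.P7.helper52

open Fermat.Agent.P6.helper78

/-! ## Consumer shapes -/

/-- **[CE-FIN]** characteristic equation of Frobenius, all characteristics (incl. `ℓ = 2, 3`). -/
def CEStatement : Prop :=
  ∀ (W : WeierstrassCurve ℤ) (ℓ : ℕ) [Fact ℓ.Prime], W.IsGoodPrimeFor ℓ →
    ∀ (k : Type) [Field k] [DecidableEq k] [CharP k ℓ] [IsAlgClosed k],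
      ∀ Q : PtK W k,
        frobPt W k ℓ (frobPt W k ℓ Q) - W.apOfModel ℓ • frobPt W k ℓ Q + (ℓ : ℤ) • Q = 0

/-- **[RED-INST]** additive reduction of `p`-torsion at a place `A` over a good prime `ℓ ≠ p`. -/
def RedAddStatement : Prop :=
  ∀ (W : WeierstrassCurve ℤ) (p ℓ : ℕ), p.Prime → ℓ.Prime → ℓ ≠ p → W.IsGoodPrimeFor ℓ →
    ∀ (A : ValuationSubring NQbar), A.LiesOverPrime ℓ →
    ∀ [DecidableEq (IsLocalRing.ResidueField A)],
      ∃ red : Tors W p →+ PtK W (IsLocalRing.ResidueField A),
        Function.Injective red ∧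
        ∀ σ : NGQ, A.IsFrobeniusAt σ ℓ →
          ∀ P, IsFrobImage W (IsLocalRing.ResidueField A) ℓ (red P) (red (σ • P))

/-- **[CONG]** the `a_ℓ`-congruence from a Galois-equivariant isomorphism of `p`-torsion. -/
def CongStatement : Prop :=
  ∀ (W W' : WeierstrassCurve ℤ) (p : ℕ), p.Prime → W.Δ ≠ 0 →
    ∀ ψ : Tors W p →+ Tors W' p, Function.Injective ψ →
      (∀ (σ : NGQ) (P : Tors W p), ψ (σ • P) = σ • ψ P) →
      ∀ ℓ : ℕ, ℓ.Prime → W.IsGoodPrimeFor ℓ → W'.IsGoodPrimeFor ℓ → ℓ ≠ p →
        (p : ℤ) ∣ W'.apOfModel ℓ - W.apOfModel ℓ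

/-! ## The function field and its points -/

/-- The curve over `k`. -/
abbrev WkE (W : WeierstrassCurve ℤ) (k : Type) [Field k] : Affine k :=
  (W.map (Int.castRingHom k)).toAffine

/-- The function field `k(E)` of the curve over `k` (a type synonym of Mathlib's
`FunctionField`, carrying ONLY the `Field` and `Algebra k` instances, so that its `ℤ`-algebra
structure is the canonical one and `PtK W (KE W k)` is Mathlib's `(W⁄KE W k).Point`). -/
def KE (W : WeierstrassCurve ℤ) (k : Type) [Field k] : Type :=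
  (WkE W k).FunctionField

noncomputable instance instFieldKE (W : WeierstrassCurve ℤ) (k : Type) [Field k] :
    Field (KE W k) :=
  inferInstanceAs (Field (WkE W k).FunctionField)

noncomputable instance instAlgebraKE (W : WeierstrassCurve ℤ) (k : Type) [Field k] :
    Algebra k (KE W k) :=
  inferInstanceAs (Algebra k (WkE W k).FunctionField)

/-- The canonical map from the coordinate ring to `k(E)`. -/
noncomputable def ofCoord (W : WeierstrassCurve ℤ) (k : Type) [Field k] :
    (WkE W k).CoordinateRing →+* KE W k :=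
  algebraMap (WkE W k).CoordinateRing (WkE W k).FunctionField

/-- The coordinate function `x ∈ k(E)`. -/
noncomputable def xK (W : WeierstrassCurve ℤ) (k : Type) [Field k] : KE W k :=
  ofCoord W k (CoordinateRing.mk (WkE W k) (Polynomial.C Polynomial.X))

/-- The coordinate function `y ∈ k(E)`. -/
noncomputable def yK (W : WeierstrassCurve ℤ) (k : Type) [Field k] : KE W k :=
  ofCoord W k (CoordinateRing.mk (WkE W k) Polynomial.X)

/-- The inclusion of constants `k → k(E)` as a `ℤ`-algebra homomorphism. -/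
noncomputable def constHom (W : WeierstrassCurve ℤ) (k : Type) [Field k] : k →ₐ[ℤ] KE W k :=
  (algebraMap k (KE W k)).toIntAlgHom

/-- Constant points `W(k) → W(k(E))`. -/
noncomputable def constPt (W : WeierstrassCurve ℤ) (k : Type) [Field k] :
    PtK W k →+ PtK W (KE W k) :=
  Point.map (W' := W) (constHom W k)

/-- `P` is the generic point `(x, y)`. -/
def IsGenericPt (W : WeierstrassCurve ℤ) (k : Type) [Field k] (P : PtK W (KE W k)) : Prop :=
  ∃ h, P = Point.some (xK W k) (yK W k) h

/-- The Frobenius of `k(E)` as a `ℤ`-algebra endomorphism (no `CharP` instance needed). -/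
noncomputable def frobK (W : WeierstrassCurve ℤ) (k : Type) [Field k] (ℓ : ℕ) [Fact ℓ.Prime]
    [CharP k ℓ] : KE W k →ₐ[ℤ] KE W k :=
  haveI : CharP (KE W k) ℓ :=
    charP_of_injective_algebraMap (algebraMap k (KE W k)).injective ℓ
  (frobenius (KE W k) ℓ).toIntAlgHom

/-- The Frobenius endomorphism of `W(k(E))`. -/
noncomputable def frobKPt (W : WeierstrassCurve ℤ) (k : Type) [Field k] (ℓ : ℕ) [Fact ℓ.Prime]
    [CharP k ℓ] : PtK W (KE W k) →+ PtK W (KE W k) :=
  Point.map (W' := W) (frobK W k ℓ)

/-! ## The internal cut of [CE-FIN] -/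

/-- **[CE-MANIN]** the height package: a subgroup `G` of `W(k(E))` containing the generic point
`P₀`, stable under Frobenius `Φ`, with a function `h : G → ℤ` satisfying the parallelogram law,
`h(Φ X) = ℓ h(X)`, `h(P₀) = 1`, Manin's count `h(Φ P₀ - P₀) = #W(𝔽_ℓ)`, the multiplicativity
`h((Φ - 1)(Φ + 1) P₀) = h((Φ - 1) P₀) h((Φ + 1) P₀)` and `h(X) = 0 → X` constant.
(Intended: `G = {X | ι X = -X}` for the involution `ι` of `k(E)/k(x)`, `h X = deg x(X)` as a
rational function of `x`, `deg = max (deg num) (deg den)`.) -/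
structure IsManin (W : WeierstrassCurve ℤ) (ℓ : ℕ) [Fact ℓ.Prime] (k : Type) [Field k]
    [CharP k ℓ] (G : AddSubgroup (PtK W (KE W k))) (P₀ : PtK W (KE W k))
    (h : PtK W (KE W k) → ℤ) : Prop where
  isGeneric : IsGenericPt W k P₀
  mem_P₀ : P₀ ∈ G
  mem_frob : ∀ X ∈ G, frobKPt W k ℓ X ∈ G
  par : ∀ X ∈ G, ∀ Y ∈ G, h (X + Y) + h (X - Y) = 2 * h X + 2 * h Y
  h_frob : ∀ X ∈ G, h (frobKPt W k ℓ X) = ℓ * h X
  h_P₀ : h P₀ = 1
  h_count : h (frobKPt W k ℓ P₀ - P₀) = Nat.card (W.reductionMod ℓ).toAffine.Point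
  h_mul : h (frobKPt W k ℓ (frobKPt W k ℓ P₀) - P₀) =
    h (frobKPt W k ℓ P₀ - P₀) * h (frobKPt W k ℓ P₀ + P₀)
  const_of_h_eq_zero : ∀ X ∈ G, h X = 0 → ∃ Q : PtK W k, X = constPt W k Q

/-- **[CE-MANIN]** as a statement: the data `(G, P₀, h)` exist (`G` = subgroup of
anti-invariant points, `P₀` = generic point, `h` = height, junk outside `G`). -/
def ManinStatement : Prop :=
  ∀ (W : WeierstrassCurve ℤ) (ℓ : ℕ) [Fact ℓ.Prime], W.IsGoodPrimeFor ℓ →
    ∀ (k : Type) [Field k] [CharP k ℓ] [IsAlgClosed k],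
      ∃ (G : AddSubgroup (PtK W (KE W k))) (P₀ : PtK W (KE W k)) (h : PtK W (KE W k) → ℤ),
        IsManin W ℓ k G P₀ h

/-- **[CE-SUBST]** substitution: for every point `X` of `W(k(E))` that is not constant there is
a ring endomorphism of `k(E)`, identity on constants, mapping the generic point to `X`. -/
def SubstStatement : Prop :=
  ∀ (W : WeierstrassCurve ℤ) (k : Type) [Field k], (WkE W k).Δ ≠ 0 →
    ∀ (P₀ X : PtK W (KE W k)), IsGenericPt W k P₀ →
      (¬ ∃ Q : PtK W k, X = constPt W k Q) →
      ∃ s : KE W k →ₐ[ℤ] KE W k,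
        (∀ c : k, s (algebraMap k (KE W k) c) = algebraMap k (KE W k) c) ∧
        Point.map (W' := W) s P₀ = X

end Fermat.Agent.P7.helper52
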