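import Fermat.Agent.P7.helper65_Cong
import Fermat.Agent.P7.helper52_CEDefs
import Fermat.Agent.P6.helper38_NWL

/-!
# P7 [CONG] in the shape of the CE interface (helper19)

`congStatement_of_ce : helper52.CEStatement → helper52.CongStatement` : the characteristic
equation of Frobenius (over algebraically closed fields of characteristic `ℓ`) gives the
`a_ℓ`-congruence attached to a Galois-equivariant additive injection `E[p] → E'[p]`.
Wiring only: `helper65.cong_of_ce_forall` + `helper38.isAlgClosed_resField`.
-/

set_option autoImplicit false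
set_option linter.style.haveILetI false

open WeierstrassCurve WeierstrassCurve.Affine
open scoped WeierstrassCurve.Affine
open Fermat.Agent.P6.helper78

namespace Fermat.Agent.P7.helper19

/-- **[CONG]** in the interface shape, from **[CE-FIN]**. -/
theorem congStatement_of_ce (hCE : Fermat.Agent.P7.helper52.CEStatement) :
    Fermat.Agent.P7.helper52.CongStatement := by
  intro W W' p hp _ ψ hψ hψσ ℓ hℓ hW hW' hℓp
  refine Fermat.Agent.P7.helper65.cong_of_ce_forall hp hℓ hℓp hW hW' ?_ ψ hψ hψσ
  intro A hA _ _ _
  haveI : IsAlgClosed (IsLocalRing.ResidueField A) :=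
    Fermat.Agent.P6.helper38.isAlgClosed_resField A
  exact ⟨fun Q _ => hCE W ℓ hW (IsLocalRing.ResidueField A) Q,
    fun Q _ => hCE W' ℓ hW' (IsLocalRing.ResidueField A) Q⟩

end Fermat.Agent.P7.helper19
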