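import Mathlib
import Fermat.Prelude.Def_FLTPrelim_ModularRep
import Fermat.Prelude.Def_EllipticCurve_FrobeniusTrace
import Fermat.Prelude.Def_FLTPrelim_Ramification

/-!
# P7 / S52, interface between FAM (Klein family) and CHOICE / CONG (helper47, co-architect)

Frozen shapes.  Everything is phrased for integral models `W : WeierstrassCurve ℤ`; `E[5]` is
`CTors W 5` (prelude shape of `WeierstrassCurve.ModRepIsIrreducible`), with the prelude Galois
action.

Conventions (helper66, finding 1933): Klein forms `f, H, T` with `T ^ 2 + H ^ 3 = 1728 f ^ 5`;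
the curve of a point `v = (a, b)` of the cone has `c₄ = -H(v)`, `c₆ = -T(v)`, `Δ = -f(v) ^ 5`.
The family through `v₀ = (a, b)` is `v_t = v₀ + t w₀`, `w₀ = J grad f (v₀) = (f_b, -f_a)(v₀)`.

* `IsFamBase W a b`   what FAM (b) exports about a base point `(a, b)` of `W`
* `FamStatement`      [FAM]    every `W` with `Δ ≠ 0` has a base point
* `ContStatement`     [CONT]   integrality + continuity of `(c₄(t), c₆(t))` near `t = 0`
* `CopStatement`      [COP]    `c₄(t), c₆(t)` have no common prime factor outside `30 Δ(W)`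
* `SpecStatement`     [SPEC]   the member with `c₆ = 0` modulo an auxiliary prime
* `AuxStatement`      [AUX]    the auxiliary prime (weak Chebotarev + inertia at `3`)
* `Unip3Statement`    [LOC3]   inertia at `3` acts unipotently on `E[5]` (semistable `W`)
* `CongStatement`     [CONG]   `a_ℓ`-congruence from a Galois isomorphism `E[5] = E'[5]`
-/

set_option autoImplicit false

open WeierstrassCurve WeierstrassCurve.Affine
open scoped WeierstrassCurve.Affine

namespace Fermat.Agent.P7.helper47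

/-- `ℚ̄`. -/
abbrev CQb : Type := AlgebraicClosure ℚ

/-- `Gal(ℚ̄/ℚ)`. -/
abbrev CGQ : Type := AlgebraicClosure ℚ ≃ₐ[ℚ] AlgebraicClosure ℚ

/-- `E[p]` for the rational curve of the integral model `W` (prelude shape). -/
abbrev CTors (W : WeierstrassCurve ℤ) (p : ℕ) : Type :=
  Submodule.torsionBy ℤ ((W.map (Int.castRingHom ℚ))⁄(AlgebraicClosure ℚ)).Point p

section Forms

variable {R : Type*} [CommRing R]

/-- Klein's form `f` of degree 12 (the cusps). -/
def kleinF (a b : R) : R := a * b * (a ^ 10 + 11 * a ^ 5 * b ^ 5 - b ^ 10)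

/-- Klein's form `H` of degree 20. -/
def kleinH (a b : R) : R :=
  -(a ^ 20 + b ^ 20) + 228 * (a ^ 15 * b ^ 5 - a ^ 5 * b ^ 15) - 494 * a ^ 10 * b ^ 10

/-- Klein's form `T` of degree 30. -/
def kleinT (a b : R) : R :=
  (a ^ 30 + b ^ 30) + 522 * (a ^ 25 * b ^ 5 - a ^ 5 * b ^ 25)
    - 10005 * (a ^ 20 * b ^ 10 + a ^ 10 * b ^ 20)

theorem klein_relation (a b : R) :
    kleinT a b ^ 2 + kleinH a b ^ 3 = 1728 * kleinF a b ^ 5 := by
  unfold kleinT kleinH kleinF
  ring

/-- first coordinate of `w = J grad f (v)`, i.e. `∂f/∂b`. -/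
def kleinWa (a b : R) : R := a ^ 11 + 66 * a ^ 6 * b ^ 5 - 11 * a * b ^ 10

/-- second coordinate of `w = J grad f (v)`, i.e. `-∂f/∂a`. -/
def kleinWb (a b : R) : R := -(11 * a ^ 10 * b + 66 * a ^ 5 * b ^ 6 - b ^ 11)

/-- Euler: `det (v, w) = -12 f(v)`. -/
theorem klein_det (a b : R) :
    a * kleinWb a b - b * kleinWa a b = -12 * kleinF a b := by
  unfold kleinWa kleinWb kleinF
  ring

/-- first coordinate of the point `v_t = v + t w` of the family -/
def famA (a b t : R) : R := a + t * kleinWa a b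

/-- second coordinate of the point `v_t = v + t w` of the family -/
def famB (a b t : R) : R := b + t * kleinWb a b

@[simp] theorem famA_zero (a b : R) : famA a b 0 = a := by simp [famA]

@[simp] theorem famB_zero (a b : R) : famB a b 0 = b := by simp [famB]

/-- `c₄` of the member `t` of the family -/
def famC4 (a b t : R) : R := -kleinH (famA a b t) (famB a b t)

/-- `c₆` of the member `t` of the family -/
def famC6 (a b t : R) : R := -kleinT (famA a b t) (famB a b t)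

theorem kleinT_one_I (i : R) (hi : i ^ 2 = -1) : kleinT 1 i = 0 := by
  unfold kleinT
  have h4 : i ^ 4 = 1 := by linear_combination (i ^ 2 - 1) * hi
  have e5 : i ^ 5 = i := by linear_combination i * h4
  have e10 : i ^ 10 = -1 := by linear_combination (i ^ 8 - i ^ 6 + i ^ 4 - i ^ 2 + 1) * hi
  have e20 : i ^ 20 = 1 := by linear_combination (i ^ 10 - 1) * e10
  have e25 : i ^ 25 = i := by linear_combination i ^ 5 * e20 + e5
  have e30 : i ^ 30 = -1 := by linear_combination i ^ 10 * e20 + e10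
  simp only [one_pow, one_mul]
  rw [e5, e10, e20, e25, e30]
  ring

end Forms

/-- **What FAM (b) exports** about a base point `v₀ = (a, b)` of the cone attached to `W`. -/
structure IsFamBase (W : WeierstrassCurve ℤ) (a b : CQb) : Prop where
  /-- the base point lies over `W` -/
  hH : kleinH a b = -((W.c₄ : ℤ) : CQb)
  hT : kleinT a b = -((W.c₆ : ℤ) : CQb)
  /-- the members of the family have rational invariants -/
  rat : ∀ t : ℚ, ∃ C₄ C₆ : ℚ,
    algebraMap ℚ CQb C₄ = famC4 a b (algebraMap ℚ CQb t) ∧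
    algebraMap ℚ CQb C₆ = famC6 a b (algebraMap ℚ CQb t)
  /-- every integral model of a member of the family is `5`-congruent to `W` -/
  iso : ∀ (t : ℚ) (W' : WeierstrassCurve ℤ), W'.Δ ≠ 0 →
    ((W'.c₄ : ℤ) : CQb) = famC4 a b (algebraMap ℚ CQb t) →
    ((W'.c₆ : ℤ) : CQb) = famC6 a b (algebraMap ℚ CQb t) →
    ∃ e : CTors W 5 ≃+ CTors W' 5, ∀ (σ : CGQ) (x : CTors W 5), e (σ • x) = σ • e x
  /-- an automorphism acting trivially on `E[5]` moves the base point by a scalar -/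
  scal : ∀ σ : CGQ, (∀ x : CTors W 5, σ • x = x) →
    ∃ ε : CQb, ε ^ 10 = 1 ∧ σ a = ε * a ∧ σ b = ε * b

/-- **[FAM]** (helper73, helper66): every integral model with `Δ ≠ 0` has a base point. -/
def FamStatement : Prop :=
  ∀ W : WeierstrassCurve ℤ, W.Δ ≠ 0 → ∃ a b : CQb, IsFamBase W a b

/-- **[CONT]** integrality and continuity near `t = 0`: for every modulus `m ≠ 0` there is
`N ≠ 0` such that for all integers `t ∈ N ℤ` the invariants of the member `t` are integers
congruent to those of `W` modulo `m`. -/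
def ContStatement : Prop :=
  ∀ (W : WeierstrassCurve ℤ) (a b : CQb), IsFamBase W a b →
    ∀ m : ℤ, m ≠ 0 → ∃ N : ℤ, N ≠ 0 ∧ ∀ t : ℤ, N ∣ t →
      ∃ C₄ C₆ : ℤ, ((C₄ : ℤ) : CQb) = famC4 a b ((t : ℤ) : CQb) ∧
        ((C₆ : ℤ) : CQb) = famC6 a b ((t : ℤ) : CQb) ∧
        m ∣ C₄ - W.c₄ ∧ m ∣ C₆ - W.c₆

/-- **[COP]** outside `30 Δ(W)` the invariants of an integral member have no common prime
factor (resultant of the fixed forms `f, H`; uses only `hH`, `hT`). -/
def CopStatement : Prop :=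
  ∀ (W : WeierstrassCurve ℤ) (a b : CQb), W.Δ ≠ 0 →
    kleinH a b = -((W.c₄ : ℤ) : CQb) → kleinT a b = -((W.c₆ : ℤ) : CQb) →
    ∀ ℓ : ℕ, ℓ.Prime → ¬ (ℓ : ℤ) ∣ 30 * W.Δ →
    ∀ t C₄ C₆ : ℤ, ((C₄ : ℤ) : CQb) = famC4 a b ((t : ℤ) : CQb) →
      ((C₆ : ℤ) : CQb) = famC6 a b ((t : ℤ) : CQb) →
      (ℓ : ℤ) ∣ C₄ → ¬ (ℓ : ℤ) ∣ C₆

/-- **[SPEC]** the member with `j = 1728` modulo an auxiliary prime `r` (prime to `30 Δ(W)`)
at which a Frobenius element acts trivially on `E[5]` and fixes `√-1`: there is a residue class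
`t₁` mod `r` such that every integral member `t ≡ t₁` has `r ∣ c₆(t)`, `r ∤ c₄(t)`. -/
def SpecStatement : Prop :=
  ∀ (W : WeierstrassCurve ℤ) (a b : CQb), W.Δ ≠ 0 → IsFamBase W a b →
    ∀ r : ℕ, r.Prime → ¬ (r : ℤ) ∣ 30 * W.Δ →
    ∀ (A : ValuationSubring CQb), A.LiesOverPrime r →
    ∀ φ : CGQ, A.IsFrobeniusAt φ r →
      (∀ x : CTors W 5, φ • x = x) → (∀ y : CQb, y ^ 2 = -1 → φ y = y) →
      ∃ t₁ : ℤ, ∀ t C₄ C₆ : ℤ, (r : ℤ) ∣ t - t₁ →
        ((C₄ : ℤ) : CQb) = famC4 a b ((t : ℤ) : CQb) →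
        ((C₆ : ℤ) : CQb) = famC6 a b ((t : ℤ) : CQb) →
        (r : ℤ) ∣ C₆ ∧ ¬ (r : ℤ) ∣ C₄

/-- **[AUX]** the auxiliary prime: outside any finite set there is a prime `r` with a
Frobenius element acting trivially on `E[5]`, fixing `√-1`, and with `3` a non-residue. -/
def AuxStatement : Prop :=
  ∀ W : WeierstrassCurve ℤ, W.Δ ≠ 0 → W.IsSemistableModel →
    ∀ S : Finset ℕ, ∃ (r : ℕ) (A : ValuationSubring CQb) (φ : CGQ),
      r.Prime ∧ r ∉ S ∧ A.LiesOverPrime r ∧ A.IsFrobeniusAt φ r ∧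
      (∀ x : CTors W 5, φ • x = x) ∧ (∀ y : CQb, y ^ 2 = -1 → φ y = y) ∧
      ¬ IsSquare (3 : ZMod r)

/-- **[LOC3]** inertia at `3` acts unipotently on `E[5]` for a semistable model. -/
def Unip3Statement : Prop :=
  ∀ W : WeierstrassCurve ℤ, W.Δ ≠ 0 → W.IsSemistableModel →
    ∀ A : ValuationSubring CQb, A.LiesOverPrime 3 →
    ∀ τ ∈ A.inertiaSubgroupIn ℚ, ∀ x : CTors W 5, τ • (τ • x) - (2 : ℤ) • (τ • x) + x = 0

/-- **[CONG]** the `a_ℓ`-congruence from a Galois-equivariant isomorphism `E[5] = E'[5]`. -/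
def CongStatement : Prop :=
  ∀ W W' : WeierstrassCurve ℤ, W.Δ ≠ 0 → W'.Δ ≠ 0 →
    (∃ e : CTors W 5 ≃+ CTors W' 5, ∀ (σ : CGQ) (x : CTors W 5), e (σ • x) = σ • e x) →
    ∀ ℓ : ℕ, ℓ.Prime → W.IsGoodPrimeFor ℓ → W'.IsGoodPrimeFor ℓ → ℓ ≠ 5 →
      (5 : ℤ) ∣ (W'.apOfModel ℓ - W.apOfModel ℓ)

end Fermat.Agent.P7.helper47
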