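import Fermat.Agent.P6.helper78_VC
import Fermat.Agent.P7.helper47_ChoiceDefs

/-!
# P7 [FAM-VC] (helper19): transport of `E[p]` to the short Weierstrass model

* `shortModel c₄ c₆` : the short model `y² = x³ - 27 c₄ x - 54 c₆` over any commutative ring,
  with its invariants (`c₄' = 6⁴ c₄`, `c₆' = 6⁶ c₆`, `Δ' = 2⁶ 3⁹ (c₄³ - c₆²) = 6¹² Δ`);
  `shortQ` is the same curve over `ℚ` (shape asked for by the FAM architect).
* `shortVC`, `shortVC_smul` : the explicit change of variables (`u = 1/6`, `r = -b₂/12`,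
  `s = -a₁/2`, `t = -(a₃ + r a₁)/2`) from a Weierstrass curve over a field with `6 ≠ 0` to its
  short model.
* `shortTors W p` : the Galois-equivariant isomorphism `E[p] ≃ E_short[p]` for an integral
  model `W`; `famVC` : its existence form (the leaf [FAM-VC] of the FAM blueprint);
  `exists_equiv_of_short` : a Galois-equivariant isomorphism of the `p`-torsion of the short
  models of `W`, `W'` gives one of `E[p]`, `E'[p]` (the field `iso` of `helper47.IsFamBase`).
-/

set_option autoImplicit false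

open WeierstrassCurve WeierstrassCurve.Affine
open scoped WeierstrassCurve.Affine

namespace Fermat.Agent.P7.helper19

/-- The short Weierstrass model `y² = x³ - 27 c₄ x - 54 c₆` with invariants `(c₄, c₆)` (up to
the factors `6⁴`, `6⁶`). -/
def shortModel {R : Type*} [CommRing R] (c₄ c₆ : R) : WeierstrassCurve R :=
  ⟨0, 0, 0, -27 * c₄, -54 * c₆⟩

section basic

variable {R : Type*} [CommRing R] (c₄ c₆ : R)

@[simp] lemma shortModel_a₁ : (shortModel c₄ c₆).a₁ = 0 := rfl
@[simp] lemma shortModel_a₂ : (shortModel c₄ c₆).a₂ = 0 := rfl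
@[simp] lemma shortModel_a₃ : (shortModel c₄ c₆).a₃ = 0 := rfl
@[simp] lemma shortModel_a₄ : (shortModel c₄ c₆).a₄ = -27 * c₄ := rfl
@[simp] lemma shortModel_a₆ : (shortModel c₄ c₆).a₆ = -54 * c₆ := rfl

lemma shortModel_c₄ : (shortModel c₄ c₆).c₄ = 6 ^ 4 * c₄ := by
  simp only [WeierstrassCurve.c₄, WeierstrassCurve.b₂, WeierstrassCurve.b₄, shortModel_a₁,
    shortModel_a₂, shortModel_a₃, shortModel_a₄]
  ring

lemma shortModel_c₆ : (shortModel c₄ c₆).c₆ = 6 ^ 6 * c₆ := by
  simp only [WeierstrassCurve.c₆, WeierstrassCurve.b₂, WeierstrassCurve.b₄,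
    WeierstrassCurve.b₆, shortModel_a₁, shortModel_a₂, shortModel_a₃, shortModel_a₄,
    shortModel_a₆]
  ring

lemma shortModel_Δ : (shortModel c₄ c₆).Δ = 2 ^ 6 * 3 ^ 9 * (c₄ ^ 3 - c₆ ^ 2) := by
  simp only [WeierstrassCurve.Δ, WeierstrassCurve.b₂, WeierstrassCurve.b₄,
    WeierstrassCurve.b₆, WeierstrassCurve.b₈, shortModel_a₁, shortModel_a₂, shortModel_a₃,
    shortModel_a₄, shortModel_a₆]
  ring

lemma shortModel_map {S : Type*} [CommRing S] (f : R →+* S) :
    (shortModel c₄ c₆).map f = shortModel (f c₄) (f c₆) := by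
  ext <;> simp [shortModel, WeierstrassCurve.map, map_ofNat]

/-- The short model of a Weierstrass curve has discriminant `6¹² Δ`. -/
lemma shortModel_Δ_of (W : WeierstrassCurve R) :
    (shortModel W.c₄ W.c₆).Δ = 6 ^ 12 * W.Δ := by
  rw [shortModel_Δ]
  have h := W.c_relation
  linear_combination (-(2 ^ 6 * 3 ^ 9 : R)) * h

lemma shortModel_equation {x y : R} :
    (shortModel c₄ c₆).toAffine.Equation x y ↔ y ^ 2 = x ^ 3 - 27 * c₄ * x - 54 * c₆ := by
  rw [Affine.equation_iff]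
  simp only [shortModel_a₁, shortModel_a₂, shortModel_a₃, shortModel_a₄, shortModel_a₆]
  constructor <;> intro h <;> linear_combination h

end basic

section vc

variable {K : Type*} [Field K]

/-- The change of variables from a Weierstrass curve to its short model (`6` invertible). -/
def shortVC (h6 : (6 : K) ≠ 0) (E : WeierstrassCurve K) : VariableChange K where
  u := Units.mk0 (6 : K)⁻¹ (inv_ne_zero h6)
  r := -E.b₂ / 12
  s := -E.a₁ / 2
  t := -(E.a₃ + (-E.b₂ / 12) * E.a₁) / 2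

lemma shortVC_smul (h6 : (6 : K) ≠ 0) (E : WeierstrassCurve K) :
    shortVC h6 E • E = shortModel E.c₄ E.c₆ := by
  have h2 : (2 : K) ≠ 0 := fun h => h6 (by rw [show (6 : K) = 2 * 3 by norm_num, h, zero_mul])
  have h3 : (3 : K) ≠ 0 := fun h => h6 (by rw [show (6 : K) = 2 * 3 by norm_num, h, mul_zero])
  have h12 : (12 : K) ≠ 0 := by
    rw [show (12 : K) = 2 * 2 * 3 by norm_num]
    exact mul_ne_zero (mul_ne_zero h2 h2) h3
  have hu : ((shortVC h6 E).u⁻¹ : Kˣ) = Units.mk0 (6 : K) h6 := by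
    ext
    simp [shortVC]
  ext
  · rw [variableChange_a₁, hu]
    simp only [shortVC, Units.val_mk0, shortModel_a₁]
    field_simp
    ring
  · rw [variableChange_a₂, hu]
    simp only [shortVC, Units.val_mk0, shortModel_a₂, WeierstrassCurve.b₂]
    field_simp
    ring
  · rw [variableChange_a₃, hu]
    simp only [shortVC, Units.val_mk0, shortModel_a₃, WeierstrassCurve.b₂]
    field_simp
    ring
  · rw [variableChange_a₄, hu]
    simp only [shortVC, Units.val_mk0, shortModel_a₄, WeierstrassCurve.b₂, WeierstrassCurve.c₄,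
      WeierstrassCurve.b₄]
    field_simp
    ring
  · rw [variableChange_a₆, hu]
    simp only [shortVC, Units.val_mk0, shortModel_a₆, WeierstrassCurve.b₂, WeierstrassCurve.c₆,
      WeierstrassCurve.b₄, WeierstrassCurve.b₆]
    field_simp
    ring

end vc

section transport

open Fermat.Agent.P6.helper78 Fermat.Agent.P7.helper47

/-- The short model `y² = x³ - 27 c₄ x - 54 c₆` over `ℚ`. -/
def shortQ (c₄ c₆ : ℚ) : WeierstrassCurve ℚ := ⟨0, 0, 0, -27 * c₄, -54 * c₆⟩

lemma shortQ_eq_shortModel (c₄ c₆ : ℚ) : shortQ c₄ c₆ = shortModel c₄ c₆ := rfl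

/-- Over `ℚ̄` the short model is the curve `y² = x³ - 27 c₄ x - 54 c₆`. -/
lemma shortQ_baseChange (c₄ c₆ : ℚ) :
    ((shortQ c₄ c₆)⁄(AlgebraicClosure ℚ) : WeierstrassCurve (AlgebraicClosure ℚ)) =
      shortModel (algebraMap ℚ (AlgebraicClosure ℚ) c₄) (algebraMap ℚ (AlgebraicClosure ℚ) c₆) :=
  shortModel_map c₄ c₆ (algebraMap ℚ (AlgebraicClosure ℚ))

/-- The short model of the rational curve of an integral model. -/
lemma shortVC_smul_int (W : WeierstrassCurve ℤ) :
    shortVC (by norm_num : (6 : ℚ) ≠ 0) (W.map (Int.castRingHom ℚ)) •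
      (W.map (Int.castRingHom ℚ)) = shortQ ((W.c₄ : ℤ) : ℚ) ((W.c₆ : ℤ) : ℚ) := by
  rw [shortVC_smul, WeierstrassCurve.map_c₄, WeierstrassCurve.map_c₆, shortQ_eq_shortModel]
  rfl

/-- **[FAM-VC]** the isomorphism `E[p] ≃ E_short[p]`. -/
noncomputable def shortTors (W : WeierstrassCurve ℤ) (p : ℕ) :
    CTors W p ≃+ Submodule.torsionBy ℤ
      ((shortQ ((W.c₄ : ℤ) : ℚ) ((W.c₆ : ℤ) : ℚ))⁄(AlgebraicClosure ℚ)).Point p :=
  (AddEquiv.ofBijective (vcTors (shortVC_smul_int W) p)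
    ⟨vcTors_injective (shortVC_smul_int W) p, vcTors_surjective (shortVC_smul_int W) p⟩).symm

lemma shortTors_symm_apply (W : WeierstrassCurve ℤ) (p : ℕ)
    (y : Submodule.torsionBy ℤ
      ((shortQ ((W.c₄ : ℤ) : ℚ) ((W.c₆ : ℤ) : ℚ))⁄(AlgebraicClosure ℚ)).Point p) :
    (shortTors W p).symm y = vcTors (shortVC_smul_int W) p y := rfl

/-- `shortTors` commutes with the action of `Gal(ℚ̄/ℚ)`. -/
theorem shortTors_smul (W : WeierstrassCurve ℤ) (p : ℕ) (σ : CGQ) (x : CTors W p) :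
    shortTors W p (σ • x) = σ • shortTors W p x := by
  apply (shortTors W p).symm.injective
  rw [AddEquiv.symm_apply_apply, shortTors_symm_apply, vcTors_smul, ← shortTors_symm_apply,
    AddEquiv.symm_apply_apply]

/-- The inverse of `shortTors` commutes with the action of `Gal(ℚ̄/ℚ)`. -/
theorem shortTors_symm_smul (W : WeierstrassCurve ℤ) (p : ℕ) (σ : CGQ)
    (y : Submodule.torsionBy ℤ
      ((shortQ ((W.c₄ : ℤ) : ℚ) ((W.c₆ : ℤ) : ℚ))⁄(AlgebraicClosure ℚ)).Point p) :
    (shortTors W p).symm (σ • y) = σ • (shortTors W p).symm y := by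
  rw [shortTors_symm_apply, shortTors_symm_apply, vcTors_smul]

/-- The coordinates of the point of `W` attached to a point `(x, y)` of the short model:
`(x / 36 - b₂ / 12, y / 216 - a₁ x / 72 - (a₃ - a₁ b₂ / 12) / 2)`. -/
theorem shortTors_symm_some (W : WeierstrassCurve ℤ) (p : ℕ)
    (P : Submodule.torsionBy ℤ
      ((shortQ ((W.c₄ : ℤ) : ℚ) ((W.c₆ : ℤ) : ℚ))⁄(AlgebraicClosure ℚ)).Point p)
    {x y : AlgebraicClosure ℚ}
    {h : ((shortQ ((W.c₄ : ℤ) : ℚ) ((W.c₆ : ℤ) : ℚ))⁄(AlgebraicClosure ℚ)).toAffine.Nonsingular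
      x y}
    (hP : (P : ((shortQ ((W.c₄ : ℤ) : ℚ) ((W.c₆ : ℤ) : ℚ))⁄(AlgebraicClosure ℚ)).Point) =
      Point.some x y h) :
    ∃ h', (((shortTors W p).symm P : CTors W p) :
        ((W.map (Int.castRingHom ℚ))⁄(AlgebraicClosure ℚ)).Point) =
      Point.some (vcX ((shortVC (by norm_num : (6 : ℚ) ≠ 0)
          (W.map (Int.castRingHom ℚ))).baseChange (AlgebraicClosure ℚ)) x)
        (vcY ((shortVC (by norm_num : (6 : ℚ) ≠ 0)
          (W.map (Int.castRingHom ℚ))).baseChange (AlgebraicClosure ℚ)) x y) h' := by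
  rw [shortTors_symm_apply, vcTors_coe, hP]
  exact ⟨_, rfl⟩

/-- **[FAM-VC]**, existence form (shape of the FAM blueprint). -/
theorem famVC (W : WeierstrassCurve ℤ) (p : ℕ) :
    ∃ e : CTors W p ≃+ Submodule.torsionBy ℤ
        ((shortQ ((W.c₄ : ℤ) : ℚ) ((W.c₆ : ℤ) : ℚ))⁄(AlgebraicClosure ℚ)).Point p,
      ∀ (σ : CGQ) (x : CTors W p), e (σ • x) = σ • e x :=
  ⟨shortTors W p, shortTors_smul W p⟩

/-- A Galois-equivariant isomorphism between the `p`-torsion of the short models gives one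
between the `p`-torsion of the integral models (conclusion of `helper47.IsFamBase.iso`). -/
theorem exists_equiv_of_short (W W' : WeierstrassCurve ℤ) (p : ℕ)
    (e : Submodule.torsionBy ℤ
        ((shortQ ((W.c₄ : ℤ) : ℚ) ((W.c₆ : ℤ) : ℚ))⁄(AlgebraicClosure ℚ)).Point p ≃+
      Submodule.torsionBy ℤ
        ((shortQ ((W'.c₄ : ℤ) : ℚ) ((W'.c₆ : ℤ) : ℚ))⁄(AlgebraicClosure ℚ)).Point p)
    (he : ∀ (σ : CGQ) x, e (σ • x) = σ • e x) :
    ∃ e' : CTors W p ≃+ CTors W' p, ∀ (σ : CGQ) (x : CTors W p), e' (σ • x) = σ • e' x := by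
  refine ⟨((shortTors W p).trans e).trans (shortTors W' p).symm, fun σ x => ?_⟩
  simp only [AddEquiv.trans_apply]
  rw [shortTors_smul, he, shortTors_symm_smul]

end transport

end Fermat.Agent.P7.helper19
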