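import Fermat.Agent.S13.LocalRedA

/-!
# P7 [RED-ADD] (helper19): reduction of points is a group homomorphism

`A : ValuationSubring L`, `r : A →+* k` a ring homomorphism to a field `k` whose kernel is the
set of nonunits of `A` (e.g. the residue map, or evaluation at a point for a localisation of a
polynomial ring), `WA : WeierstrassCurve A` with `r WA.Δ ≠ 0` (good reduction).

* `red` : the reduction map `(WA.map A.subtype).toAffine.Point → (WA.map r).toAffine.Point`
  (integral affine points go to their coordinatewise reduction, everything else to `0`);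
* `red_add`, `red_neg`, `redHom` : it is a group homomorphism;
* `red_eq_zero_iff` : its kernel is the kernel of reduction `InKer` of S13 `LocalRedA`;
* `eq_zero_of_red_eq_zero_of_nsmul_eq_zero`, `redHom_injOn_torsion` : it is injective on
  `n`-torsion for `n` a unit of `A`.
-/

set_option autoImplicit false

namespace Fermat.Agent.P7.helper19

open WeierstrassCurve WeierstrassCurve.Affine Fermat.Agent.S13

section Field

variable {F : Type*} [Field F] [DecidableEq F]

/-- The two defining relations of the slope, valid in the chord and in the tangent case. -/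
theorem slope_relations (W : Affine F) {x₁ x₂ y₁ y₂ : F} (h₁ : W.Equation x₁ y₁)
    (h₂ : W.Equation x₂ y₂) (hxy : ¬(x₁ = x₂ ∧ y₁ = W.negY x₂ y₂)) :
    W.slope x₁ x₂ y₁ y₂ * (x₁ - x₂) = y₁ - y₂ ∧
    W.slope x₁ x₂ y₁ y₂ * (y₁ - W.negY x₂ y₂) =
      x₁ ^ 2 + x₁ * x₂ + x₂ ^ 2 + W.a₂ * (x₁ + x₂) + W.a₄ - W.a₁ * y₁ := by
  by_cases hx : x₁ = x₂
  · have hy : y₁ ≠ W.negY x₂ y₂ := fun h => hxy ⟨hx, h⟩
    have hyy : y₁ = y₂ := Y_eq_of_Y_ne h₁ h₂ hx hy
    subst hx; subst hyy
    rw [slope_of_Y_ne rfl hy]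
    have hne : y₁ - W.negY x₁ y₁ ≠ 0 := sub_ne_zero.mpr hy
    refine ⟨by simp, ?_⟩
    rw [div_mul_cancel₀ _ hne]
    ring
  · rw [slope_of_X_ne hx]
    have hne : x₁ - x₂ ≠ 0 := sub_ne_zero.mpr hx
    refine ⟨div_mul_cancel₀ _ hne, ?_⟩
    rw [equation_iff] at h₁ h₂
    rw [div_mul_eq_mul_div, div_eq_iff hne]
    simp only [negY]
    linear_combination h₁ - h₂

/-- The slope is determined by its two defining relations. -/
theorem eq_slope_of_relations (W : Affine F) {x₁ x₂ y₁ y₂ l : F} (h₁ : W.Equation x₁ y₁)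
    (h₂ : W.Equation x₂ y₂) (hxy : ¬(x₁ = x₂ ∧ y₁ = W.negY x₂ y₂))
    (hl₁ : l * (x₁ - x₂) = y₁ - y₂)
    (hl₂ : l * (y₁ - W.negY x₂ y₂) =
      x₁ ^ 2 + x₁ * x₂ + x₂ ^ 2 + W.a₂ * (x₁ + x₂) + W.a₄ - W.a₁ * y₁) :
    l = W.slope x₁ x₂ y₁ y₂ := by
  obtain ⟨e₁, e₂⟩ := slope_relations W h₁ h₂ hxy
  by_cases hx : x₁ = x₂
  · have hy : y₁ ≠ W.negY x₂ y₂ := fun h => hxy ⟨hx, h⟩
    have hne : y₁ - W.negY x₂ y₂ ≠ 0 := sub_ne_zero.mpr hy
    exact mul_right_cancel₀ hne (hl₂.trans e₂.symm)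
  · have hne : x₁ - x₂ ≠ 0 := sub_ne_zero.mpr hx
    exact mul_right_cancel₀ hne (hl₁.trans e₁.symm)

end Field

section Reduction

variable {L : Type*} [Field L] (A : ValuationSubring L) {k : Type*} [Field k]
  (r : A →+* k) (WA : WeierstrassCurve A)

/-! ### Units and the residue map -/

lemma isUnit_of_map_ne_zero (hr : ∀ a : A, r a = 0 ↔ a ∈ IsLocalRing.maximalIdeal A) {a : A}
    (ha : r a ≠ 0) : IsUnit a := by
  have h : a ∉ IsLocalRing.maximalIdeal A := fun h => ha ((hr a).mpr h)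
  rw [IsLocalRing.mem_maximalIdeal, mem_nonunits_iff, not_not] at h
  exact h

lemma exists_mul_eq_one_of_map_ne_zero (hr : ∀ a : A, r a = 0 ↔ a ∈ IsLocalRing.maximalIdeal A)
    {a : A} (ha : r a ≠ 0) : ∃ e : A, a * e = 1 := by
  obtain ⟨u, rfl⟩ := isUnit_of_map_ne_zero A r hr ha
  exact ⟨↑u⁻¹, u.mul_inv⟩

lemma valuation_lt_one_of_map_eq_zero (hr : ∀ a : A, r a = 0 ↔ a ∈ IsLocalRing.maximalIdeal A)
    {a : A} (ha : r a = 0) : A.valuation (a : L) < 1 :=
  (A.valuation_lt_one_iff a).mp ((hr a).mp ha)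

lemma valuation_eq_one_of_map_ne_zero (hr : ∀ a : A, r a = 0 ↔ a ∈ IsLocalRing.maximalIdeal A)
    {a : A} (ha : r a ≠ 0) : A.valuation (a : L) = 1 :=
  (A.valuation_eq_one_iff a).mp (isUnit_of_map_ne_zero A r hr ha)

/-! ### The slope of two integral points with non-opposite reductions -/

variable [DecidableEq L] [DecidableEq k]

/-- Two integral points whose reductions are not opposite: the slope is integral and reduces to
the slope of the reductions. -/
theorem exists_slope (hr : ∀ a : A, r a = 0 ↔ a ∈ IsLocalRing.maximalIdeal A) {a₁ a₂ b₁ b₂ : A}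
    (h₁ : WA.toAffine.Equation a₁ b₁) (h₂ : WA.toAffine.Equation a₂ b₂)
    (hxy : ¬(r a₁ = r a₂ ∧ r b₁ = (WA.map r).toAffine.negY (r a₂) (r b₂))) :
    ¬((a₁ : L) = a₂ ∧ (b₁ : L) = (WA.map A.subtype).toAffine.negY a₂ b₂) ∧
    ∃ l : A, (l : L) = (WA.map A.subtype).toAffine.slope (a₁ : L) a₂ b₁ b₂ ∧
      r l = (WA.map r).toAffine.slope (r a₁) (r a₂) (r b₁) (r b₂) := by
  have hL₁ : (WA.map A.subtype).toAffine.Equation (a₁ : L) b₁ := h₁.map A.subtype
  have hL₂ : (WA.map A.subtype).toAffine.Equation (a₂ : L) b₂ := h₂.map A.subtype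
  have hk₁ : (WA.map r).toAffine.Equation (r a₁) (r b₁) := h₁.map r
  have hk₂ : (WA.map r).toAffine.Equation (r a₂) (r b₂) := h₂.map r
  have hnegL : (WA.map A.subtype).toAffine.negY (a₂ : L) b₂ = ((WA.toAffine.negY a₂ b₂ : A) : L) :=
    Affine.map_negY (W' := WA) A.subtype a₂ b₂
  have hnegk : (WA.map r).toAffine.negY (r a₂) (r b₂) = r (WA.toAffine.negY a₂ b₂) :=
    Affine.map_negY (W' := WA) r a₂ b₂
  have hxyL : ¬((a₁ : L) = a₂ ∧ (b₁ : L) = (WA.map A.subtype).toAffine.negY a₂ b₂) := by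
    rintro ⟨e₁, e₂⟩
    rw [hnegL] at e₂
    have e₁' : a₁ = a₂ := Subtype.ext e₁
    have e₂' : b₁ = WA.toAffine.negY a₂ b₂ := Subtype.ext e₂
    exact hxy ⟨by rw [e₁'], by rw [hnegk, ← e₂']⟩
  refine ⟨hxyL, ?_⟩
  obtain ⟨s₁, s₂⟩ := slope_relations (WA.map A.subtype).toAffine hL₁ hL₂ hxyL
  set s : L := (WA.map A.subtype).toAffine.slope (a₁ : L) a₂ b₁ b₂ with hs
  -- it suffices to produce an integral `l` with `l = s`
  suffices hex : ∃ l : A, (l : L) = s by
    obtain ⟨l, hl⟩ := hex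
    refine ⟨l, hl, ?_⟩
    have r₁ : l * (a₁ - a₂) = b₁ - b₂ := by
      apply Subtype.ext
      push_cast
      rw [hl]; exact s₁
    have r₂ : l * (b₁ - WA.toAffine.negY a₂ b₂) =
        a₁ ^ 2 + a₁ * a₂ + a₂ ^ 2 + WA.a₂ * (a₁ + a₂) + WA.a₄ - WA.a₁ * b₁ := by
      apply Subtype.ext
      have := s₂
      rw [hnegL] at this
      simp only [WeierstrassCurve.map_a₁, WeierstrassCurve.map_a₂, WeierstrassCurve.map_a₄] at this
      have this' : s * ((b₁ : L) - ((WA.toAffine.negY a₂ b₂ : A) : L)) =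
          (a₁ : L) ^ 2 + a₁ * a₂ + (a₂ : L) ^ 2 + (WA.a₂ : L) * (a₁ + a₂) + (WA.a₄ : L)
            - (WA.a₁ : L) * b₁ := this
      push_cast
      rw [hl]; exact this'
    apply eq_slope_of_relations (WA.map r).toAffine hk₁ hk₂ hxy
    · have := congrArg r r₁
      simpa only [map_mul, map_sub] using this
    · have := congrArg r r₂
      rw [hnegk]
      simpa only [map_mul, map_sub, map_add, map_pow, WeierstrassCurve.map_a₁,
        WeierstrassCurve.map_a₂, WeierstrassCurve.map_a₄] using this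
  by_cases hx : r a₁ = r a₂
  · have hy : r b₁ ≠ (WA.map r).toAffine.negY (r a₂) (r b₂) := fun h => hxy ⟨hx, h⟩
    rw [hnegk, ← sub_ne_zero, ← map_sub] at hy
    obtain ⟨e, he⟩ := exists_mul_eq_one_of_map_ne_zero A r hr hy
    refine ⟨(a₁ ^ 2 + a₁ * a₂ + a₂ ^ 2 + WA.a₂ * (a₁ + a₂) + WA.a₄ - WA.a₁ * b₁) * e, ?_⟩
    have he' : ((b₁ : L) - ((WA.toAffine.negY a₂ b₂ : A) : L)) * (e : L) = 1 := by
      have := congrArg (Subtype.val : A → L) he
      simpa using this
    rw [hnegL] at s₂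
    simp only [WeierstrassCurve.map_a₁, WeierstrassCurve.map_a₂, WeierstrassCurve.map_a₄] at s₂
    have s₂' : s * ((b₁ : L) - ((WA.toAffine.negY a₂ b₂ : A) : L)) =
        (a₁ : L) ^ 2 + a₁ * a₂ + (a₂ : L) ^ 2 + (WA.a₂ : L) * (a₁ + a₂) + (WA.a₄ : L)
          - (WA.a₁ : L) * b₁ := s₂
    push_cast
    rw [← s₂', mul_assoc, he', mul_one]
  · have hx' : r (a₁ - a₂) ≠ 0 := by rw [map_sub]; exact sub_ne_zero.mpr hx
    obtain ⟨e, he⟩ := exists_mul_eq_one_of_map_ne_zero A r hr hx'
    refine ⟨(b₁ - b₂) * e, ?_⟩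
    have he' : ((a₁ : L) - (a₂ : L)) * (e : L) = 1 := by
      have := congrArg (Subtype.val : A → L) he
      simpa using this
    push_cast
    rw [← s₁, mul_assoc, he', mul_one]

/-! ### The reduction map -/

omit [DecidableEq L] [DecidableEq k] in
lemma nonsingular_map_of_mem (hΔ : r WA.Δ ≠ 0) {x y : L}
    (h : (WA.map A.subtype).toAffine.Nonsingular x y) (hx : x ∈ A) (hy : y ∈ A) :
    (WA.map r).toAffine.Nonsingular (r ⟨x, hx⟩) (r ⟨y, hy⟩) := by
  have hΔ' : (WA.map r).Δ ≠ 0 := by rwa [WeierstrassCurve.map_Δ]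
  rw [← Affine.equation_iff_nonsingular_of_Δ_ne_zero hΔ']
  have h' : WA.toAffine.Equation ⟨x, hx⟩ ⟨y, hy⟩ :=
    (Affine.map_equation (W := WA) (f := A.subtype) Subtype.val_injective ⟨x, hx⟩ ⟨y, hy⟩).mp h.1
  exact h'.map r

open Classical in
/-- The reduction map on points: integral affine points are reduced coordinatewise, all other
points go to `0`. -/
noncomputable def red (hΔ : r WA.Δ ≠ 0) :
    (WA.map A.subtype).toAffine.Point → (WA.map r).toAffine.Point
  | .zero => 0
  | .some x y h =>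
    if hxy : x ∈ A ∧ y ∈ A then
      .some (r ⟨x, hxy.1⟩) (r ⟨y, hxy.2⟩) (nonsingular_map_of_mem A r WA hΔ h hxy.1 hxy.2)
    else 0

omit [DecidableEq L] [DecidableEq k] in
@[simp] lemma red_zero (hΔ : r WA.Δ ≠ 0) : red A r WA hΔ 0 = 0 := rfl

omit [DecidableEq L] [DecidableEq k] in
lemma red_some_of_mem (hΔ : r WA.Δ ≠ 0) {x y : L}
    (h : (WA.map A.subtype).toAffine.Nonsingular x y) (hx : x ∈ A) (hy : y ∈ A) :
    red A r WA hΔ (Point.some x y h) =
      Point.some (r ⟨x, hx⟩) (r ⟨y, hy⟩) (nonsingular_map_of_mem A r WA hΔ h hx hy) := by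
  simp only [red]
  rw [dif_pos ⟨hx, hy⟩]

omit [DecidableEq L] [DecidableEq k] in
lemma red_coe (hΔ : r WA.Δ ≠ 0) (a b : A)
    (h : (WA.map A.subtype).toAffine.Nonsingular (a : L) (b : L)) :
    red A r WA hΔ (Point.some (a : L) (b : L) h) =
      Point.some (r a) (r b) (nonsingular_map_of_mem A r WA hΔ h a.2 b.2) :=
  red_some_of_mem A r WA hΔ h a.2 b.2

omit [DecidableEq L] [DecidableEq k] in
lemma red_some_of_not_mem (hΔ : r WA.Δ ≠ 0) {x y : L}
    (h : (WA.map A.subtype).toAffine.Nonsingular x y) (hx : x ∉ A) :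
    red A r WA hΔ (Point.some x y h) = 0 := by
  simp only [red]
  rw [dif_neg (fun hxy => hx hxy.1)]

omit [DecidableEq L] [DecidableEq k] in
lemma some_eq_some {F : Type*} [CommRing F] {W : Affine F} {x y x' y' : F}
    (h : W.Nonsingular x y) (h' : W.Nonsingular x' y') (hx : x = x') (hy : y = y') :
    Point.some x y h = Point.some x' y' h' := by
  subst hx; subst hy; rfl

omit [DecidableEq L] [DecidableEq k] in
/-- The coefficients of the curve over `L` are integral. -/
lemma coeff_le_one :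
    A.valuation (WA.map A.subtype).toAffine.a₁ ≤ 1 ∧ A.valuation (WA.map A.subtype).toAffine.a₂ ≤ 1 ∧
    A.valuation (WA.map A.subtype).toAffine.a₃ ≤ 1 ∧ A.valuation (WA.map A.subtype).toAffine.a₄ ≤ 1 ∧
    A.valuation (WA.map A.subtype).toAffine.a₆ ≤ 1 := by
  refine ⟨?_, ?_, ?_, ?_, ?_⟩ <;>
  · rw [A.valuation_le_one_iff]
    simp

omit [DecidableEq L] [DecidableEq k] in
/-- A point with integral `x` has integral `y`. -/
lemma mem_of_mem {x y : L} (h : (WA.map A.subtype).toAffine.Equation x y) (hx : x ∈ A) :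
    y ∈ A := by
  obtain ⟨h₁, h₂, h₃, h₄, h₆⟩ := coeff_le_one A WA
  rw [← A.valuation_le_one_iff] at hx ⊢
  exact v_y_le_one_of_v_x_le_one A.valuation _ h₁ h₂ h₃ h₄ h₆ h hx

omit [DecidableEq L] [DecidableEq k] in
/-- The kernel of `red` is the kernel of reduction of S13 `LocalRedA`. -/
theorem red_eq_zero_iff (hΔ : r WA.Δ ≠ 0) (P : (WA.map A.subtype).toAffine.Point) :
    red A r WA hΔ P = 0 ↔ InKer A.valuation P := by
  cases P with
  | zero => exact ⟨fun _ => trivial, fun _ => rfl⟩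
  | some x y h =>
    rw [inKer_some, ← not_le, A.valuation_le_one_iff]
    constructor
    · intro h0 hx
      rw [red_some_of_mem A r WA hΔ h hx (mem_of_mem A WA h.1 hx)] at h0
      exact Point.some_ne_zero _ h0
    · intro hx
      exact red_some_of_not_mem A r WA hΔ h hx

/-! ### Additivity on integral points -/

omit [DecidableEq L] [DecidableEq k] in
lemma equation_of_coe {a b : A} (h : (WA.map A.subtype).toAffine.Equation (a : L) (b : L)) :
    WA.toAffine.Equation a b :=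
  (Affine.map_equation (W := WA) (f := A.subtype) Subtype.val_injective a b).mp h

/-- Two integral points whose reductions are not opposite: the sum is integral and reduces to
the sum of the reductions. -/
theorem add_coe_of_nondegenerate (hr : ∀ a : A, r a = 0 ↔ a ∈ IsLocalRing.maximalIdeal A)
    (hΔ : r WA.Δ ≠ 0) {a₁ a₂ b₁ b₂ : A}
    (h₁ : (WA.map A.subtype).toAffine.Nonsingular (a₁ : L) (b₁ : L))
    (h₂ : (WA.map A.subtype).toAffine.Nonsingular (a₂ : L) (b₂ : L))
    (hxy : ¬(r a₁ = r a₂ ∧ r b₁ = (WA.map r).toAffine.negY (r a₂) (r b₂))) :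
    ∃ (a₃ b₃ : A) (h₃ : (WA.map A.subtype).toAffine.Nonsingular (a₃ : L) (b₃ : L)),
      Point.some _ _ h₁ + Point.some _ _ h₂ = Point.some _ _ h₃ ∧
      red A r WA hΔ (Point.some _ _ h₁) + red A r WA hΔ (Point.some _ _ h₂) =
        red A r WA hΔ (Point.some _ _ h₃) := by
  obtain ⟨hxyL, l, hl, hrl⟩ :=
    exists_slope A r WA hr (equation_of_coe A WA h₁.1) (equation_of_coe A WA h₂.1) hxy
  have hX : (WA.map A.subtype).toAffine.addX (a₁ : L) a₂
      ((WA.map A.subtype).toAffine.slope (a₁ : L) a₂ b₁ b₂) =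
      ((WA.toAffine.addX a₁ a₂ l : A) : L) := by
    rw [← hl]; exact Affine.map_addX (W' := WA) A.subtype a₁ a₂ l
  have hY : (WA.map A.subtype).toAffine.addY (a₁ : L) a₂ b₁
      ((WA.map A.subtype).toAffine.slope (a₁ : L) a₂ b₁ b₂) =
      ((WA.toAffine.addY a₁ a₂ b₁ l : A) : L) := by
    rw [← hl]; exact Affine.map_addY (W' := WA) A.subtype a₁ b₁ a₂ l
  have h₃ : (WA.map A.subtype).toAffine.Nonsingular
      ((WA.toAffine.addX a₁ a₂ l : A) : L) ((WA.toAffine.addY a₁ a₂ b₁ l : A) : L) := by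
    rw [← hX, ← hY]; exact nonsingular_add h₁ h₂ hxyL
  refine ⟨_, _, h₃, ?_, ?_⟩
  · rw [Point.add_some hxyL]
    exact some_eq_some _ _ hX hY
  · rw [red_coe, red_coe, red_coe, Point.add_some hxy]
    refine some_eq_some _ _ ?_ ?_
    · rw [← hrl]; exact Affine.map_addX (W' := WA) r a₁ a₂ l
    · rw [← hrl]; exact Affine.map_addY (W' := WA) r a₁ b₁ a₂ l

omit [DecidableEq L] [DecidableEq k] in
lemma map_evalEval_polynomialX (f : A →+* k) (a b : A) :
    (WA.map f).toAffine.polynomialX.evalEval (f a) (f b) =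
      f (WA.toAffine.polynomialX.evalEval a b) := by
  rw [Affine.map_polynomialX, Polynomial.map_mapRingHom_evalEval]

omit [DecidableEq L] [DecidableEq k] in
lemma map_evalEval_polynomialY (f : A →+* k) (a b : A) :
    (WA.map f).toAffine.polynomialY.evalEval (f a) (f b) =
      f (WA.toAffine.polynomialY.evalEval a b) := by
  rw [Affine.map_polynomialY, Polynomial.map_mapRingHom_evalEval]

omit [DecidableEq L] [DecidableEq k] in
lemma coe_evalEval_polynomialX (a b : A) :
    (WA.map A.subtype).toAffine.polynomialX.evalEval (a : L) (b : L) =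
      ((WA.toAffine.polynomialX.evalEval a b : A) : L) := by
  have := Polynomial.map_mapRingHom_evalEval A.subtype WA.toAffine.polynomialX a b
  rw [← Affine.map_polynomialX] at this
  exact this

omit [DecidableEq L] [DecidableEq k] in
lemma coe_evalEval_polynomialY (a b : A) :
    (WA.map A.subtype).toAffine.polynomialY.evalEval (a : L) (b : L) =
      ((WA.toAffine.polynomialY.evalEval a b : A) : L) := by
  have := Polynomial.map_mapRingHom_evalEval A.subtype WA.toAffine.polynomialY a b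
  rw [← Affine.map_polynomialY] at this
  exact this

omit [DecidableEq L] [DecidableEq k] in
/-- The reduction of an integral point is nonsingular: one of the partial derivatives is a
unit. -/
lemma valuation_partial_eq_one (hr : ∀ a : A, r a = 0 ↔ a ∈ IsLocalRing.maximalIdeal A)
    (hΔ : r WA.Δ ≠ 0) {a b : A}
    (h : (WA.map A.subtype).toAffine.Nonsingular (a : L) (b : L)) :
    A.valuation ((WA.map A.subtype).toAffine.polynomialX.evalEval (a : L) (b : L)) = 1 ∨
    A.valuation ((WA.map A.subtype).toAffine.polynomialY.evalEval (a : L) (b : L)) = 1 := by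
  have hns := nonsingular_map_of_mem A r WA hΔ h a.2 b.2
  have hns' : (WA.map r).toAffine.Nonsingular (r a) (r b) := hns
  rcases hns'.2 with hX | hY
  · left
    rw [coe_evalEval_polynomialX]
    apply valuation_eq_one_of_map_ne_zero A r hr
    rwa [← map_evalEval_polynomialX]
  · right
    rw [coe_evalEval_polynomialY]
    apply valuation_eq_one_of_map_ne_zero A r hr
    rwa [← map_evalEval_polynomialY]

omit [DecidableEq k] in
/-- Two integral points with opposite reductions: the sum reduces to `0`. -/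
theorem red_add_coe_of_degenerate (hr : ∀ a : A, r a = 0 ↔ a ∈ IsLocalRing.maximalIdeal A)
    (hΔ : r WA.Δ ≠ 0) {a₁ a₂ b₁ b₂ : A}
    (h₁ : (WA.map A.subtype).toAffine.Nonsingular (a₁ : L) (b₁ : L))
    (h₂ : (WA.map A.subtype).toAffine.Nonsingular (a₂ : L) (b₂ : L))
    (hxy : r a₁ = r a₂ ∧ r b₁ = (WA.map r).toAffine.negY (r a₂) (r b₂)) :
    red A r WA hΔ (Point.some _ _ h₁ + Point.some _ _ h₂) = 0 := by
  have hnegL : (WA.map A.subtype).toAffine.negY (a₂ : L) b₂ = ((WA.toAffine.negY a₂ b₂ : A) : L) :=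
    Affine.map_negY (W' := WA) A.subtype a₂ b₂
  have hnegk : (WA.map r).toAffine.negY (r a₂) (r b₂) = r (WA.toAffine.negY a₂ b₂) :=
    Affine.map_negY (W' := WA) r a₂ b₂
  by_cases hL : (a₁ : L) = a₂ ∧ (b₁ : L) = (WA.map A.subtype).toAffine.negY a₂ b₂
  · rw [Point.add_of_Y_eq hL.1 hL.2, red_zero]
  · obtain ⟨c₁, c₂, c₃, c₄, c₆⟩ := coeff_le_one A WA
    have h₂' : (WA.map A.subtype).toAffine.Nonsingular (a₂ : L)
        ((WA.map A.subtype).toAffine.negY (a₂ : L) b₂) := (nonsingular_neg ..).mpr h₂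
    have hx : A.valuation ((a₁ : L) - a₂) < 1 := by
      have : r (a₁ - a₂) = 0 := by rw [map_sub, hxy.1, sub_self]
      simpa using valuation_lt_one_of_map_eq_zero A r hr this
    have hy : A.valuation ((b₁ : L) - (WA.map A.subtype).toAffine.negY (a₂ : L) b₂) < 1 := by
      have : r (b₁ - WA.toAffine.negY a₂ b₂) = 0 := by rw [map_sub, hxy.2, hnegk, sub_self]
      rw [hnegL]
      simpa using valuation_lt_one_of_map_eq_zero A r hr this
    have hne : Point.some _ _ h₁ ≠ Point.some _ _ h₂' := by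
      intro e
      rw [Point.some.injEq] at e
      exact hL e
    obtain ⟨x₃, y₃, h₃, he, hv⟩ := exists_sub_eq_some_of_same_reduction A.valuation _ c₁ c₂ h₁ h₂'
      ((A.valuation_le_one_iff _).mpr a₁.2) ((A.valuation_le_one_iff _).mpr a₂.2) hx hy
      (valuation_partial_eq_one A r WA hr hΔ h₁) hne
    have e : Point.some _ _ h₁ + Point.some _ _ h₂ = Point.some x₃ y₃ h₃ := by
      rw [← he, ← Point.neg_some h₂, sub_neg_eq_add]
    rw [e]
    apply red_some_of_not_mem
    intro hmem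
    exact absurd ((A.valuation_le_one_iff _).mpr hmem) (not_le.mpr hv)

/-- Additivity of `red` on integral points. -/
theorem red_add_coe (hr : ∀ a : A, r a = 0 ↔ a ∈ IsLocalRing.maximalIdeal A)
    (hΔ : r WA.Δ ≠ 0) {a₁ a₂ b₁ b₂ : A}
    (h₁ : (WA.map A.subtype).toAffine.Nonsingular (a₁ : L) (b₁ : L))
    (h₂ : (WA.map A.subtype).toAffine.Nonsingular (a₂ : L) (b₂ : L)) :
    red A r WA hΔ (Point.some _ _ h₁ + Point.some _ _ h₂) =
      red A r WA hΔ (Point.some _ _ h₁) + red A r WA hΔ (Point.some _ _ h₂) := by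
  by_cases hxy : r a₁ = r a₂ ∧ r b₁ = (WA.map r).toAffine.negY (r a₂) (r b₂)
  · rw [red_add_coe_of_degenerate A r WA hr hΔ h₁ h₂ hxy, red_coe, red_coe,
      Point.add_of_Y_eq hxy.1 hxy.2]
  · obtain ⟨a₃, b₃, h₃, e₁, e₂⟩ := add_coe_of_nondegenerate A r WA hr hΔ h₁ h₂ hxy
    rw [e₁, e₂]

/-! ### The kernel cases and the main theorem -/

omit [DecidableEq L] [DecidableEq k] in
/-- An affine point with integral `x` is a point with coordinates in `A`. -/
lemma exists_coe_of_mem {x y : L} (h : (WA.map A.subtype).toAffine.Nonsingular x y) (hx : x ∈ A) :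
    ∃ (a b : A) (h' : (WA.map A.subtype).toAffine.Nonsingular (a : L) (b : L)),
      Point.some x y h = Point.some (a : L) (b : L) h' :=
  ⟨⟨x, hx⟩, ⟨y, mem_of_mem A WA h.1 hx⟩, h, rfl⟩

omit [DecidableEq k] in
/-- An integral point plus a point of the kernel of reduction has the same reduction. -/
theorem red_add_of_inKer (hr : ∀ a : A, r a = 0 ↔ a ∈ IsLocalRing.maximalIdeal A)
    (hΔ : r WA.Δ ≠ 0) {a₁ b₁ : A}
    (h₁ : (WA.map A.subtype).toAffine.Nonsingular (a₁ : L) (b₁ : L))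
    {Q : (WA.map A.subtype).toAffine.Point} (hQ : InKer A.valuation Q) :
    red A r WA hΔ (Point.some _ _ h₁ + Q) = red A r WA hΔ (Point.some _ _ h₁) := by
  classical
  obtain ⟨c₁, c₂, c₃, c₄, c₆⟩ := coeff_le_one A WA
  set P : (WA.map A.subtype).toAffine.Point := Point.some _ _ h₁ with hP
  have hPk : ¬InKer A.valuation P := by
    rw [hP, inKer_some, not_lt, A.valuation_le_one_iff]
    exact a₁.2
  have hRk : ¬InKer A.valuation (P + Q) := by
    intro hR
    apply hPk
    have := inKer_sub A.valuation _ c₁ c₂ c₃ c₄ c₆ hR hQ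
    rwa [add_sub_cancel_right] at this
  -- `R = P + Q` is an integral affine point
  rcases hR : P + Q with _ | ⟨x₃, y₃, h₃⟩
  · exact absurd (by rw [hR]; trivial) hRk
  have hx₃ : x₃ ∈ A := by
    rw [hR, inKer_some, not_lt, A.valuation_le_one_iff] at hRk
    exact hRk
  obtain ⟨a₃, b₃, h₃', e₃⟩ := exists_coe_of_mem A WA h₃ hx₃
  rw [e₃] at hR ⊢
  -- `-P` is the integral point `(a₁, negY a₁ b₁)`
  have hnegL : (WA.map A.subtype).toAffine.negY (a₁ : L) b₁ = ((WA.toAffine.negY a₁ b₁ : A) : L) :=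
    Affine.map_negY (W' := WA) A.subtype a₁ b₁
  have hnegk : (WA.map r).toAffine.negY (r a₁) (r b₁) = r (WA.toAffine.negY a₁ b₁) :=
    Affine.map_negY (W' := WA) r a₁ b₁
  have h₁n : (WA.map A.subtype).toAffine.Nonsingular (a₁ : L)
      ((WA.toAffine.negY a₁ b₁ : A) : L) := by
    rw [← hnegL]; exact (nonsingular_neg ..).mpr h₁
  have hnegP : -P = Point.some _ _ h₁n := by
    rw [hP, Point.neg_some]
    exact some_eq_some _ _ rfl hnegL
  have hQe : Point.some _ _ h₃' + Point.some _ _ h₁n = Q := by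
    rw [← hnegP, ← hR]; abel
  -- the reductions of `R` and `-P` are opposite
  have hdeg : r a₃ = r a₁ ∧
      r b₃ = (WA.map r).toAffine.negY (r a₁) (r (WA.toAffine.negY a₁ b₁)) := by
    by_contra hnd
    obtain ⟨a₄, b₄, h₄, e₄, -⟩ := add_coe_of_nondegenerate A r WA hr hΔ h₃' h₁n hnd
    rw [hQe] at e₄
    rw [e₄, inKer_some, ← not_le, A.valuation_le_one_iff] at hQ
    exact hQ a₄.2
  rw [red_coe, hP, red_coe]
  refine some_eq_some _ _ hdeg.1 ?_
  rw [hdeg.2, ← hnegk]
  exact Affine.negY_negY _ _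

/-- **[RED-ADD]** The reduction map is additive. -/
theorem red_add (hr : ∀ a : A, r a = 0 ↔ a ∈ IsLocalRing.maximalIdeal A)
    (hΔ : r WA.Δ ≠ 0) (P Q : (WA.map A.subtype).toAffine.Point) :
    red A r WA hΔ (P + Q) = red A r WA hΔ P + red A r WA hΔ Q := by
  obtain ⟨c₁, c₂, c₃, c₄, c₆⟩ := coeff_le_one A WA
  by_cases hPk : InKer A.valuation P
  · by_cases hQk : InKer A.valuation Q
    · rw [(red_eq_zero_iff A r WA hΔ P).mpr hPk, (red_eq_zero_iff A r WA hΔ Q).mpr hQk,
        (red_eq_zero_iff A r WA hΔ (P + Q)).mpr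
          (inKer_add A.valuation _ c₁ c₂ c₃ c₄ c₆ hPk hQk), add_zero]
    · cases Q with
      | zero => exact absurd trivial hQk
      | some x₂ y₂ h₂ =>
        rw [inKer_some, not_lt, A.valuation_le_one_iff] at hQk
        obtain ⟨a₂, b₂, h₂', e₂⟩ := exists_coe_of_mem A WA h₂ hQk
        rw [e₂, add_comm P, red_add_of_inKer A r WA hr hΔ h₂' hPk,
          (red_eq_zero_iff A r WA hΔ P).mpr hPk, zero_add]
  · cases P with
    | zero => exact absurd trivial hPk
    | some x₁ y₁ h₁ =>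
      rw [inKer_some, not_lt, A.valuation_le_one_iff] at hPk
      obtain ⟨a₁, b₁, h₁', e₁⟩ := exists_coe_of_mem A WA h₁ hPk
      rw [e₁]
      by_cases hQk : InKer A.valuation Q
      · rw [red_add_of_inKer A r WA hr hΔ h₁' hQk, (red_eq_zero_iff A r WA hΔ Q).mpr hQk,
          add_zero]
      · cases Q with
        | zero => exact absurd trivial hQk
        | some x₂ y₂ h₂ =>
          rw [inKer_some, not_lt, A.valuation_le_one_iff] at hQk
          obtain ⟨a₂, b₂, h₂', e₂⟩ := exists_coe_of_mem A WA h₂ hQk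
          rw [e₂]
          exact red_add_coe A r WA hr hΔ h₁' h₂'

/-- The reduction map as a group homomorphism. -/
noncomputable def redHom (hr : ∀ a : A, r a = 0 ↔ a ∈ IsLocalRing.maximalIdeal A)
    (hΔ : r WA.Δ ≠ 0) :
    (WA.map A.subtype).toAffine.Point →+ (WA.map r).toAffine.Point where
  toFun := red A r WA hΔ
  map_zero' := rfl
  map_add' := red_add A r WA hr hΔ

@[simp] lemma redHom_apply (hr : ∀ a : A, r a = 0 ↔ a ∈ IsLocalRing.maximalIdeal A)
    (hΔ : r WA.Δ ≠ 0) (P : (WA.map A.subtype).toAffine.Point) :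
    redHom A r WA hr hΔ P = red A r WA hΔ P := rfl

omit [DecidableEq k] in
/-- The kernel of reduction has no `n`-torsion for `n` a unit of `A`. -/
theorem eq_zero_of_red_eq_zero_of_nsmul_eq_zero (hΔ : r WA.Δ ≠ 0) {n : ℕ}
    (hn : A.valuation (n : L) = 1) {P : (WA.map A.subtype).toAffine.Point}
    (hP : n • P = 0) (h0 : red A r WA hΔ P = 0) : P = 0 := by
  obtain ⟨c₁, c₂, c₃, c₄, c₆⟩ := coeff_le_one A WA
  exact eq_zero_of_inKer_of_nsmul_eq_zero A.valuation _ c₁ c₂ c₃ c₄ c₆ hn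
    ((red_eq_zero_iff A r WA hΔ P).mp h0) hP

/-- The reduction map is injective on `n`-torsion for `n` a unit of `A`. -/
theorem redHom_injOn_torsion (hr : ∀ a : A, r a = 0 ↔ a ∈ IsLocalRing.maximalIdeal A)
    (hΔ : r WA.Δ ≠ 0) {n : ℕ} (hn : A.valuation (n : L) = 1)
    {P Q : (WA.map A.subtype).toAffine.Point} (hP : n • P = 0) (hQ : n • Q = 0)
    (h : redHom A r WA hr hΔ P = redHom A r WA hr hΔ Q) : P = Q := by
  have h0 : red A r WA hΔ (P - Q) = 0 := by
    have := map_sub (redHom A r WA hr hΔ) P Q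
    rw [h, sub_self] at this
    exact this
  have hPQ : n • (P - Q) = 0 := by rw [smul_sub, hP, hQ, sub_zero]
  exact sub_eq_zero.mp (eq_zero_of_red_eq_zero_of_nsmul_eq_zero A r WA hΔ hn hPQ h0)

/-! ### Consumer form: curves given up to equality

`WL` and `Wk` are arbitrary Weierstrass curves over `L` and `k` which are *equal* to the base
changes of the integral model `WA` (e.g. base changes of a curve over `ℤ` along different but
equal ring homomorphisms). -/

/-- The reduction homomorphism for curves `WL = WA.map A.subtype`, `Wk = WA.map r`. -/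
noncomputable def redHomOf (hr : ∀ a : A, r a = 0 ↔ a ∈ IsLocalRing.maximalIdeal A)
    (hΔ : r WA.Δ ≠ 0) {WL : Affine L} {Wk : Affine k} (hWL : WL = WA.map A.subtype)
    (hWk : Wk = WA.map r) : WL.Point →+ Wk.Point :=
  hWL ▸ hWk ▸ redHom A r WA hr hΔ

theorem redHomOf_some_of_mem (hr : ∀ a : A, r a = 0 ↔ a ∈ IsLocalRing.maximalIdeal A)
    (hΔ : r WA.Δ ≠ 0) {WL : Affine L} {Wk : Affine k} (hWL : WL = WA.map A.subtype)
    (hWk : Wk = WA.map r) {x y : L} (h : WL.Nonsingular x y) (hx : x ∈ A) (hy : y ∈ A) :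
    ∃ h' : Wk.Nonsingular (r ⟨x, hx⟩) (r ⟨y, hy⟩),
      redHomOf A r WA hr hΔ hWL hWk (Point.some x y h) = Point.some _ _ h' := by
  subst hWL; subst hWk
  exact ⟨_, red_some_of_mem A r WA hΔ h hx hy⟩

theorem redHomOf_some_of_not_mem (hr : ∀ a : A, r a = 0 ↔ a ∈ IsLocalRing.maximalIdeal A)
    (hΔ : r WA.Δ ≠ 0) {WL : Affine L} {Wk : Affine k} (hWL : WL = WA.map A.subtype)
    (hWk : Wk = WA.map r) {x y : L} (h : WL.Nonsingular x y) (hx : x ∉ A) :
    redHomOf A r WA hr hΔ hWL hWk (Point.some x y h) = 0 := by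
  subst hWL; subst hWk
  exact red_some_of_not_mem A r WA hΔ h hx

theorem redHomOf_eq_zero_iff (hr : ∀ a : A, r a = 0 ↔ a ∈ IsLocalRing.maximalIdeal A)
    (hΔ : r WA.Δ ≠ 0) {WL : Affine L} {Wk : Affine k} (hWL : WL = WA.map A.subtype)
    (hWk : Wk = WA.map r) (P : WL.Point) :
    redHomOf A r WA hr hΔ hWL hWk P = 0 ↔ InKer A.valuation P := by
  subst hWL; subst hWk
  exact red_eq_zero_iff A r WA hΔ P

/-- Torsion points of order a unit of `A` are integral, and `redHomOf` is injective on them. -/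
theorem redHomOf_injOn_torsion (hr : ∀ a : A, r a = 0 ↔ a ∈ IsLocalRing.maximalIdeal A)
    (hΔ : r WA.Δ ≠ 0) {WL : Affine L} {Wk : Affine k} (hWL : WL = WA.map A.subtype)
    (hWk : Wk = WA.map r) {n : ℕ} (hn : A.valuation (n : L) = 1) {P Q : WL.Point}
    (hP : n • P = 0) (hQ : n • Q = 0)
    (h : redHomOf A r WA hr hΔ hWL hWk P = redHomOf A r WA hr hΔ hWL hWk Q) : P = Q := by
  subst hWL; subst hWk
  exact redHom_injOn_torsion A r WA hr hΔ hn hP hQ h

omit [DecidableEq k] in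
/-- Torsion points of order a unit of `A` have integral coordinates. -/
theorem mem_of_nsmul_eq_zero' {WL : Affine L} (hWL : WL = WA.map A.subtype) {n : ℕ}
    (hn : A.valuation (n : L) = 1) {x y : L} (h : WL.Nonsingular x y)
    (hP : n • Point.some x y h = 0) : x ∈ A ∧ y ∈ A := by
  subst hWL
  obtain ⟨c₁, c₂, c₃, c₄, c₆⟩ := coeff_le_one A WA
  have := v_le_one_of_nsmul_eq_zero A.valuation _ c₁ c₂ c₃ c₄ c₆ hn h hP
  exact ⟨(A.valuation_le_one_iff _).mp this.1, (A.valuation_le_one_iff _).mp this.2⟩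

/-- On `n`-torsion (`n` a unit of `A`) the reduction homomorphism is given by the coordinatewise
reduction, and a nonzero torsion point has nonzero reduction. -/
theorem redHomOf_torsion (hr : ∀ a : A, r a = 0 ↔ a ∈ IsLocalRing.maximalIdeal A)
    (hΔ : r WA.Δ ≠ 0) {WL : Affine L} {Wk : Affine k} (hWL : WL = WA.map A.subtype)
    (hWk : Wk = WA.map r) {n : ℕ} (hn : A.valuation (n : L) = 1) {x y : L}
    (h : WL.Nonsingular x y) (hP : n • Point.some x y h = 0) :
    ∃ (hx : x ∈ A) (hy : y ∈ A) (h' : Wk.Nonsingular (r ⟨x, hx⟩) (r ⟨y, hy⟩)),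
      redHomOf A r WA hr hΔ hWL hWk (Point.some x y h) = Point.some _ _ h' := by
  obtain ⟨hx, hy⟩ := mem_of_nsmul_eq_zero' A WA hWL hn h hP
  obtain ⟨h', e⟩ := redHomOf_some_of_mem A r WA hr hΔ hWL hWk h hx hy
  exact ⟨hx, hy, h', e⟩

end Reduction

end Fermat.Agent.P7.helper19

namespace Fermat.Agent.P7.helper19

open WeierstrassCurve WeierstrassCurve.Affine

/-- The residue map of a valuation subring satisfies the hypothesis `hr` of `redHom`. -/
theorem residue_eq_zero_iff_mem {L : Type*} [Field L] (A : ValuationSubring L) (a : A) :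
    IsLocalRing.residue A a = 0 ↔ a ∈ IsLocalRing.maximalIdeal A :=
  IsLocalRing.residue_eq_zero_iff a

/-- A unit natural number has valuation one. -/
theorem valuation_natCast_eq_one {L : Type*} [Field L] (A : ValuationSubring L) {n : ℕ}
    (hn : (n : L) ∉ A.nonunits) : A.valuation (n : L) = 1 := by
  rw [A.mem_nonunits_iff, not_lt] at hn
  exact le_antisymm ((A.valuation_le_one_iff _).mpr (natCast_mem A n)) hn

end Fermat.Agent.P7.helper19
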