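import Fermat.Agent.P7.helper19_Cong
import Fermat.Agent.P7.helper52_CEDefs

/-!
# P7 [RED-INST] (helper19)

`redInst : helper52.RedAddStatement` : at a place `A` of `ℚ̄` over a good prime `ℓ ≠ p` the
reduction of `p`-torsion is an injective group homomorphism `Tors W p →+ PtK W (ResidueField A)`
compatible with Frobenius (all primes `p`, including `p = 2`), in the shape fixed by the CE
interface `helper52_CEDefs`.
-/

set_option autoImplicit false
set_option linter.style.haveILetI false

open WeierstrassCurve WeierstrassCurve.Affine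
open scoped WeierstrassCurve.Affine
open Fermat.Agent.P6.helper78

namespace Fermat.Agent.P7.helper19

/-- **[RED-INST]** the additive reduction statement of the CE interface. -/
theorem redInst : Fermat.Agent.P7.helper52.RedAddStatement := by
  intro W p ℓ hp hℓ hℓp hW A hA _
  have hE := Fermat.Agent.P6.helper65.nred_curve_eq W
  have hgood := Fermat.Agent.P6.helper65.nred_good A W hℓ hA hW
  have hn : ((p : ℕ) : NQbar) ∉ A.nonunits :=
    Fermat.Agent.P6.helper65.nred_natCast_not_mem_nonunits A hℓ hp hℓp hA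
  have hn1 : A.valuation ((p : ℕ) : NQbar) = 1 := valuation_natCast_eq_one A hn
  have hWL : ((W.map (Int.castRingHom ℚ))⁄(AlgebraicClosure ℚ) : Affine (AlgebraicClosure ℚ)) =
      (W.map (Int.castRingHom A)).map A.subtype :=
    hE.trans (Fermat.Agent.P6.helper65.nred_map_subtype A W).symm
  have hWk : (W.map (Int.castRingHom (IsLocalRing.ResidueField A)) :
      Affine (IsLocalRing.ResidueField A)) =
      (W.map (Int.castRingHom A)).map (IsLocalRing.residue A) :=
    (Fermat.Agent.P6.helper65.nred_map_residue A W).symm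
  have hΔ : IsLocalRing.residue A (W.map (Int.castRingHom A)).Δ ≠ 0 := by
    rw [← WeierstrassCurve.map_Δ, ← hWk]; exact hgood
  have hr := residue_eq_zero_iff_mem A
  set ρ : ((W.map (Int.castRingHom ℚ))⁄(AlgebraicClosure ℚ)).Point →+
      PtK W (IsLocalRing.ResidueField A) :=
    redHomOf A (IsLocalRing.residue A) (W.map (Int.castRingHom A)) hr hΔ hWL hWk with hρ
  have hinj : Function.Injective
      (ρ.comp (Submodule.torsionBy ℤ _ (p : ℤ)).subtype.toAddMonoidHom) := by
    intro P Q h
    apply Subtype.ext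
    exact redHomOf_injOn_torsion A (IsLocalRing.residue A) (W.map (Int.castRingHom A)) hr hΔ
      hWL hWk hn1 (tors_nsmul W p P) (tors_nsmul W p Q) h
  refine ⟨ρ.comp (Submodule.torsionBy ℤ _ (p : ℤ)).subtype.toAddMonoidHom, hinj, ?_⟩
  intro σ hσ P
  obtain ⟨Q, hQ⟩ := P
  cases Q with
  | zero =>
    have e0 : (σ • (0 : ((W.map (Int.castRingHom ℚ))⁄(AlgebraicClosure ℚ)).Point)) = 0 := rfl
    show IsFrobImage W _ ℓ (ρ 0)
      (ρ (σ • (0 : ((W.map (Int.castRingHom ℚ))⁄(AlgebraicClosure ℚ)).Point)))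
    rw [e0, map_zero]
    show (0 : PtK W (IsLocalRing.ResidueField A)) = 0
    rfl
  | some x y hxy =>
    have hQ0 := tors_nsmul W _ ⟨Point.some x y hxy, hQ⟩
    have hσQ0 := tors_nsmul W _ (σ • (⟨Point.some x y hxy, hQ⟩ : Tors W p))
    obtain ⟨hx, hy, h', e⟩ := redHomOf_torsion A (IsLocalRing.residue A)
      (W.map (Int.castRingHom A)) hr hΔ hWL hWk hn1 hxy hQ0
    have hσ' : ((σ • (⟨Point.some x y hxy, hQ⟩ : Tors W p) : Tors W p) :
        ((W.map (Int.castRingHom ℚ))⁄(AlgebraicClosure ℚ)).Point) =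
        Point.some (σ x) (σ y)
          ((baseChange_nonsingular _ σ.toAlgHom.injective x y).mpr hxy) := rfl
    rw [hσ'] at hσQ0
    obtain ⟨hx', hy', h'', e'⟩ := redHomOf_torsion A (IsLocalRing.residue A)
      (W.map (Int.castRingHom A)) hr hΔ hWL hWk hn1 _ hσQ0
    show IsFrobImage W _ ℓ (ρ (Point.some x y hxy))
      (ρ ((σ • (⟨Point.some x y hxy, hQ⟩ : Tors W p) : Tors W p) :
        ((W.map (Int.castRingHom ℚ))⁄(AlgebraicClosure ℚ)).Point))
    rw [hσ', hρ, e, e']
    exact ⟨Fermat.Agent.P6.helper65.nred_residue_frob A hσ hx hx',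
      Fermat.Agent.P6.helper65.nred_residue_frob A hσ hy hy'⟩

end Fermat.Agent.P7.helper19
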