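import Fermat.Agent.P7.helper19_FamVC

/-!
# P7 / FAM (helper19): the group law of a short Weierstrass curve in cleared form

For a Weierstrass curve `E` over a field with `a₁ = a₂ = a₃ = 0` (e.g. `shortModel c₄ c₆`):

* `short_neg`    : `-(x, y) = (x, -y)`;
* `short_double` : if `y ≠ 0`, `s * (2 y) = 3 x² + a₄`, `x' = s² - 2 x`,
  `y' = -(s (x' - x) + y)` then `(x, y) + (x, y) = (x', y')`;
* `short_add`    : if `x₁ ≠ x₂`, `l (x₁ - x₂) = y₁ - y₂`, `x₃ = l² - x₁ - x₂`,
  `y₃ = -(l (x₃ - x₁) + y₁)` then `(x₁, y₁) + (x₂, y₂) = (x₃, y₃)`;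
* `short_add_self_neg` : `(x, y) + (x, -y) = 0`;
* for `shortModel c₄ c₆` with `c₄³ ≠ c₆²` over a field with `6 ≠ 0`: every solution of
  `y² = x³ - 27 c₄ x - 54 c₆` is a nonsingular point (`shortModel_nonsingular_iff`);
* Galois action on points of a curve over `ℚ` in coordinates (`smul_some`).
-/

set_option autoImplicit false

open WeierstrassCurve WeierstrassCurve.Affine
open scoped WeierstrassCurve.Affine

namespace Fermat.Agent.P7.helper19

section law

variable {K : Type*} [Field K] [DecidableEq K] {E : Affine K}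

omit [DecidableEq K] in
lemma short_negY (ha₁ : E.a₁ = 0) (ha₃ : E.a₃ = 0) (x y : K) : E.negY x y = -y := by
  simp only [Affine.negY, ha₁, ha₃]
  ring

omit [DecidableEq K] in
/-- Negation on a short Weierstrass curve. -/
theorem short_neg (ha₁ : E.a₁ = 0) (ha₃ : E.a₃ = 0) {x y : K} (h : E.Nonsingular x y) :
    ∃ h' : E.Nonsingular x (-y), -Point.some x y h = Point.some x (-y) h' := by
  have e := short_negY ha₁ ha₃ x y
  have h' : E.Nonsingular x (-y) := e ▸ (Affine.nonsingular_neg x y).mpr h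
  refine ⟨h', ?_⟩
  rw [Point.neg_some]
  simp only [Point.some.injEq, true_and]
  exact e

/-- `(x, y) + (x, -y) = 0` on a short Weierstrass curve. -/
theorem short_add_self_neg (ha₁ : E.a₁ = 0) (ha₃ : E.a₃ = 0) {x y : K}
    (h : E.Nonsingular x y) (h' : E.Nonsingular x (-y)) :
    Point.some x y h + Point.some x (-y) h' = 0 :=
  Point.add_of_Y_eq rfl (by rw [short_negY ha₁ ha₃, neg_neg])

/-- Doubling on a short Weierstrass curve, in cleared form. -/
theorem short_double (ha₁ : E.a₁ = 0) (ha₂ : E.a₂ = 0) (ha₃ : E.a₃ = 0) {x y s x' y' : K}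
    (h : E.Nonsingular x y) (hy : y ≠ 0) (hs : s * (2 * y) = 3 * x ^ 2 + E.a₄)
    (hx' : x' = s ^ 2 - 2 * x) (hy' : y' = -(s * (x' - x) + y)) :
    ∃ h' : E.Nonsingular x' y', Point.some x y h + Point.some x y h = Point.some x' y' h' := by
  have h2 : (2 : K) ≠ 0 := by
    intro h2
    have h3 : s * (2 * y) = 0 := by rw [h2, zero_mul, mul_zero]
    -- in characteristic 2 the curve `y² = x³ + a₄ x + a₆` is singular at every point
    have hns := (Affine.nonsingular_iff' x y).mp h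
    rcases hns.2 with hX | hY
    · apply hX
      rw [ha₁, ha₂, zero_mul, mul_zero, zero_mul, add_zero, zero_sub, neg_eq_zero, ← hs, h3]
    · apply hY
      rw [ha₁, ha₃, h2, zero_mul, zero_mul, add_zero, add_zero]
  have hne : y ≠ E.negY x y := by
    rw [short_negY ha₁ ha₃]
    intro hyy
    apply hy
    have : (2 : K) * y = 0 := by linear_combination hyy
    rcases mul_eq_zero.mp this with h | h
    · exact absurd h h2
    · exact h
  have hxy : ¬(x = x ∧ y = E.negY x y) := fun hh => hne hh.2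
  have hslope : E.slope x x y y = s := by
    rw [Affine.slope_of_Y_ne rfl hne, short_negY ha₁ ha₃, ha₁, ha₂]
    have hd : y - -y ≠ 0 := by
      rw [sub_neg_eq_add, ← two_mul]
      exact mul_ne_zero h2 hy
    rw [div_eq_iff hd]
    linear_combination -hs
  have hX : E.addX x x (E.slope x x y y) = x' := by
    rw [hslope, Affine.addX, ha₁, ha₂, hx']
    ring
  have hY : E.addY x x y (E.slope x x y y) = y' := by
    rw [Affine.addY, Affine.negAddY, hX, hslope, short_negY ha₁ ha₃, hy']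
  have hns := Affine.nonsingular_add h h hxy
  rw [hX, hY] at hns
  refine ⟨hns, ?_⟩
  rw [Point.add_some hxy]
  simp only [Point.some.injEq]
  exact ⟨hX, hY⟩

/-- Addition of two points with different `x`-coordinates on a short Weierstrass curve, in
cleared form. -/
theorem short_add (ha₁ : E.a₁ = 0) (ha₂ : E.a₂ = 0) (ha₃ : E.a₃ = 0)
    {x₁ y₁ x₂ y₂ l x₃ y₃ : K} (h₁ : E.Nonsingular x₁ y₁) (h₂ : E.Nonsingular x₂ y₂)
    (hx : x₁ ≠ x₂) (hl : l * (x₁ - x₂) = y₁ - y₂) (hx₃ : x₃ = l ^ 2 - x₁ - x₂)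
    (hy₃ : y₃ = -(l * (x₃ - x₁) + y₁)) :
    ∃ h' : E.Nonsingular x₃ y₃,
      Point.some x₁ y₁ h₁ + Point.some x₂ y₂ h₂ = Point.some x₃ y₃ h' := by
  have hxy : ¬(x₁ = x₂ ∧ y₁ = E.negY x₂ y₂) := fun hh => hx hh.1
  have hslope : E.slope x₁ x₂ y₁ y₂ = l := by
    rw [Affine.slope_of_X_ne hx, div_eq_iff (sub_ne_zero.mpr hx)]
    exact hl.symm
  have hX : E.addX x₁ x₂ (E.slope x₁ x₂ y₁ y₂) = x₃ := by
    rw [hslope, Affine.addX, ha₁, ha₂, hx₃]
    ring
  have hY : E.addY x₁ x₂ y₁ (E.slope x₁ x₂ y₁ y₂) = y₃ := by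
    rw [Affine.addY, Affine.negAddY, hX, hslope, short_negY ha₁ ha₃, hy₃]
  have hns := Affine.nonsingular_add h₁ h₂ hxy
  rw [hX, hY] at hns
  refine ⟨hns, ?_⟩
  rw [Point.add_some hxy]
  simp only [Point.some.injEq]
  exact ⟨hX, hY⟩

end law

section model

variable {K : Type*} [Field K]

/-- Every solution of `y² = x³ - 27 c₄ x - 54 c₆` is a nonsingular point of the short model
when `c₄³ ≠ c₆²` and `6 ≠ 0`. -/
theorem shortModel_nonsingular_iff (h6 : (6 : K) ≠ 0) {c₄ c₆ : K} (hΔ : c₄ ^ 3 ≠ c₆ ^ 2)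
    {x y : K} :
    (shortModel c₄ c₆).toAffine.Nonsingular x y ↔ y ^ 2 = x ^ 3 - 27 * c₄ * x - 54 * c₆ := by
  have h2 : (2 : K) ≠ 0 := fun h => h6 (by rw [show (6 : K) = 2 * 3 by norm_num, h, zero_mul])
  have h3 : (3 : K) ≠ 0 := fun h => h6 (by rw [show (6 : K) = 2 * 3 by norm_num, h, mul_zero])
  have hD : (shortModel c₄ c₆).Δ ≠ 0 := by
    rw [shortModel_Δ]
    exact mul_ne_zero (mul_ne_zero (pow_ne_zero _ h2) (pow_ne_zero _ h3)) (sub_ne_zero.mpr hΔ)
  rw [← Affine.equation_iff_nonsingular_of_Δ_ne_zero hD, shortModel_equation]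

end model

section galois

/-- The Galois action on the points of a curve over `ℚ`, in coordinates. -/
theorem smul_some (E : WeierstrassCurve ℚ)
    (σ : AlgebraicClosure ℚ ≃ₐ[ℚ] AlgebraicClosure ℚ) {x y : AlgebraicClosure ℚ}
    (h : (E⁄(AlgebraicClosure ℚ)).toAffine.Nonsingular x y) :
    ∃ h' : (E⁄(AlgebraicClosure ℚ)).toAffine.Nonsingular (σ x) (σ y),
      σ • (Point.some x y h : (E⁄(AlgebraicClosure ℚ)).toAffine.Point) =
        Point.some (σ x) (σ y) h' :=
  ⟨_, rfl⟩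

/-- Nonsingular points of the short model over `ℚ̄`, from raw coordinates. -/
theorem shortQ_nonsingular_iff {c₄ c₆ : ℚ} (hΔ : c₄ ^ 3 ≠ c₆ ^ 2) {x y : AlgebraicClosure ℚ} :
    ((shortQ c₄ c₆)⁄(AlgebraicClosure ℚ)).toAffine.Nonsingular x y ↔
      y ^ 2 = x ^ 3 - 27 * (algebraMap ℚ (AlgebraicClosure ℚ) c₄) * x -
        54 * (algebraMap ℚ (AlgebraicClosure ℚ) c₆) := by
  rw [shortQ_baseChange]
  refine shortModel_nonsingular_iff (by norm_num) ?_
  intro h
  apply hΔ
  apply (algebraMap ℚ (AlgebraicClosure ℚ)).injective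
  rw [map_pow, map_pow]
  exact h

end galois

end Fermat.Agent.P7.helper19
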