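import Fermat.Agent.P7.helper52_CEDefs

/-!
# P7 [CE-SUBST] (helper19): substitution endomorphisms of the function field

For a point `X = (u, v)` of `W` over the function field `k(E)` (vocabulary of
`helper52_CEDefs`) the evaluation `k[E] → k(E)`, `(x, y) ↦ (u, v)` is injective unless `u` is
algebraic over `k` (going-up for the finite extension `k[x] ⊆ k[E]`); an injective evaluation
extends to a ring endomorphism of `k(E)` which is the identity on `k` and maps the generic point
to `X`.

* `subst_of_algClosedIn` : the conclusion of `helper52.SubstStatement` for every field `k` whose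
  algebraic elements in `k(E)` are constants (no hypothesis on `Δ`);
* `subst_of_isAlgClosed` : the same for `k` algebraically closed.
-/

set_option autoImplicit false
set_option linter.style.haveILetI false

open WeierstrassCurve WeierstrassCurve.Affine Polynomial
open scoped WeierstrassCurve.Affine Classical Polynomial.Bivariate

namespace Fermat.Agent.P7.helper19

open Fermat.Agent.P6.helper78 Fermat.Agent.P7.helper52

section subst

variable (W : WeierstrassCurve ℤ) (k : Type) [Field k]

/-- The curve over `k(E)` is the base change of the curve over `k`. -/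
lemma subst_curve_eq :
    (WkE W k).map (algebraMap k (KE W k)) = W.map (Int.castRingHom (KE W k)) := by
  show (W.map (Int.castRingHom k)).map (algebraMap k (KE W k)) = _
  rw [WeierstrassCurve.map_map]
  congr 1
  exact RingHom.ext_int _ _

variable {W k}

/-- The Weierstrass polynomial of the curve over `k` vanishes at every point over `k(E)`. -/
lemma subst_eval₂_polynomial {u v : KE W k}
    (h : (W.map (Int.castRingHom (KE W k))).toAffine.Equation u v) :
    (WkE W k).polynomial.eval₂ (eval₂RingHom (algebraMap k (KE W k)) u) v = 0 := by
  rw [eval₂_eval₂RingHom_apply, ← Affine.map_polynomial]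
  have := subst_curve_eq W k
  rw [Affine.Equation] at h
  rw [← h]
  congr 2

/-- The evaluation homomorphism `k[E] → k(E)` at a point over `k(E)`. -/
noncomputable def substCoord {u v : KE W k}
    (h : (W.map (Int.castRingHom (KE W k))).toAffine.Equation u v) :
    (WkE W k).CoordinateRing →+* KE W k :=
  AdjoinRoot.lift (eval₂RingHom (algebraMap k (KE W k)) u) v (subst_eval₂_polynomial h)

lemma substCoord_mk {u v : KE W k}
    (h : (W.map (Int.castRingHom (KE W k))).toAffine.Equation u v) (g : k[X][Y]) :
    substCoord h (CoordinateRing.mk (WkE W k) g) =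
      g.eval₂ (eval₂RingHom (algebraMap k (KE W k)) u) v :=
  AdjoinRoot.lift_mk _ g

lemma substCoord_X {u v : KE W k}
    (h : (W.map (Int.castRingHom (KE W k))).toAffine.Equation u v) :
    substCoord h (CoordinateRing.mk (WkE W k) (C X)) = u := by
  rw [substCoord_mk, eval₂_C]
  simp

lemma substCoord_Y {u v : KE W k}
    (h : (W.map (Int.castRingHom (KE W k))).toAffine.Equation u v) :
    substCoord h (CoordinateRing.mk (WkE W k) Y) = v := by
  rw [substCoord_mk, eval₂_X]

lemma substCoord_const {u v : KE W k}
    (h : (W.map (Int.castRingHom (KE W k))).toAffine.Equation u v) (c : k) :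
    substCoord h (CoordinateRing.mk (WkE W k) (C (C c))) = algebraMap k (KE W k) c := by
  rw [substCoord_mk, eval₂_C]
  simp

lemma substCoord_algebraMap_poly {u v : KE W k}
    (h : (W.map (Int.castRingHom (KE W k))).toAffine.Equation u v) (p : k[X]) :
    substCoord h (algebraMap k[X] (WkE W k).CoordinateRing p) = aeval u p := by
  show substCoord h (CoordinateRing.mk (WkE W k) (C p)) = _
  rw [substCoord_mk, eval₂_C]
  rfl

/-- If the evaluation homomorphism at `(u, v)` is not injective then `u` is algebraic over
`k`. -/
lemma subst_isAlgebraic_of_not_injective {u v : KE W k}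
    (h : (W.map (Int.castRingHom (KE W k))).toAffine.Equation u v)
    (hinj : ¬ Function.Injective (substCoord h)) : IsAlgebraic k u := by
  have hker : RingHom.ker (substCoord h) ≠ ⊥ := by
    intro h0
    exact hinj ((RingHom.injective_iff_ker_eq_bot _).mpr h0)
  haveI : Module.Finite k[X] (WkE W k).CoordinateRing :=
    Module.Finite.of_basis (CoordinateRing.basis (WkE W k))
  haveI : Algebra.IsIntegral k[X] (WkE W k).CoordinateRing := Algebra.IsIntegral.of_finite _ _
  have hcomap : (RingHom.ker (substCoord h)).comap
      (algebraMap k[X] (WkE W k).CoordinateRing) ≠ ⊥ :=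
    fun h0 => hker (Ideal.eq_bot_of_comap_eq_bot h0)
  obtain ⟨p, hp, hp0⟩ := (Submodule.ne_bot_iff _).mp hcomap
  refine ⟨p, hp0, ?_⟩
  rw [Ideal.mem_comap, RingHom.mem_ker, substCoord_algebraMap_poly] at hp
  exact hp

/-- If `u` is a constant then `v` is integral over `k`. -/
lemma subst_isIntegral_of_const {c : k} {v : KE W k}
    (h : (W.map (Int.castRingHom (KE W k))).toAffine.Equation (algebraMap k (KE W k) c) v) :
    IsIntegral k v := by
  refine ⟨(WkE W k).polynomial.map (evalRingHom c),
    (Affine.monic_polynomial (W := WkE W k)).map _, ?_⟩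
  have h0 := subst_eval₂_polynomial h
  have e : (algebraMap k (KE W k)).comp (evalRingHom c) =
      eval₂RingHom (algebraMap k (KE W k)) (algebraMap k (KE W k) c) := by
    ext x
    · simp
    · simp
  rw [eval₂_map, e]
  exact h0

/-- The extension of an injective evaluation homomorphism to `k(E)`. -/
noncomputable def substHom {u v : KE W k}
    (h : (W.map (Int.castRingHom (KE W k))).toAffine.Equation u v)
    (hinj : Function.Injective (substCoord h)) : KE W k →+* KE W k :=
  (IsFractionRing.lift hinj : (WkE W k).FunctionField →+* KE W k)

lemma substHom_ofCoord {u v : KE W k}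
    (h : (W.map (Int.castRingHom (KE W k))).toAffine.Equation u v)
    (hinj : Function.Injective (substCoord h)) (g : (WkE W k).CoordinateRing) :
    substHom h hinj (ofCoord W k g) = substCoord h g :=
  IsFractionRing.lift_algebraMap (K := (WkE W k).FunctionField) hinj g

lemma subst_some_congr {F : Type} [Field F] {E : Affine F} {x x' y y' : F}
    (h : E.Nonsingular x y) (h' : E.Nonsingular x' y') (hx : x = x') (hy : y = y') :
    Point.some x y h = Point.some x' y' h' := by
  subst hx hy
  rfl

lemma algebraMap_eq_ofCoord (c : k) :
    algebraMap k (KE W k) c = ofCoord W k (CoordinateRing.mk (WkE W k) (C (C c))) := rfl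

end subst

/-- **[CE-SUBST]** for a field of constants that is algebraically closed in `k(E)`: for every
non-constant point `X` of `W(k(E))` there is a ring endomorphism of `k(E)`, identity on `k`,
mapping the generic point to `X`. -/
theorem subst_of_algClosedIn (W : WeierstrassCurve ℤ) (k : Type) [Field k]
    (halg : ∀ u : KE W k, IsAlgebraic k u → u ∈ Set.range (algebraMap k (KE W k)))
    (P₀ X : PtK W (KE W k)) (hP₀ : IsGenericPt W k P₀)
    (hX : ¬ ∃ Q : PtK W k, X = constPt W k Q) :
    ∃ s : KE W k →ₐ[ℤ] KE W k,
      (∀ c : k, s (algebraMap k (KE W k) c) = algebraMap k (KE W k) c) ∧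
      Point.map (W' := W) s P₀ = X := by
  obtain ⟨hgen, rfl⟩ := hP₀
  cases X with
  | zero => exact absurd ⟨0, rfl⟩ hX
  | some u v huv =>
    have heq : (W.map (Int.castRingHom (KE W k))).toAffine.Equation u v := huv.left
    have hinj : Function.Injective (substCoord heq) := by
      by_contra hni
      obtain ⟨c, hc⟩ := halg u (subst_isAlgebraic_of_not_injective heq hni)
      subst hc
      obtain ⟨d, hd⟩ := halg v (subst_isIntegral_of_const heq).isAlgebraic
      subst hd
      apply hX
      have hns : (W.map (Int.castRingHom k)).toAffine.Nonsingular c d := by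
        have h1 := huv
        rw [← subst_curve_eq W k] at h1
        exact (Affine.map_nonsingular (W := WkE W k) (f := algebraMap k (KE W k))
          (algebraMap k (KE W k)).injective c d).mp h1
      exact ⟨Point.some c d hns, rfl⟩
    refine ⟨RingHom.toIntAlgHom (substHom heq hinj), ?_, ?_⟩
    · intro c
      show substHom heq hinj (algebraMap k (KE W k) c) = _
      rw [algebraMap_eq_ofCoord c, substHom_ofCoord, substCoord_const]
      rfl
    · have ex : substHom heq hinj (xK W k) = u := by
        show substHom heq hinj (ofCoord W k _) = u
        rw [substHom_ofCoord, substCoord_X]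
      have ey : substHom heq hinj (yK W k) = v := by
        show substHom heq hinj (ofCoord W k _) = v
        rw [substHom_ofCoord, substCoord_Y]
      exact subst_some_congr _ _ ex ey

/-- Over an algebraically closed field the constants are algebraically closed in `k(E)`. -/
theorem algClosedIn_of_isAlgClosed (W : WeierstrassCurve ℤ) (k : Type) [Field k]
    [IsAlgClosed k] (u : KE W k) (hu : IsAlgebraic k u) :
    u ∈ Set.range (algebraMap k (KE W k)) := by
  have hint : IsIntegral k u := hu.isIntegral
  have hdeg : (minpoly k u).degree = 1 :=
    IsAlgClosed.degree_eq_one_of_irreducible k (minpoly.irreducible hint)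
  exact minpoly.mem_range_of_degree_eq_one k u hdeg

/-- **[CE-SUBST]** over an algebraically closed field of constants. -/
theorem subst_of_isAlgClosed (W : WeierstrassCurve ℤ) (k : Type) [Field k] [IsAlgClosed k]
    (P₀ X : PtK W (KE W k)) (hP₀ : IsGenericPt W k P₀)
    (hX : ¬ ∃ Q : PtK W k, X = constPt W k Q) :
    ∃ s : KE W k →ₐ[ℤ] KE W k,
      (∀ c : k, s (algebraMap k (KE W k) c) = algebraMap k (KE W k) c) ∧
      Point.map (W' := W) s P₀ = X :=
  subst_of_algClosedIn W k (algClosedIn_of_isAlgClosed W k) P₀ X hP₀ hX

end Fermat.Agent.P7.helper19
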