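import Mathlib
import Fermat.Agent.P7.helper47_ChoiceDefs
import Fermat.Agent.Cheb.helper91_ChebWFinal
import Fermat.Agent.P6.helper31_NChebE
import Fermat.Agent.S14.helper91_Dictionary

/-!
# P7 / S52, module [AUX]: the auxiliary prime from weak Chebotarev (helper20)

Shapes of `helper47_ChoiceDefs`.

* `not_isSquare_three_of_frobenius` : if a Frobenius element at a place over a prime `r ∉ {2, 3}`
  negates a square root of `3`, then `3` is not a square modulo `r`;
* `aux_of_exists_g` : if some `g ∈ G_ℚ` acts trivially on `E[5]`, fixes the square roots of `-1`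
  and negates the square roots of `-3`, then outside every finite set of primes there is a prime
  `r` with a Frobenius element acting trivially on `E[5]`, fixing the square roots of `-1`, and
  with `3` a non-residue modulo `r` (the conclusion of `AuxStatement`);
* `auxStatement_of_exists_g` : `AuxStatement` from the existence of such a `g` for every
  semistable model.
-/

set_option autoImplicit false
set_option linter.unusedSectionVars false
set_option linter.style.haveILetI false

open WeierstrassCurve WeierstrassCurve.Affine WeierstrassCurve.Affine.Point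

namespace Fermat.Agent.P7.helper20

open Fermat.Agent.P7.helper47

/-! ### Powers of an automorphism -/

theorem pow_apply_of_apply_eq (g : CGQ) (x : CQb) (h : g x = x) (k : ℕ) : (g ^ k) x = x := by
  induction k with
  | zero => rfl
  | succ k ih => rw [pow_succ, AlgEquiv.mul_apply, h, ih]

theorem pow_apply_of_apply_eq_neg (g : CGQ) (x : CQb) (h : g x = -x) (k : ℕ) :
    (g ^ k) x = (-1) ^ k * x := by
  induction k with
  | zero => simp
  | succ k ih =>
    rw [pow_succ, AlgEquiv.mul_apply, h, map_neg, ih]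
    ring

/-! ### The non-residue -/

/-- If a Frobenius element at a place over the prime `r ∉ {2, 3}` negates a square root of `3`,
then `3` is not a square modulo `r`. -/
theorem not_isSquare_three_of_frobenius {r : ℕ} (hr : r.Prime) (hr2 : r ≠ 2) (hr3 : r ≠ 3)
    (A : ValuationSubring CQb) (hA : A.LiesOverPrime r) (φ : CGQ) (hφ : A.IsFrobeniusAt φ r)
    (s : CQb) (hs : s ^ 2 = 3) (hφs : φ s = -s) : ¬ IsSquare (3 : ZMod r) := by
  haveI : Fact r.Prime := ⟨hr⟩
  rintro ⟨c, hc⟩
  -- `s` is integral at `A`
  have hs0 : s ≠ 0 := by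
    rintro rfl
    norm_num at hs
  have hsA : s ∈ A := by
    rcases A.mem_or_inv_mem s with h | h
    · exact h
    · have h3 : (3 : CQb) ∈ A := ofNat_mem A 3
      have : s = 3 * s⁻¹ := by
        field_simp
        linear_combination hs
      rw [this]
      exact A.mul_mem _ _ h3 h
  set k := IsLocalRing.ResidueField A with hk
  set res : A →+* k := IsLocalRing.residue A with hres
  set sA : A := ⟨s, hsA⟩ with hsA'
  -- the residue field has characteristic `r`
  have hr0 : ((r : ℕ) : k) = 0 := by
    have h1 : ((r : ℕ) : A) ∈ IsLocalRing.maximalIdeal A := by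
      rw [IsLocalRing.mem_maximalIdeal, mem_nonunits_iff]
      intro hu
      have h2 := (A.mem_nonunits_iff_exists_mem_maximalIdeal).1 hA
      obtain ⟨ha, hmem⟩ := h2
      have h3 : (⟨(r : CQb), ha⟩ : A) = ((r : ℕ) : A) := Subtype.ext (by simp)
      rw [h3] at hmem
      exact (IsLocalRing.mem_maximalIdeal _).1 hmem hu
    have h2 := (IsLocalRing.residue_eq_zero_iff ((r : ℕ) : A)).2 h1
    simpa using h2
  haveI : CharP k r := (CharP.charP_iff_prime_eq_zero hr).2 hr0
  let f : ZMod r →+* k := ZMod.castHom (dvd_refl r) k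
  -- the residue of `s` is `± f c`
  have hsq : res sA ^ 2 = 3 := by
    have h3' : ((3 : A) : CQb) = 3 := map_ofNat A.subtype 3
    have h1 : sA ^ 2 = 3 := Subtype.ext (by
      show s ^ 2 = ((3 : A) : CQb)
      rw [h3', hs])
    rw [← map_pow, h1, map_ofNat]
  have hfc : f c ^ 2 = 3 := by
    rw [← map_pow, pow_two, ← hc, map_ofNat]
  have hcases : res sA = f c ∨ res sA = f (-c) := by
    have h1 : (res sA - f c) * (res sA + f c) = 0 := by
      linear_combination hsq - hfc
    rcases mul_eq_zero.1 h1 with h | h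
    · exact Or.inl (sub_eq_zero.1 h)
    · right
      rw [map_neg]
      linear_combination h
  have hpow : res sA ^ r = res sA := by
    rcases hcases with h | h <;> rw [h, ← map_pow, ZMod.pow_card]
  -- the Frobenius congruence
  have hfrob : A.valuation (φ s - s ^ r) < 1 :=
    Fermat.Agent.S14.helper91.IsFrobeniusAt_valuation_lt_one A hφ hsA
  have hmem : (-sA - sA ^ r : A) ∈ IsLocalRing.maximalIdeal A := by
    rw [A.valuation_lt_one_iff]
    rw [hφs] at hfrob
    simpa using hfrob
  have h0 : -(res sA) - res sA ^ r = 0 := by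
    have := (IsLocalRing.residue_eq_zero_iff (-sA - sA ^ r : A)).2 hmem
    simpa using this
  rw [hpow] at h0
  have h2 : (2 : k) * res sA = 0 := by linear_combination -h0
  have h2ne : (2 : k) ≠ 0 := by
    intro h
    have h3 : ((2 : ℕ) : k) = 0 := by simpa using h
    rw [CharP.cast_eq_zero_iff k r] at h3
    exact hr2 ((Nat.prime_dvd_prime_iff_eq hr Nat.prime_two).1 h3)
  have hres0 : res sA = 0 := (mul_eq_zero.1 h2).resolve_left h2ne
  rw [hres0] at hsq
  have h3 : ((3 : ℕ) : k) = 0 := by
    have : (3 : k) = 0 := by rw [← hsq]; ring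
    simpa using this
  rw [CharP.cast_eq_zero_iff k r] at h3
  exact hr3 ((Nat.prime_dvd_prime_iff_eq hr Nat.prime_three).1 h3)

/-! ### The field generated by `E[n]` and finitely many further elements -/

section Field

variable (E : WeierstrassCurve ℚ) (n : ℕ) (T : Set CQb)

/-- The field generated by the coordinates of the points of `E[n]` and a set `T`. -/
noncomputable def auxField : IntermediateField ℚ CQb :=
  IntermediateField.adjoin ℚ
    ((⋃ P : Submodule.torsionBy ℤ (E⁄CQb).Point n,
      Fermat.Agent.P6.helper31.coords (P : (E⁄CQb).Point)) ∪ T)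

theorem coords_subset_auxField (P : Submodule.torsionBy ℤ (E⁄CQb).Point n) {x : CQb}
    (hx : x ∈ Fermat.Agent.P6.helper31.coords (P : (E⁄CQb).Point)) : x ∈ auxField E n T :=
  IntermediateField.subset_adjoin ℚ _ (Or.inl (Set.mem_iUnion.2 ⟨P, hx⟩))

theorem mem_auxField {x : CQb} (hx : x ∈ T) : x ∈ auxField E n T :=
  IntermediateField.subset_adjoin ℚ _ (Or.inr hx)

theorem finiteDimensional_auxField [Finite (Submodule.torsionBy ℤ (E⁄CQb).Point n)]
    (hT : T.Finite) : FiniteDimensional ℚ (auxField E n T) := by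
  have hfin : ((⋃ P : Submodule.torsionBy ℤ (E⁄CQb).Point n,
      Fermat.Agent.P6.helper31.coords (P : (E⁄CQb).Point)) ∪ T).Finite :=
    (Set.finite_iUnion fun P => Fermat.Agent.P6.helper31.coords_finite _).union hT
  haveI := hfin.to_subtype
  haveI : Algebra.IsAlgebraic ℚ CQb := AlgebraicClosure.isAlgebraic ℚ
  exact IntermediateField.finiteDimensional_adjoin
    (fun x _ => (Algebra.IsAlgebraic.isAlgebraic x).isIntegral)

/-- Two automorphisms agreeing on `auxField E n T` act in the same way on `E[n]`. -/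
theorem smul_eq_of_eqOn_auxField (σ σ' : CGQ) (h : ∀ x ∈ auxField E n T, σ x = σ' x)
    (P : Submodule.torsionBy ℤ (E⁄CQb).Point n) : σ • P = σ' • P :=
  Subtype.ext (Fermat.Agent.P6.helper31.smul_eq_of_eqOn_coords σ σ' (P : (E⁄CQb).Point)
    fun x hx => h x (coords_subset_auxField E n T P hx))

end Field

/-! ### The auxiliary prime -/

/-- **[AUX] from `(G)`.**  If `g ∈ G_ℚ` acts trivially on `E[5]`, fixes the square roots of `-1`
and negates the square roots of `-3`, then outside every finite set `S` of primes there is a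
prime `r` with a Frobenius element acting trivially on `E[5]`, fixing the square roots of `-1`,
and such that `3` is not a square modulo `r`. -/
theorem aux_of_exists_g (W : WeierstrassCurve ℤ) (hΔ : W.Δ ≠ 0) (g : CGQ)
    (hg5 : ∀ x : CTors W 5, g • x = x) (hgi : ∀ y : CQb, y ^ 2 = -1 → g y = y)
    (hgs : ∀ s : CQb, s ^ 2 = -3 → g s = -s) (S : Finset ℕ) :
    ∃ (r : ℕ) (A : ValuationSubring CQb) (φ : CGQ),
      r.Prime ∧ r ∉ S ∧ A.LiesOverPrime r ∧ A.IsFrobeniusAt φ r ∧
      (∀ x : CTors W 5, φ • x = x) ∧ (∀ y : CQb, y ^ 2 = -1 → φ y = y) ∧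
      ¬ IsSquare (3 : ZMod r) := by
  set E : WeierstrassCurve ℚ := W.map (Int.castRingHom ℚ) with hE
  have hΔE : E.Δ ≠ 0 := by
    rw [hE, WeierstrassCurve.map_Δ]
    simpa using hΔ
  haveI : Finite (Submodule.torsionBy ℤ (E⁄CQb).Point 5) :=
    Fermat.Agent.P6.helper31.finite_torsionBy_Qbar E hΔE (by norm_num)
  obtain ⟨i, hi⟩ : ∃ i : CQb, i ^ 2 = -1 := IsAlgClosed.exists_pow_nat_eq (-1) (by norm_num)
  obtain ⟨s, hs⟩ : ∃ s : CQb, s ^ 2 = -3 := IsAlgClosed.exists_pow_nat_eq (-3) (by norm_num)
  haveI := finiteDimensional_auxField E 5 {i, s} (Set.toFinite _)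
  obtain ⟨r, A, φ, hr, hrS, hA, hφ, -, ⟨j, hj⟩, ⟨k, hk⟩⟩ :=
    Fermat.Agent.Cheb.helper91.weakChebotarev_finite (auxField E 5 {i, s}) g (S ∪ {2, 3})
  have hrS' : r ∉ S := fun h => hrS (Finset.mem_union_left _ h)
  have hr2 : r ≠ 2 := by
    rintro rfl
    exact hrS (Finset.mem_union_right _ (by simp))
  have hr3 : r ≠ 3 := by
    rintro rfl
    exact hrS (Finset.mem_union_right _ (by simp))
  have hiL : i ∈ auxField E 5 {i, s} := mem_auxField E 5 _ (by simp)
  have hsL : s ∈ auxField E 5 {i, s} := mem_auxField E 5 _ (by simp)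
  -- `φ` fixes `i`
  have hφi : φ i = i := by
    rw [← hk i hiL]
    exact pow_apply_of_apply_eq g i (hgi i hi) k
  -- `φ` negates `s`
  have hs0 : s ≠ 0 := by
    rintro rfl
    norm_num at hs
  have hφs : φ s = -s := by
    have h1 : φ s = (-1) ^ k * s := by
      rw [← hk s hsL]
      exact pow_apply_of_apply_eq_neg g s (hgs s hs) k
    rcases Nat.even_or_odd k with hev | hodd
    · exfalso
      rw [hev.neg_one_pow, one_mul] at h1
      have h2 : (φ ^ j) s = s := pow_apply_of_apply_eq φ s h1 j
      rw [hj s hsL, hgs s hs] at h2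
      have h3 : (2 : CQb) * s = 0 := by linear_combination -h2
      rcases mul_eq_zero.1 h3 with h | h
      · norm_num at h
      · exact hs0 h
    · rw [hodd.neg_one_pow] at h1
      rw [h1]
      ring
  refine ⟨r, A, φ, hr, hrS', hA, hφ, ?_, ?_, ?_⟩
  · intro x
    have h1 : φ • x = (g ^ k) • x :=
      smul_eq_of_eqOn_auxField E 5 {i, s} φ (g ^ k) (fun y hy => (hk y hy).symm) x
    rw [h1]
    have h2 : g ∈ MulAction.stabilizer CGQ x := MulAction.mem_stabilizer_iff.2 (hg5 x)
    exact MulAction.mem_stabilizer_iff.1 (Subgroup.pow_mem _ h2 k)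
  · intro y hy
    have h1 : (y - i) * (y + i) = 0 := by linear_combination hy - hi
    rcases mul_eq_zero.1 h1 with h | h
    · rw [sub_eq_zero.1 h, hφi]
    · have : y = -i := by linear_combination h
      rw [this, map_neg, hφi]
  · refine not_isSquare_three_of_frobenius hr hr2 hr3 A hA φ hφ (i * s) ?_ ?_
    · linear_combination s ^ 2 * hi - hs
    · rw [map_mul, hφi, hφs]
      ring

/-- **[AUX]** (`helper47.AuxStatement`) from the existence, for every semistable model, of an
element of `G_ℚ` acting trivially on `E[5]`, fixing `√-1` and negating `√-3`. -/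
theorem auxStatement_of_exists_g
    (h : ∀ W : WeierstrassCurve ℤ, W.Δ ≠ 0 → W.IsSemistableModel →
      ∃ g : CGQ, (∀ x : CTors W 5, g • x = x) ∧ (∀ y : CQb, y ^ 2 = -1 → g y = y) ∧
        (∀ s : CQb, s ^ 2 = -3 → g s = -s)) : AuxStatement := by
  intro W hΔ hW S
  obtain ⟨g, hg5, hgi, hgs⟩ := h W hΔ hW
  exact aux_of_exists_g W hΔ g hg5 hgi hgs S

end Fermat.Agent.P7.helper20
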