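/-
P7 / S52, package [LOC3], part 1 (helper59): abstract unipotence at a node.

Setting of `Fermat.Agent.S05.helper7` (node coordinates `X = x - e`, `M = 2 y + a₁ x + a₃`,
`M ^ 2 = 4 X ^ 3 + C2 X ^ 2 + C1 X` with `|C2| = 1`, `|C1| < 1`, `|2| = 1`).  `f` is a ring
endomorphism of `K` which preserves the valuation, is congruent to the identity on integers,
and moves the root `e` by at most `|C1|`; `φ` is the induced endomorphism of the group of
points.  Then `(φ - 1) ^ 2` kills every point of odd prime order `p`, provided `p`-torsion points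
are integral and `φ` fixes the `p`-torsion points which do not reduce to the node.
No hypothesis on `v C1` (so this covers `p ∤ v(Δ)`), and `f e ≠ e` is allowed.
-/
import Fermat.Agent.S05.helper7_Sawtooth

set_option autoImplicit false
set_option linter.unusedSimpArgs false
set_option linter.unusedVariables false
set_option linter.unusedSectionVars false

namespace Fermat.Agent.P7.helper59

open WeierstrassCurve Fermat.Agent.S05.helper7

variable {K : Type*} [Field K] [DecidableEq K] {Γ₀ : Type*} [LinearOrderedCommGroupWithZero Γ₀]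
  {v : Valuation K Γ₀} {W : WeierstrassCurve K} {e C1 C2 : K}

/-- A point of the middle region and its image under an inertia-like map have opposite signs
after negating the image. -/
lemma oppS_of_inertiaLike (hv : NodeVal v C1 C2) {X M : K} (hpt : IsPt C1 C2 X M)
    (hX : Mid v C1 X) (f : K →+* K) (hfv : ∀ x, v (f x) = v x)
    (hfI : ∀ x, v x ≤ 1 → v (f x - x) < 1) {δ : K} (hδ : v δ ≤ v C1) :
    OppS v X M (f X + δ) (-f M) := by
  unfold OppS
  have hX0 : X ≠ 0 := hX.X_ne_zero
  have hfX0 : f X ≠ 0 := by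
    rw [← Valuation.ne_zero_iff v, hfv]
    exact hX.ne_zero
  have hvM : v M = v X := v_M_eq hv hpt hX
  have hu : v (M / X) ≤ 1 := by
    rw [map_div₀, hvM, div_self hX.ne_zero]
  have h1 := hfI (M / X) hu
  have hpos : 0 < v X := hX.pos
  have key : M * (f X + δ) + -f M * X = M * δ + -(X * f X * (f (M / X) - M / X)) := by
    rw [map_div₀]
    field_simp
    ring
  have hXX' : v (X * (f X + δ)) = v X * v X := by
    have : v (f X + δ) = v X := by
      rw [Valuation.map_add_eq_of_lt_left v (by rw [hfv]; exact lt_of_le_of_lt hδ hX.1), hfv]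
    rw [map_mul, this]
  rw [key, hXX']
  refine lt_of_le_of_lt (Valuation.map_add _ _ _) (max_lt ?_ ?_)
  · rw [map_mul, hvM]
    exact mul_lt_mul_of_pos_left (lt_of_le_of_lt hδ hX.1) hpos
  · rw [Valuation.map_neg, map_mul, map_mul, hfv]
    calc v X * v X * v (f (M / X) - M / X) < v X * v X * 1 :=
          mul_lt_mul_of_pos_left h1 (mul_pos hpos hpos)
      _ = v X * v X := mul_one _

/-- **Abstract unipotence at a node.** -/
theorem node_unipotent (hm : NodeModel W e C1 C2) (hv : NodeVal v C1 C2)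
    {p : ℕ} (hp : p.Prime) (hp2 : p ≠ 2)
    (f : K →+* K) (hfv : ∀ x, v (f x) = v x) (hfI : ∀ x, v x ≤ 1 → v (f x - x) < 1)
    (hfe : v (f e - e) ≤ v C1)
    (φ : W.toAffine.Point →+ W.toAffine.Point)
    (hφ0 : ∀ Q, φ Q = 0 → Q = 0)
    (hφX : ∀ Q, Q ≠ 0 → pX W e (φ Q) = f (pX W e Q) + (f e - e))
    (hφM : ∀ Q, pM W (φ Q) = f (pM W Q))
    (hA : ∀ Q : W.toAffine.Point, p • Q = 0 → Q ≠ 0 → v (pX W e Q) ≤ 1)
    (h0 : ∀ Q : W.toAffine.Point, p • Q = 0 → v (pX W e Q) = 1 → φ Q = Q)
    {P : W.toAffine.Point} (hpP : p • P = 0) : φ (φ P - P) = φ P - P := by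
  by_cases hP : P = 0
  · rw [hP, map_zero, sub_zero, map_zero]
  have hfix_of_eq : φ P = P → φ (φ P - P) = φ P - P := by
    intro h
    rw [h, sub_self, map_zero]
  by_cases hex : ∃ k : ℕ, k • P ≠ 0 ∧ 1 ≤ v (pX W e (k • P))
  · obtain ⟨k, hk, hk1⟩ := hex
    have hpk : p • (k • P) = 0 := by rw [smul_comm, hpP, smul_zero]
    have hfix : φ (k • P) = k • P := h0 _ hpk (le_antisymm (hA _ hpk hk) hk1)
    obtain ⟨j, hj⟩ := exists_nsmul_eq_of_nsmul_ne_zero hp hpP hk
    apply hfix_of_eq
    calc φ P = φ (j • (k • P)) := by rw [hj]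
      _ = j • φ (k • P) := map_nsmul φ j _
      _ = j • (k • P) := by rw [hfix]
      _ = P := hj
  · have hE0 : ∀ k : ℕ, k • P ≠ 0 → v (pX W e (k • P)) < 1 := by
      intro k hk
      by_contra hcon
      exact hex ⟨k, hk, not_lt.mp hcon⟩
    have hmidP : Mid v C1 (pX W e P) := by
      have := mid_of_torsion hm hv hp hp2 hpP hP hE0 1 (by rw [one_nsmul]; exact hP)
      rwa [one_nsmul] at this
    have hptP : IsPt C1 C2 (pX W e P) (pM W P) := isPt_of_ne_zero hm hP
    have hφP : φ P ≠ 0 := fun h => hP (hφ0 P h)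
    have hnφP : -φ P ≠ 0 := neg_ne_zero.mpr hφP
    have hXφ : pX W e (-φ P) = f (pX W e P) + (f e - e) := by
      rw [pX_neg, hφX P hP]
    have hMφ : pM W (-φ P) = -f (pM W P) := by
      rw [pM_neg, hφM]
    have hO : OppS v (pX W e P) (pM W P) (pX W e (-φ P)) (pM W (-φ P)) := by
      rw [hXφ, hMφ]
      exact oppS_of_inertiaLike hv hptP hmidP f hfv hfI hfe
    have hvX' : v (pX W e (-φ P)) = v (pX W e P) := by
      rw [hXφ, Valuation.map_add_eq_of_lt_left v
        (by rw [hfv]; exact lt_of_le_of_lt hfe hmidP.1), hfv]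
    have hmid' : Mid v C1 (pX W e (-φ P)) := by
      unfold Mid
      rw [hvX']
      exact hmidP
    have hpt' : IsPt C1 C2 (pX W e (-φ P)) (pM W (-φ P)) := isPt_of_ne_zero hm hnφP
    have h2 : (2 : K) ≠ 0 := two_ne_zero_of_nodeVal hv
    by_cases hXeq : pX W e P = pX W e (-φ P)
    · -- `P = -φ P` or `P = φ P`
      rcases eq_or_eq_neg_of_pX_eq hm h2 hP hnφP hXeq with h | h
      · -- `P = -φ P`: contradicts the sign
        exfalso
        rw [← h] at hO
        exact not_sameS_and_oppS (sameS_self hv hptP hmidP) hO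
      · rw [neg_neg] at h
        exact hfix_of_eq h.symm
    · by_cases hsum : P + -φ P = 0
      · apply hfix_of_eq
        have : P = φ P := by
          have := eq_neg_of_add_eq_zero_left hsum
          rwa [neg_neg] at this
        exact this.symm
      · obtain ⟨-, -, -, I1⟩ := add_identities hm hP hnφP hsum
        have hge : 1 ≤ v (pX W e (P + -φ P)) :=
          rule_opp_eq hv hpt' hmidP hmid' hO (I1 hXeq) hXeq hvX'.symm
        have hpR : p • (P + -φ P) = 0 := by
          rw [smul_add, smul_neg, hpP, ← map_nsmul, hpP, map_zero, neg_zero, add_zero]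
        have hfixR : φ (P + -φ P) = P + -φ P :=
          h0 _ hpR (le_antisymm (hA _ hpR hsum) hge)
        have e1 : φ P - P = -(P + -φ P) := by abel
        rw [e1, map_neg, hfixR]

end Fermat.Agent.P7.helper59
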