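/-
P7 / S52, package [LOC3] (helper59): the local input at `3` for the auxiliary Chebotarev prime.

* `inertia_unipotent` : for an integral Weierstrass curve `W`, an odd prime `ℓ` with
  `ℓ ∣ Δ → ℓ ∤ c₄` (semistable at `ℓ`), an odd prime `p ≠ ℓ`, a place `A` of `ℚ̄` over `ℓ` and
  `τ` in the inertia group of `A`:  `τ • (τ • P - P) = τ • P - P` for every `P` with `p • P = 0`.
* `inertia_pow_fixes` : hence `τ ^ p` fixes `E[p]` pointwise.
* `exists_loc3` : if `W` is semistable at `3` there is `g ∈ G_ℚ` which fixes `E[5]` pointwise,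
  fixes all `20`-th roots of unity, and has `g s = -s` for every `s` with `s ^ 2 = -3`.

Everything is in the prelude vocabulary (`Tors W p`, `NGQ`, `NQbar`, `FixesRootsOfUnity` of
`Fermat.Agent.P6.helper78_NDefs`).
-/
import Fermat.Agent.P7.helper59_Loc3Core
import Fermat.Agent.P1.helper58_Ram

set_option autoImplicit false
set_option linter.unusedSimpArgs false
set_option linter.unusedVariables false
set_option linter.unusedSectionVars false
set_option linter.style.haveILetI false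

open WeierstrassCurve WeierstrassCurve.Affine
open scoped WeierstrassCurve.Affine

namespace Fermat.Agent.P7.helper59

open Fermat.Agent.S05.helper92 Fermat.Agent.P6.helper65 Fermat.Agent.P6.helper78

noncomputable section

/-- The action of `τ` on the points of the prelude curve, as an additive homomorphism. -/
def galAct (W : WeierstrassCurve ℤ) (τ : NGQ) :
    ((W.map (Int.castRingHom ℚ))⁄NQbar).Point →+ ((W.map (Int.castRingHom ℚ))⁄NQbar).Point :=
  DistribSMul.toAddMonoidHom _ τ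

lemma galAct_apply (W : WeierstrassCurve ℤ) (τ : NGQ)
    (P : ((W.map (Int.castRingHom ℚ))⁄NQbar).Point) : galAct W τ P = τ • P := rfl

lemma galAct_some (W : WeierstrassCurve ℤ) (τ : NGQ) (x y : NQbar)
    (h : ((W.map (Int.castRingHom ℚ))⁄NQbar).Nonsingular x y) :
    ∃ h', galAct W τ (Point.some x y h) = Point.some (τ x) (τ y) h' :=
  ⟨_, rfl⟩

/-- **Inertia at an odd semistable prime is unipotent on `E[p]`** (`p` odd prime, `p ≠ ℓ`). -/
theorem inertia_unipotent (W : WeierstrassCurve ℤ) {ℓ p : ℕ} (hℓ : ℓ.Prime) (hℓ2 : ℓ ≠ 2)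
    (hp : p.Prime) (hp2 : p ≠ 2) (hℓp : ℓ ≠ p) (hss : (ℓ : ℤ) ∣ W.Δ → ¬ (ℓ : ℤ) ∣ W.c₄)
    (A : ValuationSubring NQbar) (hA : A.LiesOverPrime ℓ) (τ : NGQ)
    (hτ : τ ∈ A.inertiaSubgroupIn ℚ) (P : ((W.map (Int.castRingHom ℚ))⁄NQbar).Point)
    (hP : p • P = 0) : τ • (τ • P - P) = τ • P - P := by
  have hE := nred_curve_eq W
  by_cases hΔ : (ℓ : ℤ) ∣ W.Δ
  · exact core_unipotent_of_mult A W hE hℓ hp hℓp hA τ hτ (galAct W τ) (galAct_some W τ)
      hℓ2 hp2 hΔ (hss hΔ) P hP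
  · have h := core_fixes_of_good A W hE hℓ hp hℓp hA τ hτ (galAct W τ) (galAct_some W τ)
      hΔ P hP
    rw [galAct_apply] at h
    rw [h, sub_self, smul_zero]

/-- Inertia at a good prime `ℓ ≠ p` fixes `E[p]` (any `ℓ`, any odd... in fact any prime `p`). -/
theorem inertia_fixes_of_good (W : WeierstrassCurve ℤ) {ℓ p : ℕ} (hℓ : ℓ.Prime)
    (hp : p.Prime) (hℓp : ℓ ≠ p) (hgood : W.IsGoodPrimeFor ℓ)
    (A : ValuationSubring NQbar) (hA : A.LiesOverPrime ℓ) (τ : NGQ)
    (hτ : τ ∈ A.inertiaSubgroupIn ℚ) (P : ((W.map (Int.castRingHom ℚ))⁄NQbar).Point)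
    (hP : p • P = 0) : τ • P = P :=
  core_fixes_of_good A W (nred_curve_eq W) hℓ hp hℓp hA τ hτ (galAct W τ) (galAct_some W τ)
    hgood P hP

/-- A unipotent automorphism: `τ ^ n` acts as `P ↦ P + n • (τ • P - P)`. -/
lemma pow_smul_of_unipotent {M : Type*} [AddCommGroup M] {G : Type*} [Group G]
    [DistribMulAction G M] (τ : G) (P : M) (h : τ • (τ • P - P) = τ • P - P) (n : ℕ) :
    (τ ^ n) • P = P + n • (τ • P - P) := by
  have hN : ∀ k : ℕ, (τ ^ k) • (τ • P - P) = τ • P - P := by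
    intro k
    induction k with
    | zero => rw [pow_zero, one_smul]
    | succ k ih => rw [pow_succ, mul_smul, h, ih]
  induction n with
  | zero => rw [pow_zero, one_smul, zero_smul, add_zero]
  | succ n ih =>
    have e : τ • P = P + (τ • P - P) := (add_sub_cancel P (τ • P)).symm
    calc (τ ^ (n + 1)) • P = (τ ^ n) • (τ • P) := by rw [pow_succ, mul_smul]
      _ = (τ ^ n) • (P + (τ • P - P)) := by rw [← e]
      _ = (τ ^ n) • P + (τ ^ n) • (τ • P - P) := smul_add _ _ _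
      _ = P + n • (τ • P - P) + (τ • P - P) := by rw [ih, hN]
      _ = P + (n + 1) • (τ • P - P) := by rw [succ_nsmul, add_assoc]

/-- `τ ^ p` fixes `E[p]` pointwise, for `τ` in an inertia group at an odd semistable prime
`ℓ ≠ p`. -/
theorem inertia_pow_fixes (W : WeierstrassCurve ℤ) {ℓ p : ℕ} (hℓ : ℓ.Prime) (hℓ2 : ℓ ≠ 2)
    (hp : p.Prime) (hp2 : p ≠ 2) (hℓp : ℓ ≠ p) (hss : (ℓ : ℤ) ∣ W.Δ → ¬ (ℓ : ℤ) ∣ W.c₄)
    (A : ValuationSubring NQbar) (hA : A.LiesOverPrime ℓ) (τ : NGQ)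
    (hτ : τ ∈ A.inertiaSubgroupIn ℚ) (P : ((W.map (Int.castRingHom ℚ))⁄NQbar).Point)
    (hP : p • P = 0) : (τ ^ p) • P = P := by
  have hu := inertia_unipotent W hℓ hℓ2 hp hp2 hℓp hss A hA τ hτ P hP
  rw [pow_smul_of_unipotent τ P hu p]
  have h1 : p • (τ • P - P) = 0 := by
    have hτP : p • (τ • P) = 0 := by
      rw [← galAct_apply, ← map_nsmul, hP, map_zero]
    rw [nsmul_sub, hτP, hP, sub_zero]
  rw [h1, add_zero]

/-- `τ ^ p` fixes the prelude torsion module `Tors W p` pointwise. -/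
theorem inertia_pow_fixes_tors (W : WeierstrassCurve ℤ) {ℓ p : ℕ} (hℓ : ℓ.Prime) (hℓ2 : ℓ ≠ 2)
    (hp : p.Prime) (hp2 : p ≠ 2) (hℓp : ℓ ≠ p) (hss : (ℓ : ℤ) ∣ W.Δ → ¬ (ℓ : ℤ) ∣ W.c₄)
    (A : ValuationSubring NQbar) (hA : A.LiesOverPrime ℓ) (τ : NGQ)
    (hτ : τ ∈ A.inertiaSubgroupIn ℚ) (P : Tors W p) : (τ ^ p) • P = P := by
  apply Subtype.ext
  exact inertia_pow_fixes W hℓ hℓ2 hp hp2 hℓp hss A hA τ hτ P.1 (nred_tors_nsmul W p P)

/-! ### Roots of unity and `√-3` -/

/-- Inertia at `ℓ` fixes the roots of unity of order prime to `ℓ`. -/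
theorem inertia_fixes_rootsOfUnity {ℓ m : ℕ} (hℓ : ℓ.Prime) (hm : ¬ ℓ ∣ m)
    (A : ValuationSubring NQbar) (hA : A.LiesOverPrime ℓ) (τ : NGQ)
    (hτ : τ ∈ A.inertiaSubgroupIn ℚ) : FixesRootsOfUnity m τ := by
  intro ζ hζ
  have hm0 : m ≠ 0 := by
    rintro rfl
    exact hm (dvd_zero _)
  have hζ0 : ζ ≠ 0 := by
    rintro rfl
    rw [zero_pow hm0] at hζ
    exact zero_ne_one hζ
  have hv : A.valuation ζ = 1 := by
    have h1 : A.valuation ζ ^ m = 1 := by rw [← map_pow, hζ, map_one]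
    exact (pow_eq_one_iff_of_nonneg zero_le hm0).mp h1
  have hmem : ζ ∈ A := (A.valuation_le_one_iff _).mp hv.le
  have hinv : ζ⁻¹ ∈ A := by
    rw [← A.valuation_le_one_iff, map_inv₀, hv, inv_one]
  have hmn : ((m : ℕ) : NQbar) ∉ A.nonunits := fun h =>
    hm ((natCast_mem_nonunits_iff hℓ hA m).mp h)
  refine apply_eq_self_of_pow_fixed hτ hmem hinv hmn ?_
  rw [hζ, map_one]

lemma pow_apply_of_fixed (τ : NGQ) {x : NQbar} (h : τ x = x) (n : ℕ) : (τ ^ n) x = x := by
  induction n with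
  | zero => rfl
  | succ n ih => rw [pow_succ, AlgEquiv.mul_apply, h, ih]

lemma pow_apply_of_neg (τ : NGQ) {x : NQbar} (h : τ x = -x) (n : ℕ) :
    (τ ^ n) x = (-1) ^ n * x := by
  induction n with
  | zero => rw [pow_zero, pow_zero, one_mul]; rfl
  | succ n ih =>
    rw [pow_succ, AlgEquiv.mul_apply, h, map_neg, ih]
    ring

/-- An element of `G_ℚ` with nontrivial mod `3` cyclotomic character negates every square root
of `-3`. -/
theorem apply_sqrt_neg_three (τ : NGQ) (hτ : ExtCitation.cycloChar 3 τ ≠ 1) {s : NQbar}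
    (hs : s ^ 2 = -3) : τ s = -s := by
  have h2 : (2 : NQbar) ≠ 0 := two_ne_zero
  -- `ζ = (-1 + s) / 2` is a primitive cube root of unity
  have hroot : ((-1 + s) / 2) ^ 2 + (-1 + s) / 2 + 1 = 0 := by
    field_simp
    linear_combination hs
  have hprim : IsPrimitiveRoot ((-1 + s) / 2) 3 := by
    rw [← Polynomial.isRoot_cyclotomic_iff, Polynomial.cyclotomic_three]
    simp only [Polynomial.IsRoot, Polynomial.eval_add, Polynomial.eval_pow, Polynomial.eval_X,
      Polynomial.eval_one]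
    exact hroot
  have hne : τ ((-1 + s) / 2) ≠ (-1 + s) / 2 := by
    intro h
    apply hτ
    have := (Fermat.Agent.S14.helper54.mem_ker_cycloChar_iff hprim τ).mpr h
    exact MonoidHom.mem_ker.mp this
  have hsq : (τ s) ^ 2 = s ^ 2 := by
    rw [← map_pow, hs, map_neg, map_ofNat]
  rcases sq_eq_sq_iff_eq_or_eq_neg.mp hsq with h | h
  · exfalso
    apply hne
    rw [map_div₀, map_add, map_neg, map_one, map_ofNat, h]
  · exact h

/-- **[LOC3]** If `W` is semistable at `3`, there is `g ∈ G_ℚ` which fixes `E[5]` pointwise,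
fixes all `20`-th roots of unity, and negates the square roots of `-3`. -/
theorem exists_loc3 (W : WeierstrassCurve ℤ) (h3 : (3 : ℤ) ∣ W.Δ → ¬ (3 : ℤ) ∣ W.c₄) :
    ∃ g : NGQ, (∀ P : Tors W 5, g • P = P) ∧ FixesRootsOfUnity 20 g ∧
      (∀ s : NQbar, s ^ 2 = -3 → g s = -s) ∧ ExtCitation.cycloChar 3 g ≠ 1 := by
  have hp3 : Nat.Prime 3 := Nat.prime_three
  have hp5 : Nat.Prime 5 := Nat.prime_five
  haveI : Fact (Nat.Prime 3) := ⟨hp3⟩
  obtain ⟨A, hA⟩ := Fermat.Agent.S54.helper91.exists_valuationSubring_liesOver hp3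
  obtain ⟨τ, hτ, hχ⟩ := Fermat.Agent.P1.helper58.cycloRamified 3 (by norm_num) A hA
  have hss : ((3 : ℕ) : ℤ) ∣ W.Δ → ¬ ((3 : ℕ) : ℤ) ∣ W.c₄ := by
    simpa using h3
  have hfix20 : FixesRootsOfUnity 20 τ :=
    inertia_fixes_rootsOfUnity hp3 (by norm_num) A hA τ hτ
  have hneg : ∀ s : NQbar, s ^ 2 = -3 → (τ ^ 5) s = -s := by
    intro s hs
    rw [pow_apply_of_neg τ (apply_sqrt_neg_three τ hχ hs) 5]
    ring
  refine ⟨τ ^ 5, ?_, ?_, hneg, ?_⟩
  · intro P
    exact inertia_pow_fixes_tors W hp3 (by norm_num) hp5 (by norm_num) (by norm_num) hss A hA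
      τ hτ P
  · intro ζ hζ
    exact pow_apply_of_fixed τ (hfix20 ζ hζ) 5
  · -- the character of `τ ^ 5` is the character of `τ` (order dividing 2)
    intro h1
    obtain ⟨s, hs⟩ : ∃ s : NQbar, s ^ 2 = -3 := IsAlgClosed.exists_pow_nat_eq (-3) (by norm_num)
    have hs0 : s ≠ 0 := by
      rintro rfl
      norm_num at hs
    have h5 := hneg s hs
    -- but `τ ^ 5` in the kernel of the character fixes the primitive root `(-1 + s) / 2`
    have hroot : ((-1 + s) / 2) ^ 2 + (-1 + s) / 2 + 1 = 0 := by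
      field_simp
      linear_combination hs
    have hprim : IsPrimitiveRoot ((-1 + s) / 2) 3 := by
      rw [← Polynomial.isRoot_cyclotomic_iff, Polynomial.cyclotomic_three]
      simp only [Polynomial.IsRoot, Polynomial.eval_add, Polynomial.eval_pow,
        Polynomial.eval_X, Polynomial.eval_one]
      exact hroot
    have hk := (Fermat.Agent.S14.helper54.mem_ker_cycloChar_iff hprim (τ ^ 5)).mp
      (MonoidHom.mem_ker.mpr h1)
    rw [map_div₀, map_add, map_neg, map_one, map_ofNat, h5] at hk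
    have : s = 0 := by
      have h2 : (2 : NQbar) ≠ 0 := two_ne_zero
      field_simp at hk
      linear_combination (-1 / 2 : NQbar) * hk
    exact hs0 this

end

end Fermat.Agent.P7.helper59
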