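/-
P7 / S52, package [LOC3] (helper59): the deliverables in the shapes of
`Fermat.Agent.P7.helper47_ChoiceDefs` (BLUEPRINT P7-CHOICE v1).

* `unip3 : helper47.Unip3Statement` (verbatim);
* `loc3_g` : the element `g` consumed by [AUX] (helper20, `aux_of_g`): for every semistable `W`
  there is `g ∈ G_ℚ` trivial on `E[5]`, fixing the square roots of `-1`, negating the square
  roots of `-3`.
-/
import Fermat.Agent.P7.helper59_Loc3
import Fermat.Agent.P7.helper47_ChoiceDefs

set_option autoImplicit false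
set_option linter.unusedSimpArgs false
set_option linter.unusedVariables false
set_option linter.unusedSectionVars false
set_option linter.style.haveILetI false

open WeierstrassCurve WeierstrassCurve.Affine
open scoped WeierstrassCurve.Affine

namespace Fermat.Agent.P7.helper59

open Fermat.Agent.P7.helper47 Fermat.Agent.P6.helper65 Fermat.Agent.P6.helper78

/-- **[LOC3]**, verbatim in the blueprint shape. -/
theorem unip3 : Unip3Statement := by
  intro W _ hW A hA τ hτ x
  have hss : ((3 : ℕ) : ℤ) ∣ W.Δ → ¬ ((3 : ℕ) : ℤ) ∣ W.c₄ := hW 3 Nat.prime_three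
  have h := inertia_unipotent W Nat.prime_three (by norm_num) Nat.prime_five (by norm_num)
    (by norm_num) hss A hA τ hτ x.1 (nred_tors_nsmul W 5 x)
  apply Subtype.ext
  show τ • (τ • (x : ((W.map (Int.castRingHom ℚ))⁄NQbar).Point)) -
    (2 : ℤ) • (τ • (x : ((W.map (Int.castRingHom ℚ))⁄NQbar).Point)) + x = 0
  rw [smul_sub] at h
  rw [two_zsmul]
  have e : τ • (τ • (x : ((W.map (Int.castRingHom ℚ))⁄NQbar).Point)) =
      τ • (x : ((W.map (Int.castRingHom ℚ))⁄NQbar).Point) -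
        (x : ((W.map (Int.castRingHom ℚ))⁄NQbar).Point) +
        τ • (x : ((W.map (Int.castRingHom ℚ))⁄NQbar).Point) :=
    sub_eq_iff_eq_add.mp h
  rw [e]
  abel

/-- **[LOC3] (G)**: the element of `G_ℚ` consumed by the Chebotarev step [AUX]. -/
theorem loc3_g (W : WeierstrassCurve ℤ) (_hΔ : W.Δ ≠ 0) (hW : W.IsSemistableModel) :
    ∃ g : CGQ, (∀ x : CTors W 5, g • x = x) ∧ (∀ y : CQb, y ^ 2 = -1 → g y = y) ∧
      (∀ s : CQb, s ^ 2 = -3 → g s = -s) := by
  have hss : (3 : ℤ) ∣ W.Δ → ¬ (3 : ℤ) ∣ W.c₄ := by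
    have := hW 3 Nat.prime_three
    simpa using this
  obtain ⟨g, h1, h2, h3, -⟩ := exists_loc3 W hss
  refine ⟨g, h1, ?_, h3⟩
  intro y hy
  apply h2
  have : y ^ 20 = (y ^ 2) ^ 10 := by ring
  rw [this, hy]
  norm_num

/-- The same `g`, also fixing all `20`-th roots of unity (in particular `ζ₅` and `i`). -/
theorem loc3_g' (W : WeierstrassCurve ℤ) (hW : W.IsSemistableModel) :
    ∃ g : CGQ, (∀ x : CTors W 5, g • x = x) ∧ (∀ ζ : CQb, ζ ^ 20 = 1 → g ζ = ζ) ∧
      (∀ s : CQb, s ^ 2 = -3 → g s = -s) := by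
  have hss : (3 : ℤ) ∣ W.Δ → ¬ (3 : ℤ) ∣ W.c₄ := by
    have := hW 3 Nat.prime_three
    simpa using this
  obtain ⟨g, h1, h2, h3, -⟩ := exists_loc3 W hss
  exact ⟨g, h1, h2, h3⟩

end Fermat.Agent.P7.helper59
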