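import Fermat.Agent.P7.helper20_Aux
import Fermat.Agent.P7.helper59_Loc3Wire

/-!
# P7 / S52, module [AUX], unconditional (helper20)

`auxStatement : helper47.AuxStatement` : for every semistable integral model `W` with `Δ ≠ 0`
and every finite set `S` of primes there is a prime `r ∉ S` with a Frobenius element acting
trivially on `E[5]`, fixing `√-1`, and with `3` a non-residue modulo `r`.

Inputs: `helper59.loc3_g` (inertia at `3`) and `helper20.auxStatement_of_exists_g`
(weak Chebotarev).
-/

set_option autoImplicit false

namespace Fermat.Agent.P7.helper20

/-- **[AUX]**, unconditional. -/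
theorem auxStatement : Fermat.Agent.P7.helper47.AuxStatement :=
  auxStatement_of_exists_g fun W hΔ hW => Fermat.Agent.P7.helper59.loc3_g W hΔ hW

end Fermat.Agent.P7.helper20
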