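/-
P7 / S52, [IRR3-A] (helper20): irreducibility of the mod-`3` representation from ONE auxiliary
prime, pure algebra.

* `psi3_identity` : with `u = 12 X + b₂`,
  `(u² - 3 c₄)² - 12 c₄² - 8 c₆ u = 6912 Ψ₃(X)`.
* `psi3_ne_zero_of_c6_eq_zero` : over a field in which `2 ≠ 0` and `3` is not a square, a
  Weierstrass curve with `c₆ = 0`, `c₄ ≠ 0` has no root of `Ψ₃`.
* `modRepIsIrreducible_three_of_prime` : if `W` is an integral Weierstrass curve with `Δ ≠ 0`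
  and `q` is an odd prime with `q ∣ c₆`, `q ∤ c₄` such that `3` is not a square modulo `q`, then
  `W.ModRepIsIrreducible 3`  (uses `Fermat.Agent.S51.exists_three_data`: a stable line gives a
  rational root of `Ψ₃`).
* `not_isSquare_three_of_mod_twelve` : `3` is not a square modulo a prime `q ≡ 5 mod 12`.
-/
import Mathlib
import Fermat.Agent.S51.Three

set_option autoImplicit false

namespace Fermat.Agent.P7.helper20

theorem psi3_identity {R : Type*} [CommRing R] (W : WeierstrassCurve R) (x : R) :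
    ((12 * x + W.b₂) ^ 2 - 3 * W.c₄) ^ 2 - 12 * W.c₄ ^ 2 - 8 * W.c₆ * (12 * x + W.b₂)
      = 6912 * (3 * x ^ 4 + W.b₂ * x ^ 3 + 3 * W.b₄ * x ^ 2 + 3 * W.b₆ * x + W.b₈) := by
  have h := W.b_relation
  simp only [WeierstrassCurve.c₄, WeierstrassCurve.c₆]
  linear_combination (-1728 : R) * h

/-- Over a field in which `2 ≠ 0` and `3` is not a square, a Weierstrass curve with `c₆ = 0` and
`c₄ ≠ 0` has no root of `Ψ₃`. -/
theorem psi3_ne_zero_of_c6_eq_zero {F : Type*} [Field F] (W : WeierstrassCurve F)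
    (h2 : (2 : F) ≠ 0) (h3 : ¬ IsSquare (3 : F)) (hc6 : W.c₆ = 0) (hc4 : W.c₄ ≠ 0) (x : F) :
    3 * x ^ 4 + W.b₂ * x ^ 3 + 3 * W.b₄ * x ^ 2 + 3 * W.b₆ * x + W.b₈ ≠ 0 := by
  intro h0
  apply h3
  have hid := psi3_identity W x
  rw [h0, hc6, mul_zero, mul_zero, zero_mul, sub_zero] at hid
  have hid' : ((12 * x + W.b₂) ^ 2 - 3 * W.c₄) ^ 2 = 12 * W.c₄ ^ 2 := by
    linear_combination hid
  refine ⟨((12 * x + W.b₂) ^ 2 - 3 * W.c₄) / (2 * W.c₄), ?_⟩
  have h2c : (2 * W.c₄) ≠ 0 := mul_ne_zero h2 hc4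
  field_simp
  linear_combination (-1 : F) * hid'

/-- a rational root of an integral polynomial with leading coefficient `3` gives a root modulo
every prime `q ≠ 3`. -/
theorem exists_root_zmod {b₂ b₄ b₆ b₈ : ℤ} {x : ℚ}
    (hx : 3 * x ^ 4 + (b₂ : ℚ) * x ^ 3 + 3 * (b₄ : ℚ) * x ^ 2 + 3 * (b₆ : ℚ) * x + (b₈ : ℚ) = 0)
    (q : ℕ) [Fact q.Prime] (hq3 : q ≠ 3) :
    ∃ y : ZMod q, 3 * y ^ 4 + (b₂ : ZMod q) * y ^ 3 + 3 * (b₄ : ZMod q) * y ^ 2
      + 3 * (b₆ : ZMod q) * y + (b₈ : ZMod q) = 0 := by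
  have hq : q.Prime := Fact.out
  set n : ℤ := x.num with hn
  set d : ℕ := x.den with hd
  have hd0 : (d : ℚ) ≠ 0 := by
    rw [hd]
    exact_mod_cast x.den_ne_zero
  have hxnd : x = (n : ℚ) / (d : ℚ) := (Rat.num_div_den x).symm
  have hZ : 3 * n ^ 4 + b₂ * n ^ 3 * d + 3 * b₄ * n ^ 2 * d ^ 2 + 3 * b₆ * n * d ^ 3
      + b₈ * d ^ 4 = 0 := by
    have h1 : ((3 * n ^ 4 + b₂ * n ^ 3 * d + 3 * b₄ * n ^ 2 * d ^ 2 + 3 * b₆ * n * d ^ 3
        + b₈ * d ^ 4 : ℤ) : ℚ) = 0 := by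
      push_cast
      rw [hxnd] at hx
      field_simp at hx
      linear_combination hx
    exact_mod_cast h1
  -- `d ∣ 3`
  have hcop : IsCoprime (d : ℤ) n := by
    have := x.reduced
    rw [Nat.Coprime] at this
    have h2 : IsCoprime (n.natAbs : ℤ) (d : ℤ) := Nat.isCoprime_iff_coprime.mpr this
    have h3 : IsCoprime n (d : ℤ) := by
      rcases Int.natAbs_eq n with h | h
      · rw [h]; exact h2
      · rw [h]; exact h2.neg_left
    exact h3.symm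
  have hdvd : (d : ℤ) ∣ 3 * n ^ 4 := by
    refine ⟨-(b₂ * n ^ 3 + 3 * b₄ * n ^ 2 * d + 3 * b₆ * n * d ^ 2 + b₈ * d ^ 3), ?_⟩
    linear_combination hZ
  have hd3 : (d : ℤ) ∣ 3 := by
    have h4 : IsCoprime (d : ℤ) (n ^ 4) := hcop.pow_right
    exact h4.dvd_of_dvd_mul_right hdvd
  have hdq : ((d : ℤ) : ZMod q) ≠ 0 := by
    intro h0
    have h5 : (q : ℤ) ∣ (d : ℤ) := (ZMod.intCast_zmod_eq_zero_iff_dvd _ _).mp h0
    have h6 : (q : ℤ) ∣ 3 := h5.trans hd3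
    have h7 : q ∣ 3 := by exact_mod_cast h6
    exact hq3 ((Nat.prime_dvd_prime_iff_eq hq Nat.prime_three).mp h7)
  have hZq := congrArg (Int.cast : ℤ → ZMod q) hZ
  push_cast at hZq
  push_cast at hdq
  obtain ⟨e, he⟩ : ∃ e : ZMod q, (d : ZMod q) * e = 1 := ⟨_, mul_inv_cancel₀ hdq⟩
  refine ⟨(n : ZMod q) * e, ?_⟩
  linear_combination e ^ 4 * hZq
    - ((b₂ : ZMod q) * (n : ZMod q) ^ 3 * e ^ 3
      + 3 * (b₄ : ZMod q) * (n : ZMod q) ^ 2 * e ^ 2 * (1 + (d : ZMod q) * e)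
      + 3 * (b₆ : ZMod q) * (n : ZMod q) * e
          * (1 + (d : ZMod q) * e + ((d : ZMod q) * e) ^ 2)
      + (b₈ : ZMod q) * (1 + (d : ZMod q) * e + ((d : ZMod q) * e) ^ 2
          + ((d : ZMod q) * e) ^ 3)) * he

/-- **[IRR3-A]** irreducibility modulo `3` from one auxiliary prime. -/
theorem modRepIsIrreducible_three_of_prime (W : WeierstrassCurve ℤ) (hΔ : W.Δ ≠ 0)
    (q : ℕ) [Fact q.Prime] (hq2 : q ≠ 2) (h3 : ¬ IsSquare (3 : ZMod q))
    (hc6 : (q : ℤ) ∣ W.c₆) (hc4 : ¬ (q : ℤ) ∣ W.c₄) :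
    W.ModRepIsIrreducible 3 := by
  have hq : q.Prime := Fact.out
  by_contra h
  obtain ⟨x₃, hx₃⟩ := Fermat.Agent.S51.exists_three_data W hΔ h
  have hq3 : q ≠ 3 := by
    rintro rfl
    apply h3
    refine ⟨0, ?_⟩
    rw [mul_zero]
    exact (ZMod.natCast_self 3)
  obtain ⟨y, hy⟩ := exists_root_zmod hx₃ q hq3
  set V : WeierstrassCurve (ZMod q) := W.map (Int.castRingHom (ZMod q)) with hV
  have h2' : (2 : ZMod q) ≠ 0 := by
    intro h0
    have h1 : ((2 : ℕ) : ZMod q) = 0 := by exact_mod_cast h0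
    have h4 : q ∣ 2 := (ZMod.natCast_eq_zero_iff _ _).mp h1
    exact hq2 ((Nat.prime_dvd_prime_iff_eq hq Nat.prime_two).mp h4)
  have hVc6 : V.c₆ = 0 := by
    rw [hV, WeierstrassCurve.map_c₆]
    exact (ZMod.intCast_zmod_eq_zero_iff_dvd _ _).mpr hc6
  have hVc4 : V.c₄ ≠ 0 := by
    rw [hV, WeierstrassCurve.map_c₄]
    intro h0
    exact hc4 ((ZMod.intCast_zmod_eq_zero_iff_dvd _ _).mp h0)
  have key := psi3_ne_zero_of_c6_eq_zero V h2' h3 hVc6 hVc4 y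
  apply key
  rw [hV, WeierstrassCurve.map_b₂, WeierstrassCurve.map_b₄, WeierstrassCurve.map_b₆,
    WeierstrassCurve.map_b₈]
  exact hy

theorem two_ne_sq_zmod_three : ∀ r : ZMod 3, (2 : ZMod 3) ≠ r * r := by decide

/-- `3` is not a square modulo a prime `q ≡ 5 mod 12`. -/
theorem not_isSquare_three_of_mod_twelve (q : ℕ) [Fact q.Prime] (hq : q % 12 = 5) :
    ¬ IsSquare (3 : ZMod q) := by
  have hq' : q.Prime := Fact.out
  have : Fact (Nat.Prime 3) := ⟨Nat.prime_three⟩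
  have hq3 : q ≠ 3 := by
    rintro rfl
    norm_num at hq
  have hq1 : q % 4 = 1 := by omega
  -- quadratic reciprocity
  have h := ZMod.exists_sq_eq_prime_iff_of_mod_four_eq_one (p := q) (q := 3) hq1
    (by norm_num)
  intro hsq
  have h1 : IsSquare ((3 : ℕ) : ZMod q) := by
    simpa using hsq
  have h2 : IsSquare ((q : ℕ) : ZMod 3) := h.mp h1
  -- `q ≡ 2 mod 3` is not a square modulo `3`
  have hq2 : q % 3 = 2 := by omega
  have h3 : ((q : ℕ) : ZMod 3) = 2 := by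
    have : ((q : ℕ) : ZMod 3) = ((q % 3 : ℕ) : ZMod 3) := by
      rw [ZMod.natCast_mod]
    rw [this, hq2]
    rfl
  rw [h3] at h2
  obtain ⟨r, hr⟩ := h2
  exact two_ne_sq_zmod_three r hr

end Fermat.Agent.P7.helper20
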