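import Fermat.Agent.P7.helper47_KleinVal
import Fermat.Agent.S13.helper38_Adapters

/-!
# P7 / S52, CHOICE: [COP] (helper47)

`cop : CopStatement` - outside `30 Δ(W)` the invariants `c₄(t), c₆(t)` of an integral member of
the family have no common prime factor.
-/

set_option autoImplicit false

namespace Fermat.Agent.P7.helper47

open ValuationSubring
open Fermat.Agent.S05.helper4

/-- `f(a, b) ^ 5 = -Δ(W)` for a base point. -/
theorem kleinF_pow_five (W : WeierstrassCurve ℤ) (a b : CQb)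
    (hH : kleinH a b = -((W.c₄ : ℤ) : CQb)) (hT : kleinT a b = -((W.c₆ : ℤ) : CQb)) :
    kleinF a b ^ 5 = -((W.Δ : ℤ) : CQb) := by
  have h1 := klein_relation a b
  rw [hH, hT] at h1
  have h2 : ((1728 * W.Δ : ℤ) : CQb) = ((W.c₄ ^ 3 - W.c₆ ^ 2 : ℤ) : CQb) := by
    rw [W.c_relation]
  push_cast at h2
  have h3 : (1728 : CQb) ≠ 0 := by norm_num
  apply mul_left_cancel₀ h3
  linear_combination -h1 + h2

section Local

variable {A : ValuationSubring CQb} {ℓ : ℕ}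

theorem not_dvd_of_not_dvd_mul_left {ℓ : ℕ} {m n : ℤ} (h : ¬ (ℓ : ℤ) ∣ m * n) :
    ¬ (ℓ : ℤ) ∣ m := fun h' => h (Dvd.dvd.mul_right h' n)

theorem not_dvd_of_not_dvd_mul_right {ℓ : ℕ} {m n : ℤ} (h : ¬ (ℓ : ℤ) ∣ m * n) :
    ¬ (ℓ : ℤ) ∣ n := fun h' => h (Dvd.dvd.mul_left h' m)

/-- units `2, 3, 5` of `A` when `ℓ ∤ 30` -/
theorem small_units (hℓ : ℓ.Prime) (hA : A.LiesOverPrime ℓ) (h30 : ¬ (ℓ : ℤ) ∣ 30) :
    ((2 : ℕ) : CQb) ∉ A.nonunits ∧ ((3 : ℕ) : CQb) ∉ A.nonunits ∧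
      ((5 : ℕ) : CQb) ∉ A.nonunits := by
  refine ⟨?_, ?_, ?_⟩
  · rw [natCast_mem_nonunits_iff hℓ hA]
    intro h
    exact h30 ((Int.natCast_dvd_natCast.mpr h).trans (by norm_num))
  · rw [natCast_mem_nonunits_iff hℓ hA]
    intro h
    exact h30 ((Int.natCast_dvd_natCast.mpr h).trans (by norm_num))
  · rw [natCast_mem_nonunits_iff hℓ hA]
    intro h
    exact h30 ((Int.natCast_dvd_natCast.mpr h).trans (by norm_num))

/-- the base point is integral at `A` -/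
theorem base_mem_of (W : WeierstrassCurve ℤ) (a b : CQb)
    (hH : kleinH a b = -((W.c₄ : ℤ) : CQb)) (hT : kleinT a b = -((W.c₆ : ℤ) : CQb))
    (h5 : ((5 : ℕ) : CQb) ∉ A.nonunits) : a ∈ A ∧ b ∈ A := by
  refine base_mem h5 ?_ ?_
  · refine mem_of_pow_mem (n := 5) (by norm_num) ?_
    rw [kleinF_pow_five W a b hH hT]
    exact A.neg_mem _ (intCast_mem' _)
  · rw [hH]
    exact A.neg_mem _ (intCast_mem' _)

/-- `f` of the base point is a unit at `A` when `ℓ ∤ Δ` -/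
theorem kleinF_not_mem_nonunits (W : WeierstrassCurve ℤ) (a b : CQb)
    (hH : kleinH a b = -((W.c₄ : ℤ) : CQb)) (hT : kleinT a b = -((W.c₆ : ℤ) : CQb))
    (hℓ : ℓ.Prime) (hA : A.LiesOverPrime ℓ) (hΔ : ¬ (ℓ : ℤ) ∣ W.Δ) :
    kleinF a b ∉ A.nonunits := by
  intro h
  have h1 : kleinF a b ^ 5 ∈ A.nonunits := pow_mem_nonunits' h (by norm_num)
  rw [kleinF_pow_five W a b hH hT] at h1
  have h2 : ((W.Δ : ℤ) : CQb) ∈ A.nonunits := by
    have := neg_mem_nonunits h1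
    simpa using this
  exact hΔ ((intCast_mem_nonunits_iff hℓ hA _).mp h2)

theorem kleinWa_mem {a b : CQb} (ha : a ∈ A) (hb : b ∈ A) : kleinWa a b ∈ A := by
  have : kleinWa a b = ((kleinWa (⟨a, ha⟩ : A) ⟨b, hb⟩ : A) : CQb) :=
    (map_kleinWa A.subtype ⟨a, ha⟩ ⟨b, hb⟩).symm
  rw [this]; exact Subtype.mem _

theorem kleinWb_mem {a b : CQb} (ha : a ∈ A) (hb : b ∈ A) : kleinWb a b ∈ A := by
  have : kleinWb a b = ((kleinWb (⟨a, ha⟩ : A) ⟨b, hb⟩ : A) : CQb) :=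
    (map_kleinWb A.subtype ⟨a, ha⟩ ⟨b, hb⟩).symm
  rw [this]; exact Subtype.mem _

end Local

/-- **[COP]** -/
theorem cop : CopStatement := by
  intro W a b hΔ hH hT ℓ hℓ hℓ30 t C₄ C₆ hC4 hC6 h4 h6
  obtain ⟨A, hA⟩ := Fermat.Agent.S13.helper38.exists_liesOverPrime hℓ
  have h30 : ¬ (ℓ : ℤ) ∣ 30 := not_dvd_of_not_dvd_mul_left hℓ30
  have hΔℓ : ¬ (ℓ : ℤ) ∣ W.Δ := not_dvd_of_not_dvd_mul_right hℓ30
  obtain ⟨u2, u3, u5⟩ := small_units hℓ hA h30
  obtain ⟨ha, hb⟩ := base_mem_of (A := A) W a b hH hT u5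
  have hwa : kleinWa a b ∈ A := kleinWa_mem ha hb
  have hwb : kleinWb a b ∈ A := kleinWb_mem ha hb
  have htA : ((t : ℤ) : CQb) ∈ A := intCast_mem' t
  have hvA : famA a b ((t : ℤ) : CQb) ∈ A := A.add_mem _ _ ha (A.mul_mem _ _ htA hwa)
  have hvB : famB a b ((t : ℤ) : CQb) ∈ A := A.add_mem _ _ hb (A.mul_mem _ _ htA hwb)
  have e4 : kleinH (famA a b ((t : ℤ) : CQb)) (famB a b ((t : ℤ) : CQb)) ∈ A.nonunits := by
    have : kleinH (famA a b ((t : ℤ) : CQb)) (famB a b ((t : ℤ) : CQb)) = -((C₄ : ℤ) : CQb) := by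
      rw [hC4, famC4, neg_neg]
    rw [this]
    exact neg_mem_nonunits ((intCast_mem_nonunits_iff hℓ hA _).mpr h4)
  have e6 : kleinT (famA a b ((t : ℤ) : CQb)) (famB a b ((t : ℤ) : CQb)) ∈ A.nonunits := by
    have : kleinT (famA a b ((t : ℤ) : CQb)) (famB a b ((t : ℤ) : CQb)) = -((C₆ : ℤ) : CQb) := by
      rw [hC6, famC6, neg_neg]
    rw [this]
    exact neg_mem_nonunits ((intCast_mem_nonunits_iff hℓ hA _).mpr h6)
  obtain ⟨k1, k2⟩ := mem_nonunits_of_kleinH_kleinT u2 u3 u5 hvA hvB e4 e6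
  have hdet : (-12 : CQb) * kleinF a b ∈ A.nonunits := by
    rw [← fam_det a b ((t : ℤ) : CQb)]
    exact sub_mem_nonunits (mul_mem_nonunits_right k1 hwb) (mul_mem_nonunits_right k2 hwa)
  have h12 : (-12 : CQb) ∉ A.nonunits := by
    intro h
    have h' : ((12 : ℤ) : CQb) ∈ A.nonunits := by
      have := neg_mem_nonunits h
      simpa using this
    have hd : (ℓ : ℤ) ∣ 12 := (intCast_mem_nonunits_iff hℓ hA _).mp h'
    have hp : Prime (ℓ : ℤ) := Nat.prime_iff_prime_int.mp hℓ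
    have : (ℓ : ℤ) ∣ 2 * 2 * 3 := by simpa using hd
    rcases hp.dvd_or_dvd this with h1 | h1
    · rcases hp.dvd_or_dvd h1 with h2 | h2
      · exact h30 (h2.trans (by norm_num))
      · exact h30 (h2.trans (by norm_num))
    · exact h30 (h1.trans (by norm_num))
  have hFA : kleinF a b ∈ A := by
    refine mem_of_pow_mem (n := 5) (by norm_num) ?_
    rw [kleinF_pow_five W a b hH hT]
    exact A.neg_mem _ (intCast_mem' _)
  have h12A : (-12 : CQb) ∈ A := by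
    have : (-12 : CQb) = ((-12 : ℤ) : CQb) := by norm_num
    rw [this]; exact intCast_mem' _
  rcases mem_nonunits_or_of_mul h12A hFA hdet with h | h
  · exact h12 h
  · exact kleinF_not_mem_nonunits W a b hH hT hℓ hA hΔℓ h

end Fermat.Agent.P7.helper47
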