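import Fermat.Agent.P7.helper47_Cop

/-!
# P7 / S52, CHOICE: [SPEC] (helper47)

`spec : SpecStatement` - the member of the family with `j = 1728` modulo an auxiliary prime `r`
at which a Frobenius element acts trivially on `E[5]` and fixes `√-1`.

Proof: `r₀ = (1, s)`, `s ^ 2 = -1`, is a root of Klein's `T`; the parameter
`τ = -det(v₀, r₀)/det(w₀, r₀)` with `v₀ + τ w₀ ∈ Qb r₀` is fixed by the Frobenius element `φ`
(because `φ v₀ = ε v₀`, `φ w₀ = ε w₀`, `φ r₀ = r₀`), hence congruent to an integer `t₁` modulo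
the maximal ideal; for `t ≡ t₁` the point `v_t` is congruent to `v_τ`, so `T(v_t) ≡ 0`.
-/

set_option autoImplicit false

namespace Fermat.Agent.P7.helper47

open ValuationSubring Polynomial
open Fermat.Agent.S05.helper4

/-- In a field of characteristic `r`, the solutions of `x ^ r = x` are the images of the
natural numbers. -/
theorem exists_natCast_of_pow_eq {k : Type*} [Field k] (r : ℕ) (hr : r.Prime) [CharP k r]
    (x : k) (hx : x ^ r = x) : ∃ n : ℕ, x = n := by
  classical
  have : Fact r.Prime := ⟨hr⟩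
  let f : ZMod r →+* k := ZMod.castHom (dvd_refl r) k
  have hf : Function.Injective f := f.injective
  set p : (ZMod r)[X] := X ^ r - X with hp
  have hroots : p.roots = Finset.univ.val := by
    have := FiniteField.roots_X_pow_card_sub_X (ZMod r)
    rwa [ZMod.card r] at this
  have hdeg : p.natDegree = r := FiniteField.X_pow_card_sub_X_natDegree_eq (ZMod r) hr.one_lt
  have hcard : Multiset.card p.roots = p.natDegree := by
    rw [hroots, hdeg]
    simp [ZMod.card r]
  have hmap := Polynomial.roots_map_of_injective_of_card_eq_natDegree hf hcard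
  have hpm : p.map f = X ^ r - X := by simp [hp]
  have hx' : x ∈ (p.map f).roots := by
    rw [hpm, mem_roots (FiniteField.X_pow_card_sub_X_ne_zero k hr.one_lt)]
    simp [hx]
  rw [← hmap, Multiset.mem_map] at hx'
  obtain ⟨c, -, hc⟩ := hx'
  refine ⟨c.val, ?_⟩
  rw [← hc]
  show f c = ((c.val : ℕ) : k)
  rw [← map_natCast f, ZMod.natCast_zmod_val]

section Val

variable {L : Type*} [Field L] {A : ValuationSubring L}

theorem charP_residue {ℓ : ℕ} (hℓ : ℓ.Prime) (hA : A.LiesOverPrime ℓ) :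
    CharP (IsLocalRing.ResidueField A) ℓ := by
  refine (CharP.charP_iff_prime_eq_zero hℓ).mpr ?_
  have h : (ℓ : L) ∈ A.nonunits := hA
  have h1 : IsLocalRing.residue A ((ℓ : ℕ) : A) = 0 := by
    rw [residue_eq_zero_iff_mem_nonunits]
    simpa using h
  rwa [map_natCast] at h1

/-- a Frobenius element satisfies the Frobenius congruence -/
theorem frob_congr {K : Type*} [Field K] [Algebra K L] {σ : L ≃ₐ[K] L} {q : ℕ}
    (h : A.IsFrobeniusAt σ q) {x : L} (hx : x ∈ A) : σ x - x ^ q ∈ A.nonunits := by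
  have h1 := h.smul_residue_eq (IsLocalRing.residue A ⟨x, hx⟩)
  rw [← IsLocalRing.ResidueField.residue_smul, ← map_pow, ← sub_eq_zero, ← map_sub,
    IsLocalRing.residue_eq_zero_iff, A.valuation_lt_one_iff] at h1
  rw [ValuationSubring.mem_nonunits_iff]
  exact h1

/-- an element of `A` fixed by a Frobenius element at `A` is congruent to an integer -/
theorem exists_int_congr {K : Type*} [Field K] [Algebra K L] {σ : L ≃ₐ[K] L} {q : ℕ}
    (hq : q.Prime) (hA : A.LiesOverPrime q) (h : A.IsFrobeniusAt σ q) {x : L} (hx : x ∈ A)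
    (hfix : σ x = x) : ∃ n : ℕ, x - (n : L) ∈ A.nonunits := by
  have := charP_residue hq hA
  have h1 : IsLocalRing.residue A ⟨x, hx⟩ ^ q = IsLocalRing.residue A ⟨x, hx⟩ := by
    have h2 := frob_congr h hx
    rw [hfix] at h2
    have h3 : IsLocalRing.residue A (⟨x, hx⟩ - ⟨x, hx⟩ ^ q) = 0 := by
      rw [residue_eq_zero_iff_mem_nonunits]
      simpa using h2
    rw [map_sub, map_pow, sub_eq_zero] at h3
    exact h3.symm
  obtain ⟨n, hn⟩ := exists_natCast_of_pow_eq q hq _ h1
  refine ⟨n, ?_⟩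
  have h4 : IsLocalRing.residue A (⟨x, hx⟩ - ((n : ℕ) : A)) = 0 := by
    rw [map_sub, map_natCast, hn, sub_self]
  have := (residue_eq_zero_iff_mem_nonunits _).mp h4
  simpa using this

/-- congruent arguments give congruent values of `T` -/
theorem kleinT_congr {x y x' y' : L} (hx : x ∈ A) (hy : y ∈ A) (hx' : x' ∈ A) (hy' : y' ∈ A)
    (h1 : x - x' ∈ A.nonunits) (h2 : y - y' ∈ A.nonunits) :
    kleinT x y - kleinT x' y' ∈ A.nonunits := by
  have e1 : IsLocalRing.residue A ⟨x, hx⟩ = IsLocalRing.residue A ⟨x', hx'⟩ := by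
    rw [← sub_eq_zero, ← map_sub, residue_eq_zero_iff_mem_nonunits]
    simpa using h1
  have e2 : IsLocalRing.residue A ⟨y, hy⟩ = IsLocalRing.residue A ⟨y', hy'⟩ := by
    rw [← sub_eq_zero, ← map_sub, residue_eq_zero_iff_mem_nonunits]
    simpa using h2
  have e3 : IsLocalRing.residue A (kleinT (⟨x, hx⟩ : A) ⟨y, hy⟩ - kleinT (⟨x', hx'⟩ : A)
      ⟨y', hy'⟩) = 0 := by
    rw [map_sub, map_kleinT, map_kleinT, e1, e2, sub_self]
  have e4 := (residue_eq_zero_iff_mem_nonunits _).mp e3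
  have e5 : ((kleinT (⟨x, hx⟩ : A) ⟨y, hy⟩ - kleinT (⟨x', hx'⟩ : A) ⟨y', hy'⟩ : A) : L)
      = kleinT x y - kleinT x' y' := by
    have a1 := map_kleinT A.subtype ⟨x, hx⟩ ⟨y, hy⟩
    have a2 := map_kleinT A.subtype ⟨x', hx'⟩ ⟨y', hy'⟩
    simp only [ValuationSubring.subtype_apply] at a1 a2
    rw [← a1, ← a2]
    rfl
  rwa [e5] at e4

end Val

/-- `-12 f(a, b)` is a unit at `A` for a base point, `ℓ ∤ 30 Δ`. -/
theorem twelve_kleinF_not_mem_nonunits (W : WeierstrassCurve ℤ) (a b : CQb)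
    (hH : kleinH a b = -((W.c₄ : ℤ) : CQb)) (hT : kleinT a b = -((W.c₆ : ℤ) : CQb))
    {A : ValuationSubring CQb} {ℓ : ℕ} (hℓ : ℓ.Prime) (hA : A.LiesOverPrime ℓ)
    (h30 : ¬ (ℓ : ℤ) ∣ 30) (hΔ : ¬ (ℓ : ℤ) ∣ W.Δ) :
    (-12 : CQb) * kleinF a b ∉ A.nonunits := by
  intro hdet
  have h12 : (-12 : CQb) ∉ A.nonunits := by
    intro h
    have h' : ((12 : ℤ) : CQb) ∈ A.nonunits := by
      have := neg_mem_nonunits h
      simpa using this
    have hd : (ℓ : ℤ) ∣ 12 := (intCast_mem_nonunits_iff hℓ hA _).mp h'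
    have hp : Prime (ℓ : ℤ) := Nat.prime_iff_prime_int.mp hℓ
    have : (ℓ : ℤ) ∣ 2 * 2 * 3 := by simpa using hd
    rcases hp.dvd_or_dvd this with h1 | h1
    · rcases hp.dvd_or_dvd h1 with h2 | h2
      · exact h30 (h2.trans (by norm_num))
      · exact h30 (h2.trans (by norm_num))
    · exact h30 (h1.trans (by norm_num))
  have hFA : kleinF a b ∈ A := by
    refine mem_of_pow_mem (n := 5) (by norm_num) ?_
    rw [kleinF_pow_five W a b hH hT]
    exact A.neg_mem _ (intCast_mem' _)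
  have h12A : (-12 : CQb) ∈ A := by
    have : (-12 : CQb) = ((-12 : ℤ) : CQb) := by norm_num
    rw [this]; exact intCast_mem' _
  rcases mem_nonunits_or_of_mul h12A hFA hdet with h | h
  · exact h12 h
  · exact kleinF_not_mem_nonunits W a b hH hT hℓ hA hΔ h

/-- **[SPEC]** -/
theorem spec : SpecStatement := by
  intro W a b hΔ hab r hr hr30 A hA φ hφ htriv hi
  have h30 : ¬ (r : ℤ) ∣ 30 := not_dvd_of_not_dvd_mul_left hr30
  have hΔr : ¬ (r : ℤ) ∣ W.Δ := not_dvd_of_not_dvd_mul_right hr30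
  obtain ⟨u2, u3, u5⟩ := small_units hr hA h30
  obtain ⟨ha, hb⟩ := base_mem_of (A := A) W a b hab.hH hab.hT u5
  have hwa : kleinWa a b ∈ A := kleinWa_mem ha hb
  have hwb : kleinWb a b ∈ A := kleinWb_mem ha hb
  have hdetu := twelve_kleinF_not_mem_nonunits W a b hab.hH hab.hT hr hA h30 hΔr
  -- the scalar
  obtain ⟨ε, hε, hφa, hφb⟩ := hab.scal φ htriv
  have hε0 : ε ≠ 0 := by
    rintro rfl
    simp at hε
  have hφwa : φ (kleinWa a b) = ε * kleinWa a b := by
    have := map_kleinWa (φ : CQb →+* CQb) a b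
    simp only [RingHom.coe_coe] at this
    rw [this, hφa, hφb, kleinWa_smul]
    linear_combination (kleinWa a b * ε) * hε
  have hφwb : φ (kleinWb a b) = ε * kleinWb a b := by
    have := map_kleinWb (φ : CQb →+* CQb) a b
    simp only [RingHom.coe_coe] at this
    rw [this, hφa, hφb, kleinWb_smul]
    linear_combination (kleinWb a b * ε) * hε
  -- the square root of -1
  obtain ⟨i, hi2⟩ : ∃ i : CQb, i ^ 2 = -1 := IsAlgClosed.exists_pow_nat_eq (-1) (by norm_num)
  have hφi : φ i = i := hi i hi2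
  have hiA : i ∈ A := by
    refine mem_of_pow_mem (n := 2) (by norm_num) ?_
    rw [hi2]; exact A.neg_mem _ A.one_mem
  have hiu : i ∉ A.nonunits := by
    intro h
    have h1 := pow_mem_nonunits' h (n := 2) (by norm_num)
    rw [hi2] at h1
    have h2 := neg_mem_nonunits h1
    rw [neg_neg] at h2
    exact one_not_mem_nonunits h2
  have h2u : (2 : CQb) ∉ A.nonunits := by simpa using u2
  have h2A : (2 : CQb) ∈ A := by
    have : (2 : CQb) = ((2 : ℤ) : CQb) := by norm_num
    rw [this]; exact intCast_mem' _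
  -- choice of the root `(1, s)` of `T`
  obtain ⟨s, hs2, hφs, hsA, hD⟩ : ∃ s : CQb, s ^ 2 = -1 ∧ φ s = s ∧ s ∈ A ∧
      kleinWa a b * s - kleinWb a b ∉ A.nonunits := by
    by_cases h1 : kleinWa a b * i - kleinWb a b ∈ A.nonunits
    · by_cases h2 : kleinWa a b * (-i) - kleinWb a b ∈ A.nonunits
      · exfalso
        have hsum : (2 : CQb) * kleinWb a b ∈ A.nonunits := by
          have := neg_mem_nonunits (add_mem_nonunits h1 h2)
          have e : -(kleinWa a b * i - kleinWb a b + (kleinWa a b * -i - kleinWb a b))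
              = 2 * kleinWb a b := by ring
          rwa [e] at this
        have hdiff : (2 : CQb) * (i * kleinWa a b) ∈ A.nonunits := by
          have := sub_mem_nonunits h1 h2
          have e : kleinWa a b * i - kleinWb a b - (kleinWa a b * -i - kleinWb a b)
              = 2 * (i * kleinWa a b) := by ring
          rwa [e] at this
        have hwbm : kleinWb a b ∈ A.nonunits :=
          (mem_nonunits_or_of_mul h2A hwb hsum).resolve_left h2u
        have hiwam : i * kleinWa a b ∈ A.nonunits :=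
          (mem_nonunits_or_of_mul h2A (A.mul_mem _ _ hiA hwa) hdiff).resolve_left h2u
        have hwam : kleinWa a b ∈ A.nonunits :=
          (mem_nonunits_or_of_mul hiA hwa hiwam).resolve_left hiu
        apply hdetu
        rw [← klein_det a b]
        exact sub_mem_nonunits (mul_mem_nonunits_left ha hwbm) (mul_mem_nonunits_left hb hwam)
      · refine ⟨-i, ?_, ?_, A.neg_mem _ hiA, h2⟩
        · rw [neg_sq]; exact hi2
        · rw [map_neg, hφi]
    · exact ⟨i, hi2, hφi, hiA, h1⟩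
  -- the parameter
  have hDA : kleinWa a b * s - kleinWb a b ∈ A := A.sub_mem (A.mul_mem _ _ hwa hsA) hwb
  have hD0 : kleinWa a b * s - kleinWb a b ≠ 0 := ne_zero_of_not_mem_nonunits hD
  have hDinv : (kleinWa a b * s - kleinWb a b)⁻¹ ∈ A := inv_mem_of_not_mem_nonunits hD
  obtain ⟨τ, hτdef⟩ : ∃ τ : CQb, τ = -(a * s - b) * (kleinWa a b * s - kleinWb a b)⁻¹ :=
    ⟨_, rfl⟩
  have hτA : τ ∈ A := by
    rw [hτdef]
    exact A.mul_mem _ _ (A.neg_mem _ (A.sub_mem (A.mul_mem _ _ ha hsA) hb)) hDinv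
  have hτD : τ * (kleinWa a b * s - kleinWb a b) = -(a * s - b) := by
    rw [hτdef, mul_assoc, inv_mul_cancel₀ hD0, mul_one]
  have hφτ : φ τ = τ := by
    have e1 : φ τ * (ε * (kleinWa a b * s - kleinWb a b)) =
        τ * (ε * (kleinWa a b * s - kleinWb a b)) := by
      have e2 : φ (τ * (kleinWa a b * s - kleinWb a b)) = φ (-(a * s - b)) := by rw [hτD]
      rw [map_mul, map_sub, map_mul, hφwa, hφwb, hφs, map_neg, map_sub, map_mul, hφa, hφb,
        hφs] at e2
      linear_combination e2 - ε * hτD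
    exact mul_right_cancel₀ (mul_ne_zero hε0 hD0) e1
  obtain ⟨n, hn⟩ := exists_int_congr hr hA hφ hτA hφτ
  refine ⟨(n : ℤ), ?_⟩
  intro t C₄ C₆ hrt hC4 hC6
  have htA : ((t : ℤ) : CQb) ∈ A := intCast_mem' t
  have htτ : ((t : ℤ) : CQb) - τ ∈ A.nonunits := by
    have h1 : (((t - (n : ℤ) : ℤ)) : CQb) ∈ A.nonunits :=
      (intCast_mem_nonunits_iff hr hA _).mpr hrt
    have h2 := sub_mem_nonunits h1 hn
    have e : (((t - (n : ℤ) : ℤ)) : CQb) - (τ - (n : CQb)) = ((t : ℤ) : CQb) - τ := by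
      push_cast; ring
    rwa [e] at h2
  -- the special member
  have hB : famB a b τ = s * famA a b τ := by
    unfold famA famB
    linear_combination (-1 : CQb) * hτD
  have hTτ : kleinT (famA a b τ) (famB a b τ) = 0 := by
    rw [hB]
    have h1 := kleinT_smul (famA a b τ) 1 s
    rw [mul_one] at h1
    rw [mul_comm s, h1, kleinT_one_I s hs2, mul_zero]
  have hvA : famA a b ((t : ℤ) : CQb) ∈ A := A.add_mem _ _ ha (A.mul_mem _ _ htA hwa)
  have hvB : famB a b ((t : ℤ) : CQb) ∈ A := A.add_mem _ _ hb (A.mul_mem _ _ htA hwb)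
  have hvA' : famA a b τ ∈ A := A.add_mem _ _ ha (A.mul_mem _ _ hτA hwa)
  have hvB' : famB a b τ ∈ A := A.add_mem _ _ hb (A.mul_mem _ _ hτA hwb)
  have hTt : kleinT (famA a b ((t : ℤ) : CQb)) (famB a b ((t : ℤ) : CQb)) ∈ A.nonunits := by
    have h1 : famA a b ((t : ℤ) : CQb) - famA a b τ ∈ A.nonunits := by
      have e : famA a b ((t : ℤ) : CQb) - famA a b τ = (((t : ℤ) : CQb) - τ) * kleinWa a b := by
        unfold famA; ring
      rw [e]; exact mul_mem_nonunits_right htτ hwa
    have h2 : famB a b ((t : ℤ) : CQb) - famB a b τ ∈ A.nonunits := by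
      have e : famB a b ((t : ℤ) : CQb) - famB a b τ = (((t : ℤ) : CQb) - τ) * kleinWb a b := by
        unfold famB; ring
      rw [e]; exact mul_mem_nonunits_right htτ hwb
    have h3 := kleinT_congr hvA hvB hvA' hvB' h1 h2
    rwa [hTτ, sub_zero] at h3
  have h6 : (r : ℤ) ∣ C₆ := by
    rw [← intCast_mem_nonunits_iff hr hA (L := CQb)]
    have : ((C₆ : ℤ) : CQb) = -kleinT (famA a b ((t : ℤ) : CQb)) (famB a b ((t : ℤ) : CQb)) := by
      rw [hC6, famC6]
    rw [this]
    exact neg_mem_nonunits hTt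
  exact ⟨h6, fun h4 => cop W a b hΔ hab.hH hab.hT r hr hr30 t C₄ C₆ hC4 hC6 h4 h6⟩

end Fermat.Agent.P7.helper47
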