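import Fermat.Agent.P7.helper52_CEDefs
import Fermat.Agent.P6.helper38_NWL
import Fermat.Agent.P6.helper78_TorsionCard
import Fermat.Agent.S54.helper91_Frobenius

/-!
# P7 / S52, module CE: [CONG] (helper52)

`congStatement_of : CEStatement → RedAddStatement → CongStatement`: a Galois-equivariant additive
injection `ψ : E[p] → E'[p]` forces `p ∣ a_ℓ(W') - a_ℓ(W)` at every common good prime `ℓ ≠ p`.

Proof: at a place `A | ℓ` with Frobenius element `σ`, the characteristic equation on `W(k_A)`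
pulls back along the additive injective reduction to `σ² - a σ + ℓ = 0` on `E[p]`, likewise
`σ² - a' σ + ℓ = 0` on `E'[p]`; transporting the first along `ψ` and subtracting gives
`(a' - a) σ P' = 0` for `P' = ψ P ≠ 0`, an element of exact order `p`.
-/

set_option autoImplicit false
set_option linter.style.haveILetI false

open WeierstrassCurve WeierstrassCurve.Affine
open scoped WeierstrassCurve.Affine Classical

namespace Fermat.Agent.P7.helper52

open Fermat.Agent.P6.helper78

/-- The characteristic equation on `E[p]` for a Frobenius element. -/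
theorem tors_charEq (hCE : CEStatement) (hR : RedAddStatement) (W : WeierstrassCurve ℤ)
    {p ℓ : ℕ} (hp : p.Prime) (hℓ : ℓ.Prime) (hℓp : ℓ ≠ p) (hg : W.IsGoodPrimeFor ℓ)
    (A : ValuationSubring NQbar) (hA : A.LiesOverPrime ℓ) (σ : NGQ) (hσ : A.IsFrobeniusAt σ ℓ)
    (P : Tors W p) :
    σ • (σ • P) - W.apOfModel ℓ • (σ • P) + (ℓ : ℤ) • P = 0 := by
  haveI : Fact ℓ.Prime := ⟨hℓ⟩
  haveI : CharP (IsLocalRing.ResidueField A) ℓ := Fermat.Agent.P6.helper38.charP_resField A hℓ hA
  haveI : IsAlgClosed (IsLocalRing.ResidueField A) :=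
    Fermat.Agent.P6.helper38.isAlgClosed_resField A
  obtain ⟨red, hinj, hfrob⟩ := hR W p ℓ hp hℓ hℓp hg A hA
  have hcomm : ∀ P : Tors W p, red (σ • P) = frobPt W (IsLocalRing.ResidueField A) ℓ (red P) :=
    fun P => (isFrobImage_iff W _ ℓ _ _).mp (hfrob σ hσ P)
  apply hinj
  rw [map_zero, map_add, map_sub, map_zsmul, map_zsmul, hcomm, hcomm]
  exact hCE W ℓ hg (IsLocalRing.ResidueField A) (red P)

/-- **[CONG]**. -/
theorem congStatement_of (hCE : CEStatement) (hR : RedAddStatement) : CongStatement := by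
  intro W W' p hp hΔ ψ hψ hequiv ℓ hℓ hg hg' hℓp
  obtain ⟨A, σ, hA, hσ⟩ := Fermat.Agent.S54.helper91.exists_isFrobeniusAt hℓ
  -- a nonzero point of `E[p]`
  have hcard : Nat.card (Tors W p) = p ^ 2 := by
    have hΔ' : (W.map (Int.castRingHom ℚ)).Δ ≠ 0 := by
      rw [WeierstrassCurve.map_Δ]
      exact fun h => hΔ (by simpa using h)
    exact card_torsionBy_Qbar (W.map (Int.castRingHom ℚ)) hΔ' hp.one_lt.le
  have hfin : Finite (Tors W p) := by
    apply Nat.finite_of_card_ne_zero
    rw [hcard]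
    exact pow_ne_zero _ hp.ne_zero
  obtain ⟨P, hP⟩ : ∃ P : Tors W p, P ≠ 0 := by
    by_contra hcon
    push Not at hcon
    have hsub : Subsingleton (Tors W p) := ⟨fun a b => by rw [hcon a, hcon b]⟩
    have h1 : Nat.card (Tors W p) = 1 := Nat.card_unique
    rw [hcard] at h1
    have := hp.one_lt
    nlinarith [pow_le_pow_right₀ hp.one_lt.le (show 1 ≤ 2 by norm_num)]
  have e1 := tors_charEq hCE hR W hp hℓ hℓp hg A hA σ hσ P
  have e2 := tors_charEq hCE hR W' hp hℓ hℓp hg' A hA σ hσ (ψ P)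
  have e1' : σ • (σ • ψ P) - W.apOfModel ℓ • (σ • ψ P) + (ℓ : ℤ) • ψ P = 0 := by
    have := congrArg ψ e1
    rwa [map_zero, map_add, map_sub, map_zsmul, map_zsmul, hequiv, hequiv] at this
  have hdiff : (W'.apOfModel ℓ - W.apOfModel ℓ) • (σ • ψ P) = 0 := by
    rw [sub_smul]
    have := sub_eq_zero.mpr (e1'.trans e2.symm)
    have h3 : σ • (σ • ψ P) - W.apOfModel ℓ • (σ • ψ P) + (ℓ : ℤ) • ψ P -
        (σ • (σ • ψ P) - W'.apOfModel ℓ • (σ • ψ P) + (ℓ : ℤ) • ψ P) =
        W'.apOfModel ℓ • (σ • ψ P) - W.apOfModel ℓ • (σ • ψ P) := by abel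
    rw [← h3]; exact this
  -- `x := σ • ψ P` is a nonzero `p`-torsion element
  set x : Tors W' p := σ • ψ P with hx
  have hx0 : x ≠ 0 := by
    intro h0
    have h1 : ψ P = 0 := by
      have := congrArg (fun y => σ⁻¹ • y) h0
      simpa [hx, smul_smul] using this
    exact hP (hψ (by rw [h1, map_zero]))
  have hpx : (p : ℤ) • x = 0 := by
    apply Subtype.ext
    simp
  -- order argument
  by_contra hnd
  have hcop : IsCoprime (p : ℤ) (W'.apOfModel ℓ - W.apOfModel ℓ) := by
    have hpp : Prime (p : ℤ) := Nat.prime_iff_prime_int.mp hp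
    exact (Prime.coprime_iff_not_dvd hpp).mpr hnd
  obtain ⟨u, v, huv⟩ := hcop
  have : x = 0 := by
    have h1 : (1 : ℤ) • x = (u * p + v * (W'.apOfModel ℓ - W.apOfModel ℓ)) • x := by rw [huv]
    rw [one_smul, add_smul, mul_smul, mul_smul, hpx, hdiff, smul_zero, smul_zero, add_zero] at h1
    exact h1
  exact hx0 this

end Fermat.Agent.P7.helper52
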