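import Fermat.Agent.P7.helper47_ChoiceDefs

/-!
# P7 / S52, module [CONT] (helper64)

`contStatement : helper47.ContStatement`, verbatim and unconditional.

The functions `t ↦ famC4 a b t`, `t ↦ famC6 a b t` are polynomial functions over `ℚ̄`; by
`IsFamBase.rat` they take rational values at rational arguments, hence (Lagrange interpolation)
they are polynomials with rational coefficients, with constant terms `c₄(W)`, `c₆(W)`.  If `D`
is a common denominator of the coefficients, then for `t ∈ m D ℤ` the values are integers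
congruent to the constant term modulo `m`.
-/

set_option autoImplicit false

open Polynomial

namespace Fermat.Agent.P7.helper64

/-- A polynomial over a field extension `K` of `ℚ` which takes rational values at all natural
numbers has rational coefficients. -/
theorem exists_map_eq_of_eval_nat_rat {K : Type*} [Field K] [Algebra ℚ K] (P : K[X])
    (h : ∀ n : ℕ, ∃ r : ℚ, algebraMap ℚ K r = P.eval (n : K)) :
    ∃ Q : ℚ[X], Q.map (algebraMap ℚ K) = P := by
  have hK : CharZero K := algebraRat.charZero K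
  choose r hr using h
  have hv : Set.InjOn (fun i : ℕ => (i : ℚ)) (Finset.range (P.natDegree + 1) : Set ℕ) :=
    fun i _ j _ hij => Nat.cast_injective hij
  have hv' : Set.InjOn (fun i : ℕ => (i : K)) (Finset.range (P.natDegree + 1) : Set ℕ) :=
    fun i _ j _ hij => Nat.cast_injective hij
  refine ⟨Lagrange.interpolate (Finset.range (P.natDegree + 1)) (fun i : ℕ => (i : ℚ)) r, ?_⟩
  refine Polynomial.eq_of_degrees_lt_of_eval_index_eq (Finset.range (P.natDegree + 1)) hv' ?_ ?_ ?_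
  · exact lt_of_le_of_lt degree_map_le (Lagrange.degree_interpolate_lt _ hv)
  · rw [Finset.card_range]
    exact lt_of_le_of_lt degree_le_natDegree (by exact_mod_cast Nat.lt_succ_self _)
  · intro i hi
    have h1 : ((i : ℕ) : K) = algebraMap ℚ K ((i : ℕ) : ℚ) := by simp
    rw [h1, eval_map_algebraMap, aeval_algebraMap_apply_eq_algebraMap_eval,
      Lagrange.eval_interpolate_at_node r hv hi, hr i, ← h1]

/-- A common denominator for the values of a rational polynomial at integers. -/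
theorem exists_den_eval (R : ℚ[X]) :
    ∃ D : ℤ, D ≠ 0 ∧ ∀ s : ℤ, ∃ z : ℤ, (z : ℚ) = D * R.eval (s : ℚ) := by
  induction R using Polynomial.induction_on' with
  | add p q hp hq =>
    obtain ⟨D1, h1, H1⟩ := hp
    obtain ⟨D2, h2, H2⟩ := hq
    refine ⟨D1 * D2, mul_ne_zero h1 h2, fun s => ?_⟩
    obtain ⟨z1, hz1⟩ := H1 s
    obtain ⟨z2, hz2⟩ := H2 s
    refine ⟨D2 * z1 + D1 * z2, ?_⟩
    push_cast
    rw [eval_add, hz1, hz2]
    ring
  | monomial n c =>
    refine ⟨(c.den : ℤ), by exact_mod_cast c.den_ne_zero, fun s => ⟨c.num * s ^ n, ?_⟩⟩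
    rw [eval_monomial]
    push_cast
    have h := Rat.den_mul_eq_num c
    rw [← mul_assoc, h]

/-- Integrality and continuity at `0` of a polynomial function with rational values. -/
theorem exists_den_of_eval_rat {K : Type*} [Field K] [Algebra ℚ K] (P : K[X]) (c : ℤ)
    (h0 : P.eval 0 = (c : K))
    (hrat : ∀ t : ℚ, ∃ r : ℚ, algebraMap ℚ K r = P.eval (algebraMap ℚ K t)) :
    ∃ D : ℤ, D ≠ 0 ∧ ∀ m t' : ℤ, ∃ C : ℤ,
      (C : K) = P.eval (((m * D * t' : ℤ) : ℤ) : K) ∧ m ∣ C - c := by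
  obtain ⟨Q, hQ⟩ := exists_map_eq_of_eval_nat_rat P (fun n => by
    obtain ⟨r, hr⟩ := hrat (n : ℚ)
    exact ⟨r, by rw [hr]; simp⟩)
  have hinj : Function.Injective (algebraMap ℚ K) := (algebraMap ℚ K).injective
  have hev : ∀ x : ℚ, P.eval (algebraMap ℚ K x) = algebraMap ℚ K (Q.eval x) := by
    intro x
    rw [← hQ, eval_map_algebraMap, aeval_algebraMap_apply_eq_algebraMap_eval]
  have hQ0 : Q.eval 0 = (c : ℚ) := by
    apply hinj
    rw [← hev, map_zero, h0]
    simp
  obtain ⟨D, hD, HD⟩ := exists_den_eval Q.divX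
  refine ⟨D, hD, fun m t' => ?_⟩
  obtain ⟨z, hz⟩ := HD (m * D * t')
  refine ⟨c + m * t' * z, ?_, ⟨t' * z, by ring⟩⟩
  have hx : (((m * D * t' : ℤ) : ℤ) : K) = algebraMap ℚ K (((m * D * t' : ℤ) : ℤ) : ℚ) :=
    (map_intCast (algebraMap ℚ K) _).symm
  rw [hx, hev]
  have hc : ((c + m * t' * z : ℤ) : K) = algebraMap ℚ K ((c + m * t' * z : ℤ) : ℚ) :=
    (map_intCast (algebraMap ℚ K) _).symm
  rw [hc]
  congr 1
  have hdiv : Q.eval (((m * D * t' : ℤ) : ℤ) : ℚ)
      = Q.divX.eval (((m * D * t' : ℤ) : ℤ) : ℚ) * (((m * D * t' : ℤ) : ℤ) : ℚ)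
        + Q.coeff 0 := by
    conv_lhs => rw [← Polynomial.divX_mul_X_add Q]
    simp
  have hcoeff : Q.coeff 0 = (c : ℚ) := by
    rw [← hQ0, ← Polynomial.coeff_zero_eq_eval_zero]
  rw [hdiv, hcoeff]
  push_cast
  push_cast at hz
  rw [hz]
  ring

open Fermat.Agent.P7.helper47 in
/-- **[CONT]** (verbatim `helper47.ContStatement`). -/
theorem contStatement : Fermat.Agent.P7.helper47.ContStatement := by
  intro W a b hab m hm
  -- the two polynomials
  obtain ⟨PA, hPA⟩ : ∃ PA : CQb[X], PA = C a + X * C (kleinWa a b) := ⟨_, rfl⟩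
  obtain ⟨PB, hPB⟩ : ∃ PB : CQb[X], PB = C b + X * C (kleinWb a b) := ⟨_, rfl⟩
  have hA : ∀ t : CQb, PA.eval t = famA a b t := by
    intro t
    rw [hPA]
    simp only [eval_add, eval_C, eval_mul, eval_X]
    rfl
  have hB : ∀ t : CQb, PB.eval t = famB a b t := by
    intro t
    rw [hPB]
    simp only [eval_add, eval_C, eval_mul, eval_X]
    rfl
  have h4 : ∀ t : CQb, (-kleinH PA PB).eval t = famC4 a b t := by
    intro t
    unfold famC4 kleinH
    simp only [eval_neg, eval_add, eval_sub, eval_mul, eval_pow, eval_ofNat, hA, hB]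
  have h6 : ∀ t : CQb, (-kleinT PA PB).eval t = famC6 a b t := by
    intro t
    unfold famC6 kleinT
    simp only [eval_neg, eval_add, eval_sub, eval_mul, eval_pow, eval_ofNat, hA, hB]
  have h40 : (-kleinH PA PB).eval 0 = ((W.c₄ : ℤ) : CQb) := by
    rw [h4]
    unfold famC4
    rw [famA_zero, famB_zero, hab.hH, neg_neg]
  have h60 : (-kleinT PA PB).eval 0 = ((W.c₆ : ℤ) : CQb) := by
    rw [h6]
    unfold famC6
    rw [famA_zero, famB_zero, hab.hT, neg_neg]
  obtain ⟨D4, hD4, H4⟩ := exists_den_of_eval_rat (-kleinH PA PB) W.c₄ h40 (fun t => by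
    obtain ⟨C₄, C₆, e4, e6⟩ := hab.rat t
    exact ⟨C₄, by rw [e4, h4]⟩)
  obtain ⟨D6, hD6, H6⟩ := exists_den_of_eval_rat (-kleinT PA PB) W.c₆ h60 (fun t => by
    obtain ⟨C₄, C₆, e4, e6⟩ := hab.rat t
    exact ⟨C₆, by rw [e6, h6]⟩)
  refine ⟨m * D4 * D6, mul_ne_zero (mul_ne_zero hm hD4) hD6, ?_⟩
  rintro t ⟨t', rfl⟩
  obtain ⟨C₄, e4, d4⟩ := H4 m (D6 * t')
  obtain ⟨C₆, e6, d6⟩ := H6 m (D4 * t')
  refine ⟨C₄, C₆, ?_, ?_, d4, d6⟩
  · rw [e4, h4]
    congr 2
    ring
  · rw [e6, h6]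
    congr 2
    ring

end Fermat.Agent.P7.helper64
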