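import Fermat.Agent.P7.helper92_ManinDefs

/-!
# P7 / S52, [CE-MANIN], row MAN-KX: the structure of `k(E)` over `k(x)` (helper92)
-/

set_option autoImplicit false

open WeierstrassCurve WeierstrassCurve.Affine Polynomial
open scoped WeierstrassCurve.Affine Classical Polynomial.Bivariate

namespace Fermat.Agent.P7.helper92

open Fermat.Agent.P6.helper78 Fermat.Agent.P7.helper52

section kx

variable (W : WeierstrassCurve ℤ) (k : Type) [Field k]

lemma algebraMap_KE_eq (c : k) :
    algebraMap k (KE W k) c = ofCoord W k (algebraMap k (WkE W k).CoordinateRing c) :=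
  IsScalarTower.algebraMap_apply k (WkE W k).CoordinateRing (WkE W k).FunctionField c

lemma polyHom_apply (p : Polynomial k) :
    polyHom W k p = ofCoord W k (CoordinateRing.mk (WkE W k) (Polynomial.C p)) := rfl

lemma polyHom_C (c : k) : polyHom W k (Polynomial.C c) = algebraMap k (KE W k) c := by
  rw [algebraMap_KE_eq]
  rfl

lemma polyHom_X : polyHom W k Polynomial.X = xK W k := rfl

lemma kxHom_algebraMap (p : Polynomial k) :
    kxHom W k (algebraMap (Polynomial k) (RatFunc k) p) = polyHom W k p := by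
  unfold kxHom
  exact RatFunc.liftRingHom_algebraMap _ _ p

lemma kxHom_injective : Function.Injective (kxHom W k) :=
  (kxHom W k).injective

lemma kxHom_C (c : k) : kxHom W k (RatFunc.C c) = algebraMap k (KE W k) c := by
  rw [← RatFunc.algebraMap_C, kxHom_algebraMap, polyHom_C]

lemma kxHom_X : kxHom W k RatFunc.X = xK W k := by
  rw [← RatFunc.algebraMap_X, kxHom_algebraMap, polyHom_X]

lemma kxHom_div (p q : Polynomial k) :
    kxHom W k (algebraMap _ (RatFunc k) p / algebraMap _ (RatFunc k) q)
      = polyHom W k p / polyHom W k q := by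
  rw [map_div₀, kxHom_algebraMap, kxHom_algebraMap]

lemma invKHom_polyHom (p : Polynomial k) : invKHom W k (polyHom W k p) = polyHom W k p := by
  rw [polyHom_apply, invKHom_ofCoord, invCoord_mk_C]

lemma invKHom_kxHom (r : RatFunc k) : invKHom W k (kxHom W k r) = kxHom W k r := by
  rw [← RatFunc.num_div_denom r, kxHom_div, map_div₀, invKHom_polyHom, invKHom_polyHom]

lemma invK_apply (z : KE W k) : invK W k z = invKHom W k z := rfl

lemma ofCoord_mk_C_C (c : k) :
    ofCoord W k (CoordinateRing.mk (WkE W k) (Polynomial.C (Polynomial.C c)))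
      = algebraMap k (KE W k) c := by
  rw [algebraMap_KE_eq]
  rfl

lemma ofCoord_mk_C_X :
    ofCoord W k (CoordinateRing.mk (WkE W k) (Polynomial.C Polynomial.X)) = xK W k := rfl

lemma ofCoord_mk_Y :
    ofCoord W k (CoordinateRing.mk (WkE W k) Polynomial.X) = yK W k := rfl

lemma algebraMap_KE_intCast (n : ℤ) : algebraMap k (KE W k) (n : k) = (n : KE W k) :=
  map_intCast _ n

lemma invKHom_yK :
    invKHom W k (yK W k) =
      (W.map (Int.castRingHom (KE W k))).toAffine.negY (xK W k) (yK W k) := by
  rw [← ofCoord_mk_Y, invKHom_ofCoord, invCoord_mk_Y]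
  simp only [Affine.negPolynomial, Affine.negY, map_sub, map_neg, map_add, map_mul,
    ofCoord_mk_C_C, ofCoord_mk_C_X, ofCoord_mk_Y, WeierstrassCurve.map_a₁,
    WeierstrassCurve.map_a₃, eq_intCast, algebraMap_KE_intCast]
  ring

/-- the right-hand side cubic of the Weierstrass equation, as a polynomial in `X` -/
noncomputable def cubicPoly : Polynomial k :=
  Polynomial.X ^ 3 + Polynomial.C (WkE W k).a₂ * Polynomial.X ^ 2
    + Polynomial.C (WkE W k).a₄ * Polynomial.X + Polynomial.C (WkE W k).a₆

/-- the linear polynomial `a₁ X + a₃` -/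
noncomputable def linPoly : Polynomial k :=
  Polynomial.C (WkE W k).a₁ * Polynomial.X + Polynomial.C (WkE W k).a₃

lemma mk_Y_sq :
    (CoordinateRing.mk (WkE W k) Polynomial.X) ^ 2 =
      CoordinateRing.mk (WkE W k) (Polynomial.C (cubicPoly W k))
        - CoordinateRing.mk (WkE W k) (Polynomial.C (linPoly W k))
          * CoordinateRing.mk (WkE W k) Polynomial.X := by
  have h : CoordinateRing.mk (WkE W k) (WkE W k).polynomial = 0 := AdjoinRoot.mk_self
  simp only [Affine.polynomial, map_sub, map_add, map_mul, map_pow] at h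
  simp only [cubicPoly, linPoly, map_add, map_mul, map_pow]
  linear_combination h

lemma invCoord_basis (p q : Polynomial k) :
    invCoord W k (CoordinateRing.mk (WkE W k) (Polynomial.C p)
        + CoordinateRing.mk (WkE W k) (Polynomial.C q) * CoordinateRing.mk (WkE W k) Polynomial.X)
      = CoordinateRing.mk (WkE W k) (Polynomial.C (p - q * linPoly W k))
        - CoordinateRing.mk (WkE W k) (Polynomial.C q)
          * CoordinateRing.mk (WkE W k) Polynomial.X := by
  simp only [map_add, map_mul, invCoord_mk_C, invCoord_mk_Y, Affine.negPolynomial, map_sub,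
    map_neg, linPoly]
  ring

/-- the norm form -/
noncomputable def normPoly (p q : Polynomial k) : Polynomial k :=
  p ^ 2 - p * q * linPoly W k - q ^ 2 * cubicPoly W k

lemma mul_invCoord_basis (p q : Polynomial k) :
    (CoordinateRing.mk (WkE W k) (Polynomial.C p)
        + CoordinateRing.mk (WkE W k) (Polynomial.C q) * CoordinateRing.mk (WkE W k) Polynomial.X)
      * invCoord W k (CoordinateRing.mk (WkE W k) (Polynomial.C p)
        + CoordinateRing.mk (WkE W k) (Polynomial.C q) * CoordinateRing.mk (WkE W k) Polynomial.X)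
      = CoordinateRing.mk (WkE W k) (Polynomial.C (normPoly W k p q)) := by
  rw [invCoord_basis]
  have h := mk_Y_sq W k
  simp only [normPoly, map_sub, map_mul, map_pow]
  linear_combination (-(CoordinateRing.mk (WkE W k) (Polynomial.C q)) ^ 2) * h

lemma exists_basis_eq (u : (WkE W k).CoordinateRing) :
    ∃ p q : Polynomial k, u = CoordinateRing.mk (WkE W k) (Polynomial.C p)
        + CoordinateRing.mk (WkE W k) (Polynomial.C q) * CoordinateRing.mk (WkE W k) Polynomial.X := by
  obtain ⟨p, q, h⟩ := CoordinateRing.exists_smul_basis_eq u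
  refine ⟨p, q, ?_⟩
  rw [← h, CoordinateRing.smul, CoordinateRing.smul, mul_one]

lemma ofCoord_basis (p q : Polynomial k) :
    ofCoord W k (CoordinateRing.mk (WkE W k) (Polynomial.C p)
        + CoordinateRing.mk (WkE W k) (Polynomial.C q) * CoordinateRing.mk (WkE W k) Polynomial.X)
      = polyHom W k p + polyHom W k q * yK W k := by
  rw [map_add, map_mul]
  rfl

/-- every element of `k(E)` is `a + b y` with `a, b ∈ k(x)` -/
lemma exists_decomp (z : KE W k) :
    ∃ a b : RatFunc k, z = kxHom W k a + kxHom W k b * yK W k := by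
  obtain ⟨u, v, hv, rfl⟩ := IsFractionRing.div_surjective (A := (WkE W k).CoordinateRing)
    (K := (WkE W k).FunctionField) z
  have hv0 : v ≠ 0 := nonZeroDivisors.ne_zero hv
  obtain ⟨pv, qv, hpv⟩ := exists_basis_eq W k v
  obtain ⟨p, q, hpq⟩ := exists_basis_eq W k (u * invCoord W k v)
  have hιv : invCoord W k v ≠ 0 := (map_ne_zero_iff _ (invCoord_injective W k)).mpr hv0
  have hN : v * invCoord W k v
      = CoordinateRing.mk (WkE W k) (Polynomial.C (normPoly W k pv qv)) := by
    rw [hpv]
    exact mul_invCoord_basis W k pv qv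
  have hn0 : normPoly W k pv qv ≠ 0 := by
    intro h0
    rw [h0, map_zero, map_zero] at hN
    exact mul_ne_zero hv0 hιv hN
  have hpn0 : polyHom W k (normPoly W k pv qv) ≠ 0 :=
    (map_ne_zero_iff _ (polyHom_injective W k)).mpr hn0
  have hov : ofCoord W k v ≠ 0 := (map_ne_zero_iff _ (ofCoord_injective W k)).mpr hv0
  have hoιv : ofCoord W k (invCoord W k v) ≠ 0 :=
    (map_ne_zero_iff _ (ofCoord_injective W k)).mpr hιv
  refine ⟨algebraMap _ (RatFunc k) p / algebraMap _ (RatFunc k) (normPoly W k pv qv),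
    algebraMap _ (RatFunc k) q / algebraMap _ (RatFunc k) (normPoly W k pv qv), ?_⟩
  rw [kxHom_div, kxHom_div]
  have e1 : ofCoord W k u * ofCoord W k (invCoord W k v)
      = polyHom W k p + polyHom W k q * yK W k := by
    rw [← map_mul, hpq, ofCoord_basis]
  have e2 : ofCoord W k v * ofCoord W k (invCoord W k v)
      = polyHom W k (normPoly W k pv qv) := by
    rw [← map_mul, hN]
    rfl
  change ofCoord W k u / ofCoord W k v = _
  rw [div_eq_iff hov]
  field_simp
  rw [← e1, ← e2]
  ring

lemma polyHom_linPoly :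
    polyHom W k (linPoly W k) = (W.a₁ : KE W k) * xK W k + (W.a₃ : KE W k) := by
  simp only [linPoly, map_add, map_mul, polyHom_C, polyHom_X, WeierstrassCurve.map_a₁,
    WeierstrassCurve.map_a₃, eq_intCast, algebraMap_KE_intCast]

lemma polyHom_cubicPoly :
    polyHom W k (cubicPoly W k) = xK W k ^ 3 + (W.a₂ : KE W k) * xK W k ^ 2
      + (W.a₄ : KE W k) * xK W k + (W.a₆ : KE W k) := by
  simp only [cubicPoly, map_add, map_mul, map_pow, polyHom_C, polyHom_X,
    WeierstrassCurve.map_a₂, WeierstrassCurve.map_a₄, WeierstrassCurve.map_a₆, eq_intCast,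
    algebraMap_KE_intCast]

lemma yK_sq : yK W k ^ 2 = polyHom W k (cubicPoly W k) - polyHom W k (linPoly W k) * yK W k := by
  have h := congrArg (ofCoord W k) (mk_Y_sq W k)
  rw [map_pow, map_sub, map_mul] at h
  exact h

lemma equation_gen :
    (W.map (Int.castRingHom (KE W k))).toAffine.Equation (xK W k) (yK W k) := by
  rw [Affine.equation_iff]
  have h := yK_sq W k
  rw [polyHom_linPoly, polyHom_cubicPoly] at h
  simp only [WeierstrassCurve.map_a₁, WeierstrassCurve.map_a₂, WeierstrassCurve.map_a₃,
    WeierstrassCurve.map_a₄, WeierstrassCurve.map_a₆, eq_intCast]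
  linear_combination h

lemma delta_KE_ne_zero (hΔ : (WkE W k).Δ ≠ 0) :
    (W.map (Int.castRingHom (KE W k))).toAffine.Δ ≠ 0 := by
  have h1 : (WkE W k).Δ = ((W.Δ : ℤ) : k) := by
    change (W.map (Int.castRingHom k)).Δ = _
    rw [WeierstrassCurve.map_Δ]; rfl
  change (W.map (Int.castRingHom (KE W k))).Δ ≠ 0
  rw [WeierstrassCurve.map_Δ, eq_intCast, ← algebraMap_KE_intCast W k]
  rw [h1] at hΔ
  exact (map_ne_zero_iff _ (algebraMap k (KE W k)).injective).mpr hΔ

lemma nonsingular_gen (hΔ : (WkE W k).Δ ≠ 0) :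
    (W.map (Int.castRingHom (KE W k))).toAffine.Nonsingular (xK W k) (yK W k) :=
  (Affine.equation_iff_nonsingular_of_Δ_ne_zero (delta_KE_ne_zero W k hΔ)).mp
    (equation_gen W k)

lemma yK_sub_negY :
    yK W k - (W.map (Int.castRingHom (KE W k))).toAffine.negY (xK W k) (yK W k)
      = ofCoord W k (CoordinateRing.mk (WkE W k) (Polynomial.C (linPoly W k))
        + CoordinateRing.mk (WkE W k) (Polynomial.C 2)
          * CoordinateRing.mk (WkE W k) Polynomial.X) := by
  rw [ofCoord_basis, polyHom_linPoly]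
  simp only [Affine.negY, WeierstrassCurve.map_a₁, WeierstrassCurve.map_a₃, eq_intCast, map_ofNat]
  ring

lemma yK_sub_negY_ne_zero (hΔ : (WkE W k).Δ ≠ 0) :
    yK W k - (W.map (Int.castRingHom (KE W k))).toAffine.negY (xK W k) (yK W k) ≠ 0 := by
  rw [yK_sub_negY]
  intro h0
  have h1 := (map_eq_zero_iff _ (ofCoord_injective W k)).mp h0
  have h2 : (linPoly W k) • (1 : (WkE W k).CoordinateRing)
      + (2 : Polynomial k) • CoordinateRing.mk (WkE W k) Polynomial.X = 0 := by
    rw [CoordinateRing.smul, CoordinateRing.smul, mul_one]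
    exact h1
  obtain ⟨hl, h2'⟩ := CoordinateRing.smul_basis_eq_zero h2
  have ha1 : (WkE W k).a₁ = 0 := by
    have := congrArg (fun p => Polynomial.coeff p 1) hl
    simp only [linPoly, Polynomial.coeff_add, Polynomial.coeff_C_mul, Polynomial.coeff_X_one,
      Polynomial.coeff_C, one_ne_zero, if_false, mul_one, add_zero, Polynomial.coeff_zero]
      at this
    exact this
  have ha3 : (WkE W k).a₃ = 0 := by
    have := congrArg (fun p => Polynomial.coeff p 0) hl
    simp only [linPoly, Polynomial.coeff_add, Polynomial.coeff_C_mul, Polynomial.coeff_X_zero,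
      Polynomial.coeff_C_zero, mul_zero, zero_add, Polynomial.coeff_zero] at this
    exact this
  have h2k : (2 : k) = 0 := by
    have h3 : (Polynomial.C (2 : k)) = 0 := by
      rw [← h2']; exact Polynomial.C_ofNat 2
    exact Polynomial.C_eq_zero.mp h3
  apply hΔ
  simp only [WeierstrassCurve.Δ, WeierstrassCurve.b₂, WeierstrassCurve.b₄, WeierstrassCurve.b₆,
    WeierstrassCurve.b₈, ha1, ha3]
  linear_combination (-(8 * (WkE W k).a₂ ^ 2) * (4 * (WkE W k).a₂ * (WkE W k).a₆
    - (WkE W k).a₄ ^ 2) - 32 * (WkE W k).a₄ ^ 3 - 216 * (WkE W k).a₆ ^ 2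
    + 144 * (WkE W k).a₂ * (WkE W k).a₄ * (WkE W k).a₆) * h2k

lemma exists_kx_of_invKHom_eq (hΔ : (WkE W k).Δ ≠ 0) (z : KE W k)
    (hz : invKHom W k z = z) : ∃ r : RatFunc k, kxHom W k r = z := by
  obtain ⟨a, b, rfl⟩ := exists_decomp W k z
  rw [map_add, map_mul, invKHom_kxHom, invKHom_kxHom, invKHom_yK] at hz
  have h1 : kxHom W k b * (yK W k
      - (W.map (Int.castRingHom (KE W k))).toAffine.negY (xK W k) (yK W k)) = 0 := by
    linear_combination -hz
  rcases mul_eq_zero.mp h1 with h | h
  · exact ⟨a, by rw [h, zero_mul, add_zero]⟩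
  · exact absurd h (yK_sub_negY_ne_zero W k hΔ)

/-- **[MAN-KX]** -/
theorem kxStatement : KXStatement := by
  intro W k _ hΔ
  exact
    { inj := kxHom_injective W k
      kx_C := kxHom_C W k
      kx_X := kxHom_X W k
      inv_kx := invKHom_kxHom W k
      inv_y := invKHom_yK W k
      fixed := exists_kx_of_invKHom_eq W k hΔ
      decomp := exists_decomp W k
      gen := nonsingular_gen W k hΔ }

/-! ### API for `manG`, `manH` -/

lemma xdeg_kxHom (r : RatFunc k) : xdeg W k (kxHom W k r) = rdeg r := by
  unfold xdeg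
  have hex : ∃ r' : RatFunc k, kxHom W k r' = kxHom W k r := ⟨r, rfl⟩
  rw [dif_pos hex]
  have := kxHom_injective W k hex.choose_spec
  rw [this]

lemma manH_some_kx (r : RatFunc k) (y : KE W k)
    (h : (W.map (Int.castRingHom (KE W k))).toAffine.Nonsingular (kxHom W k r) y) :
    manH W k (Point.some (kxHom W k r) y h) = rdeg r :=
  xdeg_kxHom W k r

lemma manH_some (x y : KE W k)
    (h : (W.map (Int.castRingHom (KE W k))).toAffine.Nonsingular x y) :
    manH W k (Point.some x y h) = xdeg W k x := rfl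

lemma invPt_some (x y : KE W k)
    (h : (W.map (Int.castRingHom (KE W k))).toAffine.Nonsingular x y) :
    ∃ h', invPt W k (Point.some x y h) = Point.some (invKHom W k x) (invKHom W k y) h' :=
  ⟨_, rfl⟩

lemma some_mem_manG_iff (x y : KE W k)
    (h : (W.map (Int.castRingHom (KE W k))).toAffine.Nonsingular x y) :
    Point.some x y h ∈ manG W k ↔ invKHom W k x = x ∧
      invKHom W k y = (W.map (Int.castRingHom (KE W k))).toAffine.negY x y := by
  rw [mem_manG_iff]
  obtain ⟨h', e⟩ := invPt_some W k x y h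
  rw [e, Point.neg_some, Point.some.injEq]

/-- the `x`-coordinate of a nonzero point of `G` lies in `k(x)` -/
lemma exists_kx_of_mem_manG (hΔ : (WkE W k).Δ ≠ 0) (x y : KE W k)
    (h : (W.map (Int.castRingHom (KE W k))).toAffine.Nonsingular x y)
    (hmem : Point.some x y h ∈ manG W k) : ∃ r : RatFunc k, kxHom W k r = x :=
  exists_kx_of_invKHom_eq W k hΔ x ((some_mem_manG_iff W k x y h).mp hmem).1

/-- every point of `G` is `0` or `(kxHom r, y)` -/
lemma manG_cases (hΔ : (WkE W k).Δ ≠ 0) (P : PtK W (KE W k)) (hP : P ∈ manG W k) :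
    P = 0 ∨ ∃ (r : RatFunc k) (y : KE W k)
      (h : (W.map (Int.castRingHom (KE W k))).toAffine.Nonsingular (kxHom W k r) y),
      P = Point.some (kxHom W k r) y h := by
  cases P with
  | zero => exact Or.inl rfl
  | some x y h =>
    right
    obtain ⟨r, hr⟩ := exists_kx_of_mem_manG W k hΔ x y h hP
    subst hr
    exact ⟨r, y, h, rfl⟩

end kx

end Fermat.Agent.P7.helper92
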