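import Fermat.Agent.P7.helper24_ParPoly
import Fermat.Agent.P7.helper92_ManinKX

/-!
# P7 / S52, module CE-MANIN: the parallelogram law `ParStatement` (helper24)

`par : helper92.ParStatement`, unconditional: the exact parallelogram law for Manin's height
`manH` on the subgroup `manG = {X | ι X = -X}` of `W(k(E))`, from `helper24.par_core`
(the biquadratic map `addSubMap` doubles heights of primitive triples) and the `k(x)`-structure
`helper92` ([MAN-KX]).  No upper bound / duplication detour is needed.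
-/

set_option autoImplicit false
set_option linter.unusedSectionVars false

open WeierstrassCurve WeierstrassCurve.Affine Polynomial
open scoped WeierstrassCurve.Affine Classical

namespace Fermat.Agent.P7.helper24

open Fermat.Agent.P6.helper78 Fermat.Agent.P7.helper52 Fermat.Agent.P7.helper92

/-- `par_core` with the curve given up to equality. -/
theorem par_core' {k : Type*} [Field k] {L : Type*} [Field L] {ι : k[X] →+* L}
    (W₀ : WeierstrassCurve k) [W₀.IsElliptic] [DecidableEq L] (hι : Function.Injective ι)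
    {V : WeierstrassCurve L} (hV : V = W₀.map (ι.comp C))
    {P Q : V.toAffine.Point} {a₁ c₁ a₂ c₂ a₃ c₃ a₄ c₄ : k[X]}
    (hP : IsXRep ι P a₁ c₁) (hQ : IsXRep ι Q a₂ c₂) (hS : IsXRep ι (P + Q) a₃ c₃)
    (hD : IsXRep ι (P - Q) a₄ c₄) :
    hxn a₃ c₃ + hxn a₄ c₄ = 2 * hxn a₁ c₁ + 2 * hxn a₂ c₂ := by
  subst hV
  exact par_core W₀ hι hP hQ hS hD

section

variable (W : WeierstrassCurve ℤ) (k : Type) [Field k]

lemma curve_eq :
    W.map (Int.castRingHom (KE W k)) =
      (W.map (Int.castRingHom k)).map ((polyHom W k).comp C) := by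
  rw [WeierstrassCurve.map_map]
  congr 1
  exact RingHom.ext_int _ _

/-- Every point of `manG` has a reduced representative of its `x`-coordinate, whose height is
`manH`. -/
lemma exists_isXRep (hΔ : (WkE W k).Δ ≠ 0) (X : PtK W (KE W k)) (hX : X ∈ manG W k) :
    ∃ a c : k[X], IsXRep (polyHom W k) X a c ∧ manH W k X = (hxn a c : ℤ) := by
  rcases manG_cases W k hΔ X hX with rfl | ⟨r, y, h, rfl⟩
  · refine ⟨1, 0, ⟨isCoprime_one_left, 1, one_ne_zero, ?_⟩, ?_⟩
    · rw [one_smul, Point.xRep_zero, map_one, map_zero]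
    · rw [manH_zero]
      simp [hxn]
  · have hden : polyHom W k r.denom ≠ 0 :=
      (map_ne_zero_iff _ (polyHom_injective W k)).mpr r.denom_ne_zero
    have hr : kxHom W k r = polyHom W k r.num / polyHom W k r.denom := by
      conv_lhs => rw [← RatFunc.num_div_denom r]
      exact kxHom_div W k _ _
    refine ⟨r.num, r.denom, ⟨RatFunc.isCoprime_num_denom r, polyHom W k r.denom, hden, ?_⟩, ?_⟩
    · rw [Point.xRep_some, hr]
      refine funext fun i => ?_
      fin_cases i
      · simp only [Fin.zero_eta, Fin.isValue, Pi.smul_apply, Matrix.cons_val_zero, smul_eq_mul]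
        field_simp
      · simp
    · rw [manH_some_kx]
      rfl

end

/-- **[MAN-PAR]** the parallelogram law on `G`, unconditionally. -/
theorem par : ParStatement := by
  intro W k _ hΔ P hP Q hQ
  obtain ⟨a₁, c₁, h₁, e₁⟩ := exists_isXRep W k hΔ P hP
  obtain ⟨a₂, c₂, h₂, e₂⟩ := exists_isXRep W k hΔ Q hQ
  obtain ⟨a₃, c₃, h₃, e₃⟩ := exists_isXRep W k hΔ (P + Q) ((manG W k).add_mem hP hQ)
  obtain ⟨a₄, c₄, h₄, e₄⟩ := exists_isXRep W k hΔ (P - Q) ((manG W k).sub_mem hP hQ)
  have : (W.map (Int.castRingHom k)).IsElliptic := ⟨isUnit_iff_ne_zero.mpr hΔ⟩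
  have key := par_core' (W.map (Int.castRingHom k)) (polyHom_injective W k) (curve_eq W k)
    h₁ h₂ h₃ h₄
  rw [e₁, e₂, e₃, e₄]
  exact_mod_cast key

end Fermat.Agent.P7.helper24
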