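import Fermat.Agent.P7.helper75_CECount3

/-!
# P7 / S52 / CE (helper75): the count, part 4: the bridge to the chord formula

`x(φG − G) = λ² + a₁ λ − a₂ − x^q − x` with `λ = M / D`, `M = y^q + y + a₁ x + a₃`,
`D = x^q − x`.  Here: `M² + a₁ M D − (a₂ + x^q + x) D² = cNum(x)`, in the coordinate ring and
at every point `(c, d)` of the curve with coordinates in a `k`-algebra.
-/

set_option autoImplicit false
set_option linter.unusedSectionVars false
set_option linter.unusedVariables false
set_option linter.style.haveILetI false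
set_option linter.unusedSimpArgs false

open Polynomial
open scoped Polynomial.Bivariate

noncomputable section

namespace Fermat.Agent.P7.helper75

open WeierstrassCurve WeierstrassCurve.Affine

section Bridge

variable {k : Type*} [Field k] [Fintype k] {W : Affine k}

/-- the Weierstrass equation in the coordinate ring -/
lemma mkY_sq (W : Affine k) :
    (CoordinateRing.mk W Y) ^ 2 + algebraMap k[X] W.CoordinateRing (cE W) * CoordinateRing.mk W Y =
      algebraMap k[X] W.CoordinateRing (cF W) := by
  have h := AdjoinRoot.mk_self (f := W.polynomial)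
  have e : W.polynomial = Y ^ 2 + C (cE W) * Y - C (cF W) := by
    rw [Affine.polynomial, cE, cF]
  have h2 : CoordinateRing.mk W (Y ^ 2 + C (cE W) * Y - C (cF W)) = 0 := by
    rw [← e]; exact h
  rw [map_sub, map_add, map_mul, map_pow] at h2
  exact sub_eq_zero.mp h2

lemma mkY_ne_zero (W : Affine k) : CoordinateRing.mk W Y ≠ 0 := by
  intro h
  have h2 : (0 : k[X]) • (1 : W.CoordinateRing) + (1 : k[X]) • CoordinateRing.mk W Y = 0 := by
    rw [zero_smul, one_smul, zero_add, h]
  exact one_ne_zero (CoordinateRing.smul_basis_eq_zero h2).2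

lemma algebraMap_poly_injective (W : Affine k) :
    Function.Injective (algebraMap k[X] W.CoordinateRing) := by
  rw [injective_iff_map_eq_zero]
  intro p hp
  have h2 : p • (1 : W.CoordinateRing) + (0 : k[X]) • CoordinateRing.mk W Y = 0 := by
    rw [zero_smul, add_zero, Algebra.smul_def, mul_one, hp]
  exact (CoordinateRing.smul_basis_eq_zero h2).1

/-- the `q`-th power of the Weierstrass equation -/
lemma mkY_pow_card_sq (W : Affine k) :
    ((CoordinateRing.mk W Y) ^ Fintype.card k) ^ 2 +
      algebraMap k[X] W.CoordinateRing (cE W ^ Fintype.card k) *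
        (CoordinateRing.mk W Y) ^ Fintype.card k =
      algebraMap k[X] W.CoordinateRing (cF W ^ Fintype.card k) := by
  obtain ⟨p, hp, n, hpp, hq⟩ := FiniteField.card' k
  haveI := hp
  haveI : Fact p.Prime := ⟨hpp⟩
  haveI : CharP W.CoordinateRing p :=
    charP_of_injective_algebraMap (algebraMap k W.CoordinateRing).injective p
  have h : ((CoordinateRing.mk W Y) ^ 2 + algebraMap k[X] W.CoordinateRing (cE W) *
      CoordinateRing.mk W Y) ^ Fintype.card k =
      (algebraMap k[X] W.CoordinateRing (cF W)) ^ Fintype.card k := by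
    rw [mkY_sq W]
  rw [hq] at h ⊢
  rw [add_pow_char_pow, mul_pow] at h
  have e1 : ((CoordinateRing.mk W Y) ^ p ^ (n : ℕ)) ^ 2 =
      ((CoordinateRing.mk W Y) ^ 2) ^ p ^ (n : ℕ) := by
    rw [← pow_mul, ← pow_mul, mul_comm]
  rw [e1, map_pow (algebraMap k[X] W.CoordinateRing) (cE W),
    map_pow (algebraMap k[X] W.CoordinateRing) (cF W)]
  exact h

/-- the trace relation `Tr(Y^q) = -(a₁ X^q + a₃)` -/
theorem trace_rel {u v : k[X]} (h : IsFrobCoeff W u v) :
    2 * u - v * cE W = -(cE W ^ Fintype.card k) := by
  set y := CoordinateRing.mk W Y with hy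
  set φ := algebraMap k[X] W.CoordinateRing with hφ
  have hF : φ u + φ v * y = y ^ Fintype.card k := by
    have := h
    rw [IsFrobCoeff, Algebra.smul_def, Algebra.smul_def, mul_one] at this
    exact this
  have h1 := mkY_sq W
  have h2 := mkY_pow_card_sq W
  have h3 := congrArg φ (norm_rel h)
  simp only [map_sub, map_mul, map_pow, map_neg] at h3
  rw [← hy, ← hφ] at h1 h2
  simp only [map_pow] at h2
  -- `(e^q + 2u − v e) y^q = 0`
  have key : φ (cE W ^ Fintype.card k + 2 * u - v * cE W) * y ^ Fintype.card k = 0 := by
    simp only [map_add, map_sub, map_mul, map_pow, map_ofNat]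
    rw [← hF] at h2 ⊢
    linear_combination h2 + h3 - (φ v) ^ 2 * h1
  rcases mul_eq_zero.mp key with h0 | h0
  · have := algebraMap_poly_injective W (h0.trans (map_zero φ).symm)
    linear_combination this
  · exact absurd (pow_eq_zero_iff (Fintype.card_ne_zero) |>.mp h0) (mkY_ne_zero W)

/-- **the bridge**, in the coordinate ring: `M² + a₁ M D − (a₂ + X^q + X) D² = cNum` -/
theorem bridge {u v : k[X]} (h : IsFrobCoeff W u v) :
    algebraMap k[X] W.CoordinateRing (cNum W u v) =
      ((CoordinateRing.mk W Y) ^ Fintype.card k + CoordinateRing.mk W Y +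
          algebraMap k[X] W.CoordinateRing (cE W)) ^ 2 +
        algebraMap k[X] W.CoordinateRing (C W.a₁) *
          ((CoordinateRing.mk W Y) ^ Fintype.card k + CoordinateRing.mk W Y +
            algebraMap k[X] W.CoordinateRing (cE W)) *
          algebraMap k[X] W.CoordinateRing (cD k) -
        algebraMap k[X] W.CoordinateRing (C W.a₂ + X ^ Fintype.card k + X) *
          algebraMap k[X] W.CoordinateRing (cD k) ^ 2 := by
  set y := CoordinateRing.mk W Y with hy
  set φ := algebraMap k[X] W.CoordinateRing with hφ
  have hF : φ u + φ v * y = y ^ Fintype.card k := by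
    have := h
    rw [IsFrobCoeff, Algebra.smul_def, Algebra.smul_def, mul_one] at this
    exact this
  have h1 := mkY_sq W
  rw [← hy, ← hφ] at h1
  have htr := congrArg φ (trace_rel h)
  rw [cE_pow_card] at htr
  simp only [map_sub, map_mul, map_neg, map_add, map_pow, map_ofNat] at htr
  have hE : φ (cE W) = φ (C W.a₁) * φ X + φ (C W.a₃) := by
    rw [cE, map_add, map_mul]
  rw [← hF, cNum, cD]
  simp only [map_sub, map_mul, map_neg, map_add, map_pow, map_one]
  linear_combination (-(φ u + φ v * y + y + φ (cE W))) * htr
    - (φ u + φ v * y + y + φ (cE W)) * hE - (φ v + 1) ^ 2 * h1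

/-- evaluation of polynomials in `X` at a point -/
lemma evPt_algebraMap {L : Type*} [CommRing L] [Algebra k L] (c d : L) (hcd : EqnIn W c d)
    (p : k[X]) : evPt c d hcd (algebraMap k[X] W.CoordinateRing p) = aeval c p := by
  have := evPt_smul_basis c d hcd p 0
  rw [zero_smul, add_zero, map_zero, zero_mul, add_zero, Algebra.smul_def, mul_one] at this
  exact this

/-- **the bridge at a point** `(c, d)` of the curve with coordinates in a `k`-algebra -/
theorem bridge_at {u v : k[X]} (h : IsFrobCoeff W u v) {L : Type*} [CommRing L] [Algebra k L]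
    (c d : L) (hcd : EqnIn W c d) :
    aeval c (cNum W u v) =
      (d ^ Fintype.card k + d + (algebraMap k L W.a₁ * c + algebraMap k L W.a₃)) ^ 2 +
        algebraMap k L W.a₁ *
          (d ^ Fintype.card k + d + (algebraMap k L W.a₁ * c + algebraMap k L W.a₃)) *
          (c ^ Fintype.card k - c) -
        (algebraMap k L W.a₂ + c ^ Fintype.card k + c) * (c ^ Fintype.card k - c) ^ 2 := by
  have := congrArg (evPt c d hcd) (bridge h)
  simp only [map_sub, map_add, map_mul, map_pow, evPt_algebraMap, evPt_mk_Y] at this
  rw [this, cE, cD]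
  simp only [map_sub, map_add, map_mul, map_pow, aeval_X, aeval_C]

end Bridge

end Fermat.Agent.P7.helper75
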