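import Mathlib

/-!
# P7 / S52 (c) CE-MANIN [DEG-COMP]: the degree of a composite of rational functions

For rational functions `R S : RatFunc k` over a field, `S` not constant,
`ratDeg (R ∘ S) = ratDeg R * ratDeg S`, where `ratDeg f = max (deg num) (deg denom)` and
`R ∘ S = RatFunc.eval (algebraMap k (RatFunc k)) S R`.  Mathlib only.

Main results: `ratDeg_div_of_isCoprime`, `ratDeg_comp`.
-/

set_option autoImplicit false

namespace Fermat.Agent.P7.helper97

open Polynomial

variable {k : Type*} [Field k]

/-- The degree of a rational function as a map `ℙ¹ → ℙ¹`. -/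
noncomputable def ratDeg (f : RatFunc k) : ℕ := max f.num.natDegree f.denom.natDegree

/-! ### The degree of a quotient of coprime polynomials -/

lemma natDegree_eq_of_dvd_dvd {p q : k[X]} (h₁ : p ∣ q) (h₂ : q ∣ p) :
    p.natDegree = q.natDegree := by
  by_cases hp : p = 0
  · subst hp
    rw [zero_dvd_iff] at h₁
    rw [h₁]
  · have hq : q ≠ 0 := fun h => hp (by rw [h, zero_dvd_iff] at h₂; exact h₂)
    exact le_antisymm (natDegree_le_of_dvd h₁ hq) (natDegree_le_of_dvd h₂ hp)

/-- If `f = P / Q` with `P`, `Q` coprime, then `num f`, `denom f` have the degrees of `P`, `Q`. -/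
theorem natDegree_num_denom_of_isCoprime {P Q : k[X]} (hQ : Q ≠ 0) (hPQ : IsCoprime P Q)
    {f : RatFunc k} (hf : f = algebraMap k[X] (RatFunc k) P / algebraMap k[X] (RatFunc k) Q) :
    f.num.natDegree = P.natDegree ∧ f.denom.natDegree = Q.natDegree := by
  have hd : f.denom ≠ 0 := f.denom_ne_zero
  have hQ' : algebraMap k[X] (RatFunc k) Q ≠ 0 :=
    (map_ne_zero_iff _ (RatFunc.algebraMap_injective k)).mpr hQ
  have hd' : algebraMap k[X] (RatFunc k) f.denom ≠ 0 :=
    (map_ne_zero_iff _ (RatFunc.algebraMap_injective k)).mpr hd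
  have hcross : f.num * Q = P * f.denom := by
    apply RatFunc.algebraMap_injective k
    have h1 := f.num_div_denom
    rw [map_mul, map_mul]
    have h2 : algebraMap k[X] (RatFunc k) f.num / algebraMap k[X] (RatFunc k) f.denom =
        algebraMap k[X] (RatFunc k) P / algebraMap k[X] (RatFunc k) Q := by rw [h1, hf]
    rwa [div_eq_div_iff hd' hQ'] at h2
  have hc := f.isCoprime_num_denom
  have h1 : f.num ∣ P := hc.dvd_of_dvd_mul_right (Dvd.intro _ hcross)
  have h2 : P ∣ f.num := hPQ.dvd_of_dvd_mul_right (Dvd.intro _ hcross.symm)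
  have h3 : f.denom ∣ Q := hc.symm.dvd_of_dvd_mul_left (Dvd.intro_left _ hcross.symm)
  have h4 : Q ∣ f.denom := hPQ.symm.dvd_of_dvd_mul_left (Dvd.intro_left _ hcross)
  exact ⟨natDegree_eq_of_dvd_dvd h1 h2, natDegree_eq_of_dvd_dvd h3 h4⟩

theorem ratDeg_div_of_isCoprime {P Q : k[X]} (hQ : Q ≠ 0) (hPQ : IsCoprime P Q) :
    ratDeg (algebraMap k[X] (RatFunc k) P / algebraMap k[X] (RatFunc k) Q) =
      max P.natDegree Q.natDegree := by
  obtain ⟨h1, h2⟩ := natDegree_num_denom_of_isCoprime hQ hPQ rfl
  rw [ratDeg, h1, h2]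


/-! ### Homogenisation -/

/-- `∑_{i ≤ D} pᵢ aⁱ b^(D-i)`: the homogenisation of `p` in degree `D`, evaluated at `(a, b)`. -/
noncomputable def hom2 (D : ℕ) (p : k[X]) {A : Type*} [CommRing A] [Algebra k A] (a b : A) : A :=
  ∑ i ∈ Finset.range (D + 1), algebraMap k A (p.coeff i) * a ^ i * b ^ (D - i)

lemma map_hom2 (D : ℕ) (p : k[X]) {A B : Type*} [CommRing A] [Algebra k A] [CommRing B]
    [Algebra k B] (f : A →ₐ[k] B) (a b : A) : f (hom2 D p a b) = hom2 D p (f a) (f b) := by
  simp only [hom2, map_sum, map_mul, map_pow, AlgHom.commutes]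

/-- In a field, `hom2 D p a b = p(a / b) * b ^ D` for `deg p ≤ D`, `b ≠ 0`. -/
lemma hom2_eq_aeval_mul {L : Type*} [Field L] [Algebra k L] {D : ℕ} {p : k[X]}
    (hp : p.natDegree ≤ D) (a : L) {b : L} (hb : b ≠ 0) :
    hom2 D p a b = aeval (a / b) p * b ^ D := by
  rw [aeval_eq_sum_range' (Nat.lt_succ_of_le hp), Finset.sum_mul, hom2]
  refine Finset.sum_congr rfl fun i hi => ?_
  have hi' : i ≤ D := Nat.lt_succ_iff.mp (Finset.mem_range.mp hi)
  rw [Algebra.smul_def, div_pow, mul_assoc, mul_assoc]
  congr 1
  have hbi : b ^ i ≠ 0 := pow_ne_zero _ hb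
  rw [div_mul_eq_mul_div, eq_div_iff hbi, mul_assoc, ← pow_add, Nat.sub_add_cancel hi']

/-- Modulo `b`, the homogenisation is its top term. -/
lemma hom2_sub_top_dvd (D : ℕ) (p : k[X]) {A : Type*} [CommRing A] [Algebra k A] (a b : A) :
    b ∣ hom2 D p a b - algebraMap k A (p.coeff D) * a ^ D := by
  rw [hom2, Finset.sum_range_succ, Nat.sub_self, pow_zero, mul_one, add_sub_cancel_right]
  refine Finset.dvd_sum fun i hi => ?_
  have hi' : i < D := Finset.mem_range.mp hi
  refine Dvd.dvd.mul_left ?_ _
  exact dvd_pow_self b (Nat.sub_ne_zero_of_lt hi')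

lemma hom2_zero_right (D : ℕ) (p : k[X]) {A : Type*} [CommRing A] [Algebra k A] (a : A) :
    hom2 D p a 0 = algebraMap k A (p.coeff D) * a ^ D := by
  have h := hom2_sub_top_dvd D p a (0 : A)
  rw [zero_dvd_iff, sub_eq_zero] at h
  exact h

/-- A coprime pair has a nonzero coefficient in the maximal degree. -/
lemma coeff_max_ne_zero {p q : k[X]} (h : IsCoprime p q) :
    p.coeff (max p.natDegree q.natDegree) ≠ 0 ∨ q.coeff (max p.natDegree q.natDegree) ≠ 0 := by
  rcases le_total p.natDegree q.natDegree with hle | hle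
  · rw [max_eq_right hle]
    by_cases hq : q = 0
    · left
      subst hq
      have hp : IsUnit p := isCoprime_zero_right.mp h
      rw [natDegree_zero]
      rw [natDegree_zero, Nat.le_zero] at hle
      intro h0
      have : p = 0 := by
        rw [eq_C_of_natDegree_eq_zero hle, h0, map_zero]
      rw [this] at hp
      exact not_isUnit_zero hp
    · right
      rw [coeff_natDegree]
      exact leadingCoeff_ne_zero.mpr hq
  · rw [max_eq_left hle]
    by_cases hp : p = 0
    · right
      subst hp
      have hq : IsUnit q := isCoprime_zero_left.mp h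
      rw [natDegree_zero]
      rw [natDegree_zero, Nat.le_zero] at hle
      intro h0
      have : q = 0 := by
        rw [eq_C_of_natDegree_eq_zero hle, h0, map_zero]
      rw [this] at hq
      exact not_isUnit_zero hq
    · left
      rw [coeff_natDegree]
      exact leadingCoeff_ne_zero.mpr hp


/-! ### Coprimality and degree of the homogenised pair -/

section Main

variable {p q a b : k[X]}

/-- Bezout identity for the homogenisations: a combination is a power of `b`. -/
lemma exists_bezout_hom2 (hpq : IsCoprime p q) (hb : b ≠ 0) {D : ℕ} (hp : p.natDegree ≤ D)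
    (hq : q.natDegree ≤ D) :
    ∃ (U V : k[X]) (E : ℕ), U * hom2 D p a b + V * hom2 D q a b = b ^ (E + D) := by
  obtain ⟨u, v, huv⟩ := hpq
  refine ⟨hom2 (max u.natDegree v.natDegree) u a b, hom2 (max u.natDegree v.natDegree) v a b,
    max u.natDegree v.natDegree, ?_⟩
  set E := max u.natDegree v.natDegree with hE
  apply RatFunc.algebraMap_injective k
  have hb' : algebraMap k[X] (RatFunc k) b ≠ 0 :=
    (map_ne_zero_iff _ (RatFunc.algebraMap_injective k)).mpr hb
  have key : ∀ (D' : ℕ) (r : k[X]), r.natDegree ≤ D' →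
      algebraMap k[X] (RatFunc k) (hom2 D' r a b) =
        aeval (algebraMap k[X] (RatFunc k) a / algebraMap k[X] (RatFunc k) b) r *
          algebraMap k[X] (RatFunc k) b ^ D' := by
    intro D' r hr
    have := map_hom2 D' r (IsScalarTower.toAlgHom k k[X] (RatFunc k)) a b
    rw [IsScalarTower.coe_toAlgHom'] at this
    rw [this, hom2_eq_aeval_mul hr _ hb']
  rw [map_add, map_mul, map_mul, map_pow, key E u (le_max_left _ _), key E v (le_max_right _ _),
    key D p hp, key D q hq]
  have h1 := congrArg (aeval (algebraMap k[X] (RatFunc k) a / algebraMap k[X] (RatFunc k) b)) huv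
  rw [map_add, map_mul, map_mul, map_one] at h1
  rw [pow_add]
  linear_combination (algebraMap k[X] (RatFunc k) b ^ E * algebraMap k[X] (RatFunc k) b ^ D) * h1

/-- **Claim 1**: the homogenised numerator and denominator are coprime. -/
theorem isCoprime_hom2 (hpq : IsCoprime p q) (hab : IsCoprime a b) (hb : b ≠ 0) :
    IsCoprime (hom2 (max p.natDegree q.natDegree) p a b)
      (hom2 (max p.natDegree q.natDegree) q a b) := by
  set D := max p.natDegree q.natDegree with hD
  obtain ⟨U, V, E, hUV⟩ := exists_bezout_hom2 (a := a) hpq hb (le_max_left _ _ : p.natDegree ≤ D)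
    (le_max_right _ _ : q.natDegree ≤ D)
  have hne : ¬(hom2 D p a b = 0 ∧ hom2 D q a b = 0) := by
    rintro ⟨h1, h2⟩
    rw [h1, h2, mul_zero, mul_zero, add_zero] at hUV
    exact pow_ne_zero _ hb hUV.symm
  refine isCoprime_of_prime_dvd hne fun z hz hzP hzQ => ?_
  have hzb : z ∣ b := by
    have : z ∣ b ^ (E + D) := by
      rw [← hUV]
      exact dvd_add (Dvd.dvd.mul_left hzP _) (Dvd.dvd.mul_left hzQ _)
    exact hz.dvd_of_dvd_pow this
  have hza : z ∣ a := by
    have topP : z ∣ algebraMap k k[X] (p.coeff D) * a ^ D := by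
      have h1 : z ∣ hom2 D p a b - algebraMap k k[X] (p.coeff D) * a ^ D :=
        dvd_trans hzb (hom2_sub_top_dvd D p a b)
      have := dvd_sub hzP h1
      rwa [sub_sub_cancel] at this
    have topQ : z ∣ algebraMap k k[X] (q.coeff D) * a ^ D := by
      have h1 : z ∣ hom2 D q a b - algebraMap k k[X] (q.coeff D) * a ^ D :=
        dvd_trans hzb (hom2_sub_top_dvd D q a b)
      have := dvd_sub hzQ h1
      rwa [sub_sub_cancel] at this
    have hunit : ∀ c : k, c ≠ 0 → z ∣ algebraMap k k[X] c * a ^ D → z ∣ a := by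
      intro c hc h
      have hcu : IsUnit (algebraMap k k[X] c) := (IsUnit.mk0 c hc).map _
      have := (hcu.dvd_mul_left).mp h
      exact hz.dvd_of_dvd_pow this
    rcases coeff_max_ne_zero hpq with h | h
    · exact hunit _ h topP
    · exact hunit _ h topQ
  exact hz.not_isUnit (hab.isUnit_of_dvd' hza hzb)

lemma natDegree_hom2_le (D : ℕ) (p : k[X]) {d : ℕ} (ha : a.natDegree ≤ d)
    (hb : b.natDegree ≤ d) : (hom2 D p a b).natDegree ≤ D * d := by
  rw [hom2]
  refine natDegree_sum_le_of_forall_le _ _ fun i hi => ?_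
  have hi' : i ≤ D := Nat.lt_succ_iff.mp (Finset.mem_range.mp hi)
  have h1 : (a ^ i).natDegree ≤ i * d :=
    le_trans (natDegree_pow_le) (Nat.mul_le_mul_left _ ha)
  have h2 : (b ^ (D - i)).natDegree ≤ (D - i) * d :=
    le_trans (natDegree_pow_le) (Nat.mul_le_mul_left _ hb)
  have h3 : (algebraMap k k[X] (p.coeff i)).natDegree ≤ 0 := by
    rw [algebraMap_eq, natDegree_C]
  calc (algebraMap k k[X] (p.coeff i) * a ^ i * b ^ (D - i)).natDegree
      ≤ (algebraMap k k[X] (p.coeff i) * a ^ i).natDegree + (b ^ (D - i)).natDegree :=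
        natDegree_mul_le
    _ ≤ ((algebraMap k k[X] (p.coeff i)).natDegree + (a ^ i).natDegree) +
          (b ^ (D - i)).natDegree := Nat.add_le_add_right natDegree_mul_le _
    _ ≤ (0 + i * d) + (D - i) * d := Nat.add_le_add (Nat.add_le_add h3 h1) h2
    _ = D * d := by
        rw [zero_add, ← Nat.add_mul, Nat.add_sub_cancel' hi']

lemma coeff_hom2 (D : ℕ) (p : k[X]) {d : ℕ} (ha : a.natDegree ≤ d) (hb : b.natDegree ≤ d) :
    (hom2 D p a b).coeff (D * d) = hom2 D p (a.coeff d) (b.coeff d) := by
  rw [hom2, hom2, finsetSum_coeff]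
  refine Finset.sum_congr rfl fun i hi => ?_
  have hi' : i ≤ D := Nat.lt_succ_iff.mp (Finset.mem_range.mp hi)
  have h1 : (a ^ i).natDegree ≤ i * d :=
    le_trans (natDegree_pow_le) (Nat.mul_le_mul_left _ ha)
  have h2 : (b ^ (D - i)).natDegree ≤ (D - i) * d :=
    le_trans (natDegree_pow_le) (Nat.mul_le_mul_left _ hb)
  have e : D * d = i * d + (D - i) * d := by
    rw [← Nat.add_mul, Nat.add_sub_cancel' hi']
  rw [mul_assoc, algebraMap_eq, coeff_C_mul, e, coeff_mul_add_eq_of_natDegree_le h1 h2,
    coeff_pow_of_natDegree_le ha, coeff_pow_of_natDegree_le hb, Algebra.algebraMap_self,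
    RingHom.id_apply, mul_assoc]

/-- **Claim 2**: the maximum of the degrees of the homogenised pair is `D * d`. -/
theorem max_natDegree_hom2 (hpq : IsCoprime p q) (hab : IsCoprime a b) :
    max (hom2 (max p.natDegree q.natDegree) p a b).natDegree
      (hom2 (max p.natDegree q.natDegree) q a b).natDegree =
      max p.natDegree q.natDegree * max a.natDegree b.natDegree := by
  set D := max p.natDegree q.natDegree with hD
  set d := max a.natDegree b.natDegree with hd
  have ha : a.natDegree ≤ d := le_max_left _ _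
  have hb : b.natDegree ≤ d := le_max_right _ _
  have hp : p.natDegree ≤ D := le_max_left _ _
  have hq : q.natDegree ≤ D := le_max_right _ _
  apply le_antisymm (max_le (natDegree_hom2_le D p ha hb) (natDegree_hom2_le D q ha hb))
  -- one of the two coefficients in degree `D * d` is nonzero
  have hne : hom2 D p (a.coeff d) (b.coeff d) ≠ 0 ∨ hom2 D q (a.coeff d) (b.coeff d) ≠ 0 := by
    by_contra hcon
    rw [not_or, not_not, not_not] at hcon
    obtain ⟨hP0, hQ0⟩ := hcon
    by_cases hb0 : b.coeff d = 0
    · rw [hb0, hom2_zero_right] at hP0 hQ0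
      have ha0 : a.coeff d ≠ 0 := by
        rcases coeff_max_ne_zero hab with h | h
        · exact h
        · exact absurd hb0 h
      have hpow : (a.coeff d) ^ D ≠ 0 := pow_ne_zero _ ha0
      rw [Algebra.algebraMap_self, RingHom.id_apply] at hP0 hQ0
      rcases coeff_max_ne_zero hpq with h | h
      · exact h ((mul_eq_zero.mp hP0).resolve_right hpow)
      · exact h ((mul_eq_zero.mp hQ0).resolve_right hpow)
    · rw [hom2_eq_aeval_mul hp _ hb0] at hP0
      rw [hom2_eq_aeval_mul hq _ hb0] at hQ0
      have hpow : (b.coeff d) ^ D ≠ 0 := pow_ne_zero _ hb0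
      have h1 := (mul_eq_zero.mp hP0).resolve_right hpow
      have h2 := (mul_eq_zero.mp hQ0).resolve_right hpow
      obtain ⟨u, v, huv⟩ := hpq
      have h3 := congrArg (aeval (a.coeff d / b.coeff d)) huv
      rw [map_add, map_mul, map_mul, h1, h2, mul_zero, mul_zero, add_zero, map_one] at h3
      exact zero_ne_one h3
  rcases hne with h | h
  · refine le_trans ?_ (le_max_left _ _)
    apply le_natDegree_of_ne_zero
    rw [coeff_hom2 D p ha hb]; exact h
  · refine le_trans ?_ (le_max_right _ _)
    apply le_natDegree_of_ne_zero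
    rw [coeff_hom2 D q ha hb]; exact h

end Main

/-! ### The degree of a composite -/

/-- The composite `R ∘ S` of rational functions (`0` if the denominator of `R` vanishes at `S`,
which happens only for constant `S`). -/
noncomputable def ratComp (R S : RatFunc k) : RatFunc k :=
  RatFunc.eval (algebraMap k (RatFunc k)) S R

lemma ratComp_def (R S : RatFunc k) :
    ratComp R S = aeval S R.num / aeval S R.denom := rfl

lemma ratDeg_zero : ratDeg (0 : RatFunc k) = 0 := by
  simp [ratDeg]

/-- **[DEG-COMP]** the degree of a composite of rational functions is the product of the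
degrees. -/
theorem ratDeg_comp (R S : RatFunc k) : ratDeg (ratComp R S) = ratDeg R * ratDeg S := by
  set p := R.num with hp
  set q := R.denom with hq
  set a := S.num with ha
  set b := S.denom with hb
  have hpq : IsCoprime p q := R.isCoprime_num_denom
  have hab : IsCoprime a b := S.isCoprime_num_denom
  have hb0 : b ≠ 0 := S.denom_ne_zero
  set D := max p.natDegree q.natDegree with hD
  have hb' : algebraMap k[X] (RatFunc k) b ≠ 0 :=
    (map_ne_zero_iff _ (RatFunc.algebraMap_injective k)).mpr hb0
  have hS : S = algebraMap k[X] (RatFunc k) a / algebraMap k[X] (RatFunc k) b :=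
    (S.num_div_denom).symm
  have key : ∀ (r : k[X]), r.natDegree ≤ D →
      algebraMap k[X] (RatFunc k) (hom2 D r a b) =
        aeval S r * algebraMap k[X] (RatFunc k) b ^ D := by
    intro r hr
    have := map_hom2 D r (IsScalarTower.toAlgHom k k[X] (RatFunc k)) a b
    rw [IsScalarTower.coe_toAlgHom'] at this
    rw [this, hom2_eq_aeval_mul hr _ hb', ← hS]
  have hcop := isCoprime_hom2 hpq hab hb0
  have hmax := max_natDegree_hom2 (a := a) (b := b) hpq hab
  have hR : ratDeg R = D := rfl
  have hSd : ratDeg S = max a.natDegree b.natDegree := rfl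
  rw [hR, hSd, ← hmax]
  by_cases hQ : hom2 D q a b = 0
  · -- degenerate case: the composite is `0` and both sides vanish
    have hq0 : aeval S q = 0 := by
      have h1 := key q (le_max_right _ _)
      rw [hQ, map_zero] at h1
      exact (mul_eq_zero.mp h1.symm).resolve_right (pow_ne_zero _ hb')
    have hzero : ratComp R S = 0 := by
      rw [ratComp_def, ← hq, hq0, div_zero]
    rw [hzero, ratDeg_zero, hQ, natDegree_zero]
    rw [hQ] at hcop
    have hu : IsUnit (hom2 D p a b) := isCoprime_zero_right.mp hcop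
    rw [natDegree_eq_zero_of_isUnit hu, max_self]
  · have hcomp : ratComp R S = algebraMap k[X] (RatFunc k) (hom2 D p a b) /
        algebraMap k[X] (RatFunc k) (hom2 D q a b) := by
      rw [ratComp_def, key p (le_max_left _ _), key q (le_max_right _ _),
        mul_div_mul_right _ _ (pow_ne_zero _ hb')]
    rw [hcomp, ratDeg_div_of_isCoprime hQ hcop]

end Fermat.Agent.P7.helper97
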