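import Fermat.Agent.P7.helper92_ManinDefs
import Fermat.Agent.P7.helper97_DegComp
import Fermat.Agent.P7.helper75_CECount4

/-!
# P7 / S52 / CE-MANIN, row [MAN-CNT] (helper75): Manin's count `h(Φ P₀ − P₀) = #W(𝔽_ℓ)`
-/

set_option autoImplicit false
set_option linter.unusedSectionVars false
set_option linter.unusedVariables false
set_option linter.style.haveILetI false
set_option linter.unusedSimpArgs false

open WeierstrassCurve WeierstrassCurve.Affine Polynomial
open scoped WeierstrassCurve.Affine Classical Polynomial.Bivariate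

noncomputable section

namespace Fermat.Agent.P7.helper75

open Fermat.Agent.P6.helper78 Fermat.Agent.P7.helper52 Fermat.Agent.P7.helper92

section Frac

variable (W : WeierstrassCurve ℤ) (k : Type) [Field k]

lemma polyHom_X : polyHom W k (X : k[X]) = xK W k := rfl

lemma kxHom_div (p q : k[X]) :
    kxHom W k (algebraMap k[X] (RatFunc k) p / algebraMap k[X] (RatFunc k) q) =
      polyHom W k p / polyHom W k q :=
  RatFunc.liftRingHom_apply_div _ _ p q

/-- the height of a point whose `x`-coordinate is a reduced fraction of polynomials in `x` -/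
lemma xdeg_of_frac {x : KE W k} {num den : k[X]} (hden : den ≠ 0) (hcop : IsCoprime num den)
    (hx : x * polyHom W k den = polyHom W k num) :
    xdeg W k x = (max num.natDegree den.natDegree : ℕ) := by
  have hden' : polyHom W k den ≠ 0 :=
    (map_ne_zero_iff _ (polyHom_injective W k)).mpr hden
  have hx' : kxHom W k (algebraMap k[X] (RatFunc k) num / algebraMap k[X] (RatFunc k) den)
      = x := by
    rw [kxHom_div, div_eq_iff hden']
    exact hx.symm
  have hex : ∃ r : RatFunc k, kxHom W k r = x := ⟨_, hx'⟩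
  rw [xdeg, dif_pos hex]
  have hch : hex.choose =
      algebraMap k[X] (RatFunc k) num / algebraMap k[X] (RatFunc k) den :=
    (kxHom W k).injective (hex.choose_spec.trans hx'.symm)
  rw [hch]
  have := helper97.ratDeg_div_of_isCoprime hden hcop
  rw [helper97.ratDeg] at this
  rw [rdeg, this]

end Frac

section Geom

variable (W : WeierstrassCurve ℤ) (ℓ : ℕ) [Fact ℓ.Prime] (k : Type) [Field k] [CharP k ℓ]

lemma frobK_apply (z : KE W k) : frobK W k ℓ z = z ^ ℓ := rfl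

lemma xK_pow_ne : xK W k ^ ℓ ≠ xK W k := by
  rw [← polyHom_X, ← map_pow]
  intro h
  have h2 := congrArg natDegree (polyHom_injective W k h)
  rw [natDegree_X_pow, natDegree_X] at h2
  exact absurd h2 (Fact.out : ℓ.Prime).one_lt.ne'

/-- **(G1)** the chord formula for `Φ P₀ - P₀` -/
theorem frob_sub_gen
    (h : (W.map (Int.castRingHom (KE W k))).toAffine.Nonsingular (xK W k) (yK W k)) :
    ∃ (x3 y3 : KE W k) (h3 : (W.map (Int.castRingHom (KE W k))).toAffine.Nonsingular x3 y3),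
      frobKPt W k ℓ (Point.some (xK W k) (yK W k) h) - Point.some (xK W k) (yK W k) h =
        Point.some x3 y3 h3 ∧
      x3 * (xK W k ^ ℓ - xK W k) ^ 2 =
        (yK W k ^ ℓ + yK W k + (((W.a₁ : ℤ) : KE W k) * xK W k + ((W.a₃ : ℤ) : KE W k))) ^ 2 +
          ((W.a₁ : ℤ) : KE W k) *
            (yK W k ^ ℓ + yK W k + (((W.a₁ : ℤ) : KE W k) * xK W k + ((W.a₃ : ℤ) : KE W k))) *
            (xK W k ^ ℓ - xK W k) -
          (((W.a₂ : ℤ) : KE W k) + xK W k ^ ℓ + xK W k) * (xK W k ^ ℓ - xK W k) ^ 2 := by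
  have hx : xK W k ^ ℓ ≠ xK W k := xK_pow_ne W ℓ k
  have hD : xK W k ^ ℓ - xK W k ≠ 0 := sub_ne_zero.mpr hx
  obtain ⟨h', e1⟩ : ∃ h', frobKPt W k ℓ (Point.some (xK W k) (yK W k) h) =
      Point.some (xK W k ^ ℓ) (yK W k ^ ℓ) h' := ⟨_, rfl⟩
  rw [sub_eq_add_neg, Point.neg_some, e1]
  refine ⟨_, _, _, Point.add_of_X_ne hx, ?_⟩
  rw [Affine.slope_of_X_ne hx, Affine.addX, Affine.negY]
  simp only [WeierstrassCurve.map_a₁, WeierstrassCurve.map_a₂, WeierstrassCurve.map_a₃,
    eq_intCast]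
  field_simp
  ring

/-- the base field `𝔽_ℓ → k` -/
def iotaF : ZMod ℓ →+* k := ZMod.castHom (dvd_refl ℓ) k

/-- `k(E)` as an `𝔽_ℓ`-algebra (through `k[X]`) -/
@[reducible] def algF : Algebra (ZMod ℓ) (KE W k) :=
  ((polyHom W k).comp ((C : k →+* k[X]).comp (iotaF ℓ k))).toAlgebra

lemma aeval_xK (p : (ZMod ℓ)[X]) :
    letI := algF W ℓ k
    aeval (xK W k) p = polyHom W k (p.map (iotaF ℓ k)) := by
  letI := algF W ℓ k
  rw [aeval_def, Polynomial.map, ← polyHom_X, Polynomial.hom_eval₂]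
  rfl

lemma algF_intCast (n : ℤ) :
    letI := algF W ℓ k
    algebraMap (ZMod ℓ) (KE W k) ((n : ℤ) : ZMod ℓ) = ((n : ℤ) : KE W k) := by
  letI := algF W ℓ k
  exact map_intCast _ n

/-- the reduction of `W` modulo `ℓ`, as an affine curve -/
abbrev redF : Affine (ZMod ℓ) := (W.reductionMod ℓ).toAffine

lemma redF_Δ_ne_zero (hgood : W.IsGoodPrimeFor ℓ) : (redF W ℓ).Δ ≠ 0 := by
  change (W.map (Int.castRingHom (ZMod ℓ))).Δ ≠ 0
  rw [WeierstrassCurve.map_Δ]
  intro h
  apply hgood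
  have h2 : ((W.Δ : ℤ) : ZMod ℓ) = 0 := h
  exact (ZMod.intCast_zmod_eq_zero_iff_dvd _ _).mp h2

lemma eqnIn_gen
    (h : (W.map (Int.castRingHom (KE W k))).toAffine.Nonsingular (xK W k) (yK W k)) :
    letI := algF W ℓ k
    EqnIn (redF W ℓ) (xK W k) (yK W k) := by
  letI := algF W ℓ k
  have he := h.1
  rw [Affine.equation_iff] at he
  simp only [WeierstrassCurve.map_a₁, WeierstrassCurve.map_a₂, WeierstrassCurve.map_a₃,
    WeierstrassCurve.map_a₄, WeierstrassCurve.map_a₆, eq_intCast] at he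
  rw [EqnIn]
  have e1 : (redF W ℓ).a₁ = ((W.a₁ : ℤ) : ZMod ℓ) := rfl
  have e2 : (redF W ℓ).a₂ = ((W.a₂ : ℤ) : ZMod ℓ) := rfl
  have e3 : (redF W ℓ).a₃ = ((W.a₃ : ℤ) : ZMod ℓ) := rfl
  have e4 : (redF W ℓ).a₄ = ((W.a₄ : ℤ) : ZMod ℓ) := rfl
  have e6 : (redF W ℓ).a₆ = ((W.a₆ : ℤ) : ZMod ℓ) := rfl
  rw [e1, e2, e3, e4, e6]
  simp only [algF_intCast]
  linear_combination he

/-- **Manin's count** for the generic point -/
theorem manH_frob_sub_gen (hgood : W.IsGoodPrimeFor ℓ)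
    (h : (W.map (Int.castRingHom (KE W k))).toAffine.Nonsingular (xK W k) (yK W k)) :
    manH W k (frobKPt W k ℓ (Point.some (xK W k) (yK W k) h) -
      Point.some (xK W k) (yK W k) h) = Nat.card (W.reductionMod ℓ).toAffine.Point := by
  letI := algF W ℓ k
  obtain ⟨x3, y3, h3, hP, hx3⟩ := frob_sub_gen W ℓ k h
  rw [hP]
  change xdeg W k x3 = _
  obtain ⟨u, v, huv⟩ := exists_isFrobCoeff (redF W ℓ)
  obtain ⟨g, num, den, h1, h2, hcop, hnm, hdm, hn, hd⟩ := count (redF_Δ_ne_zero W ℓ hgood) huv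
  have hb := bridge_at huv (xK W k) (yK W k) (eqnIn_gen W ℓ k h)
  rw [ZMod.card] at hb
  have e1 : (redF W ℓ).a₁ = ((W.a₁ : ℤ) : ZMod ℓ) := rfl
  have e2 : (redF W ℓ).a₂ = ((W.a₂ : ℤ) : ZMod ℓ) := rfl
  have e3 : (redF W ℓ).a₃ = ((W.a₃ : ℤ) : ZMod ℓ) := rfl
  rw [e1, e2, e3] at hb
  simp only [algF_intCast] at hb
  rw [← hx3, aeval_xK, h1, Polynomial.map_mul, map_mul] at hb
  -- the denominator
  have hDk : polyHom W k ((cD (ZMod ℓ) ^ 2).map (iotaF ℓ k)) = (xK W k ^ ℓ - xK W k) ^ 2 := by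
    rw [cD, ZMod.card]
    simp only [Polynomial.map_pow, Polynomial.map_sub, Polynomial.map_X, map_pow, map_sub,
      polyHom_X]
  rw [h2, Polynomial.map_mul, map_mul] at hDk
  rw [← hDk] at hb
  have hg : g ≠ 0 := by
    rintro rfl
    rw [zero_mul] at h1
    exact (monic_cNum huv).ne_zero h1
  have hg' : polyHom W k (g.map (iotaF ℓ k)) ≠ 0 :=
    (map_ne_zero_iff _ (polyHom_injective W k)).mpr
      ((Polynomial.map_ne_zero_iff (iotaF ℓ k).injective).mpr hg)
  have hfrac : x3 * polyHom W k (den.map (iotaF ℓ k)) = polyHom W k (num.map (iotaF ℓ k)) := by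
    apply mul_left_cancel₀ hg'
    linear_combination -hb
  have hden : den.map (iotaF ℓ k) ≠ 0 := (hdm.map _).ne_zero
  have hcop' : IsCoprime (num.map (iotaF ℓ k)) (den.map (iotaF ℓ k)) :=
    hcop.map (Polynomial.mapRingHom (iotaF ℓ k))
  rw [xdeg_of_frac W k hden hcop' hfrac, Polynomial.natDegree_map, Polynomial.natDegree_map, hn]
  have : den.natDegree ≤ Nat.card (redF W ℓ).Point := by omega
  rw [max_eq_left this]

end Geom

/-- **[MAN-CNT]** Manin's count `h(Φ P₀ - P₀) = #W(𝔽_ℓ)`, unconditionally. -/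
theorem cnt : Fermat.Agent.P7.helper92.CntStatement := by
  intro W ℓ _ hgood k _ _ P₀ hP₀
  obtain ⟨h, rfl⟩ := hP₀
  exact manH_frob_sub_gen W ℓ k hgood h

/-- **[MAN-CNT]** in the shape of row 923 (the hypothesis is not needed). -/
theorem cnt_of (hKX : Fermat.Agent.P7.helper92.KXStatement) :
    Fermat.Agent.P7.helper92.CntStatement := cnt


end Fermat.Agent.P7.helper75
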