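import Fermat.Agent.P7.helper52_CEDefs

/-!
# P7 / S52, module CE: [CE-SUBST] substitution endomorphisms (helper52)

For `k` algebraically closed and a point `X = (a, b)` of `W(k(E))` that is not constant, the
coordinate `a` is transcendental over `k`, so `x ↦ a`, `y ↦ b` defines an injective ring
homomorphism `k[E] → k(E)` (injectivity by the norm to `k[x]`), which extends to the function
field: `substAC : SubstACStatement`.
-/

set_option autoImplicit false
set_option linter.style.haveILetI false

open WeierstrassCurve WeierstrassCurve.Affine Polynomial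
open scoped WeierstrassCurve.Affine Classical Polynomial.Bivariate

namespace Fermat.Agent.P7.helper52

open Fermat.Agent.P6.helper78

/-- **[CE-SUBST]**, algebraically closed constants: for every point `X` of `W(k(E))` that is not
constant there is a ring endomorphism of `k(E)`, identity on constants, mapping the generic point
to `X`. -/
def SubstACStatement : Prop :=
  ∀ (W : WeierstrassCurve ℤ) (k : Type) [Field k] [IsAlgClosed k],
    ∀ (P₀ X : PtK W (KE W k)), IsGenericPt W k P₀ →
      (¬ ∃ Q : PtK W k, X = constPt W k Q) →
      ∃ s : KE W k →ₐ[ℤ] KE W k,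
        (∀ c : k, s (algebraMap k (KE W k) c) = algebraMap k (KE W k) c) ∧
        Point.map (W' := W) s P₀ = X

section alg

variable {k K : Type} [Field k] [IsAlgClosed k] [Field K] [Algebra k K]

/-- Over an algebraically closed field, integral elements of a field extension are constants. -/
lemma exists_algebraMap_eq_of_isIntegral {x : K} (hx : IsIntegral k x) :
    ∃ c : k, algebraMap k K c = x := by
  have h1 : (minpoly k x).degree = 1 :=
    IsAlgClosed.degree_eq_one_of_irreducible k (minpoly.irreducible hx)
  exact minpoly.mem_range_of_degree_eq_one k x h1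

end alg

section subst

variable (W : WeierstrassCurve ℤ) (k : Type) [Field k]

lemma algebraMap_KE_eq (c : k) :
    algebraMap k (KE W k) c =
      ofCoord W k (CoordinateRing.mk (WkE W k) (Polynomial.C (Polynomial.C c))) := rfl

/-- Evaluation `k[X] → k(E)` at `a`. -/
noncomputable def evalX (a : KE W k) : k[X] →+* KE W k :=
  Polynomial.eval₂RingHom (algebraMap k (KE W k)) a

lemma evalX_C (a : KE W k) (c : k) : evalX W k a (C c) = algebraMap k (KE W k) c := by
  simp [evalX]

lemma evalX_X (a : KE W k) : evalX W k a X = a := by
  simp [evalX]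

lemma eval₂_polynomial (a b : KE W k) :
    (WkE W k).polynomial.eval₂ (evalX W k a) b =
      (W.map (Int.castRingHom (KE W k))).toAffine.polynomial.evalEval a b := by
  rw [evalEval_polynomial]
  simp only [Affine.polynomial, eval₂_add, eval₂_sub, eval₂_mul, eval₂_pow, eval₂_C, eval₂_X,
    map_add, map_mul, map_pow, evalX_C, evalX_X]
  simp only [map_a₁, map_a₂, map_a₃, map_a₄, map_a₆, eq_intCast, map_intCast]
  ring

variable {W k}

/-- The ring homomorphism `k[E] → k(E)` attached to a point `(a, b)` of `W(k(E))`. -/
noncomputable def substCoord {a b : KE W k}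
    (h : (W.map (Int.castRingHom (KE W k))).toAffine.Equation a b) :
    (WkE W k).CoordinateRing →+* KE W k :=
  AdjoinRoot.lift (evalX W k a) b (by rw [eval₂_polynomial]; exact h)

lemma substCoord_mk {a b : KE W k}
    (h : (W.map (Int.castRingHom (KE W k))).toAffine.Equation a b) (f : k[X][Y]) :
    substCoord h (CoordinateRing.mk (WkE W k) f) = f.eval₂ (evalX W k a) b :=
  AdjoinRoot.lift_mk _ _

lemma substCoord_smul_basis {a b : KE W k}
    (h : (W.map (Int.castRingHom (KE W k))).toAffine.Equation a b) (p q : k[X]) :
    substCoord h (p • (1 : (WkE W k).CoordinateRing) + q • CoordinateRing.mk (WkE W k) Y) =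
      evalX W k a p + evalX W k a q * b := by
  rw [CoordinateRing.smul, CoordinateRing.smul, map_add, map_mul, map_mul, map_one, mul_one,
    substCoord_mk, substCoord_mk, substCoord_mk, eval₂_C, eval₂_C, eval₂_X]

/-- The norm identity. -/
lemma evalX_norm {a b : KE W k}
    (h : (W.map (Int.castRingHom (KE W k))).toAffine.Equation a b) (p q : k[X]) :
    evalX W k a (Algebra.norm k[X]
        (p • (1 : (WkE W k).CoordinateRing) + q • CoordinateRing.mk (WkE W k) Y)) =
      (evalX W k a p + evalX W k a q * b) *
        (evalX W k a p - evalX W k a q * (b + (W.a₁ : KE W k) * a + (W.a₃ : KE W k))) := by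
  rw [CoordinateRing.norm_smul_basis]
  have h' := (equation_iff _ _).mp h
  simp only [map_a₁, map_a₂, map_a₃, map_a₄, map_a₆, eq_intCast] at h'
  simp only [map_sub, map_add, map_mul, map_pow, evalX_C, evalX_X]
  simp only [map_a₁, map_a₂, map_a₃, map_a₄, map_a₆, eq_intCast, map_intCast]
  linear_combination (evalX W k a q) ^ 2 * h'

lemma substCoord_injective {a b : KE W k}
    (h : (W.map (Int.castRingHom (KE W k))).toAffine.Equation a b)
    (ha : Function.Injective (evalX W k a)) :
    Function.Injective (substCoord h) := by
  rw [injective_iff_map_eq_zero]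
  intro r hr
  obtain ⟨p, q, rfl⟩ := CoordinateRing.exists_smul_basis_eq r
  rw [substCoord_smul_basis] at hr
  have hN := evalX_norm h p q
  rw [hr, zero_mul] at hN
  have hN0 := (injective_iff_map_eq_zero _).mp ha _ hN
  haveI : Module.Finite k[X] (WkE W k).CoordinateRing :=
    Module.Finite.of_basis (CoordinateRing.basis (WkE W k))
  exact (Algebra.norm_eq_zero_iff (R := k[X])).mp hN0

/-- `evalX` at an element that is not a constant is injective (`k` algebraically closed). -/
lemma evalX_injective [IsAlgClosed k] {a : KE W k}
    (ha : ∀ c : k, algebraMap k (KE W k) c ≠ a) : Function.Injective (evalX W k a) := by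
  have htr : Transcendental k a := by
    intro halg
    obtain ⟨c, hc⟩ := exists_algebraMap_eq_of_isIntegral halg.isIntegral
    exact ha c hc
  have := transcendental_iff_injective.mp htr
  intro p q hpq
  apply this
  simpa [evalX, Polynomial.aeval_def] using hpq

/-- A point of `W(k(E))` with constant `x`-coordinate is constant (`k` algebraically closed). -/
lemma const_of_x_const [IsAlgClosed k] {a b : KE W k}
    (h : (W.map (Int.castRingHom (KE W k))).toAffine.Nonsingular a b) (c : k)
    (hc : algebraMap k (KE W k) c = a) :
    ∃ Q : PtK W k, (Point.some a b h : PtK W (KE W k)) = constPt W k Q := by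
  have heq := (equation_iff _ _).mp h.1
  simp only [map_a₁, map_a₂, map_a₃, map_a₄, map_a₆, eq_intCast] at heq
  -- `b` is integral over `k`
  have hb : IsIntegral k b := by
    refine ⟨X ^ 2 + C ((W.a₁ : k) * c + (W.a₃ : k)) * X -
      C (c ^ 3 + (W.a₂ : k) * c ^ 2 + (W.a₄ : k) * c + (W.a₆ : k)), ?_, ?_⟩
    · have hdeg : (C ((W.a₁ : k) * c + (W.a₃ : k)) * X -
          C (c ^ 3 + (W.a₂ : k) * c ^ 2 + (W.a₄ : k) * c + (W.a₆ : k))).degree < ((2 : ℕ) : WithBot ℕ) := by
        refine lt_of_le_of_lt (degree_sub_le _ _) ?_
        refine max_lt ?_ ?_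
        · refine lt_of_le_of_lt (degree_C_mul_X_le _) ?_
          exact_mod_cast (by norm_num : (1 : ℕ) < 2)
        · refine lt_of_le_of_lt degree_C_le ?_
          exact_mod_cast (by norm_num : (0 : ℕ) < 2)
      rw [add_sub_assoc]
      exact monic_X_pow_add hdeg
    · simp only [eval₂_sub, eval₂_add, eval₂_mul, eval₂_pow, eval₂_C, eval₂_X]
      simp only [map_add, map_mul, map_pow, map_intCast, hc]
      linear_combination heq
  obtain ⟨d, hd⟩ := exists_algebraMap_eq_of_isIntegral hb
  subst hc hd
  have h' : (W.map (Int.castRingHom k)).toAffine.Nonsingular c d :=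
    (Affine.baseChange_nonsingular W (f := constHom W k) (constHom W k).injective c d).mp h
  exact ⟨Point.some c d h', rfl⟩

/-- The canonical algebra structure of `k(E)` over `k[E]` (local use only). -/
@[reducible] noncomputable def algCoordKE (W : WeierstrassCurve ℤ) (k : Type) [Field k] :
    Algebra (WkE W k).CoordinateRing (KE W k) :=
  inferInstanceAs (Algebra (WkE W k).CoordinateRing (WkE W k).FunctionField)

lemma isFractionRing_KE (W : WeierstrassCurve ℤ) (k : Type) [Field k] :
    @IsFractionRing (WkE W k).CoordinateRing _ (KE W k) _ (algCoordKE W k) :=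
  inferInstanceAs (IsFractionRing (WkE W k).CoordinateRing (WkE W k).FunctionField)

/-- **[CE-SUBST]** for algebraically closed constants. -/
theorem substAC : SubstACStatement := by
  intro W k _ _ P₀ X hP₀ hX
  obtain ⟨hgen, rfl⟩ := hP₀
  cases X with
  | zero => exact absurd ⟨0, (map_zero (constPt W k)).symm⟩ hX
  | some a b hab =>
    have ha : ∀ c : k, algebraMap k (KE W k) c ≠ a := fun c hc =>
      hX (const_of_x_const hab c hc)
    have hinj := substCoord_injective hab.1 (evalX_injective ha)
    letI : Algebra (WkE W k).CoordinateRing (KE W k) := algCoordKE W k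
    haveI : IsFractionRing (WkE W k).CoordinateRing (KE W k) := isFractionRing_KE W k
    let s₀ : KE W k →+* KE W k := IsFractionRing.lift hinj
    have hs₀ : ∀ r, s₀ (ofCoord W k r) = substCoord hab.1 r := fun r =>
      IsFractionRing.lift_algebraMap hinj r
    refine ⟨s₀.toIntAlgHom, ?_, ?_⟩
    · intro c
      change s₀ (algebraMap k (KE W k) c) = _
      rw [algebraMap_KE_eq, hs₀, substCoord_mk, eval₂_C, evalX_C]
      exact algebraMap_KE_eq W k c
    · have hx : s₀.toIntAlgHom (xK W k) = a := by
        change s₀ (xK W k) = a
        rw [xK, hs₀, substCoord_mk, eval₂_C, evalX_X]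
      have hy : s₀.toIntAlgHom (yK W k) = b := by
        change s₀ (yK W k) = b
        rw [yK, hs₀, substCoord_mk, eval₂_X]
      change (Point.some (s₀.toIntAlgHom (xK W k)) (s₀.toIntAlgHom (yK W k)) _ :
        PtK W (KE W k)) = _
      simp only [hx, hy]

end subst

end Fermat.Agent.P7.helper52
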