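import Fermat.Agent.P7.helper52_CEDefs
import Fermat.Agent.P7.helper97_DegComp

/-!
# P7 / S52 CE-MANIN [MUL], core: substitution endomorphisms multiply `x`-degrees

`emb : RatFunc k →ₐ[k] k(E)` is the inclusion `k(x) ⊆ k(E)` (vocabulary of `helper52_CEDefs`);
`xdeg z` is the degree of `z ∈ k(x)` as a rational function of `x` (junk `0` outside `k(x)`).
If a ring endomorphism `s` of `k(E)` fixes `k` and maps `x` into `k(x)`, then it maps `k(x)`
into `k(x)` and `xdeg (s z) = xdeg z * xdeg (s x)` (`xdeg_subst`).
-/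

set_option autoImplicit false

open WeierstrassCurve WeierstrassCurve.Affine Polynomial
open scoped WeierstrassCurve.Affine Classical

namespace Fermat.Agent.P7.helper97

open Fermat.Agent.P6.helper78 Fermat.Agent.P7.helper52

variable (W : WeierstrassCurve ℤ) (k : Type) [Field k]

/-- The polynomial ring `k[X]` inside `k(E)`: `X ↦ x`. -/
noncomputable def polyEmb : k[X] →ₐ[k] KE W k := aeval (xK W k)

lemma polyEmb_apply (p : k[X]) :
    polyEmb W k p = ofCoord W k (CoordinateRing.mk (WkE W k) (C p)) := by
  induction p using Polynomial.induction_on' with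
  | add p q hp hq => rw [map_add, hp, hq, map_add, map_add, map_add]
  | monomial n c =>
    rw [← C_mul_X_pow_eq_monomial, polyEmb, map_mul, map_pow, aeval_X, aeval_C, xK, map_mul,
      map_mul, map_mul, map_pow, map_pow, map_pow]
    rfl

lemma polyEmb_injective : Function.Injective (polyEmb W k) := by
  intro p q hpq
  rw [polyEmb_apply, polyEmb_apply] at hpq
  have h1 : CoordinateRing.mk (WkE W k) (C p) = CoordinateRing.mk (WkE W k) (C q) :=
    IsFractionRing.injective (WkE W k).CoordinateRing (WkE W k).FunctionField hpq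
  exact FaithfulSMul.algebraMap_injective k[X] (WkE W k).CoordinateRing h1

/-- The inclusion `k(x) ⊆ k(E)`. -/
noncomputable def emb : RatFunc k →ₐ[k] KE W k :=
  RatFunc.liftAlgHom (polyEmb W k) (by
    intro p hp
    rw [Submonoid.mem_comap, mem_nonZeroDivisors_iff_ne_zero]
    exact (map_ne_zero_iff _ (polyEmb_injective W k)).mpr (nonZeroDivisors.ne_zero hp))

lemma emb_apply (f : RatFunc k) :
    emb W k f = polyEmb W k f.num / polyEmb W k f.denom :=
  RatFunc.liftAlgHom_apply _ _ f

lemma emb_algebraMap (p : k[X]) : emb W k (algebraMap k[X] (RatFunc k) p) = polyEmb W k p := by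
  rw [emb_apply, RatFunc.num_algebraMap, RatFunc.denom_algebraMap, map_one, div_one]

lemma emb_X : emb W k RatFunc.X = xK W k := by
  rw [← RatFunc.algebraMap_X, emb_algebraMap, polyEmb, aeval_X]

lemma emb_injective : Function.Injective (emb W k) := (emb W k).toRingHom.injective

lemma emb_aeval (S : RatFunc k) (p : k[X]) : emb W k (aeval S p) = aeval (emb W k S) p :=
  (aeval_algHom_apply (emb W k) S p).symm

/-- **Substitution**: a ring endomorphism `s` of `k(E)` fixing `k` with `s x = emb S` maps
`emb R` to `emb (R ∘ S)`. -/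
theorem emb_ratComp (s : KE W k →+* KE W k)
    (hs : ∀ c : k, s (algebraMap k (KE W k) c) = algebraMap k (KE W k) c)
    (R S : RatFunc k) (hsx : s (xK W k) = emb W k S) :
    s (emb W k R) = emb W k (ratComp R S) := by
  have hpoly : ∀ p : k[X], s (polyEmb W k p) = aeval (emb W k S) p := by
    intro p
    induction p using Polynomial.induction_on' with
    | add p q hp hq => rw [map_add, map_add, hp, hq, map_add]
    | monomial n c =>
      rw [← C_mul_X_pow_eq_monomial, polyEmb, map_mul, map_pow, aeval_X, aeval_C, map_mul,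
        map_pow, hs, hsx, map_mul, map_pow, aeval_X, aeval_C]
  rw [emb_apply, map_div₀, hpoly, hpoly, ratComp_def, map_div₀, emb_aeval, emb_aeval]

/-- The degree in `x` of an element of `k(x) ⊆ k(E)` (junk `0` outside `k(x)`). -/
noncomputable def xdeg (z : KE W k) : ℕ :=
  if h : ∃ f : RatFunc k, emb W k f = z then ratDeg h.choose else 0

lemma xdeg_emb (f : RatFunc k) : xdeg W k (emb W k f) = ratDeg f := by
  have h : ∃ g : RatFunc k, emb W k g = emb W k f := ⟨f, rfl⟩
  rw [xdeg, dif_pos h]
  exact congrArg ratDeg (emb_injective W k h.choose_spec)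

lemma xdeg_xK : xdeg W k (xK W k) = 1 := by
  rw [← emb_X, xdeg_emb, ratDeg, RatFunc.num_X, RatFunc.denom_X, natDegree_X, natDegree_one]
  rfl

lemma xdeg_const (c : k) : xdeg W k (algebraMap k (KE W k) c) = 0 := by
  have : algebraMap k (KE W k) c = emb W k (RatFunc.C c) := by
    rw [← RatFunc.algebraMap_eq_C, AlgHom.commutes]
  rw [this, xdeg_emb, ratDeg, RatFunc.num_C, RatFunc.denom_C, natDegree_C, natDegree_one]
  rfl

/-- **[MUL], core**: substitution multiplies `x`-degrees. -/
theorem xdeg_subst (s : KE W k →+* KE W k)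
    (hs : ∀ c : k, s (algebraMap k (KE W k) c) = algebraMap k (KE W k) c)
    {S : RatFunc k} (hsx : s (xK W k) = emb W k S) (R : RatFunc k) :
    xdeg W k (s (emb W k R)) = xdeg W k (emb W k R) * xdeg W k (s (xK W k)) := by
  rw [emb_ratComp W k s hs R S hsx, hsx, xdeg_emb, xdeg_emb, xdeg_emb, ratDeg_comp]

/-- Frobenius multiplies `x`-degrees by `ℓ` (for elements of `k(x)`). -/
theorem ratDeg_pow (f : RatFunc k) (n : ℕ) : ratDeg (f ^ n) = n * ratDeg f := by
  have hd : f.denom ≠ 0 := f.denom_ne_zero
  have hc : IsCoprime (f.num ^ n) (f.denom ^ n) := f.isCoprime_num_denom.pow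
  have e : f ^ n = algebraMap k[X] (RatFunc k) (f.num ^ n) /
      algebraMap k[X] (RatFunc k) (f.denom ^ n) := by
    rw [map_pow, map_pow, ← div_pow, f.num_div_denom]
  rw [e, ratDeg_div_of_isCoprime (pow_ne_zero _ hd) hc, natDegree_pow, natDegree_pow, ratDeg,
    Nat.mul_max_mul_left]

theorem xdeg_pow (f : RatFunc k) (n : ℕ) :
    xdeg W k (emb W k f ^ n) = n * xdeg W k (emb W k f) := by
  rw [← map_pow, xdeg_emb, xdeg_emb, ratDeg_pow]

end Fermat.Agent.P7.helper97
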