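import Fermat.Agent.P7.helper92_ManinDefs
import Fermat.Agent.P7.helper92_ManinKX
import Fermat.Agent.P7.helper52_Subst
import Fermat.Agent.P7.helper97_MulCore

/-!
# P7 / S52 CE-MANIN row P7-MAN-MUL: `MulStatement` from `KXStatement` + `SubstStatement`

`h ((Φ - 1)(Φ + 1) P₀) = h ((Φ - 1) P₀) * h ((Φ + 1) P₀)`: with `Y = (Φ + 1) P₀`, either `Y` is
constant and both sides vanish, or the substitution endomorphism `s` of `Y` maps `(Φ - 1) P₀` to
`(Φ - 1) Y` and multiplies `x`-degrees by `h Y` (`helper97.ratDeg_comp`).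
-/

set_option autoImplicit false

open WeierstrassCurve WeierstrassCurve.Affine Polynomial
open scoped WeierstrassCurve.Affine Classical

namespace Fermat.Agent.P7.helper97

open Fermat.Agent.P6.helper78 Fermat.Agent.P7.helper52 Fermat.Agent.P7.helper92

section Dict

variable (W : WeierstrassCurve ℤ) (k : Type) [Field k]

lemma polyHom_eq_polyEmb (p : k[X]) : polyHom W k p = polyEmb W k p := by
  rw [polyEmb_apply]
  rfl

lemma kxHom_eq_emb (r : RatFunc k) : kxHom W k r = emb W k r := by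
  rw [emb_apply, kxHom, RatFunc.liftRingHom_apply, polyHom_eq_polyEmb, polyHom_eq_polyEmb]

lemma kxHom_injective : Function.Injective (kxHom W k) := by
  intro a b h
  rw [kxHom_eq_emb, kxHom_eq_emb] at h
  exact emb_injective W k h

lemma xdeg92_kxHom (r : RatFunc k) : Fermat.Agent.P7.helper92.xdeg W k (kxHom W k r) = rdeg r := by
  have h : ∃ g : RatFunc k, kxHom W k g = kxHom W k r := ⟨r, rfl⟩
  rw [Fermat.Agent.P7.helper92.xdeg, dif_pos h]
  exact congrArg (fun z => ((rdeg z : ℕ) : ℤ)) (kxHom_injective W k h.choose_spec)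

lemma rdeg_eq_ratDeg (r : RatFunc k) : rdeg r = ratDeg r := rfl

lemma kxHom_C (c : k) : kxHom W k (RatFunc.C c) = algebraMap k (KE W k) c := by
  rw [kxHom_eq_emb, ← RatFunc.algebraMap_eq_C, AlgHom.commutes]

lemma rdeg_C (c : k) : rdeg (RatFunc.C c) = 0 := by
  rw [rdeg, RatFunc.num_C, RatFunc.denom_C, natDegree_C, natDegree_one]
  rfl

/-- Constant points have height `0`. -/
lemma manH_constPt (Q : PtK W k) : manH W k (constPt W k Q) = 0 := by
  cases Q with
  | zero => rfl
  | some x y h =>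
    have : ∃ h', constPt W k (Point.some x y h) =
        Point.some (algebraMap k (KE W k) x) (algebraMap k (KE W k) y) h' := ⟨_, rfl⟩
    obtain ⟨h', e⟩ := this
    rw [e]
    show Fermat.Agent.P7.helper92.xdeg W k (algebraMap k (KE W k) x) = 0
    rw [← kxHom_C, xdeg92_kxHom, rdeg_C]
    rfl

end Dict

section Main

variable (W : WeierstrassCurve ℤ) (k : Type) [Field k]

lemma invPt_some {x y : KE W k}
    (h : (W.map (Int.castRingHom (KE W k))).toAffine.Nonsingular x y) :
    ∃ h', invPt W k (Point.some x y h) = Point.some (invK W k x) (invK W k y) h' := ⟨_, rfl⟩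

/-- `Point.map s` as an endomorphism of `PtK W (KE W k)`. -/
noncomputable def mapPt (s : KE W k →ₐ[ℤ] KE W k) : PtK W (KE W k) →+ PtK W (KE W k) :=
  Point.map (W' := W) s

lemma pointMap_some (s : KE W k →ₐ[ℤ] KE W k) {x y : KE W k}
    (h : (W.map (Int.castRingHom (KE W k))).toAffine.Nonsingular x y) :
    ∃ h' : (W.map (Int.castRingHom (KE W k))).toAffine.Nonsingular (s x) (s y),
      mapPt W k s (Point.some x y h) = (Point.some (s x) (s y) h' : PtK W (KE W k)) := ⟨_, rfl⟩

/-- The `x`-coordinate of a point of `G` lies in `k(x)`. -/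
lemma exists_kxHom_of_mem_manG (hKX : IsKX W k) {x y : KE W k}
    {h : (W.map (Int.castRingHom (KE W k))).toAffine.Nonsingular x y}
    (hX : (Point.some x y h : PtK W (KE W k)) ∈ manG W k) : ∃ r : RatFunc k, kxHom W k r = x := by
  rw [mem_manG_iff] at hX
  obtain ⟨h', e⟩ := invPt_some W k h
  rw [e, Point.neg_some] at hX
  simp only [Point.some.injEq] at hX
  exact hKX.fixed x hX.1

lemma invK_xK (hKX : IsKX W k) : invK W k (xK W k) = xK W k := by
  rw [← hKX.kx_X]
  exact hKX.inv_kx _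

/-- The generic point lies in `G`. -/
lemma generic_mem_manG (hKX : IsKX W k) {P₀ : PtK W (KE W k)} (hP₀ : IsGenericPt W k P₀) :
    P₀ ∈ manG W k := by
  obtain ⟨h, rfl⟩ := hP₀
  rw [mem_manG_iff]
  obtain ⟨h', e⟩ := invPt_some W k h
  rw [e, Point.neg_some]
  simp only [Point.some.injEq]
  exact ⟨invK_xK W k hKX, hKX.inv_y⟩

variable (ℓ : ℕ) [Fact ℓ.Prime] [CharP k ℓ]

lemma frobK_apply (z : KE W k) : frobK W k ℓ z = z ^ ℓ := rfl

lemma frobKPt_some {x y : KE W k}
    (h : (W.map (Int.castRingHom (KE W k))).toAffine.Nonsingular x y) :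
    ∃ h', frobKPt W k ℓ (Point.some x y h) = Point.some (x ^ ℓ) (y ^ ℓ) h' := ⟨_, rfl⟩

lemma ptK_some_congr {F : Type} [Field F] {x y x' y' : F}
    (h : (W.map (Int.castRingHom F)).toAffine.Nonsingular x y)
    (h' : (W.map (Int.castRingHom F)).toAffine.Nonsingular x' y') (hx : x = x') (hy : y = y') :
    (Point.some x y h : PtK W F) = Point.some x' y' h' := by
  subst hx; subst hy; rfl

/-- Every `ℤ`-algebra endomorphism of `k(E)` commutes with Frobenius on points. -/
lemma pointMap_frobKPt (s : KE W k →ₐ[ℤ] KE W k) (X : PtK W (KE W k)) :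
    mapPt W k s (frobKPt W k ℓ X) = frobKPt W k ℓ (mapPt W k s X) := by
  cases X with
  | zero => rfl
  | some x y h =>
    obtain ⟨h₁, e₁⟩ := frobKPt_some W k ℓ h
    obtain ⟨h₂, e₂⟩ := pointMap_some W k s h₁
    obtain ⟨h₃, e₃⟩ := pointMap_some W k s h
    obtain ⟨h₄, e₄⟩ := frobKPt_some W k ℓ h₃
    rw [e₁, e₂, e₃, e₄]
    exact ptK_some_congr W _ _ (map_pow s x ℓ) (map_pow s y ℓ)

/-- Frobenius preserves `G`. -/
lemma frobKPt_mem_manG {X : PtK W (KE W k)} (hX : X ∈ manG W k) :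
    frobKPt W k ℓ X ∈ manG W k := by
  rw [mem_manG_iff] at hX ⊢
  have h1 : invPt W k (frobKPt W k ℓ X) = frobKPt W k ℓ (invPt W k X) :=
    pointMap_frobKPt W k ℓ (invK W k) X
  rw [h1, hX, map_neg]

/-- Frobenius of a constant point is constant. -/
lemma frobKPt_constPt (Q : PtK W k) :
    frobKPt W k ℓ (constPt W k Q) = constPt W k (frobPt W k ℓ Q) := by
  cases Q with
  | zero => rfl
  | some x y h =>
    have e₁ : ∃ h', constPt W k (Point.some x y h) =
        Point.some (algebraMap k (KE W k) x) (algebraMap k (KE W k) y) h' := ⟨_, rfl⟩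
    obtain ⟨h₁, e₁⟩ := e₁
    obtain ⟨h₂, e₂⟩ := frobKPt_some W k ℓ h₁
    obtain ⟨h₃, e₃⟩ := frobPt_some W k ℓ h
    have e₄ : ∃ h', constPt W k (Point.some (x ^ ℓ) (y ^ ℓ) h₃) =
        Point.some (algebraMap k (KE W k) (x ^ ℓ)) (algebraMap k (KE W k) (y ^ ℓ)) h' :=
      ⟨_, rfl⟩
    obtain ⟨h₄, e₄⟩ := e₄
    rw [e₁, e₂, e₃, e₄]
    exact ptK_some_congr W _ _ (map_pow _ x ℓ).symm (map_pow _ y ℓ).symm

/-- **[MAN-MUL]**, core for a fixed field `k`. -/
theorem manH_mul_core (hKX : IsKX W k)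
    (hSub : ∀ (P₀ X : PtK W (KE W k)), IsGenericPt W k P₀ →
      (¬ ∃ Q : PtK W k, X = constPt W k Q) →
      ∃ s : KE W k →ₐ[ℤ] KE W k,
        (∀ c : k, s (algebraMap k (KE W k) c) = algebraMap k (KE W k) c) ∧
        Point.map (W' := W) s P₀ = X)
    (P₀ : PtK W (KE W k)) (hP₀ : IsGenericPt W k P₀) :
    manH W k (frobKPt W k ℓ (frobKPt W k ℓ P₀) - P₀) =
      manH W k (frobKPt W k ℓ P₀ - P₀) * manH W k (frobKPt W k ℓ P₀ + P₀) := by
  have hmem₀ := generic_mem_manG W k hKX hP₀
  have hmem₁ := frobKPt_mem_manG W k ℓ hmem₀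
  set Y := frobKPt W k ℓ P₀ + P₀ with hY
  set Z := frobKPt W k ℓ P₀ - P₀ with hZ
  have hYG : Y ∈ manG W k := (manG W k).add_mem hmem₁ hmem₀
  have hZG : Z ∈ manG W k := (manG W k).sub_mem hmem₁ hmem₀
  have hT : frobKPt W k ℓ (frobKPt W k ℓ P₀) - P₀ = frobKPt W k ℓ Y - Y := by
    rw [hY, map_add]; abel
  rw [hT]
  by_cases hc : ∃ Q : PtK W k, Y = constPt W k Q
  · obtain ⟨Q, hQ⟩ := hc
    rw [hQ, frobKPt_constPt, ← map_sub, manH_constPt, manH_constPt, mul_zero]
  · obtain ⟨s, hs, hsP⟩ := hSub P₀ Y hP₀ hc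
    have hsP' : mapPt W k s P₀ = Y := hsP
    have hsZ : mapPt W k s Z = frobKPt W k ℓ Y - Y := by
      rw [hZ, map_sub, pointMap_frobKPt, hsP']
    rw [← hsZ]
    -- coordinates of `Y`
    have hY0 : Y ≠ 0 := fun h0 => hc ⟨0, by rw [h0, map_zero]⟩
    obtain ⟨h₀, rfl⟩ := hP₀
    obtain ⟨h₀', e₀⟩ := pointMap_some W k s h₀
    generalize Y = Y' at *
    cases Y' with
    | zero => exact absurd rfl hY0
    | some xY yY hYns =>
      obtain ⟨S, hS⟩ := exists_kxHom_of_mem_manG W k hKX hYG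
      have hsx : s (xK W k) = emb W k S := by
        rw [e₀] at hsP'
        simp only [Point.some.injEq] at hsP'
        rw [hsP'.1, ← hS, kxHom_eq_emb]
      generalize Z = Z' at *
      cases Z' with
      | zero =>
        have e0 : mapPt W k s (Point.zero : PtK W (KE W k)) = 0 := map_zero _
        rw [e0]
        show (0 : ℤ) = 0 * _
        rw [zero_mul]
      | some xZ yZ hZns =>
        obtain ⟨R, hR⟩ := exists_kxHom_of_mem_manG W k hKX hZG
        obtain ⟨hZ', eZ⟩ := pointMap_some W k s hZns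
        rw [eZ]
        show Fermat.Agent.P7.helper92.xdeg W k (s xZ) =
          Fermat.Agent.P7.helper92.xdeg W k xZ * Fermat.Agent.P7.helper92.xdeg W k xY
        have h1 : s xZ = kxHom W k (ratComp R S) := by
          rw [← hR, kxHom_eq_emb, kxHom_eq_emb]
          exact emb_ratComp W k s.toRingHom hs R S hsx
        rw [h1, ← hR, ← hS, xdeg92_kxHom, xdeg92_kxHom, xdeg92_kxHom, rdeg_eq_ratDeg,
          rdeg_eq_ratDeg, rdeg_eq_ratDeg, ratDeg_comp]
        push_cast
        rfl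

/-- **[MAN-MUL]** row P7-MAN-MUL: `MulStatement` from `KXStatement` and `SubstStatement`
(`RdegCompStatement` is `helper97.rdegComp`, used through `ratDeg_comp`). -/
theorem mul_of_parts (hKX : KXStatement) (hSub : SubstStatement) : MulStatement := by
  intro W ℓ _ hgood k _ _ P₀ hP₀
  have hΔ := delta_ne_zero_of_good W ℓ hgood k
  exact manH_mul_core W k ℓ (hKX W k hΔ) (fun P X hP hX => hSub W k hΔ P X hP hX) P₀ hP₀

/-- **[MAN-MUL]** with `KXStatement` discharged (`helper92.kxStatement`). -/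
theorem mul_of_subst (hSub : SubstStatement) : MulStatement :=
  mul_of_parts Fermat.Agent.P7.helper92.kxStatement hSub

/-- **[MAN-MUL]**, algebraically closed constants (the case used by `ManinStatement`). -/
def MulACStatement : Prop :=
  ∀ (W : WeierstrassCurve ℤ) (ℓ : ℕ) [Fact ℓ.Prime], W.IsGoodPrimeFor ℓ →
    ∀ (k : Type) [Field k] [CharP k ℓ] [IsAlgClosed k] (P₀ : PtK W (KE W k)),
      IsGenericPt W k P₀ →
      manH W k (frobKPt W k ℓ (frobKPt W k ℓ P₀) - P₀) =
        manH W k (frobKPt W k ℓ P₀ - P₀) * manH W k (frobKPt W k ℓ P₀ + P₀)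

/-- **[MAN-MUL]** over algebraically closed constants, UNCONDITIONAL
(`helper92.kxStatement` + `helper52.substAC` + `helper97.ratDeg_comp`). -/
theorem mulAC : MulACStatement := by
  intro W ℓ _ hgood k _ _ _ P₀ hP₀
  have hΔ := delta_ne_zero_of_good W ℓ hgood k
  exact manH_mul_core W k ℓ (Fermat.Agent.P7.helper92.kxStatement W k hΔ)
    (fun P X hP hX => Fermat.Agent.P7.helper52.substAC W k P X hP hX) P₀ hP₀

/-- **[MAN-ASM]**, variant of `helper92.manin_of_parts` with [MAN-MUL] discharged over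
algebraically closed constants. -/
theorem manin_of_parts_mulAC (hGen : GenStatement) (hFrob : FrobStatement)
    (hPar : ParStatement) (hCnt : Fermat.Agent.P7.helper92.CntStatement)
    (hConst : ConstStatement) :
    ManinStatement := by
  intro W ℓ _ hgood k _ _ _
  have hΔ := delta_ne_zero_of_good W ℓ hgood k
  obtain ⟨P₀, hgen, hmem, h1⟩ := hGen W k hΔ
  refine ⟨manG W k, P₀, manH W k, ?_⟩
  exact
    { isGeneric := hgen
      mem_P₀ := hmem
      mem_frob := fun X hX => (hFrob W ℓ k hΔ X hX).1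
      par := hPar W k hΔ
      h_frob := fun X hX => (hFrob W ℓ k hΔ X hX).2
      h_P₀ := h1
      h_count := hCnt W ℓ hgood k P₀ hgen
      h_mul := mulAC W ℓ hgood k P₀ hgen
      const_of_h_eq_zero := hConst W k hΔ }

end Main

end Fermat.Agent.P7.helper97
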