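import Fermat.Agent.P7.helper92_ManinSmall
import Fermat.Agent.P7.helper97_ManinMul
import Fermat.Agent.P7.helper75_ManinCnt
import Fermat.Agent.P7.helper24_ManinPar

/-!
# P7 / S52, [CE-MANIN]: the assembly (helper92, sub-coordinator)

`manin : helper52.ManinStatement` and `ceStatement : helper52.CEStatement`, unconditional:

* [MAN-KX]    `helper92.kxStatement`
* [MAN-GEN], [MAN-FROB], [MAN-CONST]  `helper92.gen`, `helper92.frob`, `helper92.const`
* [MAN-PAR]   `helper24.par`
* [MAN-CNT]   `helper75.cnt`
* [MAN-MUL]   `helper97.mulAC` (inside `helper97.manin_of_parts_mulAC`)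
* [CE-SUBST], [CE-FINAL]  `helper52.substAC`, `helper52.ceStatement_of_manin`
-/

set_option autoImplicit false

namespace Fermat.Agent.P7.helper92

/-- **[CE-MANIN]** the Manin height package, unconditional. -/
theorem manin : Fermat.Agent.P7.helper52.ManinStatement :=
  Fermat.Agent.P7.helper97.manin_of_parts_mulAC gen frob Fermat.Agent.P7.helper24.par
    Fermat.Agent.P7.helper75.cnt const

/-- **[CE-FIN]** the characteristic equation of Frobenius `φ² - a_ℓ φ + ℓ = 0` on `W(k)`, `k`
algebraically closed of characteristic `ℓ`, `ℓ` a good prime of the integral model `W`. -/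
theorem ceStatement : Fermat.Agent.P7.helper52.CEStatement :=
  Fermat.Agent.P7.helper52.ceStatement_of_manin manin

end Fermat.Agent.P7.helper92
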