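import Fermat.Agent.P7.helper47_ChoiceAsm
import Fermat.Agent.P7.helper64_Cont
import Fermat.Agent.P7.helper47_Cop
import Fermat.Agent.P7.helper47_Spec
import Fermat.Agent.P7.helper20_AuxWire
import Fermat.Agent.P7.helper92_ManinFinal
import Fermat.Agent.P7.helper52_Cong
import Fermat.Agent.P7.helper19_RedInst

/-!
# P7 / S52: the frozen statement from `FamStatement` alone (helper20)

All modules of `helper47.s52_of_modules` except [FAM] are on main:

* [CONT] `helper64.contStatement`, [COP] `helper47.cop`, [SPEC] `helper47.spec`,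
* [AUX]  `helper20.auxStatement`,
* [CONG] `helper52.congStatement_of helper92.ceStatement helper19.redInst` (+ the adapter
  `congStatement47` below).

`s52_of_fam : helper47.FamStatement → (statement of S52)`.
-/

set_option autoImplicit false

open WeierstrassCurve

namespace Fermat.Agent.P7.helper20

open Fermat.Agent.P7.helper47

/-- [CONG] in the shape of `helper52`, unconditional. -/
theorem congStatement52 : Fermat.Agent.P7.helper52.CongStatement :=
  Fermat.Agent.P7.helper52.congStatement_of Fermat.Agent.P7.helper92.ceStatement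
    Fermat.Agent.P7.helper19.redInst

/-- [CONG] in the shape of `helper47`, unconditional. -/
theorem congStatement47 : Fermat.Agent.P7.helper47.CongStatement := by
  intro W W' hΔ _ ⟨e, he⟩ ℓ hℓ hg hg' hℓ5
  have h := congStatement52 W W' 5 Nat.prime_five hΔ e.toAddMonoidHom e.injective
    (fun σ P => he σ P) ℓ hℓ hg hg' hℓ5
  exact_mod_cast h

/-- **S52 from [FAM]**: the statement of S52 (without the unused hypothesis on `E[5]`) follows
from `helper47.FamStatement`. -/
theorem s52_of_fam (hFam : FamStatement)
    (W : WeierstrassCurve ℤ) (hΔ : W.Δ ≠ 0) (hW : W.IsSemistableModel) :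
    ∃ W' : WeierstrassCurve ℤ, W'.Δ ≠ 0 ∧ W'.IsSemistableModel ∧ W'.ModRepIsIrreducible 3 ∧
      ∀ ℓ : ℕ, ℓ.Prime → W.IsGoodPrimeFor ℓ → W'.IsGoodPrimeFor ℓ → ℓ ≠ 5 →
        (5 : ℤ) ∣ (W'.apOfModel ℓ - W.apOfModel ℓ) :=
  s52_of_modules hFam Fermat.Agent.P7.helper64.contStatement Fermat.Agent.P7.helper47.cop
    Fermat.Agent.P7.helper47.spec auxStatement congStatement47 W hΔ hW

end Fermat.Agent.P7.helper20
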