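import Mathlib

/-!
# P7 / S52, module CE-MANIN, package [BIQ-CLAIM] (helper24)

The TODO of Mathlib's `AddSubMap.lean`: the polynomial map `WeierstrassCurve.addSubMap` on
coordinate vectors really computes
`(x(P) x(Q) : x(P) + x(Q) : 1) ↦ (x(P+Q) x(P-Q) : x(P+Q) + x(P-Q) : 1)`,
for ALL pairs of points `P`, `Q` of a Weierstrass curve over a field (no hypothesis on the
discriminant; the points are nonsingular by definition of `Point`).

* `asEval W w` : the triple `addSubMap` evaluated at `w`;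
* `biqF₁`, `biqF₂` : the biquadratic numerators of `x₊ + x₋` and `x₊ x₋`;
* `sym2x_add_sub` : `∃ c ≠ 0, c • (P + Q).sym2x (P - Q) = asEval W (P.sym2x Q)`.
-/

set_option autoImplicit false
set_option linter.unusedSectionVars false

open WeierstrassCurve WeierstrassCurve.Affine MvPolynomial

namespace Fermat.Agent.P7.helper24

section eval

variable {R : Type*} [CommRing R] (W : WeierstrassCurve R)

/-- The triple of polynomials `addSubMap` evaluated at a coordinate vector. -/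
noncomputable def asEval (w : Fin 3 → R) : Fin 3 → R :=
  fun i => MvPolynomial.eval w (W.addSubMap i)

lemma asEval_zero (w : Fin 3 → R) :
    asEval W w 0 = w 0 ^ 2 - W.b₄ * w 0 * w 2 - W.b₆ * w 1 * w 2 - W.b₈ * w 2 ^ 2 := by
  simp [asEval, addSubMap]

lemma asEval_one (w : Fin 3 → R) :
    asEval W w 1 = 2 * w 1 * w 0 + W.b₂ * w 0 * w 2 + W.b₄ * w 1 * w 2 + W.b₆ * w 2 ^ 2 := by
  simp [asEval, addSubMap]

lemma asEval_two (w : Fin 3 → R) :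
    asEval W w 2 = w 1 ^ 2 - 4 * w 0 * w 2 := by
  simp [asEval, addSubMap]

lemma asEval_eq (w : Fin 3 → R) :
    asEval W w = ![w 0 ^ 2 - W.b₄ * w 0 * w 2 - W.b₆ * w 1 * w 2 - W.b₈ * w 2 ^ 2,
      2 * w 1 * w 0 + W.b₂ * w 0 * w 2 + W.b₄ * w 1 * w 2 + W.b₆ * w 2 ^ 2,
      w 1 ^ 2 - 4 * w 0 * w 2] := by
  ext i
  fin_cases i
  · exact asEval_zero W w
  · exact asEval_one W w
  · exact asEval_two W w

/-- The biquadratic numerator of `x(P+Q) + x(P-Q)`. -/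
def biqF₁ (x₁ x₂ : R) : R :=
  2 * (x₁ + x₂) * (x₁ * x₂) + W.b₂ * (x₁ * x₂) + W.b₄ * (x₁ + x₂) + W.b₆

/-- The biquadratic numerator of `x(P+Q) x(P-Q)`. -/
def biqF₂ (x₁ x₂ : R) : R :=
  (x₁ * x₂) ^ 2 - W.b₄ * (x₁ * x₂) - W.b₆ * (x₁ + x₂) - W.b₈

lemma asEval_pair (x₁ x₂ : R) :
    asEval W ![x₁ * x₂, x₁ + x₂, 1] = ![biqF₂ W x₁ x₂, biqF₁ W x₁ x₂, (x₁ - x₂) ^ 2] := by
  rw [asEval_eq]
  simp only [biqF₁, biqF₂, Matrix.cons_val_zero, Matrix.cons_val_one, Matrix.cons_val]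
  congr 1
  · ring
  · congr 1
    · ring
    · congr 1
      ring

lemma asEval_single (x : R) :
    asEval W ![x, 1, 0] = ![x ^ 2, 2 * x, 1] := by
  rw [asEval_eq]
  simp only [Matrix.cons_val_zero, Matrix.cons_val_one, Matrix.cons_val]
  congr 1
  · ring
  · congr 1
    · ring
    · congr 1
      ring

lemma asEval_infty :
    asEval W ![1, 0, 0] = ![1, 0, 0] := by
  rw [asEval_eq]
  simp only [Matrix.cons_val_zero, Matrix.cons_val_one, Matrix.cons_val]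
  congr 1
  · ring
  · congr 1
    · ring
    · congr 1
      ring

lemma vec3_smul_eq {a b c d e f k : R} (h0 : k * a = d) (h1 : k * b = e) (h2 : k * c = f) :
    k • ![a, b, c] = ![d, e, f] := by
  ext i
  fin_cases i
  · simp only [Fin.zero_eta, Fin.isValue, Pi.smul_apply, Matrix.cons_val_zero, smul_eq_mul]
    exact h0
  · simp only [Fin.mk_one, Fin.isValue, Pi.smul_apply, Matrix.cons_val_one,
      Matrix.cons_val_zero, smul_eq_mul]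
    exact h1
  · simp only [Fin.reduceFinMk, Fin.isValue, Pi.smul_apply, Matrix.cons_val, smul_eq_mul]
    exact h2

end eval

section field

variable {F : Type*} [Field F] {W : Affine F}

/-- The sum formula: `F₁(x₁, x₂) = (x₊ + x₋) (x₁ - x₂)²`. -/
lemma biq_sum {x₁ y₁ x₂ y₂ : F} (h₁ : W.Equation x₁ y₁) (h₂ : W.Equation x₂ y₂) (ℓp ℓm : F)
    (hp : ℓp * (x₁ - x₂) = y₁ - y₂) (hm : ℓm * (x₁ - x₂) = y₁ - W.negY x₂ y₂) :
    (x₁ - x₂) ^ 2 * (W.addX x₁ x₂ ℓp + W.addX x₁ x₂ ℓm) = biqF₁ W x₁ x₂ := by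
  rw [equation_iff] at h₁ h₂
  simp only [biqF₁, negY, addX, WeierstrassCurve.b₂, WeierstrassCurve.b₄,
    WeierstrassCurve.b₆] at hm ⊢
  linear_combination (2 : F) * h₁ + 2 * h₂ -
    (-(ℓp * (x₁ - x₂)) - (y₁ - y₂) - W.a₁ * (x₁ - x₂)) * hp -
    (-(ℓm * (x₁ - x₂)) - (y₁ - (-y₂ - W.a₁ * x₂ - W.a₃)) - W.a₁ * (x₁ - x₂)) * hm

/-- The product formula, multiplied by `(x₁ - x₂)²`:
`F₂(x₁, x₂) (x₁ - x₂)² = x₊ x₋ (x₁ - x₂)⁴`. -/
lemma biq_prod_aux {x₁ y₁ x₂ y₂ : F} (h₁ : W.Equation x₁ y₁) (h₂ : W.Equation x₂ y₂)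
    (ℓp ℓm : F) (hp : ℓp * (x₁ - x₂) = y₁ - y₂)
    (hm : ℓm * (x₁ - x₂) = y₁ - W.negY x₂ y₂) :
    biqF₂ W x₁ x₂ * (x₁ - x₂) ^ 2 =
      (x₁ - x₂) ^ 4 * (W.addX x₁ x₂ ℓp * W.addX x₁ x₂ ℓm) := by
  rw [equation_iff] at h₁ h₂
  simp only [biqF₂, negY, addX, WeierstrassCurve.b₄, WeierstrassCurve.b₆,
    WeierstrassCurve.b₈] at hm ⊢
  linear_combination
    (-(W.a₁ ^ 2 * x₁ * x₂ - W.a₁ ^ 2 * x₂ ^ 2 + W.a₁ * W.a₃ * x₁ - W.a₁ * W.a₃ * x₂
        + W.a₁ * x₁ * y₁ - 2 * W.a₁ * x₂ * y₂ - W.a₂ * x₁ ^ 2 + 4 * W.a₂ * x₁ * x₂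
        - 2 * W.a₂ * x₂ ^ 2 + W.a₃ * y₁ - 2 * W.a₃ * y₂ + W.a₄ * x₁ + W.a₆ - x₁ ^ 3
        + 2 * x₁ ^ 2 * x₂ + 2 * x₁ * x₂ ^ 2 - 2 * x₂ ^ 3 + y₁ ^ 2 - 2 * y₂ ^ 2)) * h₁ +
    (-(-W.a₁ ^ 2 * x₁ ^ 2 + W.a₁ ^ 2 * x₁ * x₂ - W.a₁ * W.a₃ * x₁ + W.a₁ * W.a₃ * x₂
        + W.a₁ * x₂ * y₂ - 4 * W.a₂ * x₁ ^ 2 + 4 * W.a₂ * x₁ * x₂ - W.a₂ * x₂ ^ 2
        + W.a₃ * y₂ - 2 * W.a₄ * x₁ + W.a₄ * x₂ - W.a₆ - 4 * x₁ ^ 3 + 2 * x₁ ^ 2 * x₂
        + 2 * x₁ * x₂ ^ 2 - x₂ ^ 3 + y₂ ^ 2)) * h₂ +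
    (-((ℓp * (x₁ - x₂) + (y₁ - y₂) + W.a₁ * (x₁ - x₂)) *
        ((ℓm ^ 2 + W.a₁ * ℓm - W.a₂ - x₁ - x₂) * (x₁ - x₂) ^ 2))) * hp +
    (-(((y₁ - y₂) ^ 2 + W.a₁ * (y₁ - y₂) * (x₁ - x₂) - (W.a₂ + x₁ + x₂) * (x₁ - x₂) ^ 2) *
        (ℓm * (x₁ - x₂) + (y₁ - (-y₂ - W.a₁ * x₂ - W.a₃)) + W.a₁ * (x₁ - x₂)))) * hm

/-- The product formula: `F₂(x₁, x₂) = x₊ x₋ (x₁ - x₂)²`. -/
lemma biq_prod {x₁ y₁ x₂ y₂ : F} (h₁ : W.Equation x₁ y₁) (h₂ : W.Equation x₂ y₂)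
    (hx : x₁ ≠ x₂) (ℓp ℓm : F) (hp : ℓp * (x₁ - x₂) = y₁ - y₂)
    (hm : ℓm * (x₁ - x₂) = y₁ - W.negY x₂ y₂) :
    (x₁ - x₂) ^ 2 * (W.addX x₁ x₂ ℓp * W.addX x₁ x₂ ℓm) = biqF₂ W x₁ x₂ := by
  have hd : (x₁ - x₂) ^ 2 ≠ 0 := pow_ne_zero 2 (sub_ne_zero.mpr hx)
  apply mul_right_cancel₀ hd
  rw [biq_prod_aux h₁ h₂ ℓp ℓm hp hm]
  ring

/-- `ψ₂² = (y - negY)²` on the curve. -/
lemma biq_psi {x y : F} (h : W.Equation x y) :
    biqF₁ W x x = (y - W.negY x y) ^ 2 := by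
  rw [equation_iff] at h
  simp only [biqF₁, negY, WeierstrassCurve.b₂, WeierstrassCurve.b₄, WeierstrassCurve.b₆]
  linear_combination (-4 : F) * h

/-- The duplication formula: `dblX(x) = x(2P) ψ₂²(x)`. -/
lemma biq_dbl {x y : F} (h : W.Equation x y) (ℓ : F)
    (hℓ : ℓ * (y - W.negY x y) = 3 * x ^ 2 + 2 * W.a₂ * x + W.a₄ - W.a₁ * y) :
    (y - W.negY x y) ^ 2 * W.addX x x ℓ = biqF₂ W x x := by
  rw [← biq_psi h]
  rw [equation_iff] at h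
  simp only [biqF₁, biqF₂, negY, addX, WeierstrassCurve.b₂, WeierstrassCurve.b₄,
    WeierstrassCurve.b₆, WeierstrassCurve.b₈] at hℓ ⊢
  linear_combination
    (-(W.a₁ ^ 2 + 4 * W.a₂ + 8 * x + 4 * (ℓ ^ 2 + W.a₁ * ℓ - W.a₂ - x - x))) * h -
    (-(3 * x ^ 2 + 2 * W.a₂ * x + W.a₄ - W.a₁ * y) - ℓ * (y - (-y - W.a₁ * x - W.a₃))
      - W.a₁ * (y - (-y - W.a₁ * x - W.a₃))) * hℓ

/-- At a `2`-torsion point the duplication numerator is the square of `∂/∂x`. -/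
lemma biq_dbl_tors {x y : F} (h : W.Equation x y) (hy : y = W.negY x y) :
    biqF₂ W x x = (3 * x ^ 2 + 2 * W.a₂ * x + W.a₄ - W.a₁ * y) ^ 2 := by
  rw [equation_iff] at h
  simp only [biqF₂, negY, WeierstrassCurve.b₄, WeierstrassCurve.b₆,
    WeierstrassCurve.b₈] at hy ⊢
  linear_combination (W.a₁ ^ 2 + 4 * W.a₂ + 8 * x) * h +
    (W.a₁ * (3 * x ^ 2 + 2 * W.a₂ * x + W.a₄ - W.a₁ * y)
      - (W.a₂ + 2 * x) * (2 * y + W.a₁ * x + W.a₃)) * hy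

end field

section point

variable {F : Type*} [Field F] [DecidableEq F] {W : Affine F}

open WeierstrassCurve.Affine.Point

/-- The generic case `x₁ ≠ x₂`. -/
lemma sym2x_add_sub_of_X_ne {x₁ y₁ x₂ y₂ : F} (h₁ : W.Nonsingular x₁ y₁)
    (h₂ : W.Nonsingular x₂ y₂) (hx : x₁ ≠ x₂) :
    (x₁ - x₂) ^ 2 • (Point.some x₁ y₁ h₁ + Point.some x₂ y₂ h₂).sym2x
        (Point.some x₁ y₁ h₁ - Point.some x₂ y₂ h₂) =
      asEval W ((Point.some x₁ y₁ h₁).sym2x (Point.some x₂ y₂ h₂)) := by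
  have hd : x₁ - x₂ ≠ 0 := sub_ne_zero.mpr hx
  rw [sub_eq_add_neg (Point.some x₁ y₁ h₁) (Point.some x₂ y₂ h₂), neg_some, add_of_X_ne hx,
    add_of_X_ne hx, sym2x_some_some, sym2x_some_some, asEval_pair]
  have hp : W.slope x₁ x₂ y₁ y₂ * (x₁ - x₂) = y₁ - y₂ := by
    rw [slope_of_X_ne hx, div_mul_cancel₀ _ hd]
  have hm : W.slope x₁ x₂ y₁ (W.negY x₂ y₂) * (x₁ - x₂) = y₁ - W.negY x₂ y₂ := by
    rw [slope_of_X_ne hx, div_mul_cancel₀ _ hd]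
  exact vec3_smul_eq (biq_prod h₁.1 h₂.1 hx _ _ hp hm) (biq_sum h₁.1 h₂.1 _ _ hp hm)
    (mul_one _)

/-- The case `P = Q`, not of order two. -/
lemma sym2x_two_nsmul {x y : F} (h : W.Nonsingular x y) (hy : y ≠ W.negY x y) :
    (y - W.negY x y) ^ 2 • (Point.some x y h + Point.some x y h).sym2x 0 =
      asEval W ((Point.some x y h).sym2x (Point.some x y h)) := by
  have hd : y - W.negY x y ≠ 0 := sub_ne_zero.mpr hy
  rw [add_self_of_Y_ne hy, sym2x_some_zero, sym2x_some_some, asEval_pair]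
  have hℓ : W.slope x x y y * (y - W.negY x y) =
      3 * x ^ 2 + 2 * W.a₂ * x + W.a₄ - W.a₁ * y := by
    rw [slope_of_Y_ne rfl hy, div_mul_cancel₀ _ hd]
  refine vec3_smul_eq (biq_dbl h.1 _ hℓ) ?_ ?_
  · rw [mul_one, biq_psi h.1]
  · rw [mul_zero, sub_self]; ring

/-- The case of a point of order two. -/
lemma sym2x_two_torsion {x y : F} (h : W.Nonsingular x y) (hy : y = W.negY x y) :
    (3 * x ^ 2 + 2 * W.a₂ * x + W.a₄ - W.a₁ * y) ^ 2 ≠ 0 ∧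
    (3 * x ^ 2 + 2 * W.a₂ * x + W.a₄ - W.a₁ * y) ^ 2 • (0 : W.Point).sym2x 0 =
      asEval W ((Point.some x y h).sym2x (Point.some x y h)) := by
  have hn : 3 * x ^ 2 + 2 * W.a₂ * x + W.a₄ - W.a₁ * y ≠ 0 := by
    rcases h.2 with hX | hY
    · intro h0
      apply hX
      rw [evalEval_polynomialX]
      linear_combination -h0
    · exfalso
      apply hY
      rw [evalEval_polynomialY]
      simp only [negY] at hy
      linear_combination hy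
  refine ⟨pow_ne_zero 2 hn, ?_⟩
  rw [sym2x_zero_zero, sym2x_some_some, asEval_pair]
  refine vec3_smul_eq ?_ ?_ ?_
  · rw [mul_one, biq_dbl_tors h.1 hy]
  · rw [mul_zero, biq_psi h.1, ← hy, sub_self]; ring
  · rw [mul_zero, sub_self]; ring

/-- **[BIQ-CLAIM]** `addSubMap` does what it claims: for all points `P`, `Q` of a Weierstrass
curve over a field, the coordinate vector `sym2x (P + Q) (P - Q)` is a nonzero multiple of
`addSubMap` evaluated at `sym2x P Q`. -/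
theorem sym2x_add_sub (P Q : W.Point) :
    ∃ c : F, c ≠ 0 ∧ c • (P + Q).sym2x (P - Q) = asEval W (P.sym2x Q) := by
  rcases P with _ | ⟨x₁, y₁, h₁⟩
  · refine ⟨1, one_ne_zero, ?_⟩
    rw [one_smul]
    change ((0 : W.Point) + Q).sym2x (0 - Q) = asEval W ((0 : W.Point).sym2x Q)
    rw [zero_add, zero_sub, sym2x_neg_right]
    rcases Q with _ | ⟨x₂, y₂, h₂⟩
    · change (0 : W.Point).sym2x 0 = asEval W ((0 : W.Point).sym2x 0)
      rw [sym2x_zero_zero, asEval_infty]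
    · rw [sym2x_some_some, sym2x_zero_some, asEval_single]
      congr 1
      · ring
      · congr 1
        ring
  · rcases Q with _ | ⟨x₂, y₂, h₂⟩
    · refine ⟨1, one_ne_zero, ?_⟩
      rw [one_smul]
      change (Point.some x₁ y₁ h₁ + 0).sym2x (Point.some x₁ y₁ h₁ - 0) =
        asEval W ((Point.some x₁ y₁ h₁).sym2x 0)
      rw [add_zero, sub_zero, sym2x_some_some, sym2x_some_zero, asEval_single]
      congr 1
      · ring
      · congr 1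
        ring
    · by_cases hx : x₁ = x₂
      · subst hx
        by_cases hy2 : y₁ = W.negY x₁ y₁
        · -- `P` is `2`-torsion; then `Q = P` as well
          have hQ : y₂ = y₁ := by
            rcases Y_eq_of_X_eq h₁.1 h₂.1 rfl with hy | hy
            · exact hy.symm
            · rw [hy] at hy2
              simp only [negY] at hy2 hy ⊢
              linear_combination -hy - hy2
          subst hQ
          refine ⟨_, (sym2x_two_torsion h₁ hy2).1, ?_⟩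
          rw [sub_self, add_self_of_Y_eq hy2]
          exact (sym2x_two_torsion h₁ hy2).2
        · rcases Y_eq_of_X_eq h₁.1 h₂.1 rfl with hy | hy
          · -- `P = Q`
            subst hy
            refine ⟨(y₁ - W.negY x₁ y₁) ^ 2, pow_ne_zero 2 (sub_ne_zero.mpr hy2), ?_⟩
            rw [sub_self]
            exact sym2x_two_nsmul h₁ hy2
          · -- `Q = -P`
            refine ⟨(y₁ - W.negY x₁ y₁) ^ 2, pow_ne_zero 2 (sub_ne_zero.mpr hy2), ?_⟩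
            have hQ : Point.some x₁ y₂ h₂ = -Point.some x₁ y₁ h₁ := by
              rw [neg_some]
              congr 1
              rw [hy, negY_negY]
            rw [hQ, add_neg_cancel, sub_neg_eq_add, sym2x_neg_right, sym2x_comm]
            exact sym2x_two_nsmul h₁ hy2
      · exact ⟨(x₁ - x₂) ^ 2, pow_ne_zero 2 (sub_ne_zero.mpr hx),
          sym2x_add_sub_of_X_ne h₁ h₂ hx⟩

end point

end Fermat.Agent.P7.helper24
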