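import Fermat.Agent.P7.helper24_AddSub

/-!
# P7 / S52, module CE-MANIN, package [PAR-POLY] (helper24)

The exact parallelogram law for the degree of the `x`-coordinate, in polynomial form.

`k` a field, `W₀` an elliptic curve over `k`, `ι : k[X] →+* L` an injective ring homomorphism into
a field (e.g. `L = k(E)`, `X ↦ x`), `W := W₀.map (ι.comp C)`.  A point `P` of `W(L)` has
`x`-coordinate in `k(X)` iff it has a *reduced representative* `IsXRep ι P a c`:
`a, c` coprime polynomials with `(x(P) : 1) = (ι a : ι c)` (for `P = 0`: `c = 0`).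
Its height is `hxn a c = max (natDegree a) (natDegree c)`.

* `isPrim_asEval`, `maxDeg_asEval` : the map `addSubMap` preserves primitive triples and doubles
  the maximal degree (from Mathlib's `addSubMapCoeff_condition`);
* `natDegree_eq_of_prop` : proportional primitive triples have the same degrees;
* `isPrim_symTriple`, `maxDeg_symTriple` : Gauss' lemma for `Sym²`;
* `par_core` : `h(P+Q) + h(P-Q) = 2 h(P) + 2 h(Q)` for reduced representatives.
-/

set_option autoImplicit false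
set_option linter.unusedSectionVars false

open WeierstrassCurve WeierstrassCurve.Affine Polynomial

namespace Fermat.Agent.P7.helper24

section naturality

variable {R S : Type*} [CommRing R] [CommRing S]

lemma addSubMap_map (f : R →+* S) (W : WeierstrassCurve R) (j : Fin 3) :
    (W.map f).addSubMap j = MvPolynomial.map f (W.addSubMap j) := by
  fin_cases j <;> simp [addSubMap, map_ofNat]

set_option maxHeartbeats 2000000 in
lemma addSubMapCoeff_map (f : R →+* S) (W : WeierstrassCurve R) (ij : Fin 3 × Fin 3) :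
    (W.map f).addSubMapCoeff ij = MvPolynomial.map f (W.addSubMapCoeff ij) := by
  fin_cases ij <;> simp [addSubMapCoeff, map_ofNat]

/-- Naturality of `asEval`. -/
lemma asEval_map (f : R →+* S) (W : WeierstrassCurve R) (w : Fin 3 → R) :
    asEval (W.map f) (f ∘ w) = f ∘ asEval W w := by
  ext j
  simp only [asEval, Function.comp_apply, addSubMap_map, MvPolynomial.eval_map]
  rw [MvPolynomial.eval, MvPolynomial.coe_eval₂Hom,
    MvPolynomial.eval₂_comp_left f (RingHom.id R) w, RingHom.comp_id]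

/-- `asEval` is homogeneous of degree `2`. -/
lemma asEval_smul (W : WeierstrassCurve R) (c : R) (w : Fin 3 → R) :
    asEval W (c • w) = c ^ 2 • asEval W w := by
  rw [asEval_eq, asEval_eq]
  simp only [Pi.smul_apply, smul_eq_mul]
  refine (vec3_smul_eq ?_ ?_ ?_).symm <;> ring

end naturality

section degree

variable {k : Type*} [Field k]

/-- The maximal degree of a triple of polynomials. -/
noncomputable def maxDeg (p : Fin 3 → k[X]) : ℕ :=
  max (p 0).natDegree (max (p 1).natDegree (p 2).natDegree)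

lemma natDegree_le_maxDeg (p : Fin 3 → k[X]) (i : Fin 3) : (p i).natDegree ≤ maxDeg p := by
  fin_cases i
  · exact le_max_left _ _
  · exact (le_max_left _ _).trans (le_max_right _ _)
  · exact (le_max_right _ _).trans (le_max_right _ _)

lemma maxDeg_le {p : Fin 3 → k[X]} {D : ℕ} (h : ∀ i, (p i).natDegree ≤ D) : maxDeg p ≤ D :=
  max_le (h 0) (max_le (h 1) (h 2))

lemma exists_natDegree_eq_maxDeg (p : Fin 3 → k[X]) : ∃ i, (p i).natDegree = maxDeg p := by
  unfold maxDeg
  rcases max_cases (p 0).natDegree (max (p 1).natDegree (p 2).natDegree) with h | h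
  · exact ⟨0, h.1.symm⟩
  · rcases max_cases (p 1).natDegree (p 2).natDegree with h' | h'
    · exact ⟨1, by rw [h.1, h'.1]⟩
    · exact ⟨2, by rw [h.1, h'.1]⟩

/-- A homogeneous form of degree `n` with constant coefficients, evaluated at polynomials of
degree `≤ D`, has degree `≤ n D`. -/
lemma natDegree_eval_map_C_le (φ : MvPolynomial (Fin 3) k) {n : ℕ} (hφ : φ.IsHomogeneous n)
    (p : Fin 3 → k[X]) :
    (MvPolynomial.eval p (MvPolynomial.map C φ)).natDegree ≤ n * maxDeg p := by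
  rw [MvPolynomial.eval_map, MvPolynomial.eval₂_eq]
  refine natDegree_sum_le_of_forall_le _ _ fun d hd => ?_
  have hdn : Finsupp.degree d = n := by
    by_contra hne
    exact (MvPolynomial.mem_support_iff.mp hd) (hφ.coeff_eq_zero hne)
  refine natDegree_mul_le.trans ?_
  rw [natDegree_C, zero_add]
  refine (natDegree_prod_le _ _).trans ?_
  calc ∑ i ∈ d.support, (p i ^ d i).natDegree
      ≤ ∑ i ∈ d.support, d i * maxDeg p :=
        Finset.sum_le_sum fun i _ =>
          natDegree_pow_le.trans (Nat.mul_le_mul_left _ (natDegree_le_maxDeg p i))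
    _ = (∑ i ∈ d.support, d i) * maxDeg p := by rw [Finset.sum_mul]
    _ = n * maxDeg p := by rw [← hdn]; rfl

variable (W₀ : WeierstrassCurve k)

lemma natDegree_asEval_le (p : Fin 3 → k[X]) (j : Fin 3) :
    (asEval (W₀.map C) p j).natDegree ≤ 2 * maxDeg p := by
  rw [asEval, addSubMap_map]
  exact natDegree_eval_map_C_le _ (isHomogeneous_addSubMap W₀ j) p

variable [W₀.IsElliptic]

/-- The certificate, in the polynomial ring. -/
lemma cert_poly (p : Fin 3 → k[X]) (i : Fin 3) :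
    ∃ c : Fin 3 → k[X], (∀ j, (c j).natDegree ≤ 2 * maxDeg p) ∧
      ∑ j, c j * asEval (W₀.map C) p j = p i ^ 4 := by
  refine ⟨fun j => MvPolynomial.eval p
    (MvPolynomial.C (↑(W₀.map C).Δ'⁻¹ : k[X]) * (W₀.map C).addSubMapCoeff (i, j)), ?_, ?_⟩
  · intro j
    change (MvPolynomial.eval p (MvPolynomial.C (↑(W₀.map C).Δ'⁻¹ : k[X]) *
      (W₀.map C).addSubMapCoeff (i, j))).natDegree ≤ _
    rw [map_mul, MvPolynomial.eval_C, addSubMapCoeff_map]
    refine natDegree_mul_le.trans ?_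
    rw [natDegree_eq_zero_of_isUnit (Units.isUnit _), zero_add]
    exact natDegree_eval_map_C_le _ (isHomogeneous_addSubMapCoeff W₀ (i, j)) p
  · exact addSubMapCoeff_condition (W₀.map C) p i

/-- Primitive triples: the entries generate the unit ideal. -/
def IsPrim (p : Fin 3 → k[X]) : Prop := Ideal.span (Set.range p) = ⊤

/-- `addSubMap` preserves primitive triples. -/
lemma isPrim_asEval {p : Fin 3 → k[X]} (hp : IsPrim p) : IsPrim (asEval (W₀.map C) p) := by
  have h4 := Ideal.span_pow_eq_top _ hp 4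
  rw [IsPrim, eq_top_iff, ← h4, Ideal.span_le]
  rintro _ ⟨_, ⟨i, rfl⟩, rfl⟩
  obtain ⟨c, -, hc⟩ := cert_poly W₀ p i
  simp only [SetLike.mem_coe]
  rw [← hc]
  exact Ideal.sum_mem _ fun j _ => Ideal.mul_mem_left _ _ (Ideal.subset_span ⟨j, rfl⟩)

/-- `addSubMap` doubles the maximal degree. -/
lemma maxDeg_asEval (p : Fin 3 → k[X]) :
    maxDeg (asEval (W₀.map C) p) = 2 * maxDeg p := by
  apply le_antisymm (maxDeg_le fun j => natDegree_asEval_le W₀ p j)
  obtain ⟨i, hi⟩ := exists_natDegree_eq_maxDeg p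
  by_cases h0 : p i = 0
  · rw [← hi, h0, natDegree_zero]; exact Nat.zero_le _
  obtain ⟨c, hcd, hc⟩ := cert_poly W₀ p i
  have h1 : (p i ^ 4).natDegree = 4 * maxDeg p := by
    rw [natDegree_pow, hi]
  have h2 : (∑ j, c j * asEval (W₀.map C) p j).natDegree ≤
      2 * maxDeg p + maxDeg (asEval (W₀.map C) p) := by
    refine natDegree_sum_le_of_forall_le _ _ fun j _ => natDegree_mul_le.trans ?_
    exact Nat.add_le_add (hcd j) (natDegree_le_maxDeg _ j)
  rw [hc, h1] at h2
  omega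

end degree

section proportional

variable {k : Type*} [Field k] {L : Type*} [Field L] (ι : k[X] →+* L)

/-- Primitive vectors (any finite index type): the entries generate the unit ideal. -/
def IsPrimV {n : Type*} (p : n → k[X]) : Prop := Ideal.span (Set.range p) = ⊤

lemma isPrim_iff_isPrimV (p : Fin 3 → k[X]) : IsPrim p ↔ IsPrimV p := Iff.rfl

/-- Proportional primitive vectors differ by a unit. -/
lemma exists_unit_of_prop {n : Type*} [Fintype n] (hι : Function.Injective ι)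
    {p q : n → k[X]} (hp : IsPrimV p) (hq : IsPrimV q) (c : L)
    (h : ∀ i, ι (p i) = c * ι (q i)) : ∃ s : k[X], IsUnit s ∧ ∀ i, p i = q i * s := by
  have hcross : ∀ i j, p i * q j = q i * p j := by
    intro i j
    apply hι
    rw [map_mul, map_mul, h i, h j]
    ring
  have h1q : (1 : k[X]) ∈ Ideal.span (Set.range q) := by rw [hq]; trivial
  have h1p : (1 : k[X]) ∈ Ideal.span (Set.range p) := by rw [hp]; trivial
  obtain ⟨r, hr⟩ := Ideal.mem_span_range_iff_exists_fun.mp h1q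
  obtain ⟨r', hr'⟩ := Ideal.mem_span_range_iff_exists_fun.mp h1p
  have hps : ∀ i, p i = q i * ∑ j, r j * p j := by
    intro i
    calc p i = p i * ∑ j, r j * q j := by rw [hr, mul_one]
      _ = ∑ j, r j * (p i * q j) := by
        rw [Finset.mul_sum]; exact Finset.sum_congr rfl fun j _ => by ring
      _ = ∑ j, r j * (q i * p j) := by simp only [hcross]
      _ = q i * ∑ j, r j * p j := by
        rw [Finset.mul_sum]; exact Finset.sum_congr rfl fun j _ => by ring
  refine ⟨∑ j, r j * p j, ?_, hps⟩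
  have hone : (∑ j, r' j * q j) * (∑ j, r j * p j) = 1 := by
    calc (∑ j, r' j * q j) * (∑ j, r j * p j)
        = ∑ j, r' j * (q j * ∑ j', r j' * p j') := by
          rw [Finset.sum_mul]; exact Finset.sum_congr rfl fun j _ => by ring
      _ = ∑ j, r' j * p j := by simp only [← hps]
      _ = 1 := hr'
  exact IsUnit.of_mul_eq_one _ (by rw [mul_comm]; exact hone)

/-- Proportional primitive vectors have the same degrees. -/
lemma natDegree_eq_of_prop {n : Type*} [Fintype n] (hι : Function.Injective ι)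
    {p q : n → k[X]} (hp : IsPrimV p) (hq : IsPrimV q) (c : L)
    (h : ∀ i, ι (p i) = c * ι (q i)) (i : n) : (p i).natDegree = (q i).natDegree := by
  obtain ⟨s, hs, hps⟩ := exists_unit_of_prop ι hι hp hq c h
  obtain ⟨u, rfl⟩ := hs
  exact natDegree_eq_of_degree_eq
    (degree_eq_degree_of_associated ⟨u, (hps i).symm⟩).symm

lemma maxDeg_eq_of_prop (hι : Function.Injective ι)
    {p q : Fin 3 → k[X]} (hp : IsPrim p) (hq : IsPrim q) (c : L)
    (h : ∀ i, ι (p i) = c * ι (q i)) : maxDeg p = maxDeg q := by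
  unfold maxDeg
  rw [natDegree_eq_of_prop ι hι hp hq c h 0, natDegree_eq_of_prop ι hι hp hq c h 1,
    natDegree_eq_of_prop ι hι hp hq c h 2]

end proportional

section gauss

variable {k : Type*} [Field k]

/-- The height of a reduced fraction `a / c`. -/
noncomputable def hxn (a c : k[X]) : ℕ := max a.natDegree c.natDegree

/-- The `Sym²` triple of two fractions. -/
noncomputable def symTriple (a₁ c₁ a₂ c₂ : k[X]) : Fin 3 → k[X] :=
  ![a₁ * a₂, a₁ * c₂ + c₁ * a₂, c₁ * c₂]

lemma not_mem_of_isCoprime {a c : k[X]} (h : IsCoprime a c) {M : Ideal k[X]} (hM : M ≠ ⊤)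
    (ha : a ∈ M) : c ∉ M := by
  intro hc
  obtain ⟨u, v, huv⟩ := h
  apply hM
  rw [Ideal.eq_top_iff_one, ← huv]
  exact M.add_mem (M.mul_mem_left _ ha) (M.mul_mem_left _ hc)

/-- Gauss' lemma for `Sym²`, primitivity. -/
lemma isPrim_symTriple {a₁ c₁ a₂ c₂ : k[X]} (h₁ : IsCoprime a₁ c₁) (h₂ : IsCoprime a₂ c₂) :
    IsPrim (symTriple a₁ c₁ a₂ c₂) := by
  by_contra hne
  obtain ⟨M, hM, hle⟩ := Ideal.exists_le_maximal _ hne
  have hMt : M ≠ ⊤ := hM.ne_top
  have hMp : M.IsPrime := hM.isPrime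
  have m0 : a₁ * a₂ ∈ M := hle (Ideal.subset_span ⟨0, rfl⟩)
  have m1 : a₁ * c₂ + c₁ * a₂ ∈ M := hle (Ideal.subset_span ⟨1, rfl⟩)
  have m2 : c₁ * c₂ ∈ M := hle (Ideal.subset_span ⟨2, rfl⟩)
  rcases hMp.mem_or_mem m0 with ha | ha
  · have hc₁ : c₁ ∉ M := not_mem_of_isCoprime h₁ hMt ha
    have hc₂ : c₂ ∈ M := (hMp.mem_or_mem m2).resolve_left hc₁
    have : c₁ * a₂ ∈ M := by
      have := M.sub_mem m1 (M.mul_mem_left a₁ hc₂)
      simpa using this
    have ha₂ : a₂ ∈ M := (hMp.mem_or_mem this).resolve_left hc₁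
    exact not_mem_of_isCoprime h₂ hMt ha₂ hc₂
  · have hc₂ : c₂ ∉ M := not_mem_of_isCoprime h₂ hMt ha
    have hc₁ : c₁ ∈ M := (hMp.mem_or_mem m2).resolve_right hc₂
    have : a₁ * c₂ ∈ M := by
      have := M.sub_mem m1 (M.mul_mem_right a₂ hc₁)
      simpa using this
    have ha₁ : a₁ ∈ M := (hMp.mem_or_mem this).resolve_right hc₂
    exact not_mem_of_isCoprime h₁ hMt ha₁ hc₁

lemma ne_zero_of_isCoprime_of_degree_le {a c : k[X]} (h : IsCoprime a c)
    (hle : a.degree ≤ c.degree) : c ≠ 0 := by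
  rintro rfl
  rw [degree_zero, le_bot_iff, degree_eq_bot] at hle
  subst hle
  obtain ⟨u, v, huv⟩ := h
  simp at huv

lemma hxn_eq_left {a c : k[X]} (h : c.degree < a.degree) : hxn a c = a.natDegree :=
  max_eq_left (natDegree_le_natDegree h.le)

lemma hxn_eq_right {a c : k[X]} (h : a.degree ≤ c.degree) : hxn a c = c.natDegree :=
  max_eq_right (natDegree_le_natDegree h)

lemma maxDeg_symTriple_le (a₁ c₁ a₂ c₂ : k[X]) :
    maxDeg (symTriple a₁ c₁ a₂ c₂) ≤ hxn a₁ c₁ + hxn a₂ c₂ := by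
  have ha₁ : a₁.natDegree ≤ hxn a₁ c₁ := le_max_left _ _
  have hc₁ : c₁.natDegree ≤ hxn a₁ c₁ := le_max_right _ _
  have ha₂ : a₂.natDegree ≤ hxn a₂ c₂ := le_max_left _ _
  have hc₂ : c₂.natDegree ≤ hxn a₂ c₂ := le_max_right _ _
  refine maxDeg_le fun i => ?_
  fin_cases i
  · exact natDegree_mul_le.trans (Nat.add_le_add ha₁ ha₂)
  · refine (natDegree_add_le _ _).trans (max_le ?_ ?_)
    · exact natDegree_mul_le.trans (Nat.add_le_add ha₁ hc₂)
    · exact natDegree_mul_le.trans (Nat.add_le_add hc₁ ha₂)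
  · exact natDegree_mul_le.trans (Nat.add_le_add hc₁ hc₂)

/-- Gauss' lemma for `Sym²`, degrees. -/
lemma maxDeg_symTriple {a₁ c₁ a₂ c₂ : k[X]} (h₁ : IsCoprime a₁ c₁) (h₂ : IsCoprime a₂ c₂) :
    maxDeg (symTriple a₁ c₁ a₂ c₂) = hxn a₁ c₁ + hxn a₂ c₂ := by
  apply le_antisymm (maxDeg_symTriple_le a₁ c₁ a₂ c₂)
  rcases lt_or_ge c₁.degree a₁.degree with hA | hA <;>
    rcases lt_or_ge c₂.degree a₂.degree with hB | hB
  · -- both numerators dominate
    have ha₁ : a₁ ≠ 0 := fun h => by rw [h, degree_zero] at hA; exact not_lt_bot hA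
    have ha₂ : a₂ ≠ 0 := fun h => by rw [h, degree_zero] at hB; exact not_lt_bot hB
    rw [hxn_eq_left hA, hxn_eq_left hB, ← natDegree_mul ha₁ ha₂]
    exact natDegree_le_maxDeg (symTriple a₁ c₁ a₂ c₂) 0
  · -- `a₁` and `c₂` dominate
    have ha₁ : a₁ ≠ 0 := fun h => by rw [h, degree_zero] at hA; exact not_lt_bot hA
    have hc₂ : c₂ ≠ 0 := ne_zero_of_isCoprime_of_degree_le h₂ hB
    rw [hxn_eq_left hA, hxn_eq_right hB, ← natDegree_mul ha₁ hc₂]
    have hlt : (c₁ * a₂).degree < (a₁ * c₂).degree := by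
      rw [degree_mul, degree_mul]
      by_cases hc₁ : c₁ = 0
      · rw [hc₁, degree_zero, WithBot.bot_add]
        exact bot_lt_iff_ne_bot.mpr (by
          rw [← degree_mul]; exact degree_ne_bot.mpr (mul_ne_zero ha₁ hc₂))
      · calc c₁.degree + a₂.degree ≤ c₁.degree + c₂.degree := by gcongr
          _ < a₁.degree + c₂.degree :=
            WithBot.add_lt_add_right (degree_ne_bot.mpr hc₂) hA
    have : (a₁ * c₂ + c₁ * a₂).natDegree = (a₁ * c₂).natDegree :=
      natDegree_eq_of_degree_eq (degree_add_eq_left_of_degree_lt hlt)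
    rw [← this]
    exact natDegree_le_maxDeg (symTriple a₁ c₁ a₂ c₂) 1
  · -- `c₁` and `a₂` dominate
    have hc₁ : c₁ ≠ 0 := ne_zero_of_isCoprime_of_degree_le h₁ hA
    have ha₂ : a₂ ≠ 0 := fun h => by rw [h, degree_zero] at hB; exact not_lt_bot hB
    rw [hxn_eq_right hA, hxn_eq_left hB, ← natDegree_mul hc₁ ha₂]
    have hlt : (a₁ * c₂).degree < (c₁ * a₂).degree := by
      rw [degree_mul, degree_mul]
      by_cases hc₂ : c₂ = 0
      · rw [hc₂, degree_zero, WithBot.add_bot]
        exact bot_lt_iff_ne_bot.mpr (by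
          rw [← degree_mul]; exact degree_ne_bot.mpr (mul_ne_zero hc₁ ha₂))
      · calc a₁.degree + c₂.degree ≤ c₁.degree + c₂.degree := by gcongr
          _ < c₁.degree + a₂.degree :=
            WithBot.add_lt_add_left (degree_ne_bot.mpr hc₁) hB
    have : (a₁ * c₂ + c₁ * a₂).natDegree = (c₁ * a₂).natDegree :=
      natDegree_eq_of_degree_eq (degree_add_eq_right_of_degree_lt hlt)
    rw [← this]
    exact natDegree_le_maxDeg (symTriple a₁ c₁ a₂ c₂) 1
  · -- both denominators dominate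
    have hc₁ : c₁ ≠ 0 := ne_zero_of_isCoprime_of_degree_le h₁ hA
    have hc₂ : c₂ ≠ 0 := ne_zero_of_isCoprime_of_degree_le h₂ hB
    rw [hxn_eq_right hA, hxn_eq_right hB, ← natDegree_mul hc₁ hc₂]
    exact natDegree_le_maxDeg (symTriple a₁ c₁ a₂ c₂) 2

end gauss

section par

variable {k : Type*} [Field k] {L : Type*} [Field L] (ι : k[X] →+* L)

/-- `(a : c)` is a reduced representative of the `x`-coordinate of `P`: `a`, `c` are coprime
polynomials and `(x(P) : 1) = (ι a : ι c)` projectively (`c = 0` for `P = 0`). -/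
def IsXRep {W : Affine L} (P : W.Point) (a c : k[X]) : Prop :=
  IsCoprime a c ∧ ∃ e : L, e ≠ 0 ∧ e • P.xRep = ![ι a, ι c]

variable {ι}

lemma IsXRep.zero_iff {W : Affine L} (hι : Function.Injective ι) {P : W.Point} {a c : k[X]}
    (h : IsXRep ι P a c) : c = 0 ↔ P = 0 := by
  obtain ⟨-, e, he, hr⟩ := h
  have h1 := congrFun hr 1
  rcases P with _ | ⟨x, y, hxy⟩
  · change e • (0 : W.Point).xRep 1 = _ at h1
    rw [Point.xRep_zero] at h1
    simp only [Matrix.cons_val_one, Matrix.cons_val_zero, smul_eq_mul, mul_zero] at h1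
    constructor
    · intro; rfl
    · intro
      apply hι
      rw [map_zero, ← h1]
  · rw [Point.xRep_some] at h1
    have h1' : e = ι c := by simpa using h1
    constructor
    · intro hc
      rw [hc, map_zero] at h1'
      exact absurd h1' he
    · intro h0
      exact absurd h0 (Point.some_ne_zero hxy)

/-- The `Sym²` coordinate vector of two points with reduced representatives. -/
lemma sym2x_rep {W : Affine L} {P Q : W.Point} {a₁ c₁ a₂ c₂ : k[X]}
    (hP : IsXRep ι P a₁ c₁) (hQ : IsXRep ι Q a₂ c₂) :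
    ∃ e : L, e ≠ 0 ∧ e • P.sym2x Q = ι ∘ symTriple a₁ c₁ a₂ c₂ := by
  obtain ⟨-, e₁, he₁, hr₁⟩ := hP
  obtain ⟨-, e₂, he₂, hr₂⟩ := hQ
  refine ⟨e₁ * e₂, mul_ne_zero he₁ he₂, ?_⟩
  have p0 : e₁ * P.xRep 0 = ι a₁ := by simpa using congrFun hr₁ 0
  have p1 : e₁ * P.xRep 1 = ι c₁ := by simpa using congrFun hr₁ 1
  have q0 : e₂ * Q.xRep 0 = ι a₂ := by simpa using congrFun hr₂ 0
  have q1 : e₂ * Q.xRep 1 = ι c₂ := by simpa using congrFun hr₂ 1
  have hcomp : ι ∘ symTriple a₁ c₁ a₂ c₂ =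
      ![ι a₁ * ι a₂, ι a₁ * ι c₂ + ι c₁ * ι a₂, ι c₁ * ι c₂] := by
    ext i
    fin_cases i <;> simp [symTriple]
  rw [hcomp, Point.sym2x, ← p0, ← p1, ← q0, ← q1]
  refine vec3_smul_eq ?_ ?_ ?_ <;> ring

variable (W₀ : WeierstrassCurve k) [W₀.IsElliptic]

/-- **[PAR-POLY]** the exact parallelogram law for the degree of the `x`-coordinate: if `P`, `Q`,
`P + Q`, `P - Q` have reduced representatives of their `x`-coordinates, then
`h(P + Q) + h(P - Q) = 2 h(P) + 2 h(Q)`. -/
theorem par_core [DecidableEq L] (hι : Function.Injective ι)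
    {P Q : (W₀.map (ι.comp C)).toAffine.Point} {a₁ c₁ a₂ c₂ a₃ c₃ a₄ c₄ : k[X]}
    (hP : IsXRep ι P a₁ c₁) (hQ : IsXRep ι Q a₂ c₂) (hS : IsXRep ι (P + Q) a₃ c₃)
    (hD : IsXRep ι (P - Q) a₄ c₄) :
    hxn a₃ c₃ + hxn a₄ c₄ = 2 * hxn a₁ c₁ + 2 * hxn a₂ c₂ := by
  obtain ⟨c, hc0, hc⟩ := sym2x_add_sub P Q
  obtain ⟨e, he0, he⟩ := sym2x_rep hP hQ
  obtain ⟨e', he'0, he'⟩ := sym2x_rep hS hD
  have hnat : asEval (W₀.map (ι.comp C)) (ι ∘ symTriple a₁ c₁ a₂ c₂) =
      ι ∘ asEval (W₀.map C) (symTriple a₁ c₁ a₂ c₂) := by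
    rw [← asEval_map ι (W₀.map C), WeierstrassCurve.map_map]
  have hkey : ι ∘ asEval (W₀.map C) (symTriple a₁ c₁ a₂ c₂) =
      (e ^ 2 * c * e'⁻¹) • (ι ∘ symTriple a₃ c₃ a₄ c₄) := by
    rw [← hnat, ← he, asEval_smul]
    change e ^ 2 • asEval (W₀.map (ι.comp C)).toAffine (P.sym2x Q) = _
    rw [← hc, ← he', smul_smul, smul_smul]
    congr 1
    field_simp
  have hprop : ∀ i, ι (asEval (W₀.map C) (symTriple a₁ c₁ a₂ c₂) i) =
      (e ^ 2 * c * e'⁻¹) * ι (symTriple a₃ c₃ a₄ c₄ i) := fun i => congrFun hkey i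
  have h1 := maxDeg_eq_of_prop ι hι (isPrim_asEval W₀ (isPrim_symTriple hP.1 hQ.1))
    (isPrim_symTriple hS.1 hD.1) _ hprop
  rw [maxDeg_asEval, maxDeg_symTriple hP.1 hQ.1, maxDeg_symTriple hS.1 hD.1] at h1
  omega

end par

end Fermat.Agent.P7.helper24
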