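import Mathlib
import Fermat.Agent.P7.helper47_ChoiceDefs

/-!
# P7 / S52, leaf [CONT] (helper25): `helper47.ContStatement`

Integrality and continuity of the invariants `(c₄(t), c₆(t))` of the Klein family near `t = 0`.

Proof.  `t ↦ c₄(t)` is a polynomial function with coefficients in `ℚ̄` which takes rational
values at all rational `t` (`IsFamBase.rat`); by Lagrange interpolation its coefficients are
rational.  Its constant term is `c₄(W)`.  If `D` is a common denominator of the coefficients then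
for `t ∈ D m ℤ` the value `c₄(t)` is an integer congruent to `c₄(W)` modulo `m`.
-/

set_option autoImplicit false

namespace Fermat.Agent.P7.helper25

open Polynomial Fermat.Agent.P7.helper47

section rational

variable {K L : Type*} [Field K] [Field L] [Algebra K L] [CharZero K]

/-- A polynomial over `L` taking values in `K` at all points of `K` has coefficients in `K`. -/
lemma cont_exists_map_eq (P : L[X])
    (h : ∀ t : K, ∃ q : K, algebraMap K L q = P.eval (algebraMap K L t)) :
    ∃ p : K[X], p.map (algebraMap K L) = P := by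
  classical
  choose r hr using h
  set n := P.natDegree with hn
  set s := Finset.range (n + 1) with hs
  have hinj : Set.InjOn (fun i : ℕ => (i : K)) s := fun i _ j _ hij => Nat.cast_injective hij
  set p := Lagrange.interpolate s (fun i : ℕ => (i : K)) (fun i => r (i : K)) with hp
  refine ⟨p, ?_⟩
  set s' : Finset L := s.image (fun i : ℕ => algebraMap K L (i : K)) with hs'
  have hcard : s'.card = n + 1 := by
    rw [hs', Finset.card_image_of_injective, hs, Finset.card_range]
    exact fun i j hij => Nat.cast_injective ((algebraMap K L).injective hij)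
  apply Polynomial.eq_of_degrees_lt_of_eval_finset_eq s'
  · rw [hcard]
    calc (p.map (algebraMap K L)).degree ≤ p.degree := degree_map_le
      _ < s.card := Lagrange.degree_interpolate_lt _ hinj
      _ = ((n + 1 : ℕ) : WithBot ℕ) := by rw [hs, Finset.card_range]
  · rw [hcard]
    exact lt_of_le_of_lt degree_le_natDegree (by exact_mod_cast Nat.lt_succ_self n)
  · intro x hx
    obtain ⟨i, hi, rfl⟩ := Finset.mem_image.mp hx
    rw [eval_map, eval₂_at_apply, hp, Lagrange.eval_interpolate_at_node _ hinj hi]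
    exact hr _

end rational

/-- A rational polynomial with integral constant term `c` takes integral values congruent to
`c` modulo `m` on a nonzero ideal of `ℤ`. -/
lemma cont_int_of_rat (p : ℚ[X]) (c : ℤ) (hc : p.eval 0 = c) (m : ℤ) (hm : m ≠ 0) :
    ∃ N : ℤ, N ≠ 0 ∧ ∀ t : ℤ, N ∣ t → ∃ C : ℤ, (C : ℚ) = p.eval (t : ℚ) ∧ m ∣ C - c := by
  obtain ⟨b, hbM, hb⟩ := IsLocalization.integerNormalization_spec (nonZeroDivisors ℤ) p.divX
  set q := IsLocalization.integerNormalization (nonZeroDivisors ℤ) p.divX with hq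
  have hb0 : b ≠ 0 := nonZeroDivisors.ne_zero hbM
  refine ⟨b * m, mul_ne_zero hb0 hm, ?_⟩
  rintro t ⟨s, rfl⟩
  refine ⟨c + m * s * q.eval (b * m * s), ?_, ⟨s * q.eval (b * m * s), by ring⟩⟩
  have h1 : ((q.eval (b * m * s) : ℤ) : ℚ) = b * p.divX.eval ((b * m * s : ℤ) : ℚ) := by
    have h := congrArg (Polynomial.eval ((b * m * s : ℤ) : ℚ)) hb
    rw [show algebraMap ℤ ℚ = Int.castRingHom ℚ from rfl, eval_intCast_map, eval_smul] at h
    simpa using h
  have h2 : p.eval ((b * m * s : ℤ) : ℚ) =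
      p.divX.eval ((b * m * s : ℤ) : ℚ) * ((b * m * s : ℤ) : ℚ) + c := by
    conv_lhs => rw [← divX_mul_X_add p]
    rw [eval_add, eval_mul, eval_X, eval_C, coeff_zero_eq_eval_zero, hc]
  rw [h2]
  push_cast at h1 ⊢
  linear_combination (m * s : ℚ) * h1

lemma cont_map_kleinH {R S : Type*} [CommRing R] [CommRing S] (φ : R →+* S) (u v : R) :
    φ (kleinH u v) = kleinH (φ u) (φ v) := by
  simp [kleinH, map_ofNat]

lemma cont_map_kleinT {R S : Type*} [CommRing R] [CommRing S] (φ : R →+* S) (u v : R) :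
    φ (kleinT u v) = kleinT (φ u) (φ v) := by
  simp [kleinT, map_ofNat]

/-- `c₄` of the family as a polynomial in `t`. -/
noncomputable def famC4Poly (a b : CQb) : CQb[X] :=
  -kleinH (C a + X * C (kleinWa a b)) (C b + X * C (kleinWb a b))

/-- `c₆` of the family as a polynomial in `t`. -/
noncomputable def famC6Poly (a b : CQb) : CQb[X] :=
  -kleinT (C a + X * C (kleinWa a b)) (C b + X * C (kleinWb a b))

lemma eval_famC4Poly (a b t : CQb) : (famC4Poly a b).eval t = famC4 a b t := by
  unfold famC4Poly famC4 famA famB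
  rw [eval_neg, ← coe_evalRingHom, cont_map_kleinH]
  simp only [coe_evalRingHom, eval_add, eval_mul, eval_C, eval_X]

lemma eval_famC6Poly (a b t : CQb) : (famC6Poly a b).eval t = famC6 a b t := by
  unfold famC6Poly famC6 famA famB
  rw [eval_neg, ← coe_evalRingHom, cont_map_kleinT]
  simp only [coe_evalRingHom, eval_add, eval_mul, eval_C, eval_X]

/-- One invariant: a polynomial over `ℚ̄`, rational at rational points, with integral constant
term `c`, takes integral values congruent to `c` mod `m` on a nonzero ideal of `ℤ`. -/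
lemma cont_one (P : CQb[X])
    (h : ∀ t : ℚ, ∃ q : ℚ, algebraMap ℚ CQb q = P.eval (algebraMap ℚ CQb t)) (c : ℤ)
    (hc : P.eval 0 = ((c : ℤ) : CQb)) (m : ℤ) (hm : m ≠ 0) :
    ∃ N : ℤ, N ≠ 0 ∧ ∀ t : ℤ, N ∣ t →
      ∃ C : ℤ, ((C : ℤ) : CQb) = P.eval ((t : ℤ) : CQb) ∧ m ∣ C - c := by
  obtain ⟨p, hp⟩ := cont_exists_map_eq (K := ℚ) P h
  have hev : ∀ x : ℚ, P.eval (algebraMap ℚ CQb x) = algebraMap ℚ CQb (p.eval x) := by
    intro x
    rw [← hp, eval_map, eval₂_at_apply]
  have h0 : p.eval 0 = (c : ℚ) := by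
    apply (algebraMap ℚ CQb).injective
    rw [← hev, map_zero, hc, map_intCast]
  obtain ⟨N, hN0, hN⟩ := cont_int_of_rat p c h0 m hm
  refine ⟨N, hN0, fun t ht => ?_⟩
  obtain ⟨C, hC, hdiv⟩ := hN t ht
  refine ⟨C, ?_, hdiv⟩
  have e1 : ((t : ℤ) : CQb) = algebraMap ℚ CQb ((t : ℤ) : ℚ) := (map_intCast _ t).symm
  rw [e1, hev, ← hC, map_intCast]

/-- **[CONT]**: `helper47.ContStatement`. -/
theorem contStatement : ContStatement := by
  intro W a b hab m hm
  obtain ⟨N₄, hN₄, h₄⟩ := cont_one (famC4Poly a b)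
    (fun t => by
      obtain ⟨C₄, -, h4, -⟩ := hab.rat t
      exact ⟨C₄, by rw [h4, eval_famC4Poly]⟩) W.c₄
    (by rw [eval_famC4Poly, famC4, famA_zero, famB_zero, hab.hH, neg_neg]) m hm
  obtain ⟨N₆, hN₆, h₆⟩ := cont_one (famC6Poly a b)
    (fun t => by
      obtain ⟨-, C₆, -, h6⟩ := hab.rat t
      exact ⟨C₆, by rw [h6, eval_famC6Poly]⟩) W.c₆
    (by rw [eval_famC6Poly, famC6, famA_zero, famB_zero, hab.hT, neg_neg]) m hm
  refine ⟨N₄ * N₆, mul_ne_zero hN₄ hN₆, fun t ht => ?_⟩
  obtain ⟨C₄, hC₄, hd₄⟩ := h₄ t ((Dvd.intro _ rfl).trans ht)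
  obtain ⟨C₆, hC₆, hd₆⟩ := h₆ t ((Dvd.intro_left _ rfl).trans ht)
  exact ⟨C₄, C₆, by rw [hC₄, eval_famC4Poly], by rw [hC₆, eval_famC6Poly], hd₄, hd₆⟩

end Fermat.Agent.P7.helper25
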