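import Mathlib
import Fermat.Agent.P7.helper47_ChoiceDefs
import Fermat.Agent.P7.helper80_KleinBezout
import Fermat.Agent.S05.helper4_Inertia
import Fermat.Agent.S54.helper91_Frobenius

/-!
# P7 / S52, leaf [COP] (helper25): `helper47.CopStatement`

Outside `30 Δ(W)` the invariants `c₄(t)`, `c₆(t)` of an integral member of the Klein family
through a base point `(a, b)` of `W` have no common prime factor.

Proof.  Let `A` be a valuation subring of `ℚ̄` over `ℓ`, `ℓ ∤ 30 Δ(W)`.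
* `(a, b)` is `A`-integral: otherwise rescale to a vector `(1, s)` or `(s, 1)` with `s ∈ A`, at
  which `H` and `T` lie in the maximal ideal, contradicting the Bezout certificate for `(H, T)`.
* if `ℓ ∣ c₄(t)` and `ℓ ∣ c₆(t)` then by the same certificate both coordinates of
  `v_t = v₀ + t w₀` lie in the maximal ideal, hence so does `det (v_t, w₀) = det (v₀, w₀) =
  -12 f(v₀)`; but `(-12 f(v₀)) ^ 5 = 12 ^ 5 Δ(W)` is a unit at `ℓ`.
-/

set_option autoImplicit false

namespace Fermat.Agent.P7.helper25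

open Fermat.Agent.P7.helper47 Fermat.Agent.P7.helper80 Fermat.Agent.S05.helper4

section general

lemma cop_map_kH {R S : Type*} [CommRing R] [CommRing S] (φ : R →+* S) (u v : R) :
    φ (kH u v) = kH (φ u) (φ v) := by
  simp [kH, map_ofNat]

lemma cop_map_kT {R S : Type*} [CommRing R] [CommRing S] (φ : R →+* S) (u v : R) :
    φ (kT u v) = kT (φ u) (φ v) := by
  simp [kT, map_ofNat]

variable {L : Type*} [Field L] (A : ValuationSubring L)

lemma cop_res_eq_zero_iff (x : A) :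
    IsLocalRing.residue A x = 0 ↔ (x : L) ∈ A.nonunits := by
  rw [IsLocalRing.residue_eq_zero_iff, ← A.coe_mem_nonunits_iff]

lemma cop_ofNat_res_ne_zero (n : ℕ) [n.AtLeastTwo] (hn : (OfNat.ofNat n : L) ∉ A.nonunits) :
    (OfNat.ofNat n : IsLocalRing.ResidueField A) ≠ 0 := by
  intro h
  have h' : IsLocalRing.residue A (OfNat.ofNat n : A) = 0 := by rw [map_ofNat]; exact h
  exact hn ((cop_res_eq_zero_iff A _).mp h')

/-- If `2, 3, 5` are units of `A` and `H`, `T` lie in the maximal ideal at an integral vector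
`(u, v)` then `u` and `v` lie in the maximal ideal. -/
lemma mem_nonunits_of_kH_kT (h2 : (2 : L) ∉ A.nonunits) (h3 : (3 : L) ∉ A.nonunits)
    (h5 : (5 : L) ∉ A.nonunits) {u v : L} (hu : u ∈ A) (hv : v ∈ A)
    (hH : kH u v ∈ A.nonunits) (hT : kT u v ∈ A.nonunits) :
    u ∈ A.nonunits ∧ v ∈ A.nonunits := by
  have e2 := cop_ofNat_res_ne_zero A 2 h2
  have e3 := cop_ofNat_res_ne_zero A 3 h3
  have e5 := cop_ofNat_res_ne_zero A 5 h5
  have hH' : kH (IsLocalRing.residue A ⟨u, hu⟩) (IsLocalRing.residue A ⟨v, hv⟩) = 0 := by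
    rw [← cop_map_kH, cop_res_eq_zero_iff]
    have := cop_map_kH A.subtype ⟨u, hu⟩ ⟨v, hv⟩
    simp only [ValuationSubring.subtype_apply] at this
    rw [this]; exact hH
  have hT' : kT (IsLocalRing.residue A ⟨u, hu⟩) (IsLocalRing.residue A ⟨v, hv⟩) = 0 := by
    rw [← cop_map_kT, cop_res_eq_zero_iff]
    have := cop_map_kT A.subtype ⟨u, hu⟩ ⟨v, hv⟩
    simp only [ValuationSubring.subtype_apply] at this
    rw [this]; exact hT
  obtain ⟨h1, h2'⟩ := eq_zero_of_kH_kT e2 e3 e5 hH' hT'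
  exact ⟨(cop_res_eq_zero_iff A _).mp h1, (cop_res_eq_zero_iff A _).mp h2'⟩

lemma cop_inv_mem_nonunits {a : L} (ha : a ∉ A) : a⁻¹ ∈ A.nonunits := by
  rw [A.mem_nonunits_iff, map_inv₀]
  have h1 : 1 < A.valuation a := not_le.mp fun h => ha ((A.valuation_le_one_iff _).mp h)
  exact inv_lt_one_of_one_lt₀ h1

lemma cop_pow_mul_mem_nonunits {c x : L} (hc : c ∈ A.nonunits) (hx : x ∈ A) (n : ℕ)
    (hn : n ≠ 0) : c ^ n * x ∈ A.nonunits := by
  apply mul_mem_nonunits_right _ hx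
  rw [A.mem_nonunits_iff] at hc ⊢
  rw [map_pow]
  exact pow_lt_one₀ zero_le hc hn

/-- A vector `(a, b)` with `H(a, b), T(a, b) ∈ A` is `A`-integral (when `30` is a unit). -/
lemma mem_of_kH_kT_mem (h2 : (2 : L) ∉ A.nonunits) (h3 : (3 : L) ∉ A.nonunits)
    (h5 : (5 : L) ∉ A.nonunits) {a b : L} (hH : kH a b ∈ A) (hT : kT a b ∈ A) :
    a ∈ A ∧ b ∈ A := by
  by_contra hcon
  rcases le_total (A.valuation b) (A.valuation a) with hle | hle
  · have ha : a ∉ A := fun ha => hcon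
      ⟨ha, (A.valuation_le_one_iff _).mp (hle.trans ((A.valuation_le_one_iff _).mpr ha))⟩
    have hinv := cop_inv_mem_nonunits A ha
    have ha0 : a ≠ 0 := by rintro rfl; exact ha A.zero_mem
    have hs : b / a ∈ A := by
      rw [← A.valuation_le_one_iff, map_div₀]
      exact div_le_one_of_le₀ hle zero_le
    have eH : kH 1 (b / a) = a⁻¹ ^ 20 * kH a b := by
      have := kH_smul a⁻¹ a b
      rw [inv_mul_cancel₀ ha0, inv_mul_eq_div] at this
      exact this
    have eT : kT 1 (b / a) = a⁻¹ ^ 30 * kT a b := by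
      have := kT_smul a⁻¹ a b
      rw [inv_mul_cancel₀ ha0, inv_mul_eq_div] at this
      exact this
    obtain ⟨h1, -⟩ := mem_nonunits_of_kH_kT A h2 h3 h5 A.one_mem hs
      (eH ▸ cop_pow_mul_mem_nonunits A hinv hH 20 (by norm_num))
      (eT ▸ cop_pow_mul_mem_nonunits A hinv hT 30 (by norm_num))
    exact one_not_mem_nonunits h1
  · have hb : b ∉ A := fun hb => hcon
      ⟨(A.valuation_le_one_iff _).mp (hle.trans ((A.valuation_le_one_iff _).mpr hb)), hb⟩
    have hinv := cop_inv_mem_nonunits A hb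
    have hb0 : b ≠ 0 := by rintro rfl; exact hb A.zero_mem
    have hs : a / b ∈ A := by
      rw [← A.valuation_le_one_iff, map_div₀]
      exact div_le_one_of_le₀ hle zero_le
    have eH : kH (a / b) 1 = b⁻¹ ^ 20 * kH a b := by
      have := kH_smul b⁻¹ a b
      rw [inv_mul_cancel₀ hb0, inv_mul_eq_div] at this
      exact this
    have eT : kT (a / b) 1 = b⁻¹ ^ 30 * kT a b := by
      have := kT_smul b⁻¹ a b
      rw [inv_mul_cancel₀ hb0, inv_mul_eq_div] at this
      exact this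
    obtain ⟨-, h1⟩ := mem_nonunits_of_kH_kT A h2 h3 h5 hs A.one_mem
      (eH ▸ cop_pow_mul_mem_nonunits A hinv hH 20 (by norm_num))
      (eT ▸ cop_pow_mul_mem_nonunits A hinv hT 30 (by norm_num))
    exact one_not_mem_nonunits h1

lemma cop_neg_mem_nonunits {x : L} (hx : x ∈ A.nonunits) : -x ∈ A.nonunits := by
  rw [A.mem_nonunits_iff] at hx ⊢
  rwa [Valuation.map_neg]

lemma cop_sub_mem_nonunits {x y : L} (hx : x ∈ A.nonunits) (hy : y ∈ A.nonunits) :
    x - y ∈ A.nonunits := by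
  rw [A.mem_nonunits_iff] at hx hy ⊢
  exact lt_of_le_of_lt (Valuation.map_sub _ _ _) (max_lt hx hy)

end general

lemma cop_not_dvd_twelve {ℓ : ℕ} (hℓ : ℓ.Prime) (hℓ30 : ¬ (ℓ : ℤ) ∣ 30) : ¬ (ℓ : ℤ) ∣ -12 := by
  intro h
  have h12 : (ℓ : ℤ) ∣ 12 := dvd_neg.mp h
  have hp : Prime (ℓ : ℤ) := Nat.prime_iff_prime_int.mp hℓ
  have e12 : (12 : ℤ) = 2 * 2 * 3 := by norm_num
  rw [e12] at h12
  rcases hp.dvd_mul.mp h12 with h1 | h1
  · rcases hp.dvd_mul.mp h1 with h2 | h2
    · exact hℓ30 (h2.trans (by norm_num))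
    · exact hℓ30 (h2.trans (by norm_num))
  · exact hℓ30 (h1.trans (by norm_num))

/-- **[COP]**: `helper47.CopStatement`. -/
theorem copStatement : CopStatement := by
  intro W a b hΔ hH hT ℓ hℓ hℓn t C₄ C₆ hC4 hC6 hd4 hd6
  obtain ⟨A, hA⟩ := Fermat.Agent.S54.helper91.exists_valuationSubring_liesOver hℓ
  have hℓ30 : ¬ (ℓ : ℤ) ∣ 30 := fun h => hℓn (Dvd.dvd.mul_right h _)
  have hℓΔ : ¬ (ℓ : ℤ) ∣ W.Δ := fun h => hℓn (Dvd.dvd.mul_left h _)
  have hu : ∀ n : ℤ, ¬ (ℓ : ℤ) ∣ n → ((n : ℤ) : CQb) ∉ A.nonunits :=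
    fun n hn h => hn ((intCast_mem_nonunits_iff hℓ hA n).mp h)
  have h2 : (2 : CQb) ∉ A.nonunits := by
    have := hu 2 (fun h => hℓ30 (h.trans (by norm_num)))
    simpa using this
  have h3 : (3 : CQb) ∉ A.nonunits := by
    have := hu 3 (fun h => hℓ30 (h.trans (by norm_num)))
    simpa using this
  have h5 : (5 : CQb) ∉ A.nonunits := by
    have := hu 5 (fun h => hℓ30 (h.trans (by norm_num)))
    simpa using this
  -- integrality of the base point
  have hHA : kH a b ∈ A := by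
    show kleinH a b ∈ A
    rw [hH]; exact neg_mem (intCast_mem' _)
  have hTA : kT a b ∈ A := by
    show kleinT a b ∈ A
    rw [hT]; exact neg_mem (intCast_mem' _)
  obtain ⟨ha, hb⟩ := mem_of_kH_kT_mem A h2 h3 h5 hHA hTA
  have hwa : kleinWa a b ∈ A := by
    unfold kleinWa
    exact sub_mem (add_mem (pow_mem ha _) (mul_mem (mul_mem (ofNat_mem A 66) (pow_mem ha _))
      (pow_mem hb _))) (mul_mem (mul_mem (ofNat_mem A 11) ha) (pow_mem hb _))
  have hwb : kleinWb a b ∈ A := by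
    unfold kleinWb
    exact neg_mem (sub_mem (add_mem (mul_mem (mul_mem (ofNat_mem A 11) (pow_mem ha _)) hb)
      (mul_mem (mul_mem (ofNat_mem A 66) (pow_mem ha _)) (pow_mem hb _))) (pow_mem hb _))
  have htA : ((t : ℤ) : CQb) ∈ A := intCast_mem' t
  have hfa : famA a b ((t : ℤ) : CQb) ∈ A := add_mem ha (mul_mem htA hwa)
  have hfb : famB a b ((t : ℤ) : CQb) ∈ A := add_mem hb (mul_mem htA hwb)
  -- `H(v_t)`, `T(v_t)` lie in the maximal ideal
  have hHt : kH (famA a b ((t : ℤ) : CQb)) (famB a b ((t : ℤ) : CQb)) ∈ A.nonunits := by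
    have e : kH (famA a b ((t : ℤ) : CQb)) (famB a b ((t : ℤ) : CQb)) = -((C₄ : ℤ) : CQb) := by
      rw [hC4, famC4, neg_neg]; rfl
    rw [e]
    exact cop_neg_mem_nonunits A ((intCast_mem_nonunits_iff hℓ hA C₄).mpr hd4)
  have hTt : kT (famA a b ((t : ℤ) : CQb)) (famB a b ((t : ℤ) : CQb)) ∈ A.nonunits := by
    have e : kT (famA a b ((t : ℤ) : CQb)) (famB a b ((t : ℤ) : CQb)) = -((C₆ : ℤ) : CQb) := by
      rw [hC6, famC6, neg_neg]; rfl
    rw [e]
    exact cop_neg_mem_nonunits A ((intCast_mem_nonunits_iff hℓ hA C₆).mpr hd6)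
  obtain ⟨hA1, hB1⟩ := mem_nonunits_of_kH_kT A h2 h3 h5 hfa hfb hHt hTt
  -- the determinant
  have hdet : famA a b ((t : ℤ) : CQb) * kleinWb a b - famB a b ((t : ℤ) : CQb) * kleinWa a b
      = -12 * kleinF a b := by
    rw [← klein_det]; simp only [famA, famB]; ring
  have hdetm : -12 * kleinF a b ∈ A.nonunits := by
    rw [← hdet]
    exact cop_sub_mem_nonunits A (mul_mem_nonunits_right hA1 hwb) (mul_mem_nonunits_right hB1 hwa)
  -- `f(v₀) ^ 5 = -Δ`
  have hrel : kleinF a b ^ 5 = -((W.Δ : ℤ) : CQb) := by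
    have h1 := klein_relation a b
    rw [hH, hT] at h1
    have h2' : ((1728 * W.Δ : ℤ) : CQb) = ((W.c₄ ^ 3 - W.c₆ ^ 2 : ℤ) : CQb) := by
      rw [W.c_relation]
    push_cast at h2'
    have h1728 : (1728 : CQb) ≠ 0 := by norm_num
    apply mul_left_cancel₀ h1728
    linear_combination -h1 + h2'
  have hv12 : A.valuation ((-12 : CQb)) = 1 := by
    have := valuation_intCast_eq_one hℓ hA (n := -12) (cop_not_dvd_twelve hℓ hℓ30)
    simpa using this
  have hvf : A.valuation (kleinF a b) < 1 := by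
    have := A.mem_nonunits_iff.mp hdetm
    rwa [map_mul, hv12, one_mul] at this
  have hvΔ : A.valuation ((W.Δ : ℤ) : CQb) < 1 := by
    have h5' : A.valuation (kleinF a b ^ 5) < 1 := by
      rw [map_pow]; exact pow_lt_one₀ zero_le hvf (by norm_num)
    rwa [hrel, Valuation.map_neg] at h5'
  exact hℓΔ ((intCast_mem_nonunits_iff hℓ hA W.Δ).mp (A.mem_nonunits_iff.mpr hvΔ))

end Fermat.Agent.P7.helper25
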