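import Fermat.Agent.P7.helper80_KleinBezout

/-!
# P7 / S52, FAM leaves [FAM-EX] and [FAM-INT] in shape-independent form (helper26)

On top of `helper80_KleinBezout` (`kF`, `kH`, `kT`, Bezout certificates):

* `exists_kH_kT_eq`  ([FAM-EX]) : over an algebraically closed field in which `2, 3, 5` are
  invertible, every pair `(a, b)` with `a ^ 3 + b ^ 2 ≠ 0` is `(kH u v, kT u v)` for some `(u, v)`
  (and then `kF u v ≠ 0`);
* `mem_of_kH_kT_mem` ([FAM-INT]) : if `kH u v` and `kT u v` lie in a valuation subring `A` in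
  which `2, 3, 5` are units, then `u, v ∈ A`;
* `kF_inv_mem_of_disc` : and `kF u v` is a unit of `A` when `kH ^ 3 + kT ^ 2` is;
* `exists_bezout_of_det` : a vector `(u + t u', v + t v')` with `u v' - v u'` a unit of `A`
  and `u', v' ∈ A` is primitive (Bezout form `α x + β y = 1`, `α, β ∈ A`).
-/

set_option autoImplicit false

open Polynomial

namespace Fermat.Agent.P7.helper26

open Fermat.Agent.P7.helper80

section Exists

variable {K : Type*} [Field K]

/-- The degree-60 polynomial `b² H(X,1)³ - a³ T(X,1)²`. -/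
noncomputable def jPoly (a b : K) : K[X] :=
  C (b ^ 2) * kH (X : K[X]) 1 ^ 3 - C (a ^ 3) * kT (X : K[X]) 1 ^ 2

lemma eval_kH (x : K) : (kH (X : K[X]) 1).eval x = kH x 1 := by
  simp only [kH, eval_add, eval_sub, eval_mul, eval_neg, eval_pow, eval_X, eval_one,
    eval_ofNat]

lemma eval_kT (x : K) : (kT (X : K[X]) 1).eval x = kT x 1 := by
  simp only [kT, eval_add, eval_sub, eval_mul, eval_pow, eval_X, eval_one, eval_ofNat]

lemma eval_jPoly (a b x : K) :
    (jPoly a b).eval x = b ^ 2 * kH x 1 ^ 3 - a ^ 3 * kT x 1 ^ 2 := by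
  simp only [jPoly, eval_sub, eval_mul, eval_C, eval_pow, eval_kH, eval_kT]

lemma natDegree_jPoly (a b : K) (h : a ^ 3 + b ^ 2 ≠ 0) : (jPoly a b).natDegree = 60 := by
  unfold jPoly kH kT
  compute_degree!
  intro h0
  apply h
  have h1 : (coeff (1 : K[X]) 20) = 0 := by
    rw [coeff_one]
    simp
  rw [h1] at h0
  have h2 : ((Int.negSucc 0 : ℤ) : K) = -1 := by
    simp
  rw [h2] at h0
  linear_combination -h0

/-- **[FAM-EX]**: every `(a, b)` with `a³ + b² ≠ 0` is a value of `(kH, kT)`. -/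
theorem exists_kH_kT_eq [IsAlgClosed K] (h2 : (2 : K) ≠ 0) (h3 : (3 : K) ≠ 0)
    (h5 : (5 : K) ≠ 0) (a b : K) (hab : a ^ 3 + b ^ 2 ≠ 0) :
    ∃ u v : K, kH u v = a ∧ kT u v = b := by
  have hdeg : (jPoly a b).degree ≠ 0 := by
    intro h0
    have := natDegree_jPoly a b hab
    rw [natDegree_eq_of_degree_eq_some h0] at this
    exact absurd this (by norm_num)
  obtain ⟨x, hx⟩ := IsAlgClosed.exists_root (jPoly a b) hdeg
  rw [IsRoot.def, eval_jPoly] at hx
  -- `H₀`, `T₀` are not both zero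
  have hnot : ¬ (kH x 1 = 0 ∧ kT x 1 = 0) := by
    rintro ⟨hH, hT⟩
    exact one_ne_zero (eq_zero_of_kH_kT h2 h3 h5 hH hT).2
  have hsm : ∀ c : K, kH (c * x) c = c ^ 20 * kH x 1 ∧ kT (c * x) c = c ^ 30 * kT x 1 := by
    intro c
    have e1 := kH_smul c x 1
    have e2 := kT_smul c x 1
    rw [mul_one] at e1 e2
    exact ⟨e1, e2⟩
  by_cases ha : a = 0
  · -- `a = 0`: then `H₀ = 0`, `T₀ ≠ 0`
    subst ha
    have hb : b ≠ 0 := by
      intro hb
      apply hab
      rw [hb]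
      ring
    have hH : kH x 1 = 0 := by
      have h1 : b ^ 2 * kH x 1 ^ 3 = 0 := by linear_combination hx
      rcases mul_eq_zero.mp h1 with h | h
      · exact absurd (pow_eq_zero_iff (by norm_num) |>.mp h) hb
      · exact pow_eq_zero_iff (by norm_num) |>.mp h
    have hT : kT x 1 ≠ 0 := fun hT => hnot ⟨hH, hT⟩
    obtain ⟨c, hc⟩ := IsAlgClosed.exists_pow_nat_eq (b / kT x 1) (n := 30) (by norm_num)
    refine ⟨c * x, c, ?_, ?_⟩
    · rw [(hsm c).1, hH, mul_zero]
    · rw [(hsm c).2, hc, div_mul_cancel₀ _ hT]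
  by_cases hb : b = 0
  · -- `b = 0`: then `T₀ = 0`, `H₀ ≠ 0`
    subst hb
    have hT : kT x 1 = 0 := by
      have h1 : a ^ 3 * kT x 1 ^ 2 = 0 := by linear_combination -hx
      rcases mul_eq_zero.mp h1 with h | h
      · exact absurd (pow_eq_zero_iff (by norm_num) |>.mp h) ha
      · exact pow_eq_zero_iff (by norm_num) |>.mp h
    have hH : kH x 1 ≠ 0 := fun hH => hnot ⟨hH, hT⟩
    obtain ⟨c, hc⟩ := IsAlgClosed.exists_pow_nat_eq (a / kH x 1) (n := 20) (by norm_num)
    refine ⟨c * x, c, ?_, ?_⟩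
    · rw [(hsm c).1, hc, div_mul_cancel₀ _ hH]
    · rw [(hsm c).2, hT, mul_zero]
  -- general case
  have hH : kH x 1 ≠ 0 := by
    intro hH
    have h1 : a ^ 3 * kT x 1 ^ 2 = 0 := by
      rw [hH] at hx
      linear_combination -hx
    rcases mul_eq_zero.mp h1 with h | h
    · exact ha (pow_eq_zero_iff (by norm_num) |>.mp h)
    · exact hnot ⟨hH, pow_eq_zero_iff (by norm_num) |>.mp h⟩
  have hT : kT x 1 ≠ 0 := by
    intro hT
    have h1 : b ^ 2 * kH x 1 ^ 3 = 0 := by
      rw [hT] at hx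
      linear_combination hx
    rcases mul_eq_zero.mp h1 with h | h
    · exact hb (pow_eq_zero_iff (by norm_num) |>.mp h)
    · exact hH (pow_eq_zero_iff (by norm_num) |>.mp h)
  obtain ⟨c, hc⟩ := IsAlgClosed.exists_pow_nat_eq (b * kH x 1 / (a * kT x 1)) (n := 10)
    (by norm_num)
  have hrel : b ^ 2 * kH x 1 ^ 3 = a ^ 3 * kT x 1 ^ 2 := by linear_combination hx
  have haT : a * kT x 1 ≠ 0 := mul_ne_zero ha hT
  refine ⟨c * x, c, ?_, ?_⟩
  · rw [(hsm c).1]
    have e : c ^ 20 = (c ^ 10) ^ 2 := by ring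
    rw [e, hc]
    field_simp
    linear_combination hrel
  · rw [(hsm c).2]
    have e : c ^ 30 = (c ^ 10) ^ 3 := by ring
    rw [e, hc]
    field_simp
    linear_combination hrel

/-- If `kH u v ^ 3 + kT u v ^ 2 ≠ 0` then `kF u v ≠ 0`. -/
theorem kF_ne_zero_of_disc {u v : K} (h : kH u v ^ 3 + kT u v ^ 2 ≠ 0) : kF u v ≠ 0 := by
  intro hf
  apply h
  have := kT_sq_add_kH_cube u v
  rw [hf] at this
  linear_combination this

end Exists

section Integral

variable {K : Type*} [Field K]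

/-- The constant `2^4 3^2 5^10` of the Bezout certificate for `(kH, kT)` is a unit of `A` as
soon as `30` is. -/
lemma const_inv_mem (A : ValuationSubring K) (h0 : (30 : K) ≠ 0) (h30 : (30 : K)⁻¹ ∈ A) :
    (1406250000 : K) ≠ 0 ∧ (1406250000 : K)⁻¹ ∈ A := by
  have e : (1406250000 : K) * 419904 = 30 ^ 10 := by norm_num
  have hne : (1406250000 : K) ≠ 0 := by
    intro h
    rw [h, zero_mul] at e
    exact pow_ne_zero 10 h0 e.symm
  refine ⟨hne, ?_⟩
  have e2 : (1406250000 : K)⁻¹ = 419904 * ((30 : K)⁻¹) ^ 10 := by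
    apply inv_eq_of_mul_eq_one_right
    rw [← mul_assoc, e, inv_pow, mul_inv_cancel₀ (pow_ne_zero 10 h0)]
  rw [e2]
  exact mul_mem (ofNat_mem A _) (pow_mem h30 10)

/-- abstract step: a Bezout relation at a primitive vector `(x, y)` of `A` bounds the scalar -/
lemma scalar_mem_of_bezout (A : ValuationSubring K) {c : K} (hc0 : c ≠ 0) (hc : c⁻¹ ∈ A)
    {x y w P Q : K} (hP : P ∈ A) (hQ : Q ∈ A)
    (hbez : P * kH x y + Q * kT x y = c)
    (hH : kH (w * x) (w * y) ∈ A) (hT : kT (w * x) (w * y) ∈ A) : w ∈ A := by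
  by_contra hw
  have hw0 : w ≠ 0 := fun h => hw (h ▸ A.zero_mem)
  have hwinv : w⁻¹ ∈ A := (A.mem_or_inv_mem w).resolve_left hw
  have e1 := kH_smul w x y
  have e2 := kT_smul w x y
  have e1' : kH x y = w⁻¹ ^ 20 * kH (w * x) (w * y) := by
    rw [e1, ← mul_assoc, ← mul_pow, inv_mul_cancel₀ hw0, one_pow, one_mul]
  have e2' : kT x y = w⁻¹ ^ 30 * kT (w * x) (w * y) := by
    rw [e2, ← mul_assoc, ← mul_pow, inv_mul_cancel₀ hw0, one_pow, one_mul]
  have hz : P * (w⁻¹ ^ 19 * kH (w * x) (w * y)) + Q * (w⁻¹ ^ 29 * kT (w * x) (w * y)) ∈ A :=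
    add_mem (mul_mem hP (mul_mem (pow_mem hwinv 19) hH))
      (mul_mem hQ (mul_mem (pow_mem hwinv 29) hT))
  have hmain : c = w⁻¹ *
      (P * (w⁻¹ ^ 19 * kH (w * x) (w * y)) + Q * (w⁻¹ ^ 29 * kT (w * x) (w * y))) := by
    rw [← hbez, e1', e2']
    ring
  have hweq : w = c⁻¹ *
      (P * (w⁻¹ ^ 19 * kH (w * x) (w * y)) + Q * (w⁻¹ ^ 29 * kT (w * x) (w * y))) := by
    rw [eq_inv_mul_iff_mul_eq₀ hc0]
    conv_lhs => rw [hmain]
    field_simp
  exact hw (hweq ▸ mul_mem hc hz)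

/-- **[FAM-INT]**: if `kH u v, kT u v ∈ A` and `30` is a unit of the valuation subring `A`,
then `u, v ∈ A`. -/
theorem mem_of_kH_kT_mem (A : ValuationSubring K) (h0 : (30 : K) ≠ 0)
    (h30 : (30 : K)⁻¹ ∈ A) {u v : K} (hH : kH u v ∈ A) (hT : kT u v ∈ A) :
    u ∈ A ∧ v ∈ A := by
  obtain ⟨hc0, hc⟩ := const_inv_mem A h0 h30
  -- the larger coordinate lies in `A`
  have hv_of : ∀ x : K, x ∈ A → u = v * x → v ∈ A := by
    intro x hx hux
    have hbez := bezout_kH_kT_right x (1 : K)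
    simp only [one_pow, mul_one] at hbez
    refine scalar_mem_of_bezout A hc0 hc ?_ ?_ hbez ?_ ?_
    · aesop
    · aesop
    · rw [← hux, mul_one]
      exact hH
    · rw [← hux, mul_one]
      exact hT
  have hu_of : ∀ y : K, y ∈ A → v = u * y → u ∈ A := by
    intro y hy hvy
    have hbez := bezout_kH_kT_left (1 : K) y
    simp only [one_pow, mul_one] at hbez
    have hy' : ∀ n : ℕ, y ^ n ∈ A := fun n => pow_mem hy n
    refine scalar_mem_of_bezout A hc0 hc ?_ ?_ hbez ?_ ?_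
    · exact sub_mem (add_mem (add_mem (add_mem (add_mem (neg_mem (ofNat_mem A _))
        (mul_mem (ofNat_mem A _) (hy' 5))) (mul_mem (ofNat_mem A _) (hy' 10)))
        (mul_mem (ofNat_mem A _) (hy' 15))) (mul_mem (ofNat_mem A _) (hy' 20)))
        (mul_mem (ofNat_mem A _) (hy' 25))
    · exact sub_mem (sub_mem (sub_mem (ofNat_mem A _) (mul_mem (ofNat_mem A _) (hy' 5)))
        (mul_mem (ofNat_mem A _) (hy' 10))) (mul_mem (ofNat_mem A _) (hy' 15))
    · rw [← hvy, mul_one]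
      exact hH
    · rw [← hvy, mul_one]
      exact hT
  by_cases hv0 : v = 0
  · subst hv0
    have hu : u ∈ A := hu_of 0 A.zero_mem (by rw [mul_zero])
    exact ⟨hu, A.zero_mem⟩
  by_cases hu0 : u = 0
  · subst hu0
    have hv : v ∈ A := hv_of 0 A.zero_mem (by rw [mul_zero])
    exact ⟨A.zero_mem, hv⟩
  rcases A.mem_or_inv_mem (u / v) with h | h
  · have hv : v ∈ A := hv_of (u / v) h (by field_simp)
    have hu : u ∈ A := by
      have : u = v * (u / v) := by field_simp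
      rw [this]
      exact mul_mem hv h
    exact ⟨hu, hv⟩
  · rw [inv_div] at h
    have hu : u ∈ A := hu_of (v / u) h (by field_simp)
    have hv : v ∈ A := by
      have : v = u * (v / u) := by field_simp
      rw [this]
      exact mul_mem hu h
    exact ⟨hu, hv⟩

/-- `kF u v` is a unit of `A` if the discriminant `kH³ + kT²` is (and `1728` is a unit). -/
theorem kF_inv_mem_of_disc (A : ValuationSubring K) {u v : K} (hu : u ∈ A) (hv : v ∈ A)
    (hd : (kH u v ^ 3 + kT u v ^ 2)⁻¹ ∈ A) (hd0 : kH u v ^ 3 + kT u v ^ 2 ≠ 0) :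
    (kF u v)⁻¹ ∈ A := by
  have hrel := kT_sq_add_kH_cube u v
  have hF0 : kF u v ≠ 0 := by
    intro hf
    apply hd0
    rw [hf] at hrel
    linear_combination hrel
  have hFA : kF u v ∈ A := by
    simp only [kF]
    aesop
  have e : (kF u v)⁻¹ = 1728 * kF u v ^ 4 * (kH u v ^ 3 + kT u v ^ 2)⁻¹ := by
    have h1 : kH u v ^ 3 + kT u v ^ 2 = 1728 * kF u v ^ 5 := by linear_combination hrel
    rw [h1] at hd0 ⊢
    have h1728 : (1728 : K) ≠ 0 := fun h => hd0 (by rw [h, zero_mul])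
    field_simp
  rw [e]
  exact mul_mem (mul_mem (ofNat_mem A _) (pow_mem hFA 4)) hd

/-- A vector `(u + t u', v + t v')` with `u v' - v u'` a unit of `A` (and `u', v' ∈ A`) is
primitive: one of its coordinates is a unit of `A` or lies outside `A`; in the form used for
the resultant step: if `x = u + t u'` and `y = v + t v'` are both in `A`, then there are
`α, β ∈ A` with `α x + β y = 1`. -/
theorem exists_bezout_of_det (A : ValuationSubring K) {u v u' v' t : K}
    (hu' : u' ∈ A) (hv' : v' ∈ A) (hdet : (u * v' - v * u')⁻¹ ∈ A)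
    (hdet0 : u * v' - v * u' ≠ 0) :
    ∃ α ∈ A, ∃ β ∈ A, α * (u + t * u') + β * (v + t * v') = 1 := by
  refine ⟨v' * (u * v' - v * u')⁻¹, mul_mem hv' hdet, -(u' * (u * v' - v * u')⁻¹),
    neg_mem (mul_mem hu' hdet), ?_⟩
  have e : v' * (u * v' - v * u')⁻¹ * (u + t * u') +
      -(u' * (u * v' - v * u')⁻¹) * (v + t * v') =
      (u * v' - v * u') * (u * v' - v * u')⁻¹ := by ring
  rw [e, mul_inv_cancel₀ hdet0]

end Integral

end Fermat.Agent.P7.helper26
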