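import Fermat.Agent.P7.helper92_ManinDefs

/-!
# P7 / S52, module CE, package [CE-MANIN], leaf [DEG-DUP] (helper35, row 918)

* `rdegDup : helper92.RdegDupStatement` : if `s * ψ₂²(r) = dblX(r)` in `k(X)` (`ψ₂²(r) ≠ 0`,
  `Δ ≠ 0`) then `rdeg s = 4 * rdeg r`;
* `rdeg_eq_zero_of_dblZ_eq_zero` : if `ψ₂²(r) = 0` (`Δ ≠ 0`) then `rdeg r = 0`.

Mathlib only (on top of the definitions `dblX`, `dblZ` of `S13.helper64_XOnly` and `rdeg`).

Proof: `r = n / d` in lowest terms, `h = max (deg n) (deg d)`, `N = dblX n d`, `D = dblZ n d`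
in `k[X]`.  The homogeneous Bezout identity `(A d) N + B D = Δ d⁷` shows that `N` and `D` are
coprime; the coefficients of `X ^ (4 h)` of `N`, `D` are `dblX α β`, `dblZ α β` with
`(α, β) ≠ (0, 0)` the coefficients of `X ^ h` of `n`, `d`, and they do not both vanish.
-/

set_option autoImplicit false

open Polynomial

noncomputable section

namespace Fermat.Agent.P7.helper35

open Fermat.Agent.S13.helper64 Fermat.Agent.P7.helper92

/-! ## The homogeneous Bezout identity -/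

/-- the homogeneous form of `helper64.bezout_dbl`, over any commutative ring -/
lemma bezout_dbl_hom {R : Type*} [CommRing R] (b₂ b₄ b₆ b₈ : R)
    (hb : 4 * b₈ = b₂ * b₆ - b₄ ^ 2) (U V : R) :
    (-(48 * U ^ 2 + 8 * b₂ * U * V - b₂ ^ 2 * V ^ 2 + 32 * b₄ * V ^ 2)) * V * dblX b₄ b₆ b₈ U V +
      (12 * U ^ 3 - b₂ * U ^ 2 * V - 10 * b₄ * U * V ^ 2 + b₂ * b₄ * V ^ 3 - 27 * b₆ * V ^ 3) *
        dblZ b₂ b₄ b₆ U V =
      (-b₂ ^ 2 * b₈ - 8 * b₄ ^ 3 - 27 * b₆ ^ 2 + 9 * b₂ * b₄ * b₆) * V ^ 7 := by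
  simp only [dblX, dblZ]
  linear_combination (12 * U ^ 2 + 2 * b₂ * U * V + 8 * b₄ * V ^ 2) * V ^ 5 * hb

section Field

variable {k : Type} [Field k]

/-- `dblX`, `dblZ` have no common zero on `(α, β) ≠ (0, 0)` when `Δ ≠ 0` -/
lemma dbl_ne_zero (V : WeierstrassCurve k) (hΔ : V.Δ ≠ 0) (α β : k) (h : α ≠ 0 ∨ β ≠ 0) :
    dblX V.b₄ V.b₆ V.b₈ α β ≠ 0 ∨ dblZ V.b₂ V.b₄ V.b₆ α β ≠ 0 := by
  by_contra hcon
  rw [not_or, not_not, not_not] at hcon
  obtain ⟨hX, hZ⟩ := hcon
  have hbez := bezout_dbl_hom V.b₂ V.b₄ V.b₆ V.b₈ V.b_relation α β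
  rw [hX, hZ, mul_zero, mul_zero, add_zero] at hbez
  have hΔ' : (-V.b₂ ^ 2 * V.b₈ - 8 * V.b₄ ^ 3 - 27 * V.b₆ ^ 2 + 9 * V.b₂ * V.b₄ * V.b₆) = V.Δ := by
    simp only [WeierstrassCurve.Δ]
  rw [hΔ'] at hbez
  have hβ : β = 0 := by
    rcases mul_eq_zero.1 hbez.symm with h1 | h1
    · exact absurd h1 hΔ
    · exact pow_eq_zero_iff (by norm_num) |>.1 h1
  have hα : α ≠ 0 := by
    rcases h with h | h
    · exact h
    · exact absurd hβ h
  rw [hβ] at hX
  simp only [dblX] at hX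
  have : α ^ 4 = 0 := by
    have e : α ^ 4 - V.b₄ * α ^ 2 * 0 ^ 2 - 2 * V.b₆ * α * 0 ^ 3 - V.b₈ * 0 ^ 4 = α ^ 4 := by ring
    rw [e] at hX
    exact hX
  exact hα (pow_eq_zero_iff (by norm_num) |>.1 this)

/-! ## Top coefficients of binary forms in two polynomials -/

lemma natDegree_sub_le_of_le' {p q : k[X]} {m : ℕ} (hp : p.natDegree ≤ m) (hq : q.natDegree ≤ m) :
    (p - q).natDegree ≤ m :=
  (natDegree_sub_le p q).trans (max_le hp hq)

section Top

variable (n d : k[X]) (h : ℕ) (hn : n.natDegree ≤ h) (hd : d.natDegree ≤ h)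

include hn hd

lemma natDegree_monomial_le (c : k) (i j : ℕ) :
    (C c * (n ^ i * d ^ j)).natDegree ≤ (i + j) * h := by
  refine (natDegree_C_mul_le _ _).trans ?_
  rw [add_mul]
  exact natDegree_mul_le_of_le (natDegree_pow_le_of_le i hn) (natDegree_pow_le_of_le j hd)

lemma coeff_monomial_top (c : k) (i j : ℕ) :
    (C c * (n ^ i * d ^ j)).coeff ((i + j) * h) = c * (n.coeff h ^ i * d.coeff h ^ j) := by
  rw [coeff_C_mul, add_mul,
    coeff_mul_add_eq_of_natDegree_le (natDegree_pow_le_of_le i hn) (natDegree_pow_le_of_le j hd),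
    coeff_pow_of_natDegree_le hn, coeff_pow_of_natDegree_le hd]

end Top

variable (V : WeierstrassCurve k)

/-- `dblX n d` as a sum of monomials -/
lemma dblX_poly_eq (n d : k[X]) :
    dblX (C V.b₄) (C V.b₆) (C V.b₈) n d =
      C 1 * (n ^ 4 * d ^ 0) - C V.b₄ * (n ^ 2 * d ^ 2) - C (2 * V.b₆) * (n ^ 1 * d ^ 3)
        - C V.b₈ * (n ^ 0 * d ^ 4) := by
  simp only [dblX, C_mul, C_1, C_ofNat]
  ring

/-- `dblZ n d` as a sum of monomials -/
lemma dblZ_poly_eq (n d : k[X]) :
    dblZ (C V.b₂) (C V.b₄) (C V.b₆) n d =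
      C 4 * (n ^ 3 * d ^ 1) + C V.b₂ * (n ^ 2 * d ^ 2) + C (2 * V.b₄) * (n ^ 1 * d ^ 3)
        + C V.b₆ * (n ^ 0 * d ^ 4) := by
  simp only [dblZ, C_mul, C_ofNat]
  ring

section Top2

variable (n d : k[X]) (h : ℕ) (hn : n.natDegree ≤ h) (hd : d.natDegree ≤ h)

include hn hd

lemma natDegree_dblX_le :
    (dblX (C V.b₄) (C V.b₆) (C V.b₈) n d).natDegree ≤ 4 * h := by
  rw [dblX_poly_eq]
  refine natDegree_sub_le_of_le' (natDegree_sub_le_of_le' (natDegree_sub_le_of_le' ?_ ?_) ?_) ?_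
  · exact natDegree_monomial_le n d h hn hd 1 4 0
  · exact natDegree_monomial_le n d h hn hd _ 2 2
  · exact natDegree_monomial_le n d h hn hd _ 1 3
  · exact natDegree_monomial_le n d h hn hd _ 0 4

lemma natDegree_dblZ_le :
    (dblZ (C V.b₂) (C V.b₄) (C V.b₆) n d).natDegree ≤ 4 * h := by
  rw [dblZ_poly_eq]
  refine natDegree_add_le_of_degree_le (natDegree_add_le_of_degree_le
    (natDegree_add_le_of_degree_le ?_ ?_) ?_) ?_
  · exact natDegree_monomial_le n d h hn hd _ 3 1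
  · exact natDegree_monomial_le n d h hn hd _ 2 2
  · exact natDegree_monomial_le n d h hn hd _ 1 3
  · exact natDegree_monomial_le n d h hn hd _ 0 4

lemma coeff_dblX_top :
    (dblX (C V.b₄) (C V.b₆) (C V.b₈) n d).coeff (4 * h) =
      dblX V.b₄ V.b₆ V.b₈ (n.coeff h) (d.coeff h) := by
  rw [dblX_poly_eq, coeff_sub, coeff_sub, coeff_sub]
  have e1 := coeff_monomial_top n d h hn hd 1 4 0
  have e2 := coeff_monomial_top n d h hn hd V.b₄ 2 2
  have e3 := coeff_monomial_top n d h hn hd (2 * V.b₆) 1 3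
  have e4 := coeff_monomial_top n d h hn hd V.b₈ 0 4
  rw [e1, e2, e3, e4]
  simp only [dblX]
  ring

lemma coeff_dblZ_top :
    (dblZ (C V.b₂) (C V.b₄) (C V.b₆) n d).coeff (4 * h) =
      dblZ V.b₂ V.b₄ V.b₆ (n.coeff h) (d.coeff h) := by
  rw [dblZ_poly_eq, coeff_add, coeff_add, coeff_add]
  have e1 := coeff_monomial_top n d h hn hd 4 3 1
  have e2 := coeff_monomial_top n d h hn hd V.b₂ 2 2
  have e3 := coeff_monomial_top n d h hn hd (2 * V.b₄) 1 3
  have e4 := coeff_monomial_top n d h hn hd V.b₆ 0 4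
  rw [e1, e2, e3, e4]
  simp only [dblZ]
  ring

end Top2

/-- the exact degree of the pair `(dblX n d, dblZ n d)` -/
lemma max_natDegree_dbl (hΔ : V.Δ ≠ 0) (n d : k[X]) (hd0 : d ≠ 0) :
    max (dblX (C V.b₄) (C V.b₆) (C V.b₈) n d).natDegree
        (dblZ (C V.b₂) (C V.b₄) (C V.b₆) n d).natDegree =
      4 * max n.natDegree d.natDegree := by
  set h := max n.natDegree d.natDegree with hh
  have hn : n.natDegree ≤ h := le_max_left _ _
  have hd : d.natDegree ≤ h := le_max_right _ _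
  apply le_antisymm
  · exact max_le (natDegree_dblX_le V n d h hn hd) (natDegree_dblZ_le V n d h hn hd)
  · have hne : n.coeff h ≠ 0 ∨ d.coeff h ≠ 0 := by
      rcases le_total n.natDegree d.natDegree with hle | hle
      · right
        have : h = d.natDegree := max_eq_right hle
        rw [this]
        exact leadingCoeff_ne_zero.2 hd0
      · rcases eq_or_lt_of_le hle with heq | hlt
        · right
          have : h = d.natDegree := by rw [hh, ← heq, max_self]
          rw [this]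
          exact leadingCoeff_ne_zero.2 hd0
        · left
          have : h = n.natDegree := max_eq_left hle
          rw [this]
          apply leadingCoeff_ne_zero.2
          intro h0
          rw [h0, natDegree_zero] at hlt
          exact Nat.not_lt_zero _ hlt
    rcases dbl_ne_zero V hΔ _ _ hne with h1 | h1
    · rw [← coeff_dblX_top V n d h hn hd] at h1
      exact le_max_of_le_left (le_natDegree_of_ne_zero h1)
    · rw [← coeff_dblZ_top V n d h hn hd] at h1
      exact le_max_of_le_right (le_natDegree_of_ne_zero h1)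

/-- the Bezout identity in `k[X]` -/
lemma bezout_dbl_poly (n d : k[X]) :
    ∃ a b : k[X], a * dblX (C V.b₄) (C V.b₆) (C V.b₈) n d +
      b * dblZ (C V.b₂) (C V.b₄) (C V.b₆) n d = C V.Δ * d ^ 7 := by
  have hb : 4 * C V.b₈ = C V.b₂ * C V.b₆ - C V.b₄ ^ 2 := by
    have := congrArg (C : k →+* k[X]) V.b_relation
    simpa only [map_mul, map_sub, map_pow, map_ofNat] using this
  have h := bezout_dbl_hom (C V.b₂) (C V.b₄) (C V.b₆) (C V.b₈) hb n d
  refine ⟨_, _, h.trans ?_⟩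
  congr 1
  simp only [WeierstrassCurve.Δ, map_sub, map_add, map_mul, map_neg, map_pow, map_ofNat]

/-- `dblX n d` is prime to `d` -/
lemma isCoprime_dblX_right {n d : k[X]} (hcop : IsCoprime n d) :
    IsCoprime (dblX (C V.b₄) (C V.b₆) (C V.b₈) n d) d := by
  have e : dblX (C V.b₄) (C V.b₆) (C V.b₈) n d =
      n ^ 4 + d * (-(C V.b₄ * n ^ 2 * d) - 2 * C V.b₆ * n * d ^ 2 - C V.b₈ * d ^ 3) := by
    simp only [dblX]
    ring
  rw [e]
  exact (IsCoprime.pow_left hcop).add_mul_left_left _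

/-- coprimality from a Bezout identity up to a power of `d` -/
lemma isCoprime_of_bezout {R : Type*} [CommRing R] {N D d a b u : R} (hu : IsUnit u)
    (hNd : IsCoprime N d) (hbez : a * N + b * D = u * d ^ 7) : IsCoprime N D := by
  have h1 : IsCoprime N (u * d ^ 7) := (isCoprime_mul_unit_left_right hu _ _).2 hNd.pow_right
  rw [← hbez] at h1
  exact h1.of_mul_add_right_right.of_mul_right_right

/-- `dblX n d` and `dblZ n d` are coprime -/
lemma isCoprime_dbl (hΔ : V.Δ ≠ 0) {n d : k[X]} (hcop : IsCoprime n d) :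
    IsCoprime (dblX (C V.b₄) (C V.b₆) (C V.b₈) n d) (dblZ (C V.b₂) (C V.b₄) (C V.b₆) n d) := by
  obtain ⟨a, b, hbez⟩ := bezout_dbl_poly V n d
  exact isCoprime_of_bezout (isUnit_C.2 (isUnit_iff_ne_zero.2 hΔ)) (isCoprime_dblX_right V hcop)
    hbez

/-! ## Degrees of quotients -/

/-- the degree of a quotient of coprime polynomials -/
lemma rdeg_div_of_isCoprime (N D : k[X]) (hD : D ≠ 0) (hcop : IsCoprime N D) :
    rdeg (algebraMap k[X] (RatFunc k) N / algebraMap k[X] (RatFunc k) D) =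
      max N.natDegree D.natDegree := by
  set x : RatFunc k := algebraMap k[X] (RatFunc k) N / algebraMap k[X] (RatFunc k) D with hx
  have h1 : x.num ∣ N := RatFunc.num_div_dvd N hD
  have h2 : x.denom ∣ D := RatFunc.denom_div_dvd N D
  have h3 : x.num * D = N * x.denom := (RatFunc.num_mul_eq_mul_denom_iff hD).2 rfl
  have h4 : N ∣ x.num := hcop.dvd_of_dvd_mul_right (Dvd.intro _ h3.symm)
  have h5 : D ∣ x.denom := hcop.symm.dvd_of_dvd_mul_left (Dvd.intro_left _ h3)
  have e2 : x.denom.natDegree = D.natDegree :=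
    le_antisymm (natDegree_le_of_dvd h2 hD) (natDegree_le_of_dvd h5 (RatFunc.denom_ne_zero x))
  have e1 : x.num.natDegree = N.natDegree := by
    by_cases hN : N = 0
    · have : x.num = 0 := by
        rw [hN] at h4
        exact zero_dvd_iff.1 h4
      rw [this, hN]
    · have hxn : x.num ≠ 0 := by
        intro h0
        rw [h0] at h1
        exact hN (zero_dvd_iff.1 h1)
      exact le_antisymm (natDegree_le_of_dvd h1 hN) (natDegree_le_of_dvd h4 hxn)
  unfold rdeg
  rw [e1, e2]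

/-! ## The statements -/

section Main

variable (r : RatFunc k)

lemma algebraMap_dblX :
    algebraMap k[X] (RatFunc k) (dblX (C V.b₄) (C V.b₆) (C V.b₈) r.num r.denom) =
      algebraMap k[X] (RatFunc k) r.denom ^ 4 *
        dblX (RatFunc.C V.b₄) (RatFunc.C V.b₆) (RatFunc.C V.b₈) r 1 := by
  have hd : algebraMap k[X] (RatFunc k) r.denom ≠ 0 :=
    RatFunc.algebraMap_ne_zero (RatFunc.denom_ne_zero r)
  have hr : algebraMap k[X] (RatFunc k) r.num = algebraMap k[X] (RatFunc k) r.denom * r := by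
    rw [mul_comm, ← div_eq_iff hd]
    exact RatFunc.num_div_denom r
  rw [← dblX_smul]
  simp only [dblX, map_sub, map_mul, map_pow, map_ofNat, RatFunc.algebraMap_C, hr, mul_one]

lemma algebraMap_dblZ :
    algebraMap k[X] (RatFunc k) (dblZ (C V.b₂) (C V.b₄) (C V.b₆) r.num r.denom) =
      algebraMap k[X] (RatFunc k) r.denom ^ 4 *
        dblZ (RatFunc.C V.b₂) (RatFunc.C V.b₄) (RatFunc.C V.b₆) r 1 := by
  have hd : algebraMap k[X] (RatFunc k) r.denom ≠ 0 :=
    RatFunc.algebraMap_ne_zero (RatFunc.denom_ne_zero r)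
  have hr : algebraMap k[X] (RatFunc k) r.num = algebraMap k[X] (RatFunc k) r.denom * r := by
    rw [mul_comm, ← div_eq_iff hd]
    exact RatFunc.num_div_denom r
  rw [← dblZ_smul]
  simp only [dblZ, map_add, map_mul, map_pow, map_ofNat, RatFunc.algebraMap_C, hr, mul_one]

end Main

/-- **[DEG-DUP]**: the duplication formula has exact degree `4`. -/
theorem rdegDup : RdegDupStatement := by
  intro k _ V hΔ r s hZ hs
  have hd0 : r.denom ≠ 0 := RatFunc.denom_ne_zero r
  have hd : algebraMap k[X] (RatFunc k) r.denom ≠ 0 := RatFunc.algebraMap_ne_zero hd0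
  have hcop : IsCoprime r.num r.denom := RatFunc.isCoprime_num_denom r
  set N := dblX (C V.b₄) (C V.b₆) (C V.b₈) r.num r.denom with hN
  set D := dblZ (C V.b₂) (C V.b₄) (C V.b₆) r.num r.denom with hD
  have eN := algebraMap_dblX V r
  have eD := algebraMap_dblZ V r
  have hD0 : algebraMap k[X] (RatFunc k) D ≠ 0 := by
    rw [hD, eD]
    exact mul_ne_zero (pow_ne_zero _ hd) hZ
  have hD0' : D ≠ 0 := fun h0 => hD0 (by rw [h0, map_zero])
  have hsND : s = algebraMap k[X] (RatFunc k) N / algebraMap k[X] (RatFunc k) D := by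
    rw [eq_div_iff hD0, hN, hD, eN, eD, ← hs]
    ring
  rw [hsND, rdeg_div_of_isCoprime N D hD0' (isCoprime_dbl V hΔ hcop),
    max_natDegree_dbl V hΔ _ _ hd0]
  rfl

/-- if `ψ₂²(r) = 0` then `r` is constant -/
theorem rdeg_eq_zero_of_dblZ_eq_zero {k : Type} [Field k] (V : WeierstrassCurve k)
    (hΔ : V.Δ ≠ 0) (r : RatFunc k)
    (hZ : dblZ (RatFunc.C V.b₂) (RatFunc.C V.b₄) (RatFunc.C V.b₆) r 1 = 0) : rdeg r = 0 := by
  have hd0 : r.denom ≠ 0 := RatFunc.denom_ne_zero r
  have hcop : IsCoprime r.num r.denom := RatFunc.isCoprime_num_denom r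
  have eD := algebraMap_dblZ V r
  have hD0 : dblZ (C V.b₂) (C V.b₄) (C V.b₆) r.num r.denom = 0 := by
    apply RatFunc.algebraMap_injective k
    rw [eD, hZ, mul_zero, map_zero]
  obtain ⟨a, b, hbez⟩ := bezout_dbl_poly V r.num r.denom
  rw [hD0, mul_zero, add_zero] at hbez
  have h1 : IsCoprime (dblX (C V.b₄) (C V.b₆) (C V.b₈) r.num r.denom) (r.denom ^ 7) :=
    (isCoprime_dblX_right V hcop).pow_right
  have h2 : dblX (C V.b₄) (C V.b₆) (C V.b₈) r.num r.denom ∣ C V.Δ * r.denom ^ 7 :=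
    Dvd.intro_left _ hbez
  have h3 : dblX (C V.b₄) (C V.b₆) (C V.b₈) r.num r.denom ∣ C V.Δ :=
    h1.dvd_of_dvd_mul_right h2
  have h4 : (dblX (C V.b₄) (C V.b₆) (C V.b₈) r.num r.denom).natDegree = 0 := by
    have := natDegree_le_of_dvd h3 (C_ne_zero.2 hΔ)
    rw [natDegree_C] at this
    exact Nat.le_zero.1 this
  have h5 := max_natDegree_dbl V hΔ r.num r.denom hd0
  rw [hD0, h4, natDegree_zero, max_self] at h5
  unfold rdeg
  omega

end Field

end Fermat.Agent.P7.helper35
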