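import Fermat.Agent.P7.helper92_ManinDefs
import Fermat.Agent.P7.helper97_DegComp

/-!
# P7 / S52, module CE, package [CE-MANIN]: the four small shape lemmas (helper38, row 921)

In the vocabulary of `helper92_ManinDefs`:

* `neg      : NegStatement`                  `h (-X) = h X`, unconditional;
* `gen_of   : KXStatement → GenStatement`    the generic point lies in `G`, has height `1`;
* `frob_of  : KXStatement → FrobStatement`   Frobenius preserves `G`, multiplies `h` by `ℓ`;
* `const_of : KXStatement → ConstStatement`  points of `G` of height `0` are constant.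

Tools: `xdeg_kxHom` (the height of an element of `k(x)` is the degree of the rational function),
`rdeg_pow`, `eq_C_of_rdeg_eq_zero`, `exists_of_quadratic`.
-/

set_option autoImplicit false

open WeierstrassCurve WeierstrassCurve.Affine Polynomial
open scoped WeierstrassCurve.Affine Classical Polynomial.Bivariate

namespace Fermat.Agent.P7.helper38

open Fermat.Agent.P6.helper78 Fermat.Agent.P7.helper52 Fermat.Agent.P7.helper92

section small

variable (W : WeierstrassCurve ℤ) (k : Type) [Field k]

/-- On `k(x)` (embedded injectively) the height is the degree of the rational function. -/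
lemma xdeg_kxHom (hinj : Function.Injective (kxHom W k)) (r : RatFunc k) :
    xdeg W k (kxHom W k r) = (rdeg r : ℤ) := by
  unfold xdeg
  have h : ∃ r' : RatFunc k, kxHom W k r' = kxHom W k r := ⟨r, rfl⟩
  rw [dif_pos h]
  rw [hinj h.choose_spec]

lemma manH_some (x y : KE W k)
    (h : (W.map (Int.castRingHom (KE W k))).toAffine.Nonsingular x y) :
    manH W k (Point.some x y h) = xdeg W k x := rfl

lemma rdeg_X : rdeg (RatFunc.X : RatFunc k) = 1 := by
  unfold rdeg
  rw [RatFunc.num_X, RatFunc.denom_X]
  simp

lemma invPt_some (x y : KE W k)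
    (h : (W.map (Int.castRingHom (KE W k))).toAffine.Nonsingular x y) :
    ∃ h', invPt W k (Point.some x y h) = Point.some (invK W k x) (invK W k y) h' :=
  ⟨_, rfl⟩

/-- The degree of a power of a rational function. -/
lemma rdeg_pow (r : RatFunc k) (n : ℕ) : rdeg (r ^ n) = n * rdeg r := by
  have hd : r.denom ^ n ≠ 0 := pow_ne_zero _ r.denom_ne_zero
  have hc : IsCoprime (r.num ^ n) (r.denom ^ n) := r.isCoprime_num_denom.pow
  have e : r ^ n = algebraMap k[X] (RatFunc k) (r.num ^ n) /
      algebraMap k[X] (RatFunc k) (r.denom ^ n) := by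
    rw [map_pow, map_pow, ← div_pow, RatFunc.num_div_denom]
  have h := Fermat.Agent.P7.helper97.ratDeg_div_of_isCoprime hd hc
  rw [← e] at h
  change rdeg (r ^ n) = _ at h
  rw [h, natDegree_pow, natDegree_pow]
  unfold rdeg
  exact Nat.mul_max_mul_left n _ _

lemma frobK_apply (ℓ : ℕ) [Fact ℓ.Prime] [CharP k ℓ] (z : KE W k) :
    frobK W k ℓ z = z ^ ℓ := rfl

lemma frobKPt_some (ℓ : ℕ) [Fact ℓ.Prime] [CharP k ℓ] (x y : KE W k)
    (h : (W.map (Int.castRingHom (KE W k))).toAffine.Nonsingular x y) :
    ∃ h', frobKPt W k ℓ (Point.some x y h) = Point.some (x ^ ℓ) (y ^ ℓ) h' :=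
  ⟨_, rfl⟩

/-- Frobenius commutes with the involution on points. -/
lemma invPt_frobKPt (ℓ : ℕ) [Fact ℓ.Prime] [CharP k ℓ] (X : PtK W (KE W k)) :
    invPt W k (frobKPt W k ℓ X) = frobKPt W k ℓ (invPt W k X) := by
  cases X with
  | zero => rfl
  | some x y h =>
    obtain ⟨h1, e1⟩ := frobKPt_some W k ℓ x y h
    obtain ⟨h2, e2⟩ := invPt_some W k x y h
    obtain ⟨h3, e3⟩ := invPt_some W k (x ^ ℓ) (y ^ ℓ) h1
    obtain ⟨h4, e4⟩ := frobKPt_some W k ℓ _ _ h2
    rw [e1, e3, e2, e4]
    simp only [map_pow]

/-- The `x`-coordinate of a point of `manG` is fixed by the involution. -/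
lemma invK_x_of_mem (x y : KE W k)
    (h : (W.map (Int.castRingHom (KE W k))).toAffine.Nonsingular x y)
    (hX : Point.some x y h ∈ manG W k) : invK W k x = x := by
  rw [mem_manG_iff] at hX
  obtain ⟨h2, e2⟩ := invPt_some W k x y h
  rw [e2, Point.neg_some] at hX
  simp only [Point.some.injEq] at hX
  exact hX.1

/-- A rational function of degree `0` is constant. -/
lemma eq_C_of_rdeg_eq_zero (r : RatFunc k) (h : rdeg r = 0) : ∃ c : k, r = RatFunc.C c := by
  unfold rdeg at h
  have h1 : r.num.natDegree = 0 := Nat.le_zero.mp (h ▸ le_max_left _ _)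
  have h2 : r.denom.natDegree = 0 := Nat.le_zero.mp (h ▸ le_max_right _ _)
  obtain ⟨a, ha⟩ := natDegree_eq_zero.mp h1
  obtain ⟨b, hb⟩ := natDegree_eq_zero.mp h2
  refine ⟨a / b, ?_⟩
  rw [← RatFunc.num_div_denom r, ← ha, ← hb, RatFunc.algebraMap_C, RatFunc.algebraMap_C,
    map_div₀]

/-- A root in an extension field of a monic quadratic over an algebraically closed field lies
in the base field. -/
lemma exists_of_quadratic {K : Type} [IsAlgClosed k] [Field K] [Algebra k K] (b d : k) (y : K)
    (hy : y ^ 2 + algebraMap k K b * y = algebraMap k K d) :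
    ∃ y' : k, algebraMap k K y' = y := by
  have hlt : (C b * X - C d : k[X]).degree < ((2 : ℕ) : WithBot ℕ) := by
    refine lt_of_le_of_lt (degree_sub_le _ _) ?_
    refine max_lt (lt_of_le_of_lt (degree_C_mul_X_le b) (by norm_num))
      (lt_of_le_of_lt degree_C_le (by norm_num))
  have hdeg : (X ^ 2 + (C b * X - C d) : k[X]).degree ≠ 0 := by
    rw [degree_add_eq_left_of_degree_lt (by rw [degree_X_pow]; exact hlt), degree_X_pow]
    norm_num
  obtain ⟨y1, h1⟩ := IsAlgClosed.exists_root _ hdeg
  have h1' : y1 ^ 2 + (b * y1 - d) = 0 := by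
    simpa [IsRoot.def] using h1
  have h1K : (algebraMap k K y1) ^ 2 + algebraMap k K b * algebraMap k K y1
      = algebraMap k K d := by
    have := congrArg (algebraMap k K) h1'
    simp only [map_add, map_sub, map_mul, map_pow, map_zero] at this
    linear_combination this
  have hprod : (y - algebraMap k K y1) * (y + algebraMap k K y1 + algebraMap k K b) = 0 := by
    linear_combination hy - h1K
  rcases mul_eq_zero.mp hprod with h | h
  · exact ⟨y1, (sub_eq_zero.mp h).symm⟩
  · refine ⟨-y1 - b, ?_⟩
    rw [map_sub, map_neg]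
    linear_combination -h

end small

/-- **[PAR-NEG]** `h (-X) = h X`. -/
theorem neg : NegStatement := by
  intro W k _ X
  cases X with
  | zero => rfl
  | some x y h =>
    rw [Point.neg_some]
    rfl

/-- **[MAN-GEN]** from [MAN-KX]: the generic point lies in `G` and has height `1`. -/
theorem gen_of (hKX : KXStatement) : GenStatement := by
  intro W k _ hΔ
  have h := hKX W k hΔ
  refine ⟨genPt W k h.gen, ⟨h.gen, rfl⟩, ?_, ?_⟩
  · rw [mem_manG_iff]
    obtain ⟨h', e⟩ := invPt_some W k (xK W k) (yK W k) h.gen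
    unfold genPt
    rw [e, Point.neg_some]
    have hx : invK W k (xK W k) = xK W k := by
      rw [← h.kx_X]; exact h.inv_kx _
    simp only [Point.some.injEq]
    exact ⟨hx, h.inv_y⟩
  · show xdeg W k (xK W k) = 1
    rw [← h.kx_X, xdeg_kxHom W k h.inj, rdeg_X]
    rfl

/-- **[MAN-FROB]** from [MAN-KX]: Frobenius preserves `G` and multiplies the height by `ℓ`. -/
theorem frob_of (hKX : KXStatement) : FrobStatement := by
  intro W ℓ _ k _ _ hΔ X hX
  have h := hKX W k hΔ
  constructor
  · rw [mem_manG_iff] at hX ⊢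
    rw [invPt_frobKPt, hX, map_neg]
  · cases X with
    | zero =>
      show manH W k (frobKPt W k ℓ 0) = ℓ * manH W k 0
      rw [map_zero, manH_zero, mul_zero]
    | some x y hxy =>
      have hx := invK_x_of_mem W k x y hxy hX
      obtain ⟨r, hr⟩ := h.fixed x hx
      obtain ⟨h1, e1⟩ := frobKPt_some W k ℓ x y hxy
      rw [e1, manH_some, manH_some, ← hr, ← map_pow, xdeg_kxHom W k h.inj,
        xdeg_kxHom W k h.inj, rdeg_pow]
      push_cast
      rfl

/-- **[MAN-CONST]** from [MAN-KX]: points of `G` of height `0` are constant. -/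
theorem const_of (hKX : KXStatement) : ConstStatement := by
  intro W k _ _ hΔ X hX h0
  have h := hKX W k hΔ
  cases X with
  | zero => exact ⟨0, (map_zero _).symm⟩
  | some x y hxy =>
    have hx := invK_x_of_mem W k x y hxy hX
    obtain ⟨r, hr⟩ := h.fixed x hx
    rw [manH_some, ← hr, xdeg_kxHom W k h.inj] at h0
    have h0' : rdeg r = 0 := by exact_mod_cast h0
    obtain ⟨c, hc⟩ := eq_C_of_rdeg_eq_zero k r h0'
    have hxc : x = algebraMap k (KE W k) c := by
      rw [← hr, hc, h.kx_C]
    -- the Weierstrass equation is a monic quadratic equation for `y` over `k`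
    have heq := hxy.1
    rw [Affine.equation_iff] at heq
    simp only [WeierstrassCurve.map_a₁, WeierstrassCurve.map_a₂, WeierstrassCurve.map_a₃,
      WeierstrassCurve.map_a₄, WeierstrassCurve.map_a₆] at heq
    have hquad : y ^ 2 + algebraMap k (KE W k) ((W.a₁ : k) * c + (W.a₃ : k)) * y
        = algebraMap k (KE W k)
          (c ^ 3 + (W.a₂ : k) * c ^ 2 + (W.a₄ : k) * c + (W.a₆ : k)) := by
      simp only [map_add, map_mul, map_pow, map_intCast, ← hxc]
      simp only [eq_intCast] at heq
      linear_combination heq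
    obtain ⟨y', hy'⟩ := exists_of_quadratic k (K := KE W k) _ _ y hquad
    subst hxc
    subst hy'
    have hQ : (W.map (Int.castRingHom k)).toAffine.Nonsingular c y' :=
      (WeierstrassCurve.Affine.baseChange_nonsingular (W := W) (f := constHom W k)
        (constHom W k).injective c y').mp hxy
    exact ⟨Point.some c y' hQ, rfl⟩

end Fermat.Agent.P7.helper38
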