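import Mathlib

/-!
# P7 / S52, module FAM, leaf [FAM-RIGID] (helper46): `X₁(5)`-rigidity on Klein's cone

Mathlib only.  `K` is a field, `z : K` with `1 + z + z² + z³ + z⁴ = 0`.  In the coordinates
`A = v₁⁵`, `B = v₂⁵` Klein's form `H` and the coordinates of the universal `5`-torsion point
`P(v)` of `E_v : y² = x³ + 27 H x + 54 T` (helper66, finding 1933) are

* `rgH A B   = H`,
* `rgX z A B = 5 x_P`,  `rgY z A B = 5 y_P`.

With `s = √5 = -1 - 2 z² - 2 z³` and the two linear forms `M₁ = 2 A + (11 - 5 s) B`,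
`M₂ = 2 A + (11 + 5 s) B` (`M₁ M₂ = 4 (A² + 11 A B - B²)`, the cusp form) we prove

* `rgY_eq`  : `8 * (5 y_P) = β * M₂² * M₁`,
* `rgN_eq`  : `60 X Y² - 9 (X² + 225 H)² = γ * M₂⁵ * M₁³`  (`X = 5 x_P`, `Y = 5 y_P`),

hence `(x_P, y_P, H)` determine `M₂ = p³ / q` and `M₁ = q² / p⁵` and therefore `(A, B)`:

* `rigid`   : `A² + 11 A B - B² ≠ 0`, equal `rgX`, `rgY`, `rgH` at `(A, B)` and `(A', B')`
              imply `A = A'` and `B = B'`;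
* `rigid_v` : the same for `A = v₁⁵`, `B = v₂⁵`: `v' = ε • S ^ j • v` with `ε = z ^ e`,
              `S = diag (z³, z²)`.
-/

set_option autoImplicit false

namespace Fermat.Agent.P7.helper46

section Rigid

variable {K : Type*} [Field K]

/-- Klein's `H` in the coordinates `A = v₁⁵`, `B = v₂⁵`. -/
def rgH (A B : K) : K :=
  -(A ^ 4 + B ^ 4) + 228 * (A ^ 3 * B - A * B ^ 3) - 494 * A ^ 2 * B ^ 2

/-- Klein's `T` in the coordinates `A = v₁⁵`, `B = v₂⁵`. -/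
def rgT (A B : K) : K :=
  (A ^ 6 + B ^ 6) + 522 * (A ^ 5 * B - A * B ^ 5) - 10005 * (A ^ 4 * B ^ 2 + A ^ 2 * B ^ 4)

/-- `5 x_P` in the coordinates `A = v₁⁵`, `B = v₂⁵`. -/
def rgX (z A B : K) : K :=
  (-57 + 36 * (z ^ 2 + z ^ 3)) * B ^ 2 + (-198 - 396 * (z ^ 2 + z ^ 3)) * A * B
    + (-93 - 36 * (z ^ 2 + z ^ 3)) * A ^ 2

/-- `5 y_P` in the coordinates `A = v₁⁵`, `B = v₂⁵`. -/
def rgY (z A B : K) : K :=
  (-216 - 432 * z - 324 * z ^ 2 - 108 * z ^ 3) * B ^ 3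
    + (2484 + 4968 * z + 3456 * z ^ 2 + 1512 * z ^ 3) * A * B ^ 2
    + (-972 - 1944 * z + 1512 * z ^ 2 - 3456 * z ^ 3) * A ^ 2 * B
    + (-108 - 216 * z + 108 * z ^ 2 - 324 * z ^ 3) * A ^ 3

/-- `√5 = -1 - 2 z² - 2 z³`. -/
def rgS (z : K) : K := -1 - 2 * z ^ 2 - 2 * z ^ 3

/-- the linear form `M₁ = 2 A + (11 - 5 √5) B` -/
def rgM1 (z A B : K) : K := 2 * A + (11 - 5 * rgS z) * B

/-- the linear form `M₂ = 2 A + (11 + 5 √5) B` -/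
def rgM2 (z A B : K) : K := 2 * A + (11 + 5 * rgS z) * B

/-- the constant `β = 5 b₁₅` -/
def rgBeta (z : K) : K := -108 - 216 * z + 108 * z ^ 2 - 324 * z ^ 3

/-- the constant `γ` -/
def rgGamma (z : K) : K := 1312200 + 820125 * (z ^ 2 + z ^ 3)

/-- `625 n₂`, `n₂ = 12 x_P y_P² - 9 (x_P² + 9 H)²` -/
def rgN (z A B : K) : K :=
  60 * rgX z A B * rgY z A B ^ 2 - 9 * (rgX z A B ^ 2 + 225 * rgH A B) ^ 2

variable {z : K}

theorem rgS_sq (hz : 1 + z + z ^ 2 + z ^ 3 + z ^ 4 = 0) : rgS z ^ 2 = 5 := by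
  unfold rgS
  linear_combination
    (4 * z ^ 2 + 4 * z - 4) * hz

theorem rgM1_mul_rgM2 (hz : 1 + z + z ^ 2 + z ^ 3 + z ^ 4 = 0) (A B : K) :
    rgM1 z A B * rgM2 z A B = 4 * (A ^ 2 + 11 * A * B - B ^ 2) := by
  unfold rgM1 rgM2 rgS
  linear_combination
    (-100 * z ^ 2 * B ^ 2 - 100 * z * B ^ 2 + 100 * B ^ 2) * hz

/-- the universal point lies on the curve: `5 Y² = X³ + 675 H X + 6750 T`. -/
theorem rg_on_curve (hz : 1 + z + z ^ 2 + z ^ 3 + z ^ 4 = 0) (A B : K) :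
    5 * rgY z A B ^ 2 = rgX z A B ^ 3 + 675 * rgH A B * rgX z A B + 6750 * rgT A B := by
  unfold rgY rgX rgH rgT
  linear_combination
    (46656 * z ^ 5 * A ^ 6 + 1539648 * z ^ 5 * A ^ 5 * B + 16796160 * z ^ 5 * A ^ 4 * B ^ 2 + 59019840 * z ^ 5 * A ^ 3 * B ^ 3
      - 16796160 * z ^ 5 * A ^ 2 * B ^ 4 + 1539648 * z ^ 5 * A * B ^ 5 - 46656 * z ^ 5 * B ^ 6
      + 93312 * z ^ 4 * A ^ 6 + 3079296 * z ^ 4 * A ^ 5 * B + 33592320 * z ^ 4 * A ^ 4 * B ^ 2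
      + 118039680 * z ^ 4 * A ^ 3 * B ^ 3 - 33592320 * z ^ 4 * A ^ 2 * B ^ 4 + 3079296 * z ^ 4 * A * B ^ 5
      - 93312 * z ^ 4 * B ^ 6 + 793152 * z ^ 2 * A ^ 6 + 16842816 * z ^ 2 * A ^ 5 * B + 81414720 * z ^ 2 * A ^ 4 * B ^ 2
      - 81414720 * z ^ 2 * A ^ 3 * B ^ 3 + 58553280 * z ^ 2 * A ^ 2 * B ^ 4 - 8817984 * z ^ 2 * A * B ^ 5
      + 373248 * z ^ 2 * B ^ 6 - 559872 * z * A ^ 6 - 12643776 * z * A ^ 5 * B - 73249920 * z * A ^ 4 * B ^ 2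
      - 14230080 * z * A ^ 3 * B ^ 3 + 73249920 * z * A ^ 2 * B ^ 4 - 12643776 * z * A * B ^ 5
      + 559872 * z * B ^ 6 + 793152 * A ^ 6 + 16842816 * A ^ 5 * B + 81414720 * A ^ 4 * B ^ 2 - 81414720 * A ^ 3 * B ^ 3
      + 58553280 * A ^ 2 * B ^ 4 - 8817984 * A * B ^ 5 + 373248 * B ^ 6) * hz

/-- **(I1)** `y_P` is a product of cusp forms. -/
theorem rgY_eq (hz : 1 + z + z ^ 2 + z ^ 3 + z ^ 4 = 0) (A B : K) :
    8 * rgY z A B = rgBeta z * rgM2 z A B ^ 2 * rgM1 z A B := by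
  unfold rgY rgBeta rgM1 rgM2 rgS
  linear_combination
    (324000 * z ^ 8 * B ^ 3 + 540000 * z ^ 7 * B ^ 3 - 64800 * z ^ 5 * A * B ^ 2 + 21600 * z ^ 5 * B ^ 3
      - 43200 * z ^ 4 * A * B ^ 2 + 194400 * z ^ 4 * B ^ 3 + 43200 * z ^ 3 * A * B ^ 2 - 86400 * z ^ 3 * B ^ 3
      - 12960 * z ^ 2 * A ^ 2 * B - 228960 * z ^ 2 * A * B ^ 2 - 354240 * z ^ 2 * B ^ 3 + 4320 * z * A ^ 2 * B
      + 69120 * z * A * B ^ 2 + 60480 * z * B ^ 3 + 4320 * A ^ 2 * B + 69120 * A * B ^ 2 + 60480 * B ^ 3) * hz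

set_option maxHeartbeats 1600000 in
/-- **(I2)** the numerator of the Tate parameter `a₂` is a product of cusp forms. -/
theorem rgN_eq (hz : 1 + z + z ^ 2 + z ^ 3 + z ^ 4 = 0) (A B : K) :
    rgN z A B = rgGamma z * rgM2 z A B ^ 5 * rgM1 z A B ^ 3 := by
  unfold rgN rgGamma rgX rgY rgH rgM1 rgM2 rgS
  linear_combination
    (82012500000000 * z ^ 23 * B ^ 8 + 656100000000000 * z ^ 22 * B ^ 8 + 2214337500000000 * z ^ 21 * B ^ 8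
      - 32805000000000 * z ^ 20 * A * B ^ 7 + 4215442500000000 * z ^ 20 * B ^ 8 - 229635000000000 * z ^ 19 * A * B ^ 7
      + 5396422500000000 * z ^ 19 * B ^ 8 - 656100000000000 * z ^ 18 * A * B ^ 7 + 5658862500000000 * z ^ 18 * B ^ 8
      - 6561000000000 * z ^ 17 * A ^ 2 * B ^ 6 - 1158016500000000 * z ^ 17 * A * B ^ 7 + 4999482000000000 * z ^ 17 * B ^ 8
      - 39366000000000 * z ^ 16 * A ^ 2 * B ^ 6 - 1896129000000000 * z ^ 16 * A * B ^ 7 + 2063434500000000 * z ^ 16 * B ^ 8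
      - 91854000000000 * z ^ 15 * A ^ 2 * B ^ 6 - 2926206000000000 * z ^ 15 * A * B ^ 7 - 2178252000000000 * z ^ 15 * B ^ 8
      + 3936600000000 * z ^ 14 * A ^ 3 * B ^ 5 - 57080700000000 * z ^ 14 * A ^ 2 * B ^ 6 - 2994440400000000 * z ^ 14 * A * B ^ 7
      - 4065851700000000 * z ^ 14 * B ^ 8 + 19683000000000 * z ^ 13 * A ^ 3 * B ^ 5 + 173866500000000 * z ^ 13 * A ^ 2 * B ^ 6
      - 1653372000000000 * z ^ 13 * A * B ^ 7 - 3615111000000000 * z ^ 13 * B ^ 8 + 35429400000000 * z ^ 12 * A ^ 3 * B ^ 5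
      + 398252700000000 * z ^ 12 * A ^ 2 * B ^ 6 - 551780100000000 * z ^ 12 * A * B ^ 7 - 3184053300000000 * z ^ 12 * B ^ 8
      + 35823060000000 * z ^ 11 * A ^ 3 * B ^ 5 + 436568940000000 * z ^ 11 * A ^ 2 * B ^ 6 + 264539520000000 * z ^ 11 * A * B ^ 7
      - 1594191780000000 * z ^ 11 * B ^ 8 + 44877240000000 * z ^ 10 * A ^ 3 * B ^ 5 + 614503260000000 * z ^ 10 * A ^ 2 * B ^ 6
      + 1878283080000000 * z ^ 10 * A * B ^ 7 + 1398017880000000 * z ^ 10 * B ^ 8 + 49207500000000 * z ^ 9 * A ^ 3 * B ^ 5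
      + 687592800000000 * z ^ 9 * A ^ 2 * B ^ 6 + 2363928300000000 * z ^ 9 * A * B ^ 7 + 2264857200000000 * z ^ 9 * B ^ 8
      - 15116544 * z ^ 8 * A ^ 8 - 665127936 * z ^ 8 * A ^ 7 * B - 10914144768 * z ^ 8 * A ^ 6 * B ^ 2
      - 235949096448 * z ^ 8 * A ^ 5 * B ^ 3 - 4529722798080 * z ^ 8 * A ^ 4 * B ^ 4 - 21966474903552 * z ^ 8 * A ^ 3 * B ^ 5
      + 104440205855232 * z ^ 8 * A ^ 2 * B ^ 6 + 686806145127936 * z ^ 8 * A * B ^ 7 + 837629732883456 * z ^ 8 * B ^ 8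
      - 45349632 * z ^ 7 * A ^ 8 - 1995383808 * z ^ 7 * A ^ 7 * B - 32742434304 * z ^ 7 * A ^ 6 * B ^ 2
      - 707847289344 * z ^ 7 * A ^ 5 * B ^ 3 - 13589168394240 * z ^ 7 * A ^ 4 * B ^ 4 - 115106924710656 * z ^ 7 * A ^ 3 * B ^ 5
      - 374272182434304 * z ^ 7 * A ^ 2 * B ^ 6 - 303509864616192 * z ^ 7 * A * B ^ 7 + 248031998650368 * z ^ 7 * B ^ 8
      - 30233088 * z ^ 6 * A ^ 8 - 1330255872 * z ^ 6 * A ^ 7 * B - 21828289536 * z ^ 6 * A ^ 6 * B ^ 2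
      - 471898192896 * z ^ 6 * A ^ 5 * B ^ 3 - 9059445596160 * z ^ 6 * A ^ 4 * B ^ 4 - 72670129807104 * z ^ 6 * A ^ 3 * B ^ 5
      - 195408408289536 * z ^ 6 * A ^ 2 * B ^ 6 - 76106269744128 * z ^ 6 * A * B ^ 7 + 238006805766912 * z ^ 6 * B ^ 8
      - 352719360 * z ^ 5 * A ^ 8 - 11488573440 * z ^ 5 * A ^ 7 * B - 111644075520 * z ^ 5 * A ^ 6 * B ^ 2
      - 223548491520 * z ^ 5 * A ^ 5 * B ^ 3 + 263783692800 * z ^ 5 * A ^ 4 * B ^ 4 - 19494135578880 * z ^ 5 * A ^ 3 * B ^ 5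
      - 163991483262720 * z ^ 5 * A ^ 2 * B ^ 6 - 457432810824960 * z ^ 5 * A * B ^ 7 - 429986793634560 * z ^ 5 * B ^ 8
      - 115893504 * z ^ 4 * A ^ 8 - 3587659776 * z ^ 4 * A ^ 7 * B - 13299199488 * z ^ 4 * A ^ 6 * B ^ 2
      + 114805112832 * z ^ 4 * A ^ 5 * B ^ 3 - 4128630497280 * z ^ 4 * A ^ 4 * B ^ 4 - 69365414783232 * z ^ 4 * A ^ 3 * B ^ 5
      - 344488599986688 * z ^ 4 * A ^ 2 * B ^ 6 - 763571722938624 * z ^ 4 * A * B ^ 7 - 631991873608704 * z ^ 4 * B ^ 8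
      - 100776960 * z ^ 3 * A ^ 8 - 2922531840 * z ^ 3 * A ^ 7 * B - 23380254720 * z ^ 3 * A ^ 6 * B ^ 2
      + 4333409280 * z ^ 3 * A ^ 5 * B ^ 3 + 401092300800 * z ^ 3 * A ^ 4 * B ^ 4 - 658375879680 * z ^ 3 * A ^ 3 * B ^ 5
      + 158522158080 * z ^ 3 * A ^ 2 * B ^ 6 - 13705666560 * z ^ 3 * A * B ^ 7 + 403107840 * z ^ 3 * B ^ 8
      - 1120303872 * z ^ 2 * A ^ 8 - 26240640768 * z ^ 2 * A ^ 7 * B - 125927529984 * z ^ 2 * A ^ 6 * B ^ 2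
      + 1163908382976 * z ^ 2 * A ^ 5 * B ^ 3 + 15472933320960 * z ^ 2 * A ^ 4 * B ^ 4 + 85396403879424 * z ^ 2 * A ^ 3 * B ^ 5
      + 255157144713216 * z ^ 2 * A ^ 2 * B ^ 6 + 391459741671168 * z ^ 2 * A * B ^ 7 + 243799467107328 * z ^ 2 * B ^ 8
      + 779341824 * z * A ^ 8 + 22533728256 * z * A ^ 7 * B + 261823580928 * z * A ^ 6 * B ^ 2
      + 1917429470208 * z * A ^ 5 * B ^ 3 + 10742160487680 * z * A ^ 4 * B ^ 4 + 36109076769792 * z * A ^ 3 * B ^ 5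
      + 74492452700928 * z * A ^ 2 * B ^ 6 + 85337650911744 * z * A * B ^ 7 + 41793824461824 * z * B ^ 8
      - 1039682304 * A ^ 8 - 27774130176 * A ^ 7 * B - 281071980288 * A ^ 6 * B ^ 2 - 1832961581568 * A ^ 5 * B ^ 3
      - 10667585537280 * A ^ 4 * B ^ 4 - 36332868805632 * A ^ 3 * B ^ 5 - 74532654309888 * A ^ 2 * B ^ 6
      - 85325188161024 * A * B ^ 7 - 41794462715904 * B ^ 8) * hz

/-! ## The constants are units -/

theorem rg_z_pow_five (hz : 1 + z + z ^ 2 + z ^ 3 + z ^ 4 = 0) : z ^ 5 = 1 := by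
  linear_combination (z - 1) * hz

theorem rg_z_ne_one (hz : 1 + z + z ^ 2 + z ^ 3 + z ^ 4 = 0) (h5 : (5 : K) ≠ 0) : z ≠ 1 := by
  intro h
  apply h5
  rw [h] at hz
  linear_combination hz

theorem rg_isPrimitiveRoot (hz : 1 + z + z ^ 2 + z ^ 3 + z ^ 4 = 0) (h5 : (5 : K) ≠ 0) :
    IsPrimitiveRoot z 5 := by
  have : Fact (Nat.Prime 5) := ⟨by norm_num⟩
  have h := IsPrimitiveRoot.orderOf z
  rwa [orderOf_eq_prime (rg_z_pow_five hz) (rg_z_ne_one hz h5)] at h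

theorem rgS_ne_zero (hz : 1 + z + z ^ 2 + z ^ 3 + z ^ 4 = 0) (h5 : (5 : K) ≠ 0) :
    rgS z ≠ 0 := by
  intro h
  have := rgS_sq hz
  rw [h] at this
  apply h5
  rw [← this]
  ring

theorem rgBeta_ne_zero (hz : 1 + z + z ^ 2 + z ^ 3 + z ^ 4 = 0) (h2 : (2 : K) ≠ 0)
    (h3 : (3 : K) ≠ 0) (h5 : (5 : K) ≠ 0) : rgBeta z ≠ 0 := by
  intro h
  have key : rgBeta z * (4 + 8 * z + 7 * z ^ 2 + z ^ 3) = -(2 ^ 2 * 3 ^ 3 * 5) := by
    unfold rgBeta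
    linear_combination (-324 * z ^ 2 - 1836 * z + 108) * hz
  rw [h, zero_mul] at key
  have h0 : (2 : K) ^ 2 * 3 ^ 3 * 5 ≠ 0 :=
    mul_ne_zero (mul_ne_zero (pow_ne_zero _ h2) (pow_ne_zero _ h3)) h5
  exact h0 (neg_eq_zero.mp key.symm)

theorem rgGamma_ne_zero (hz : 1 + z + z ^ 2 + z ^ 3 + z ^ 4 = 0) (h2 : (2 : K) ≠ 0)
    (h3 : (3 : K) ≠ 0) (h5 : (5 : K) ≠ 0) : rgGamma z ≠ 0 := by
  intro h
  have key : rgGamma z * (11 + 5 * rgS z) = -(2 * 3 ^ 8 * 5 ^ 2) := by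
    unfold rgGamma rgS
    linear_combination (-8201250 * z ^ 2 - 8201250 * z + 8201250) * hz
  rw [h, zero_mul] at key
  have h0 : (2 : K) * 3 ^ 8 * 5 ^ 2 ≠ 0 :=
    mul_ne_zero (mul_ne_zero h2 (pow_ne_zero _ h3)) (pow_ne_zero _ h5)
  exact h0 (neg_eq_zero.mp key.symm)

/-! ## Rigidity -/

/-- **[FAM-RIGID]** in the coordinates `A = v₁⁵`, `B = v₂⁵`: away from the cusps the triple
`(x_P, y_P, H)` determines `(A, B)`. -/
theorem rigid (hz : 1 + z + z ^ 2 + z ^ 3 + z ^ 4 = 0) (h2 : (2 : K) ≠ 0)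
    (h3 : (3 : K) ≠ 0) (h5 : (5 : K) ≠ 0) {A B A' B' : K}
    (hf : A ^ 2 + 11 * A * B - B ^ 2 ≠ 0)
    (hX : rgX z A B = rgX z A' B') (hY : rgY z A B = rgY z A' B')
    (hH : rgH A B = rgH A' B') : A = A' ∧ B = B' := by
  have hβ := rgBeta_ne_zero hz h2 h3 h5
  have hγ := rgGamma_ne_zero hz h2 h3 h5
  have h4 : (4 : K) ≠ 0 := by
    have : (4 : K) = 2 * 2 := by norm_num
    rw [this]
    exact mul_ne_zero h2 h2
  have hM : rgM1 z A B * rgM2 z A B ≠ 0 := by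
    rw [rgM1_mul_rgM2 hz]
    exact mul_ne_zero h4 hf
  have hM1 : rgM1 z A B ≠ 0 := left_ne_zero_of_mul hM
  have hM2 : rgM2 z A B ≠ 0 := right_ne_zero_of_mul hM
  -- `p = p'`
  have hp : rgM2 z A B ^ 2 * rgM1 z A B = rgM2 z A' B' ^ 2 * rgM1 z A' B' := by
    have e1 := rgY_eq hz A B
    have e2 := rgY_eq hz A' B'
    rw [hY, e2, mul_assoc, mul_assoc] at e1
    exact (mul_left_cancel₀ hβ e1).symm
  -- `q = q'`
  have hN : rgN z A B = rgN z A' B' := by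
    unfold rgN
    rw [hX, hY, hH]
  have hq : rgM2 z A B ^ 5 * rgM1 z A B ^ 3 = rgM2 z A' B' ^ 5 * rgM1 z A' B' ^ 3 := by
    have e1 := rgN_eq hz A B
    have e2 := rgN_eq hz A' B'
    rw [hN, e2, mul_assoc, mul_assoc] at e1
    exact (mul_left_cancel₀ hγ e1).symm
  have hp0 : rgM2 z A B ^ 2 * rgM1 z A B ≠ 0 := mul_ne_zero (pow_ne_zero _ hM2) hM1
  have hq0 : rgM2 z A B ^ 5 * rgM1 z A B ^ 3 ≠ 0 :=
    mul_ne_zero (pow_ne_zero _ hM2) (pow_ne_zero _ hM1)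
  -- `M₂ = p³ / q`
  have hM2eq : rgM2 z A B = rgM2 z A' B' := by
    have e : rgM2 z A B * (rgM2 z A B ^ 5 * rgM1 z A B ^ 3)
        = rgM2 z A' B' * (rgM2 z A B ^ 5 * rgM1 z A B ^ 3) := by
      calc rgM2 z A B * (rgM2 z A B ^ 5 * rgM1 z A B ^ 3)
          = (rgM2 z A B ^ 2 * rgM1 z A B) ^ 3 := by ring
        _ = (rgM2 z A' B' ^ 2 * rgM1 z A' B') ^ 3 := by rw [hp]
        _ = rgM2 z A' B' * (rgM2 z A' B' ^ 5 * rgM1 z A' B' ^ 3) := by ring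
        _ = rgM2 z A' B' * (rgM2 z A B ^ 5 * rgM1 z A B ^ 3) := by rw [hq]
    exact mul_right_cancel₀ hq0 e
  -- `M₁ = q² / p⁵`
  have hM1eq : rgM1 z A B = rgM1 z A' B' := by
    have e : rgM1 z A B * (rgM2 z A B ^ 2 * rgM1 z A B) ^ 5
        = rgM1 z A' B' * (rgM2 z A B ^ 2 * rgM1 z A B) ^ 5 := by
      calc rgM1 z A B * (rgM2 z A B ^ 2 * rgM1 z A B) ^ 5
          = (rgM2 z A B ^ 5 * rgM1 z A B ^ 3) ^ 2 := by ring
        _ = (rgM2 z A' B' ^ 5 * rgM1 z A' B' ^ 3) ^ 2 := by rw [hq]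
        _ = rgM1 z A' B' * (rgM2 z A' B' ^ 2 * rgM1 z A' B') ^ 5 := by ring
        _ = rgM1 z A' B' * (rgM2 z A B ^ 2 * rgM1 z A B) ^ 5 := by rw [hp]
    exact mul_right_cancel₀ (pow_ne_zero _ hp0) e
  -- solve the linear system
  have hs := rgS_ne_zero hz h5
  have h10 : (10 : K) ≠ 0 := by
    have : (10 : K) = 2 * 5 := by norm_num
    rw [this]
    exact mul_ne_zero h2 h5
  have hB : B = B' := by
    have e : 10 * rgS z * B = 10 * rgS z * B' := by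
      have e1 : rgM2 z A B - rgM1 z A B = 10 * rgS z * B := by
        unfold rgM1 rgM2; ring
      have e2 : rgM2 z A' B' - rgM1 z A' B' = 10 * rgS z * B' := by
        unfold rgM1 rgM2; ring
      rw [← e1, ← e2, hM1eq, hM2eq]
    exact mul_left_cancel₀ (mul_ne_zero h10 hs) e
  have hA : A = A' := by
    have e : 2 * A = 2 * A' := by
      have e1 : 2 * A = rgM1 z A B - (11 - 5 * rgS z) * B := by
        unfold rgM1; ring
      have e2 : 2 * A' = rgM1 z A' B' - (11 - 5 * rgS z) * B' := by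
        unfold rgM1; ring
      rw [e1, e2, hM1eq, hB]
    exact mul_left_cancel₀ h2 e
  exact ⟨hA, hB⟩

/-- fifth roots: `y⁵ = x⁵` implies `y = z ^ i * x`. -/
theorem exists_pow_mul_of_pow_five_eq (hz : 1 + z + z ^ 2 + z ^ 3 + z ^ 4 = 0)
    (h5 : (5 : K) ≠ 0) {x y : K} (h : y ^ 5 = x ^ 5) : ∃ i : ℕ, i < 5 ∧ y = z ^ i * x := by
  by_cases hx : x = 0
  · subst hx
    have hy : y = 0 := by
      rw [zero_pow (by norm_num)] at h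
      exact pow_eq_zero_iff (by norm_num) |>.mp h
    exact ⟨0, by norm_num, by rw [hy, mul_zero]⟩
  · have h1 : (y / x) ^ 5 = 1 := by
      rw [div_pow, h, div_self (pow_ne_zero _ hx)]
    obtain ⟨i, hi, hzi⟩ := (rg_isPrimitiveRoot hz h5).eq_pow_of_pow_eq_one h1
    refine ⟨i, hi, ?_⟩
    rw [hzi, div_mul_cancel₀ _ hx]

/-- **[FAM-RIGID]** on the cone: if `f(v) ≠ 0` and `(x_P, y_P, H)` agree at `v = (a, b)` and
`v' = (a', b')` then `v' = ε • S ^ j • v` with `ε = z ^ e ∈ μ₅` and `S = diag (z³, z²)`. -/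
theorem rigid_v (hz : 1 + z + z ^ 2 + z ^ 3 + z ^ 4 = 0) (h2 : (2 : K) ≠ 0)
    (h3 : (3 : K) ≠ 0) (h5 : (5 : K) ≠ 0) {a b a' b' : K}
    (hf : (a ^ 5) ^ 2 + 11 * a ^ 5 * b ^ 5 - (b ^ 5) ^ 2 ≠ 0)
    (hX : rgX z (a ^ 5) (b ^ 5) = rgX z (a' ^ 5) (b' ^ 5))
    (hY : rgY z (a ^ 5) (b ^ 5) = rgY z (a' ^ 5) (b' ^ 5))
    (hH : rgH (a ^ 5) (b ^ 5) = rgH (a' ^ 5) (b' ^ 5)) :
    ∃ e j : ℕ, a' = z ^ e * (z ^ 3) ^ j * a ∧ b' = z ^ e * (z ^ 2) ^ j * b := by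
  obtain ⟨hA, hB⟩ := rigid hz h2 h3 h5 hf hX hY hH
  obtain ⟨i, -, hi⟩ := exists_pow_mul_of_pow_five_eq hz h5 hA.symm
  obtain ⟨k, -, hk⟩ := exists_pow_mul_of_pow_five_eq hz h5 hB.symm
  have hz5 := rg_z_pow_five hz
  refine ⟨3 * i + 3 * k, i + 4 * k, ?_, ?_⟩
  · have e : z ^ (3 * i + 3 * k) * (z ^ 3) ^ (i + 4 * k) = z ^ i := by
      calc z ^ (3 * i + 3 * k) * (z ^ 3) ^ (i + 4 * k)
          = z ^ i * (z ^ 5) ^ (i + 3 * k) := by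
            rw [← pow_mul, ← pow_add, ← pow_mul, ← pow_add]
            congr 1
            ring
        _ = z ^ i := by rw [hz5, one_pow, mul_one]
    rw [e, hi]
  · have e : z ^ (3 * i + 3 * k) * (z ^ 2) ^ (i + 4 * k) = z ^ k := by
      calc z ^ (3 * i + 3 * k) * (z ^ 2) ^ (i + 4 * k)
          = z ^ k * (z ^ 5) ^ (i + 2 * k) := by
            rw [← pow_mul, ← pow_add, ← pow_mul, ← pow_add]
            congr 1
            ring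
        _ = z ^ k := by rw [hz5, one_pow, mul_one]
    rw [e, hk]

end Rigid

end Fermat.Agent.P7.helper46
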