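/-
P7 / S52, module CHOICE (helper56): a semistable integral model with prescribed invariants
`(c₄, c₆)` close to those of a given semistable model (Kraus-type perturbation of `(a₄, a₆)`).

* `exists_model_of_congr` : if `C₄ ≡ c₄(W)` and `C₆ ≡ c₆(W)` modulo `1728 * m`, there is an
  integral Weierstrass curve `W'` with the same `a₁, a₂, a₃`, with `a₄, a₆` congruent to those
  of `W` modulo `m`, with `c₄(W') = C₄`, `c₆(W') = C₆` and `Δ(W') ≡ Δ(W)` modulo `m`;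
* `exists_semistable_of_congr` : if moreover `m = 6 Δ(W)`, `W` is semistable, `C₄ ^ 3 ≠ C₆ ^ 2`
  and `C₄, C₆` have no common prime factor prime to `6 Δ(W)`, then `W'` is semistable with
  `Δ(W') ≠ 0`; a prime `p` dividing `6 Δ(W)` is good for `W'` iff it is good for `W`.
-/
import Mathlib
import Fermat.Prelude.Def_FLTPrelim_Modularity

set_option autoImplicit false

namespace Fermat.Agent.P7.helper56

open WeierstrassCurve

/-- the perturbed model -/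
def perturb (W : WeierstrassCurve ℤ) (d₄ d₆ : ℤ) : WeierstrassCurve ℤ :=
  ⟨W.a₁, W.a₂, W.a₃, W.a₄ + d₄, W.a₆ + d₆⟩

theorem perturb_c₄ (W : WeierstrassCurve ℤ) (d₄ d₆ : ℤ) :
    (perturb W d₄ d₆).c₄ = W.c₄ - 48 * d₄ := by
  simp only [perturb, WeierstrassCurve.c₄, WeierstrassCurve.b₂, WeierstrassCurve.b₄]
  ring

theorem perturb_c₆ (W : WeierstrassCurve ℤ) (d₄ d₆ : ℤ) :
    (perturb W d₄ d₆).c₆ = W.c₆ + 72 * W.b₂ * d₄ - 864 * d₆ := by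
  simp only [perturb, WeierstrassCurve.c₆, WeierstrassCurve.b₂, WeierstrassCurve.b₄,
    WeierstrassCurve.b₆]
  ring

/-- a model with prescribed `(c₄, c₆)` congruent to those of `W` modulo `1728 m`. -/
theorem exists_model_of_congr (W : WeierstrassCurve ℤ) (m C₄ C₆ : ℤ)
    (h4 : 1728 * m ∣ C₄ - W.c₄) (h6 : 1728 * m ∣ C₆ - W.c₆) :
    ∃ W' : WeierstrassCurve ℤ, W'.a₁ = W.a₁ ∧ W'.a₂ = W.a₂ ∧ W'.a₃ = W.a₃ ∧
      (m ∣ W'.a₄ - W.a₄) ∧ (m ∣ W'.a₆ - W.a₆) ∧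
      W'.c₄ = C₄ ∧ W'.c₆ = C₆ ∧ m ∣ W'.Δ - W.Δ := by
  obtain ⟨k₄, hk₄⟩ := h4
  obtain ⟨k₆, hk₆⟩ := h6
  -- `d₄ = (c₄ - C₄) / 48`, `d₆ = (c₆ - C₆ + 72 b₂ d₄) / 864`
  have e4 : (perturb W (-(36 * m * k₄)) (-(2 * m * k₆) - 3 * W.b₂ * m * k₄)).c₄ = C₄ := by
    rw [perturb_c₄]
    linear_combination -hk₄
  have e6 : (perturb W (-(36 * m * k₄)) (-(2 * m * k₆) - 3 * W.b₂ * m * k₄)).c₆ = C₆ := by
    rw [perturb_c₆]
    linear_combination -hk₆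
  refine ⟨perturb W (-(36 * m * k₄)) (-(2 * m * k₆) - 3 * W.b₂ * m * k₄), rfl, rfl, rfl,
    ?_, ?_, e4, e6, ?_⟩
  · exact ⟨-(36 * k₄), by simp only [perturb]; ring⟩
  · exact ⟨-(2 * k₆) - 3 * W.b₂ * k₄, by simp only [perturb]; ring⟩
  · refine ⟨k₄ * (C₄ ^ 2 + C₄ * W.c₄ + W.c₄ ^ 2) - k₆ * (C₆ + W.c₆), ?_⟩
    have h1 := (perturb W (-(36 * m * k₄)) (-(2 * m * k₆) - 3 * W.b₂ * m * k₄)).c_relation
    have h2 := W.c_relation
    rw [e4, e6] at h1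
    have h3 : (1728 : ℤ) ≠ 0 := by norm_num
    apply mul_left_cancel₀ h3
    linear_combination h1 - h2 + (C₄ ^ 2 + C₄ * W.c₄ + W.c₄ ^ 2) * hk₄ - (C₆ + W.c₆) * hk₆

/-- **Semistable model with prescribed invariants.** -/
theorem exists_semistable_of_congr (W : WeierstrassCurve ℤ)
    (hW : W.IsSemistableModel) (C₄ C₆ : ℤ)
    (h4 : 1728 * (6 * W.Δ) ∣ C₄ - W.c₄) (h6 : 1728 * (6 * W.Δ) ∣ C₆ - W.c₆)
    (hcop : ∀ p : ℕ, p.Prime → ¬ (p : ℤ) ∣ 6 * W.Δ → (p : ℤ) ∣ C₄ → ¬ (p : ℤ) ∣ C₆)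
    (hne : C₄ ^ 3 ≠ C₆ ^ 2) :
    ∃ W' : WeierstrassCurve ℤ, W'.a₁ = W.a₁ ∧ W'.a₂ = W.a₂ ∧ W'.a₃ = W.a₃ ∧
      (6 * W.Δ ∣ W'.a₄ - W.a₄) ∧ (6 * W.Δ ∣ W'.a₆ - W.a₆) ∧
      W'.c₄ = C₄ ∧ W'.c₆ = C₆ ∧ W'.Δ ≠ 0 ∧ W'.IsSemistableModel ∧
      (∀ p : ℕ, p.Prime → (p : ℤ) ∣ 6 * W.Δ → (W'.IsGoodPrimeFor p ↔ W.IsGoodPrimeFor p)) := by
  obtain ⟨W', h1, h2, h3, ha4, ha6, e4, e6, ⟨k, hk⟩⟩ :=
    exists_model_of_congr W (6 * W.Δ) C₄ C₆ h4 h6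
  have hΔ' : W'.Δ = W.Δ * (1 + 6 * k) := by linear_combination hk
  have hrel := W'.c_relation
  rw [e4, e6] at hrel
  have hΔ'0 : W'.Δ ≠ 0 := by
    intro h0
    rw [h0, mul_zero] at hrel
    exact hne (sub_eq_zero.mp hrel.symm)
  -- a prime dividing `6` does not divide `1 + 6 k`
  have hunit : ∀ p : ℕ, p.Prime → (p : ℤ) ∣ 6 → ¬ (p : ℤ) ∣ 1 + 6 * k := by
    intro p hp h6' h1'
    have h6k : (p : ℤ) ∣ 6 * k := Dvd.dvd.mul_right h6' k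
    have hone : (p : ℤ) ∣ 1 := (Int.dvd_add_left h6k).mp h1'
    have := Int.natCast_dvd_natCast.mp (by simpa using hone : ((p : ℕ) : ℤ) ∣ ((1 : ℕ) : ℤ))
    exact hp.one_lt.ne' (Nat.dvd_one.mp this)
  -- good primes among the divisors of `6 Δ`
  have hgood : ∀ p : ℕ, p.Prime → (p : ℤ) ∣ 6 * W.Δ → ((p : ℤ) ∣ W'.Δ ↔ (p : ℤ) ∣ W.Δ) := by
    intro p hp hp6
    have hpp : Prime (p : ℤ) := Nat.prime_iff_prime_int.mp hp
    constructor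
    · intro h
      rw [hΔ'] at h
      rcases hpp.dvd_or_dvd h with h | h
      · exact h
      · rcases hpp.dvd_or_dvd hp6 with h6' | hΔp
        · exact absurd h (hunit p hp h6')
        · exact hΔp
    · intro h
      rw [hΔ']
      exact Dvd.dvd.mul_right h _
  refine ⟨W', h1, h2, h3, ha4, ha6, e4, e6, hΔ'0, ?_, ?_⟩
  · intro p hp hpΔ'
    have hpp : Prime (p : ℤ) := Nat.prime_iff_prime_int.mp hp
    rw [e4]
    by_cases hp6 : (p : ℤ) ∣ 6 * W.Δ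
    · have hpΔ : (p : ℤ) ∣ W.Δ := (hgood p hp hp6).mp hpΔ'
      have hc4 := hW p hp hpΔ
      intro hC4
      apply hc4
      have h5 : (p : ℤ) ∣ C₄ - W.c₄ :=
        (Dvd.dvd.mul_left (Dvd.dvd.mul_left hpΔ 6) 1728).trans h4
      have := dvd_sub hC4 h5
      simpa using this
    · intro hC4
      refine hcop p hp hp6 hC4 ?_
      have h6' : (p : ℤ) ∣ C₆ ^ 2 := by
        have h7 : C₆ ^ 2 = C₄ ^ 3 - 1728 * W'.Δ := by linear_combination hrel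
        rw [h7]
        exact dvd_sub (Dvd.dvd.pow hC4 (by norm_num)) (Dvd.dvd.mul_left hpΔ' 1728)
      exact hpp.dvd_of_dvd_pow h6'
  · intro p hp hp6
    unfold IsGoodPrimeFor
    rw [hgood p hp hp6]

end Fermat.Agent.P7.helper56
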