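/-
P7 / S52, module CHOICE (helper56): semistable integral model with prescribed invariants,
general modulus.

`exists_semistable_of_congr_gen` : `W` semistable, `C₄ ≡ c₄(W)`, `C₆ ≡ c₆(W)` modulo `1728 m`
(`m` arbitrary, e.g. a product of primes at which the new curve has to stay close to `W`),
`C₄ ^ 3 ≠ C₆ ^ 2`, and `C₄, C₆` without common prime factor prime to `m`.  Then there is a
semistable integral model `W'` with `c₄ = C₄`, `c₆ = C₆`, `Δ ≠ 0`, congruent to `W` modulo `m`.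
-/
import Mathlib
import Fermat.Agent.P7.helper56_SemistableModel

set_option autoImplicit false

namespace Fermat.Agent.P7.helper56

open WeierstrassCurve

theorem exists_semistable_of_congr_gen (W : WeierstrassCurve ℤ)
    (hW : W.IsSemistableModel) (m C₄ C₆ : ℤ)
    (h4 : 1728 * m ∣ C₄ - W.c₄) (h6 : 1728 * m ∣ C₆ - W.c₆)
    (hcop : ∀ p : ℕ, p.Prime → ¬ (p : ℤ) ∣ m → (p : ℤ) ∣ C₄ → ¬ (p : ℤ) ∣ C₆)
    (hne : C₄ ^ 3 ≠ C₆ ^ 2) :
    ∃ W' : WeierstrassCurve ℤ, W'.a₁ = W.a₁ ∧ W'.a₂ = W.a₂ ∧ W'.a₃ = W.a₃ ∧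
      (m ∣ W'.a₄ - W.a₄) ∧ (m ∣ W'.a₆ - W.a₆) ∧
      W'.c₄ = C₄ ∧ W'.c₆ = C₆ ∧ (m ∣ W'.Δ - W.Δ) ∧ W'.Δ ≠ 0 ∧ W'.IsSemistableModel ∧
      (∀ p : ℕ, p.Prime → (p : ℤ) ∣ m → (W'.IsGoodPrimeFor p ↔ W.IsGoodPrimeFor p)) := by
  obtain ⟨W', h1, h2, h3, ha4, ha6, e4, e6, hm⟩ := exists_model_of_congr W m C₄ C₆ h4 h6
  have hrel := W'.c_relation
  rw [e4, e6] at hrel
  have hΔ'0 : W'.Δ ≠ 0 := by
    intro h0
    rw [h0, mul_zero] at hrel
    exact hne (sub_eq_zero.mp hrel.symm)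
  have hgood : ∀ p : ℕ, p.Prime → (p : ℤ) ∣ m → ((p : ℤ) ∣ W'.Δ ↔ (p : ℤ) ∣ W.Δ) := by
    intro p hp hpm
    have hd : (p : ℤ) ∣ W'.Δ - W.Δ := hpm.trans hm
    constructor
    · intro h
      have := dvd_sub h hd
      simpa using this
    · intro h
      have := dvd_add hd h
      simpa using this
  refine ⟨W', h1, h2, h3, ha4, ha6, e4, e6, hm, hΔ'0, ?_, ?_⟩
  · intro p hp hpΔ'
    have hpp : Prime (p : ℤ) := Nat.prime_iff_prime_int.mp hp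
    rw [e4]
    by_cases hpm : (p : ℤ) ∣ m
    · have hpΔ : (p : ℤ) ∣ W.Δ := (hgood p hp hpm).mp hpΔ'
      have hc4 := hW p hp hpΔ
      intro hC4
      apply hc4
      have h5 : (p : ℤ) ∣ C₄ - W.c₄ := (Dvd.dvd.mul_left hpm 1728).trans h4
      have := dvd_sub hC4 h5
      simpa using this
    · intro hC4
      refine hcop p hp hpm hC4 ?_
      have h6' : (p : ℤ) ∣ C₆ ^ 2 := by
        have h7 : C₆ ^ 2 = C₄ ^ 3 - 1728 * W'.Δ := by linear_combination hrel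
        rw [h7]
        exact dvd_sub (Dvd.dvd.pow hC4 (by norm_num)) (Dvd.dvd.mul_left hpΔ' 1728)
      exact hpp.dvd_of_dvd_pow h6'
  · intro p hp hpm
    unfold IsGoodPrimeFor
    rw [hgood p hp hpm]

end Fermat.Agent.P7.helper56
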