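/-
P7 / S52, [IRR3-CERT] (helper96): certificates for the irreducibility of the mod-3
representation of an integral Weierstrass curve, in Prelude vocabulary.

* `irr3_of_rootless` : if for ONE prime `ℓ ≠ 3` the `3`-division polynomial
  `3 x⁴ + b₂ x³ + 3 b₄ x² + 3 b₆ x + b₈` has no root in `ZMod ℓ`, then `W.ModRepIsIrreducible 3`.
* `irr3_of_cm`       : if `ℓ ≥ 5` is a prime with `ℓ ∣ c₆`, `ℓ ∤ c₄` and `3` is not a square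
  modulo `ℓ`, then `W.ModRepIsIrreducible 3` (the reduction is a curve with `j = 1728`;
  `6912 ψ₃ = X⁴ - 6 c₄ X² - 8 c₆ X - 3 c₄²`, `X = 12 x + b₂`).

Input from main: `Fermat.Agent.S51.exists_three_data` (a reducible mod-3 representation gives a
rational root of `ψ₃`).
-/
import Fermat.Agent.S51.Three

set_option autoImplicit false

namespace Fermat.Agent.P7.helper96

open WeierstrassCurve

/-- the value of `ψ₃` in a commutative ring -/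
def psi3Val {R : Type*} [CommRing R] (b₂ b₄ b₆ b₈ x : R) : R :=
  3 * x ^ 4 + b₂ * x ^ 3 + 3 * b₄ * x ^ 2 + 3 * b₆ * x + b₈

/-- the homogeneous form of `ψ₃` over `ℤ` -/
theorem psi3_hom (b₂ b₄ b₆ b₈ : ℤ) (x : ℚ)
    (h : psi3Val (b₂ : ℚ) (b₄ : ℚ) (b₆ : ℚ) (b₈ : ℚ) x = 0) :
    3 * x.num ^ 4 + b₂ * x.num ^ 3 * x.den + 3 * b₄ * x.num ^ 2 * (x.den : ℤ) ^ 2
      + 3 * b₆ * x.num * (x.den : ℤ) ^ 3 + b₈ * (x.den : ℤ) ^ 4 = 0 := by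
  have hd : (x.den : ℚ) ≠ 0 := by exact_mod_cast x.den_ne_zero
  have hx : x = (x.num : ℚ) / (x.den : ℚ) := (Rat.num_div_den x).symm
  have h2 : (3 * (x.num : ℚ) ^ 4 + b₂ * (x.num : ℚ) ^ 3 * x.den
      + 3 * b₄ * (x.num : ℚ) ^ 2 * (x.den : ℚ) ^ 2
      + 3 * b₆ * (x.num : ℚ) * (x.den : ℚ) ^ 3 + b₈ * (x.den : ℚ) ^ 4) = 0 := by
    have h3 : (3 * (x.num : ℚ) ^ 4 + b₂ * (x.num : ℚ) ^ 3 * x.den
      + 3 * b₄ * (x.num : ℚ) ^ 2 * (x.den : ℚ) ^ 2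
      + 3 * b₆ * (x.num : ℚ) * (x.den : ℚ) ^ 3 + b₈ * (x.den : ℚ) ^ 4)
        = (x.den : ℚ) ^ 4 * psi3Val (b₂ : ℚ) (b₄ : ℚ) (b₆ : ℚ) (b₈ : ℚ)
            ((x.num : ℚ) / (x.den : ℚ)) := by
      unfold psi3Val
      field_simp
    rw [h3, ← hx, h, mul_zero]
  exact_mod_cast h2

/-- the denominator of a rational root of `ψ₃` divides `3` -/
theorem den_dvd_three (b₂ b₄ b₆ b₈ : ℤ) (x : ℚ)
    (h : psi3Val (b₂ : ℚ) (b₄ : ℚ) (b₆ : ℚ) (b₈ : ℚ) x = 0) : (x.den : ℤ) ∣ 3 := by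
  have h1 := psi3_hom b₂ b₄ b₆ b₈ x h
  have h2 : (x.den : ℤ) ∣ 3 * x.num ^ 4 := by
    refine ⟨-(b₂ * x.num ^ 3 + 3 * b₄ * x.num ^ 2 * (x.den : ℤ)
      + 3 * b₆ * x.num * (x.den : ℤ) ^ 2 + b₈ * (x.den : ℤ) ^ 3), ?_⟩
    linear_combination h1
  have hcop : IsCoprime (x.den : ℤ) (x.num ^ 4) := by
    have : IsCoprime (x.num) (x.den : ℤ) := by
      rw [Int.isCoprime_iff_gcd_eq_one]
      have := x.reduced
      simpa [Int.gcd, Nat.Coprime] using this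
    exact (this.symm).pow_right
  exact hcop.dvd_of_dvd_mul_right h2

/-- a rational root of `ψ₃` gives a root modulo every prime `ℓ ≠ 3` -/
theorem exists_root_mod (b₂ b₄ b₆ b₈ : ℤ) (x : ℚ)
    (h : psi3Val (b₂ : ℚ) (b₄ : ℚ) (b₆ : ℚ) (b₈ : ℚ) x = 0) (ℓ : ℕ) (hℓ : ℓ.Prime)
    (hℓ3 : ℓ ≠ 3) :
    ∃ y : ZMod ℓ, psi3Val (b₂ : ZMod ℓ) (b₄ : ZMod ℓ) (b₆ : ZMod ℓ) (b₈ : ZMod ℓ) y = 0 := by
  have : Fact ℓ.Prime := ⟨hℓ⟩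
  have h1 := psi3_hom b₂ b₄ b₆ b₈ x h
  have h3 := den_dvd_three b₂ b₄ b₆ b₈ x h
  have hd : ((x.den : ℤ) : ZMod ℓ) ≠ 0 := by
    intro h0
    rw [ZMod.intCast_zmod_eq_zero_iff_dvd] at h0
    have h4 : (ℓ : ℤ) ∣ 3 := h0.trans h3
    have h5 : ℓ ∣ 3 := by exact_mod_cast h4
    exact hℓ3 ((Nat.prime_dvd_prime_iff_eq hℓ Nat.prime_three).mp h5)
  have h2 := congrArg (Int.cast : ℤ → ZMod ℓ) h1
  push_cast at h2
  refine ⟨(x.num : ZMod ℓ) / ((x.den : ℤ) : ZMod ℓ), ?_⟩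
  unfold psi3Val
  have hd' : ((x.den : ℕ) : ZMod ℓ) ≠ 0 := by simpa using hd
  push_cast
  field_simp
  linear_combination h2

/-- **[IRR3-CERT] (1)**: if `ψ₃` of `W` has no root modulo ONE prime `ℓ ≠ 3`, the mod-3
representation of `W` is irreducible. -/
theorem irr3_of_rootless (W : WeierstrassCurve ℤ) (hΔ : W.Δ ≠ 0) (ℓ : ℕ) (hℓ : ℓ.Prime)
    (hℓ3 : ℓ ≠ 3)
    (h : ∀ y : ZMod ℓ,
      psi3Val (W.b₂ : ZMod ℓ) (W.b₄ : ZMod ℓ) (W.b₆ : ZMod ℓ) (W.b₈ : ZMod ℓ) y ≠ 0) :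
    W.ModRepIsIrreducible 3 := by
  by_contra hirr
  obtain ⟨x, hx⟩ := Fermat.Agent.S51.exists_three_data W hΔ hirr
  obtain ⟨y, hy⟩ := exists_root_mod W.b₂ W.b₄ W.b₆ W.b₈ x hx ℓ hℓ hℓ3
  exact h y hy

/-- the covariance identity `6912 ψ₃(x) = X⁴ - 6 c₄ X² - 8 c₆ X - 3 c₄²`, `X = 12 x + b₂` -/
theorem psi3_covariant {R : Type*} [CommRing R] (W : WeierstrassCurve R) (x : R) :
    6912 * psi3Val W.b₂ W.b₄ W.b₆ W.b₈ x =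
      (12 * x + W.b₂) ^ 4 - 6 * W.c₄ * (12 * x + W.b₂) ^ 2 - 8 * W.c₆ * (12 * x + W.b₂)
        - 3 * W.c₄ ^ 2 := by
  unfold psi3Val
  simp only [WeierstrassCurve.c₄, WeierstrassCurve.c₆, WeierstrassCurve.b₂, WeierstrassCurve.b₄,
    WeierstrassCurve.b₆, WeierstrassCurve.b₈]
  ring

/-- in a field where `2, 3 ≠ 0`: if `c₆ = 0`, `c₄ ≠ 0` and `ψ₃` has a root then `3` is a
square -/
theorem isSquare_three_of_root {F : Type*} [Field F] (W : WeierstrassCurve F)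
    (h2 : (2 : F) ≠ 0) (hc6 : W.c₆ = 0) (hc4 : W.c₄ ≠ 0) (x : F)
    (hx : psi3Val W.b₂ W.b₄ W.b₆ W.b₈ x = 0) : IsSquare (3 : F) := by
  have h1 := psi3_covariant W x
  rw [hx, hc6] at h1
  obtain ⟨X, hX⟩ : ∃ X : F, X = 12 * x + W.b₂ := ⟨_, rfl⟩
  rw [← hX] at h1
  have h4 : (X ^ 2 - 3 * W.c₄) ^ 2 = 3 * (2 * W.c₄) ^ 2 := by
    linear_combination (-1 : F) * h1
  have h5 : (2 * W.c₄) ≠ 0 := mul_ne_zero h2 hc4
  refine ⟨(X ^ 2 - 3 * W.c₄) / (2 * W.c₄), ?_⟩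
  rw [← sq, div_pow, h4, mul_div_assoc, div_self (pow_ne_zero 2 h5), mul_one]

/-- **[IRR3-CERT] (2)**: if `ℓ ≥ 5` is a prime with `ℓ ∣ c₆(W)`, `ℓ ∤ c₄(W)` and `3` is not a
square modulo `ℓ`, then the mod-3 representation of `W` is irreducible. -/
theorem irr3_of_cm (W : WeierstrassCurve ℤ) (hΔ : W.Δ ≠ 0) (ℓ : ℕ) (hℓ : ℓ.Prime)
    (h5 : 5 ≤ ℓ) (hc6 : (ℓ : ℤ) ∣ W.c₆) (hc4 : ¬ (ℓ : ℤ) ∣ W.c₄)
    (h3 : ¬ IsSquare (3 : ZMod ℓ)) : W.ModRepIsIrreducible 3 := by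
  have : Fact ℓ.Prime := ⟨hℓ⟩
  refine irr3_of_rootless W hΔ ℓ hℓ (by omega) fun y hy => h3 ?_
  set Wl : WeierstrassCurve (ZMod ℓ) := W.map (Int.castRingHom (ZMod ℓ)) with hWl
  have e2 : Wl.b₂ = (W.b₂ : ZMod ℓ) := by rw [hWl, WeierstrassCurve.map_b₂]; rfl
  have e4 : Wl.b₄ = (W.b₄ : ZMod ℓ) := by rw [hWl, WeierstrassCurve.map_b₄]; rfl
  have e6 : Wl.b₆ = (W.b₆ : ZMod ℓ) := by rw [hWl, WeierstrassCurve.map_b₆]; rfl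
  have e8 : Wl.b₈ = (W.b₈ : ZMod ℓ) := by rw [hWl, WeierstrassCurve.map_b₈]; rfl
  have ec4 : Wl.c₄ = (W.c₄ : ZMod ℓ) := by rw [hWl, WeierstrassCurve.map_c₄]; rfl
  have ec6 : Wl.c₆ = (W.c₆ : ZMod ℓ) := by rw [hWl, WeierstrassCurve.map_c₆]; rfl
  have h2 : (2 : ZMod ℓ) ≠ 0 := by
    intro h0
    have : ((2 : ℕ) : ZMod ℓ) = 0 := by exact_mod_cast h0
    rw [ZMod.natCast_eq_zero_iff] at this
    have := Nat.le_of_dvd (by norm_num) this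
    omega
  refine isSquare_three_of_root Wl h2 ?_ ?_ y ?_
  · rw [ec6, ZMod.intCast_zmod_eq_zero_iff_dvd]
    exact hc6
  · rw [ec4, Ne, ZMod.intCast_zmod_eq_zero_iff_dvd]
    exact hc4
  · rw [e2, e4, e6, e8]
    exact hy

end Fermat.Agent.P7.helper96
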