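import Fermat.Agent.P7.helper47_ChoiceDefs
import Fermat.Agent.P7.helper56_SemistableModel2
import Fermat.Agent.P7.helper96_Irr3Cert

/-!
# P7 / S52: conditional assembly (helper47)

`s52_of_modules` : the frozen statement S52 from the six module statements of
`helper47_ChoiceDefs` (FAM, CONT, COP, SPEC, AUX, CONG), using the landed semistable model lemma
(helper56) and the landed `ψ₃`-certificate (helper96).  The hypothesis
`W.ModRepIsIrreducible 5` of S52 is not needed.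
-/

set_option autoImplicit false

open WeierstrassCurve

namespace Fermat.Agent.P7.helper47

/-- Chinese remainder theorem in the form used below. -/
theorem exists_crt (N t₁ : ℤ) (r : ℕ) (hr : r.Prime) (hrN : ¬ (r : ℤ) ∣ N) :
    ∃ t : ℤ, N ∣ t ∧ (r : ℤ) ∣ t - t₁ := by
  have hp : Prime (r : ℤ) := Nat.prime_iff_prime_int.mp hr
  have hcop : IsCoprime N (r : ℤ) :=
    (IsCoprime.symm ((Prime.coprime_iff_not_dvd hp).mpr hrN))
  obtain ⟨u, v, huv⟩ := hcop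
  refine ⟨t₁ * u * N, Dvd.intro_left _ rfl, ⟨-(t₁ * v), ?_⟩⟩
  linear_combination t₁ * huv

theorem cube_ne_sq_of_congr (W : WeierstrassCurve ℤ) (hΔ : W.Δ ≠ 0) (C₄ C₆ : ℤ)
    (h4 : 1728 * (30 * W.Δ) ∣ C₄ - W.c₄) (h6 : 1728 * (30 * W.Δ) ∣ C₆ - W.c₆) :
    C₄ ^ 3 ≠ C₆ ^ 2 := by
  intro h
  obtain ⟨k₄, hk₄⟩ := h4
  obtain ⟨k₆, hk₆⟩ := h6
  have hrel := W.c_relation
  have h1 : 1728 * W.Δ * (1 + 30 * (k₄ * (C₄ ^ 2 + C₄ * W.c₄ + W.c₄ ^ 2) - k₆ * (C₆ + W.c₆)))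
      = 0 := by
    linear_combination hrel + h - (C₄ ^ 2 + C₄ * W.c₄ + W.c₄ ^ 2) * hk₄ + (C₆ + W.c₆) * hk₆
  have h2 : (1728 : ℤ) * W.Δ ≠ 0 := mul_ne_zero (by norm_num) hΔ
  rcases mul_eq_zero.mp h1 with h3 | h3
  · exact h2 h3
  · omega

/-- **S52 from the module statements.** -/
theorem s52_of_modules (hFam : FamStatement) (hCont : ContStatement) (hCop : CopStatement)
    (hSpec : SpecStatement) (hAux : AuxStatement) (hCong : CongStatement)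
    (W : WeierstrassCurve ℤ) (hΔ : W.Δ ≠ 0) (hW : W.IsSemistableModel) :
    ∃ W' : WeierstrassCurve ℤ, W'.Δ ≠ 0 ∧ W'.IsSemistableModel ∧ W'.ModRepIsIrreducible 3 ∧
      ∀ ℓ : ℕ, ℓ.Prime → W.IsGoodPrimeFor ℓ → W'.IsGoodPrimeFor ℓ → ℓ ≠ 5 →
        (5 : ℤ) ∣ (W'.apOfModel ℓ - W.apOfModel ℓ) := by
  obtain ⟨a, b, hab⟩ := hFam W hΔ
  have hm0 : (30 * W.Δ : ℤ) ≠ 0 := mul_ne_zero (by norm_num) hΔ
  obtain ⟨N, hN0, hN⟩ := hCont W a b hab (1728 * (30 * W.Δ)) (mul_ne_zero (by norm_num) hm0)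
  have hprod0 : (30 * W.Δ * N : ℤ) ≠ 0 := mul_ne_zero hm0 hN0
  obtain ⟨r, A, φ, hr, hrS, hA, hφ, htriv, hi, h3⟩ :=
    hAux W hΔ hW ((30 * W.Δ * N).natAbs.primeFactors)
  have hr1 : ¬ (r : ℤ) ∣ 30 * W.Δ * N := by
    intro h
    apply hrS
    rw [Nat.mem_primeFactors]
    refine ⟨hr, ?_, Int.natAbs_ne_zero.mpr hprod0⟩
    exact Int.natCast_dvd.mp h
  have hr30 : ¬ (r : ℤ) ∣ 30 * W.Δ := fun h => hr1 (Dvd.dvd.mul_right h N)
  have hrN : ¬ (r : ℤ) ∣ N := fun h => hr1 (Dvd.dvd.mul_left h _)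
  obtain ⟨t₁, ht₁⟩ := hSpec W a b hΔ hab r hr hr30 A hA φ hφ htriv hi
  obtain ⟨t, hNt, hrt⟩ := exists_crt N t₁ r hr hrN
  obtain ⟨C₄, C₆, hC4, hC6, h4, h6⟩ := hN t hNt
  obtain ⟨hrC6, hrC4⟩ := ht₁ t C₄ C₆ hrt hC4 hC6
  have hcop : ∀ p : ℕ, p.Prime → ¬ (p : ℤ) ∣ 30 * W.Δ → (p : ℤ) ∣ C₄ → ¬ (p : ℤ) ∣ C₆ :=
    fun p hp hpm => hCop W a b hΔ hab.hH hab.hT p hp hpm t C₄ C₆ hC4 hC6
  have hne : C₄ ^ 3 ≠ C₆ ^ 2 := cube_ne_sq_of_congr W hΔ C₄ C₆ h4 h6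
  obtain ⟨W', -, -, -, -, -, e4, e6, -, hΔ', hss, -⟩ :=
    Fermat.Agent.P7.helper56.exists_semistable_of_congr_gen W hW (30 * W.Δ) C₄ C₆ h4 h6 hcop hne
  refine ⟨W', hΔ', hss, ?_, ?_⟩
  · have h5 : 5 ≤ r := by
      have h2 : r ≠ 2 := by
        rintro rfl
        exact hr30 (Dvd.dvd.mul_right (by norm_num) _)
      have h3' : r ≠ 3 := by
        rintro rfl
        exact hr30 (Dvd.dvd.mul_right (by norm_num) _)
      have h4' : r ≠ 4 := by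
        rintro rfl
        exact absurd hr (by decide)
      have := hr.two_le
      omega
    exact Fermat.Agent.P7.helper96.irr3_of_cm W' hΔ' r hr h5 (e6 ▸ hrC6) (e4 ▸ hrC4) h3
  · have hcast : algebraMap ℚ CQb ((t : ℤ) : ℚ) = ((t : ℤ) : CQb) := by
      simp
    obtain ⟨e, he⟩ := hab.iso ((t : ℤ) : ℚ) W' hΔ'
      (by rw [e4, hcast]; exact hC4) (by rw [e6, hcast]; exact hC6)
    exact hCong W W' hΔ hΔ' ⟨e, he⟩

end Fermat.Agent.P7.helper47
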