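/-
P7 / S52, FAM leaf [FAM-EX] (helper59): existence of a base point of Klein's cone.

Over an algebraically closed field `K` in which `2, 3, 5` are invertible, for all `c₄, c₆` with
`c₄ ^ 3 ≠ c₆ ^ 2` there are `a, b ∈ K` with `H(a, b) = -c₄` and `T(a, b) = -c₆`
(`H, T` Klein's forms of degree `20, 30`, in the shapes `kleinH`, `kleinT` of
`helper47_ChoiceDefs`; they agree with `helper80.kH`, `helper80.kT` by `rfl`).

Proof: `μ = (a / b) ^ 5` is a root of the degree `12` polynomial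
`c₄ ^ 3 * t(μ) ^ 2 + c₆ ^ 2 * h(μ) ^ 3` (leading coefficient `c₄ ^ 3 - c₆ ^ 2`), where
`h(μ) = H(m, 1)`, `t(μ) = T(m, 1)` for `m ^ 5 = μ`; then `(a, b) = (s m, s)` for a suitable root
`s` of a pure equation.
-/
import Fermat.Agent.P7.helper47_ChoiceDefs
import Fermat.Agent.P7.helper80_KleinBezout

set_option autoImplicit false
set_option linter.unusedSimpArgs false
set_option linter.unusedVariables false
set_option linter.unusedSectionVars false

namespace Fermat.Agent.P7.helper59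

open Polynomial Fermat.Agent.P7.helper47

section

variable {K : Type*} [Field K]

/-- the monic polynomial `t` with `t(m ^ 5) = T(m, 1)` -/
noncomputable def famExT : K[X] :=
  X ^ 6 + C 522 * X ^ 5 - C 10005 * X ^ 4 - C 10005 * X ^ 2 - C 522 * X + 1

/-- the monic polynomial `h₀` with `-h₀(m ^ 5) = H(m, 1)` -/
noncomputable def famExH : K[X] :=
  X ^ 4 - C 228 * X ^ 3 + C 494 * X ^ 2 + C 228 * X + 1

lemma famExT_eval (m : K) : (famExT (K := K)).eval (m ^ 5) = kleinT m 1 := by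
  simp only [famExT, kleinT, eval_add, eval_sub, eval_mul, eval_pow, eval_X, eval_C, eval_one]
  ring

lemma famExH_eval (m : K) : -(famExH (K := K)).eval (m ^ 5) = kleinH m 1 := by
  simp only [famExH, kleinH, eval_add, eval_sub, eval_mul, eval_pow, eval_X, eval_C, eval_one]
  ring

lemma famExT_monic : (famExT (K := K)).Monic := by
  unfold famExT
  monicity!

lemma famExH_monic : (famExH (K := K)).Monic := by
  unfold famExH
  monicity!

lemma famExT_natDegree : (famExT (K := K)).natDegree = 6 := by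
  unfold famExT
  compute_degree!

lemma famExH_natDegree : (famExH (K := K)).natDegree = 4 := by
  unfold famExH
  compute_degree!

/-- the resolvent polynomial of degree 12 -/
noncomputable def famExQ (c₄ c₆ : K) : K[X] :=
  C (c₄ ^ 3) * famExT ^ 2 - C (c₆ ^ 2) * famExH ^ 3

lemma famExQ_coeff (c₄ c₆ : K) : (famExQ c₄ c₆).coeff 12 = c₄ ^ 3 - c₆ ^ 2 := by
  have h1 : ((famExT (K := K)) ^ 2).coeff 12 = 1 := by
    have hm : ((famExT (K := K)) ^ 2).Monic := famExT_monic.pow 2
    have hd : ((famExT (K := K)) ^ 2).natDegree = 12 := by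
      rw [famExT_monic.natDegree_pow, famExT_natDegree]
    rw [← hd]
    exact hm.coeff_natDegree
  have h2 : ((famExH (K := K)) ^ 3).coeff 12 = 1 := by
    have hm : ((famExH (K := K)) ^ 3).Monic := famExH_monic.pow 3
    have hd : ((famExH (K := K)) ^ 3).natDegree = 12 := by
      rw [famExH_monic.natDegree_pow, famExH_natDegree]
    rw [← hd]
    exact hm.coeff_natDegree
  rw [famExQ, coeff_sub, coeff_C_mul, coeff_C_mul, h1, h2, mul_one, mul_one]

lemma famExQ_eval (c₄ c₆ m : K) :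
    (famExQ c₄ c₆).eval (m ^ 5) = c₄ ^ 3 * kleinT m 1 ^ 2 + c₆ ^ 2 * kleinH m 1 ^ 3 := by
  rw [famExQ, eval_sub, eval_mul, eval_mul, eval_C, eval_C, eval_pow, eval_pow, famExT_eval,
    ← famExH_eval]
  ring

/-- **[FAM-EX]** existence of a base point of the cone over `(c₄, c₆)`. -/
theorem exists_kleinBase [IsAlgClosed K] (h2 : (2 : K) ≠ 0) (h3 : (3 : K) ≠ 0)
    (h5 : (5 : K) ≠ 0) (c₄ c₆ : K) (hΔ : c₄ ^ 3 ≠ c₆ ^ 2) :
    ∃ a b : K, kleinH a b = -c₄ ∧ kleinT a b = -c₆ := by
  -- a root of the resolvent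
  have hdeg : (famExQ c₄ c₆).degree ≠ 0 := by
    intro h0
    have hc := eq_C_of_degree_eq_zero h0
    have h12 : (famExQ c₄ c₆).coeff 12 = 0 := by
      rw [hc, coeff_C]
      simp
    rw [famExQ_coeff] at h12
    exact hΔ (sub_eq_zero.mp h12)
  obtain ⟨μ, hμ⟩ := IsAlgClosed.exists_root (famExQ c₄ c₆) hdeg
  obtain ⟨m, hm⟩ := IsAlgClosed.exists_pow_nat_eq μ (n := 5) (by norm_num)
  rw [IsRoot, ← hm, famExQ_eval] at hμ
  -- `H(m, 1)` and `T(m, 1)` do not vanish simultaneously
  have hcop : ¬ (kleinH m 1 = 0 ∧ kleinT m 1 = 0) := by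
    rintro ⟨hH, hT⟩
    have := Fermat.Agent.P7.helper80.eq_zero_of_kH_kT h2 h3 h5 (u := m) (v := 1) hH hT
    exact one_ne_zero this.2
  have hscale : ∀ s : K, kleinH (s * m) (s * 1) = s ^ 20 * kleinH m 1 ∧
      kleinT (s * m) (s * 1) = s ^ 30 * kleinT m 1 := fun s =>
    ⟨Fermat.Agent.P7.helper80.kH_smul s m 1, Fermat.Agent.P7.helper80.kT_smul s m 1⟩
  by_cases hc6 : c₆ = 0
  · -- `T(m, 1) = 0`
    have hc4 : c₄ ≠ 0 := by
      rintro rfl
      apply hΔ
      rw [hc6]
      ring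
    have hT : kleinT m 1 = 0 := by
      rw [hc6] at hμ
      have : c₄ ^ 3 * kleinT m 1 ^ 2 = 0 := by linear_combination hμ
      rcases mul_eq_zero.mp this with h | h
      · exact absurd (pow_eq_zero_iff (by norm_num) |>.mp h) hc4
      · exact pow_eq_zero_iff (by norm_num) |>.mp h
    have hH : kleinH m 1 ≠ 0 := fun h => hcop ⟨h, hT⟩
    obtain ⟨s, hs⟩ := IsAlgClosed.exists_pow_nat_eq (-c₄ / kleinH m 1) (n := 20) (by norm_num)
    refine ⟨s * m, s * 1, ?_, ?_⟩
    · rw [(hscale s).1, hs]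
      field_simp
    · rw [(hscale s).2, hT, hc6]
      ring
  by_cases hc4 : c₄ = 0
  · have hH : kleinH m 1 = 0 := by
      rw [hc4] at hμ
      have : c₆ ^ 2 * kleinH m 1 ^ 3 = 0 := by linear_combination hμ
      rcases mul_eq_zero.mp this with h | h
      · exact absurd (pow_eq_zero_iff (by norm_num) |>.mp h) hc6
      · exact pow_eq_zero_iff (by norm_num) |>.mp h
    have hT : kleinT m 1 ≠ 0 := fun h => hcop ⟨hH, h⟩
    obtain ⟨s, hs⟩ := IsAlgClosed.exists_pow_nat_eq (-c₆ / kleinT m 1) (n := 30) (by norm_num)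
    refine ⟨s * m, s * 1, ?_, ?_⟩
    · rw [(hscale s).1, hH, hc4]
      ring
    · rw [(hscale s).2, hs]
      field_simp
  · -- general case
    have hH : kleinH m 1 ≠ 0 := by
      intro h
      rw [h] at hμ
      have : c₄ ^ 3 * kleinT m 1 ^ 2 = 0 := by linear_combination hμ
      rcases mul_eq_zero.mp this with h' | h'
      · exact hc4 (pow_eq_zero_iff (by norm_num) |>.mp h')
      · exact hcop ⟨h, pow_eq_zero_iff (by norm_num) |>.mp h'⟩
    have hT : kleinT m 1 ≠ 0 := by
      intro h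
      rw [h] at hμ
      have : c₆ ^ 2 * kleinH m 1 ^ 3 = 0 := by linear_combination hμ
      rcases mul_eq_zero.mp this with h' | h'
      · exact hc6 (pow_eq_zero_iff (by norm_num) |>.mp h')
      · exact hH (pow_eq_zero_iff (by norm_num) |>.mp h')
    obtain ⟨s, hs⟩ := IsAlgClosed.exists_pow_nat_eq
      (c₆ * kleinH m 1 / (c₄ * kleinT m 1)) (n := 10) (by norm_num)
    have hs20 : s ^ 20 * kleinH m 1 = -c₄ := by
      have e : s ^ 20 = (s ^ 10) ^ 2 := by ring
      rw [e, hs]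
      field_simp
      linear_combination hμ
    refine ⟨s * m, s * 1, ?_, ?_⟩
    · rw [(hscale s).1, hs20]
    · rw [(hscale s).2]
      have e : s ^ 30 * kleinT m 1 =
          s ^ 10 * (s ^ 20 * kleinH m 1) * (kleinT m 1 / kleinH m 1) := by
        field_simp
      rw [e, hs20, hs]
      field_simp

end

/-- **[FAM-EX]** for an integral Weierstrass curve with `Δ ≠ 0`, over `ℚ̄`. -/
theorem exists_kleinBase_of_curve (W : WeierstrassCurve ℤ) (hΔ : W.Δ ≠ 0) :
    ∃ a b : CQb, kleinH a b = -((W.c₄ : ℤ) : CQb) ∧ kleinT a b = -((W.c₆ : ℤ) : CQb) := by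
  refine exists_kleinBase (by norm_num) (by norm_num) (by norm_num) _ _ ?_
  intro h
  apply hΔ
  have h1 : ((W.c₄ ^ 3 - W.c₆ ^ 2 : ℤ) : CQb) = 0 := by
    push_cast
    rw [h, sub_self]
  have h2 : W.c₄ ^ 3 - W.c₆ ^ 2 = 0 := by exact_mod_cast h1
  have h3 := W.c_relation
  have : (1728 : ℤ) * W.Δ = 0 := by rw [h3, h2]
  rcases mul_eq_zero.mp this with h' | h'
  · norm_num at h'
  · exact h'

end Fermat.Agent.P7.helper59
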