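import Fermat.Agent.P7.helper73_FamScal
import Fermat.Agent.P7.helper59_FamEx

/-!
# P7 / S52: `FamStatement` with a LIGHT closure (helper47)

`helper73.fam` takes the field `rat` of `IsFamBase` from `helper66.fam_rat`, whose closure
contains the explicit Rubin-Silverberg polynomials (`helper66_KleinFam*`: several files with a
peak memory of about 10 GB each).  Here `rat` is proved by Galois descent instead: for rational
`t` the point `v_t` is moved by every `σ ∈ G_ℚ` inside its orbit under the symmetries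
(`helper73.orbit`, `Orb.fam`), and `kH`, `kT` are constant on orbits; an element of `ℚ̄` fixed
by `G_ℚ` is rational.  The rest is `helper73.fam` verbatim (`galIso`, `galScal`).

* `famLight : FamStatement`, closure = helper73 FAM core + helper19 VC + helper59 FamEx.
-/

set_option autoImplicit false

open WeierstrassCurve WeierstrassCurve.Affine
open scoped WeierstrassCurve.Affine

namespace Fermat.Agent.P7.helper47

open Fermat.Agent.P7.helper80 Fermat.Agent.P7.helper73 Fermat.Agent.P7.helper19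

section ConvL

variable {K : Type*} [Field K]

theorem kleinH_eq_kH' (a b : K) : kleinH a b = kH a b := by
  simp only [kleinH, kH]

theorem kleinT_eq_kT' (a b : K) : kleinT a b = kT a b := by
  simp only [kleinT, kT]

theorem famA_eq_famU' (a b t : K) : famA a b t = famU a b (-t) := by
  simp only [famA, famU, kleinWa, kW1]
  ring

theorem famB_eq_famV' (a b t : K) : famB a b t = famV a b (-t) := by
  simp only [famB, famV, kleinWb, kW2]
  ring

end ConvL

/-- An element of `ℚ̄` fixed by the whole Galois group is rational. -/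
theorem exists_rat_of_fixed_light (x : CQb) (hx : ∀ σ : CGQ, σ x = x) :
    ∃ q : ℚ, algebraMap ℚ CQb q = x := by
  have hcl : IsAlgClosure ℚ CQb := by
    have h : (DivisionRing.toRatAlgebra : Algebra ℚ CQb) = AlgebraicClosure.instAlgebra ℚ :=
      Subsingleton.elim _ _
    rw [h]
    infer_instance
  have hgal : IsGalois ℚ CQb := inferInstance
  exact (InfiniteGalois.mem_range_algebraMap_iff_fixed (k := ℚ) (K := CQb) x).mpr hx

/-- a point of the cone over `(c₄, c₆)` of `W` is a Klein point of the short model of `W` -/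
theorem isKP_short_light (W : WeierstrassCurve ℤ) (hΔ : W.Δ ≠ 0) {a b : CQb}
    (hH : kH a b = -((W.c₄ : ℤ) : CQb)) (hT : kT a b = -((W.c₆ : ℤ) : CQb)) :
    IsKP ((shortQ ((W.c₄ : ℤ) : ℚ) ((W.c₆ : ℤ) : ℚ))⁄(AlgebraicClosure ℚ)) a b where
  a₁ := by
    show algebraMap ℚ CQb (shortQ ((W.c₄ : ℤ) : ℚ) ((W.c₆ : ℤ) : ℚ)).a₁ = 0
    simp [shortQ]
  a₂ := by
    show algebraMap ℚ CQb (shortQ ((W.c₄ : ℤ) : ℚ) ((W.c₆ : ℤ) : ℚ)).a₂ = 0
    simp [shortQ]
  a₃ := by
    show algebraMap ℚ CQb (shortQ ((W.c₄ : ℤ) : ℚ) ((W.c₆ : ℤ) : ℚ)).a₃ = 0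
    simp [shortQ]
  a₄ := by
    show algebraMap ℚ CQb (shortQ ((W.c₄ : ℤ) : ℚ) ((W.c₆ : ℤ) : ℚ)).a₄ = 27 * kH a b
    rw [hH]
    simp only [shortQ, map_mul, map_neg, map_ofNat, map_intCast]
    ring
  a₆ := by
    show algebraMap ℚ CQb (shortQ ((W.c₄ : ℤ) : ℚ) ((W.c₆ : ℤ) : ℚ)).a₆ = 54 * kT a b
    rw [hT]
    simp only [shortQ, map_mul, map_neg, map_ofNat, map_intCast]
    ring
  hF := by
    intro h0
    apply hΔ
    have h1 := kT_sq_add_kH_cube a b
    rw [h0, hH, hT] at h1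
    have h2 : ((W.c₄ ^ 3 - W.c₆ ^ 2 : ℤ) : CQb) = 0 := by
      push_cast
      linear_combination -h1
    have h3 : W.c₄ ^ 3 - W.c₆ ^ 2 = 0 := by exact_mod_cast h2
    have h4 := W.c_relation
    have h5 : (1728 : ℤ) * W.Δ = 0 := by rw [h4, h3]
    rcases mul_eq_zero.mp h5 with h' | h'
    · norm_num at h'
    · exact h'

/-- the invariants of the members of the family are fixed by `G_ℚ` -/
theorem fam_fixed {E : WeierstrassCurve ℚ} {u v : CQb} (h : IsKP (E⁄CQb) u v) (t : ℚ) (σ : CGQ) :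
    σ (kH (famU u v (algebraMap ℚ CQb t)) (famV u v (algebraMap ℚ CQb t))) =
      kH (famU u v (algebraMap ℚ CQb t)) (famV u v (algebraMap ℚ CQb t)) ∧
    σ (kT (famU u v (algebraMap ℚ CQb t)) (famV u v (algebraMap ℚ CQb t))) =
      kT (famU u v (algebraMap ℚ CQb t)) (famV u v (algebraMap ℚ CQb t)) := by
  obtain ⟨z, hz⟩ := exists_isPrim5
  have o : Orb z u v (σ u) (σ v) := orbit h (h.gal σ) hz
  have of := o.fam hz (algebraMap ℚ CQb t)
  obtain ⟨e1, e2⟩ := gal_fam_eq (u := u) (v := v) t σ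
  constructor
  · have := map_kH (σ : CQb →+* CQb) (famU u v (algebraMap ℚ CQb t))
      (famV u v (algebraMap ℚ CQb t))
    show (σ : CQb →+* CQb) _ = _
    rw [this]
    show kH (σ _) (σ _) = _
    rw [e1, e2]
    exact of.kH_eq hz
  · have := map_kT (σ : CQb →+* CQb) (famU u v (algebraMap ℚ CQb t))
      (famV u v (algebraMap ℚ CQb t))
    show (σ : CQb →+* CQb) _ = _
    rw [this]
    show kT (σ _) (σ _) = _
    rw [e1, e2]
    exact of.kT_eq hz

/-- the field `rat` of `IsFamBase`, by Galois descent -/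
theorem fam_rat_light (W : WeierstrassCurve ℤ) (hΔ : W.Δ ≠ 0) {a b : CQb}
    (hH : kleinH a b = -((W.c₄ : ℤ) : CQb)) (hT : kleinT a b = -((W.c₆ : ℤ) : CQb)) (t : ℚ) :
    ∃ C₄ C₆ : ℚ, algebraMap ℚ CQb C₄ = famC4 a b (algebraMap ℚ CQb t) ∧
      algebraMap ℚ CQb C₆ = famC6 a b (algebraMap ℚ CQb t) := by
  have h := isKP_short_light W hΔ ((kleinH_eq_kH' a b).symm.trans hH)
    ((kleinT_eq_kT' a b).symm.trans hT)
  have e1 : famA a b (algebraMap ℚ CQb t) = famU a b (algebraMap ℚ CQb (-t)) := by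
    rw [map_neg, famA_eq_famU']
  have e2 : famB a b (algebraMap ℚ CQb t) = famV a b (algebraMap ℚ CQb (-t)) := by
    rw [map_neg, famB_eq_famV']
  obtain ⟨q4, hq4⟩ := exists_rat_of_fixed_light _ (fun σ => (fam_fixed h (-t) σ).1)
  obtain ⟨q6, hq6⟩ := exists_rat_of_fixed_light _ (fun σ => (fam_fixed h (-t) σ).2)
  refine ⟨-q4, -q6, ?_, ?_⟩
  · rw [map_neg, hq4, famC4, kleinH_eq_kH', e1, e2]
  · rw [map_neg, hq6, famC6, kleinT_eq_kT', e1, e2]

/-- **[FAM]** with a light closure. -/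
theorem famLight : FamStatement := by
  intro W hΔ
  obtain ⟨a, b, hH, hT⟩ := Fermat.Agent.P7.helper59.exists_kleinBase_of_curve W hΔ
  have h := isKP_short_light W hΔ ((kleinH_eq_kH' a b).symm.trans hH)
    ((kleinT_eq_kT' a b).symm.trans hT)
  refine ⟨a, b, ⟨hH, hT, fam_rat_light W hΔ hH hT, ?_, ?_⟩⟩
  · intro t W' hΔ' h4 h6
    have e1 : famU a b (algebraMap ℚ CQb (-t)) = famA a b (algebraMap ℚ CQb t) := by
      rw [map_neg, famA_eq_famU']
    have e2 : famV a b (algebraMap ℚ CQb (-t)) = famB a b (algebraMap ℚ CQb t) := by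
      rw [map_neg, famB_eq_famV']
    have k : IsKP ((shortQ ((W'.c₄ : ℤ) : ℚ) ((W'.c₆ : ℤ) : ℚ))⁄(AlgebraicClosure ℚ))
        (famU a b (algebraMap ℚ CQb (-t))) (famV a b (algebraMap ℚ CQb (-t))) := by
      rw [e1, e2]
      refine isKP_short_light W' hΔ' ?_ ?_
      · rw [h4, famC4, neg_neg, kleinH_eq_kH']
      · rw [h6, famC6, neg_neg, kleinT_eq_kT']
    obtain ⟨e, he⟩ := galIso _ _ _ _ (-t) a b h k
    exact exists_equiv_of_short W W' 5 e he
  · intro σ hσ
    obtain ⟨ε, hε, h1, h2⟩ := galScal _ _ a b h σ (fun x => by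
      have e1 := hσ ((shortTors W 5).symm x)
      have e2 := congrArg (shortTors W 5) e1
      rw [shortTors_smul, AddEquiv.apply_symm_apply] at e2
      exact e2)
    refine ⟨ε, ?_, h1, h2⟩
    rw [show (10 : ℕ) = 5 * 2 from rfl, pow_mul, hε, one_pow]

end Fermat.Agent.P7.helper47
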