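import Fermat.Agent.P7.helper47_ChoiceDefs
import Fermat.Agent.P7.helper80_KleinBezout
import Fermat.Agent.S05.helper4_Inertia

/-!
# P7 / S52, CHOICE: Klein forms and valuation subrings (helper47)

* `mem_nonunits_of_kleinF_kleinH`, `mem_nonunits_of_kleinH_kleinT` : Bezout modulo the maximal
  ideal of a valuation subring;
* `base_mem` : a point `(a, b)` of the cone with `f(a, b), H(a, b)` integral at `A` (residue
  characteristic `≠ 5`) is integral at `A`.
-/

set_option autoImplicit false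

namespace Fermat.Agent.P7.helper47

open ValuationSubring
open Fermat.Agent.S05.helper4

section Maps

variable {R S : Type*} [CommRing R] [CommRing S] (φ : R →+* S)

theorem map_kleinF (a b : R) : φ (kleinF a b) = kleinF (φ a) (φ b) := by
  simp [kleinF, map_ofNat]

theorem map_kleinH (a b : R) : φ (kleinH a b) = kleinH (φ a) (φ b) := by
  simp [kleinH, map_ofNat]

theorem map_kleinT (a b : R) : φ (kleinT a b) = kleinT (φ a) (φ b) := by
  simp [kleinT, map_ofNat]

theorem map_kleinWa (a b : R) : φ (kleinWa a b) = kleinWa (φ a) (φ b) := by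
  simp [kleinWa, map_ofNat]

theorem map_kleinWb (a b : R) : φ (kleinWb a b) = kleinWb (φ a) (φ b) := by
  simp [kleinWb, map_ofNat]

theorem kleinF_smul (c a b : R) : kleinF (c * a) (c * b) = c ^ 12 * kleinF a b := by
  unfold kleinF; ring

theorem kleinH_smul (c a b : R) : kleinH (c * a) (c * b) = c ^ 20 * kleinH a b := by
  unfold kleinH; ring

theorem kleinT_smul (c a b : R) : kleinT (c * a) (c * b) = c ^ 30 * kleinT a b := by
  unfold kleinT; ring

theorem kleinWa_smul (c a b : R) : kleinWa (c * a) (c * b) = c ^ 11 * kleinWa a b := by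
  unfold kleinWa; ring

theorem kleinWb_smul (c a b : R) : kleinWb (c * a) (c * b) = c ^ 11 * kleinWb a b := by
  unfold kleinWb; ring

theorem kleinF_eq_kF (a b : R) : kleinF a b = Fermat.Agent.P7.helper80.kF a b := rfl

theorem kleinH_eq_kH (a b : R) : kleinH a b = Fermat.Agent.P7.helper80.kH a b := rfl

theorem kleinT_eq_kT (a b : R) : kleinT a b = Fermat.Agent.P7.helper80.kT a b := rfl

/-- the determinant `det (v_t, w)` does not depend on `t` -/
theorem fam_det (a b t : R) :
    famA a b t * kleinWb a b - famB a b t * kleinWa a b = -12 * kleinF a b := by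
  unfold famA famB
  linear_combination klein_det a b

end Maps

section Val

variable {L : Type*} [Field L] {A : ValuationSubring L}

theorem residue_eq_zero_iff_mem_nonunits (z : A) :
    IsLocalRing.residue A z = 0 ↔ (z : L) ∈ A.nonunits := by
  rw [IsLocalRing.residue_eq_zero_iff, A.valuation_lt_one_iff, ValuationSubring.mem_nonunits_iff]

theorem residue_natCast_ne_zero {n : ℕ} (hn : (n : L) ∉ A.nonunits) :
    ((n : ℕ) : IsLocalRing.ResidueField A) ≠ 0 := by
  intro h
  apply hn
  have h1 : IsLocalRing.residue A ((n : ℕ) : A) = 0 := by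
    rw [map_natCast]; exact h
  have := (residue_eq_zero_iff_mem_nonunits ((n : ℕ) : A)).mp h1
  simpa using this

theorem mem_of_mem_nonunits {x : L} (h : x ∈ A.nonunits) : x ∈ A := by
  rw [ValuationSubring.mem_nonunits_iff] at h
  exact (A.valuation_le_one_iff x).mp h.le

theorem add_mem_nonunits {x y : L} (hx : x ∈ A.nonunits) (hy : y ∈ A.nonunits) :
    x + y ∈ A.nonunits := by
  rw [ValuationSubring.mem_nonunits_iff] at hx hy ⊢
  exact lt_of_le_of_lt (A.valuation.map_add x y) (max_lt hx hy)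

theorem neg_mem_nonunits {x : L} (hx : x ∈ A.nonunits) : -x ∈ A.nonunits := by
  rw [ValuationSubring.mem_nonunits_iff] at hx ⊢
  rwa [Valuation.map_neg]

theorem sub_mem_nonunits {x y : L} (hx : x ∈ A.nonunits) (hy : y ∈ A.nonunits) :
    x - y ∈ A.nonunits := by
  rw [sub_eq_add_neg]; exact add_mem_nonunits hx (neg_mem_nonunits hy)

/-- the maximal ideal is prime: powers -/
theorem mem_nonunits_of_pow {x : L} {n : ℕ} (h : x ^ n ∈ A.nonunits) : x ∈ A.nonunits := by
  rw [ValuationSubring.mem_nonunits_iff] at h ⊢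
  rw [map_pow] at h
  by_contra hx
  rw [not_lt] at hx
  exact absurd h (not_lt.mpr (one_le_pow₀ hx))

/-- valuation rings are integrally closed: powers -/
theorem mem_of_pow_mem {x : L} {n : ℕ} (hn : n ≠ 0) (h : x ^ n ∈ A) : x ∈ A := by
  rw [← A.valuation_le_one_iff] at h ⊢
  rw [map_pow] at h
  by_contra hx
  rw [not_le] at hx
  exact absurd h (not_le.mpr (one_lt_pow₀ hx hn))

/-- the maximal ideal is prime -/
theorem mem_nonunits_or_of_mul {x y : L} (hx : x ∈ A) (hy : y ∈ A) (h : x * y ∈ A.nonunits) :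
    x ∈ A.nonunits ∨ y ∈ A.nonunits := by
  rw [ValuationSubring.mem_nonunits_iff] at h ⊢
  rw [ValuationSubring.mem_nonunits_iff]
  rw [map_mul] at h
  by_contra hcon
  rw [not_or, not_lt, not_lt] at hcon
  have hx1 : A.valuation x = 1 := le_antisymm ((A.valuation_le_one_iff x).mpr hx) hcon.1
  have hy1 : A.valuation y = 1 := le_antisymm ((A.valuation_le_one_iff y).mpr hy) hcon.2
  rw [hx1, hy1, one_mul] at h
  exact lt_irrefl _ h

/-- **Bezout for `(f, H)` modulo the maximal ideal.** -/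
theorem mem_nonunits_of_kleinF_kleinH (h5 : ((5 : ℕ) : L) ∉ A.nonunits) {x y : L} (hx : x ∈ A)
    (hy : y ∈ A) (hF : kleinF x y ∈ A.nonunits) (hH : kleinH x y ∈ A.nonunits) :
    x ∈ A.nonunits ∧ y ∈ A.nonunits := by
  have h5' : (5 : IsLocalRing.ResidueField A) ≠ 0 := by
    have := residue_natCast_ne_zero (A := A) h5
    simpa using this
  have e1 : Fermat.Agent.P7.helper80.kF (IsLocalRing.residue A ⟨x, hx⟩)
      (IsLocalRing.residue A ⟨y, hy⟩) = 0 := by
    rw [← kleinF_eq_kF, ← map_kleinF, residue_eq_zero_iff_mem_nonunits]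
    have : ((kleinF (⟨x, hx⟩ : A) ⟨y, hy⟩ : A) : L) = kleinF x y :=
      map_kleinF A.subtype ⟨x, hx⟩ ⟨y, hy⟩
    rw [this]; exact hF
  have e2 : Fermat.Agent.P7.helper80.kH (IsLocalRing.residue A ⟨x, hx⟩)
      (IsLocalRing.residue A ⟨y, hy⟩) = 0 := by
    rw [← kleinH_eq_kH, ← map_kleinH, residue_eq_zero_iff_mem_nonunits]
    have : ((kleinH (⟨x, hx⟩ : A) ⟨y, hy⟩ : A) : L) = kleinH x y :=
      map_kleinH A.subtype ⟨x, hx⟩ ⟨y, hy⟩
    rw [this]; exact hH
  obtain ⟨h1, h2⟩ := Fermat.Agent.P7.helper80.eq_zero_of_kF_kH h5' e1 e2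
  exact ⟨(residue_eq_zero_iff_mem_nonunits _).mp h1, (residue_eq_zero_iff_mem_nonunits _).mp h2⟩

/-- **Bezout for `(H, T)` modulo the maximal ideal.** -/
theorem mem_nonunits_of_kleinH_kleinT (h2 : ((2 : ℕ) : L) ∉ A.nonunits)
    (h3 : ((3 : ℕ) : L) ∉ A.nonunits) (h5 : ((5 : ℕ) : L) ∉ A.nonunits) {x y : L} (hx : x ∈ A)
    (hy : y ∈ A) (hH : kleinH x y ∈ A.nonunits) (hT : kleinT x y ∈ A.nonunits) :
    x ∈ A.nonunits ∧ y ∈ A.nonunits := by
  have h2' : (2 : IsLocalRing.ResidueField A) ≠ 0 := by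
    have := residue_natCast_ne_zero (A := A) h2
    simpa using this
  have h3' : (3 : IsLocalRing.ResidueField A) ≠ 0 := by
    have := residue_natCast_ne_zero (A := A) h3
    simpa using this
  have h5' : (5 : IsLocalRing.ResidueField A) ≠ 0 := by
    have := residue_natCast_ne_zero (A := A) h5
    simpa using this
  have e1 : Fermat.Agent.P7.helper80.kH (IsLocalRing.residue A ⟨x, hx⟩)
      (IsLocalRing.residue A ⟨y, hy⟩) = 0 := by
    rw [← kleinH_eq_kH, ← map_kleinH, residue_eq_zero_iff_mem_nonunits]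
    have : ((kleinH (⟨x, hx⟩ : A) ⟨y, hy⟩ : A) : L) = kleinH x y :=
      map_kleinH A.subtype ⟨x, hx⟩ ⟨y, hy⟩
    rw [this]; exact hH
  have e2 : Fermat.Agent.P7.helper80.kT (IsLocalRing.residue A ⟨x, hx⟩)
      (IsLocalRing.residue A ⟨y, hy⟩) = 0 := by
    rw [← kleinT_eq_kT, ← map_kleinT, residue_eq_zero_iff_mem_nonunits]
    have : ((kleinT (⟨x, hx⟩ : A) ⟨y, hy⟩ : A) : L) = kleinT x y :=
      map_kleinT A.subtype ⟨x, hx⟩ ⟨y, hy⟩
    rw [this]; exact hT
  obtain ⟨k1, k2⟩ := Fermat.Agent.P7.helper80.eq_zero_of_kH_kT h2' h3' h5' e1 e2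
  exact ⟨(residue_eq_zero_iff_mem_nonunits _).mp k1, (residue_eq_zero_iff_mem_nonunits _).mp k2⟩

theorem pow_mem_nonunits' {x : L} (hx : x ∈ A.nonunits) {n : ℕ} (hn : n ≠ 0) :
    x ^ n ∈ A.nonunits := by
  rw [ValuationSubring.mem_nonunits_iff] at hx ⊢
  rw [map_pow]
  exact pow_lt_one₀ zero_le' hx hn

theorem kleinF_swap {R : Type*} [CommRing R] (a b : R) : kleinF b (-a) = kleinF a b := by
  unfold kleinF; ring

theorem kleinH_swap {R : Type*} [CommRing R] (a b : R) : kleinH b (-a) = kleinH a b := by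
  unfold kleinH; ring

/-- **Integrality of a point of the cone**: if `f(a, b)` and `H(a, b)` are integral at `A` and
`5` is a unit of `A`, then `a, b ∈ A`. -/
theorem base_mem (h5 : ((5 : ℕ) : L) ∉ A.nonunits) {a b : L} (hF : kleinF a b ∈ A)
    (hH : kleinH a b ∈ A) : a ∈ A ∧ b ∈ A := by
  have key : ∀ x y : L, A.valuation x ≤ A.valuation y → kleinF x y ∈ A → kleinH x y ∈ A →
      y ∈ A := by
    intro x y hxy hF hH
    by_contra hy
    have hy1 : 1 < A.valuation y := by
      rw [← not_le]; exact fun h => hy ((A.valuation_le_one_iff y).mp h)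
    have hy0 : y ≠ 0 := by
      rintro rfl
      exact hy A.zero_mem
    have hvy0 : A.valuation y ≠ 0 := (Valuation.ne_zero_iff _).mpr hy0
    have hinv : y⁻¹ ∈ A.nonunits := by
      rw [ValuationSubring.mem_nonunits_iff, map_inv₀]
      exact inv_lt_one_of_one_lt₀ hy1
    have hxA : y⁻¹ * x ∈ A := by
      rw [← A.valuation_le_one_iff, map_mul, map_inv₀]
      rw [inv_mul_le_iff₀ (zero_lt_iff.mpr hvy0), mul_one]
      exact hxy
    have hyA : y⁻¹ * y ∈ A := by
      rw [inv_mul_cancel₀ hy0]; exact A.one_mem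
    have h1 : kleinF (y⁻¹ * x) (y⁻¹ * y) ∈ A.nonunits := by
      rw [kleinF_smul]
      exact mul_mem_nonunits_right (pow_mem_nonunits' hinv (by norm_num)) hF
    have h2 : kleinH (y⁻¹ * x) (y⁻¹ * y) ∈ A.nonunits := by
      rw [kleinH_smul]
      exact mul_mem_nonunits_right (pow_mem_nonunits' hinv (by norm_num)) hH
    have h3 := (mem_nonunits_of_kleinF_kleinH h5 hxA hyA h1 h2).2
    rw [inv_mul_cancel₀ hy0] at h3
    exact one_not_mem_nonunits h3
  rcases le_total (A.valuation a) (A.valuation b) with h | h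
  · have hb : b ∈ A := key a b h hF hH
    refine ⟨?_, hb⟩
    rw [← A.valuation_le_one_iff] at hb ⊢
    exact h.trans hb
  · have ha' : -a ∈ A := by
      refine key b (-a) ?_ ?_ ?_
      · rwa [Valuation.map_neg]
      · rwa [kleinF_swap]
      · rwa [kleinH_swap]
    have ha : a ∈ A := by simpa using A.neg_mem _ ha'
    refine ⟨ha, ?_⟩
    rw [← A.valuation_le_one_iff] at ha ⊢
    exact h.trans ha

end Val

end Fermat.Agent.P7.helper47
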