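import Fermat.Agent.P7.helper20_S52OfFam
import Fermat.Agent.P7.helper47_FamLight

/-!
# P7 / S52: final wiring with a light closure (helper47)

`s52_light` = `helper20.s52_of_fam helper47.famLight`: the statement of S52 (without the unused
hypothesis on `E[5]`), with a closure that avoids the memory-heavy files `helper66_KleinFam*`.
-/

set_option autoImplicit false

open WeierstrassCurve

namespace Fermat.Agent.P7.helper47

theorem s52_light (W : WeierstrassCurve ℤ) (hΔ : W.Δ ≠ 0) (hW : W.IsSemistableModel) :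
    ∃ W' : WeierstrassCurve ℤ, W'.Δ ≠ 0 ∧ W'.IsSemistableModel ∧ W'.ModRepIsIrreducible 3 ∧
      ∀ ℓ : ℕ, ℓ.Prime → W.IsGoodPrimeFor ℓ → W'.IsGoodPrimeFor ℓ → ℓ ≠ 5 →
        (5 : ℤ) ∣ (W'.apOfModel ℓ - W.apOfModel ℓ) :=
  Fermat.Agent.P7.helper20.s52_of_fam famLight W hΔ hW

end Fermat.Agent.P7.helper47
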