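import Fermat.Agent.P7.helper47_ChoiceAsm
import Fermat.Agent.P7.helper47_Cop
import Fermat.Agent.P7.helper47_Spec
import Fermat.Agent.P7.helper64_Cont
import Fermat.Agent.P7.helper20_Aux
import Fermat.Agent.P7.helper59_Loc3Wire
import Fermat.Agent.P7.helper19_CongInst

/-!
# P7 / S52: wiring of the landed modules (helper47)

* `aux`           : `AuxStatement`   (helper20 weak Chebotarev + helper59 `loc3_g`)
* `cong_of_ce`    : `helper52.CEStatement → CongStatement`  (helper19 `congStatement_of_ce`)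
* `s52_of_fam_ce` : the conclusion of S52 from `FamStatement` and `helper52.CEStatement` only
  (CONT = helper64, COP / SPEC = helper47).
-/

set_option autoImplicit false

open WeierstrassCurve

namespace Fermat.Agent.P7.helper47

/-- **[AUX]**, unconditional. -/
theorem aux : AuxStatement :=
  Fermat.Agent.P7.helper20.auxStatement_of_exists_g
    (fun W hΔ hW => Fermat.Agent.P7.helper59.loc3_g W hΔ hW)

/-- **[CONG]** in the shape of `helper47_ChoiceDefs` from the characteristic equation. -/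
theorem cong_of_ce (hCE : Fermat.Agent.P7.helper52.CEStatement) : CongStatement := by
  intro W W' hΔ _ he ℓ hℓ hW hW' hℓ5
  obtain ⟨e, he⟩ := he
  exact Fermat.Agent.P7.helper19.congStatement_of_ce hCE W W' 5 Nat.prime_five hΔ
    e.toAddMonoidHom e.injective (fun σ P => he σ P) ℓ hℓ hW hW' hℓ5

/-- **S52 from FAM and CE.** -/
theorem s52_of_fam_ce (hFam : FamStatement) (hCE : Fermat.Agent.P7.helper52.CEStatement)
    (W : WeierstrassCurve ℤ) (hΔ : W.Δ ≠ 0) (hW : W.IsSemistableModel) :
    ∃ W' : WeierstrassCurve ℤ, W'.Δ ≠ 0 ∧ W'.IsSemistableModel ∧ W'.ModRepIsIrreducible 3 ∧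
      ∀ ℓ : ℕ, ℓ.Prime → W.IsGoodPrimeFor ℓ → W'.IsGoodPrimeFor ℓ → ℓ ≠ 5 →
        (5 : ℤ) ∣ (W'.apOfModel ℓ - W.apOfModel ℓ) :=
  s52_of_modules hFam Fermat.Agent.P7.helper64.contStatement cop spec aux (cong_of_ce hCE)
    W hΔ hW

end Fermat.Agent.P7.helper47
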