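import Mathlib

/-!
# P7 / S52 / CE (helper75): the abstract Gram algebra of the characteristic equation

`A` an abelian group (the points of `E` over the function field `K = k(E)`), `Q : A → ℤ` a
function with the parallelogram law (`Q = (deg x) / 2`), `φ : A →+ A` (Frobenius) with
`Q (φ x) = q * Q x`, `P₀ : A` (the generic point) with `Q P₀ = 1`, `Q (φ P₀ - P₀) = N` and the
multiplicativity `Q (φ (φ P₀) - P₀) = N * Q (φ P₀ + P₀)`.  Then, with `a = q + 1 - N`,
`Q (φ (φ P₀) - a • φ P₀ + q • P₀) = 0`.
-/

set_option autoImplicit false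
set_option linter.unusedSectionVars false

namespace Fermat.Agent.P7.helper75

section QuadAlg

variable {A : Type*} [AddCommGroup A] (Q : A → ℤ)

/-- the polar form of `Q` -/
def ceB (x y : A) : ℤ := Q (x + y) - Q x - Q y

variable {Q}

lemma ceB_comm (x y : A) : ceB Q x y = ceB Q y x := by
  unfold ceB
  rw [add_comm x y]
  ring

variable (par : ∀ x y : A, Q (x + y) + Q (x - y) = 2 * Q x + 2 * Q y)

include par

lemma ce_zero : Q 0 = 0 := by
  have h := par 0 0
  simp only [add_zero, sub_zero] at h
  linarith

lemma ce_neg (x : A) : Q (-x) = Q x := by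
  have h := par 0 x
  have h0 := ce_zero par
  simp only [zero_add, zero_sub] at h
  linarith

lemma ce_sub (x y : A) : Q (x - y) = Q x + Q y - ceB Q x y := by
  have h := par x y
  unfold ceB
  linarith

lemma ce_add (x y : A) : Q (x + y) = Q x + Q y + ceB Q x y := by
  unfold ceB
  ring

lemma ceB_add_left (x y z : A) : ceB Q (x + y) z = ceB Q x z + ceB Q y z := by
  have h1 := par (x + z) y
  have h2 := par (y + z) x
  have h3 := par z (x - y)
  have h4 := par x y
  have e1 : x + z + y = x + y + z := by abel
  have e2 : y + z + x = x + y + z := by abel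
  have e3 : x + z - y = z + (x - y) := by abel
  have e4 : y + z - x = z - (x - y) := by abel
  rw [e1, e3] at h1
  rw [e2, e4] at h2
  unfold ceB
  linarith

lemma ceB_add_right (x y z : A) : ceB Q x (y + z) = ceB Q x y + ceB Q x z := by
  rw [ceB_comm, ceB_add_left par, ceB_comm y, ceB_comm z]

/-- the polar form as a biadditive map -/
def ceBHom : A →+ A →+ ℤ :=
  AddMonoidHom.mk' (fun x => AddMonoidHom.mk' (fun y => ceB Q x y) (ceB_add_right par x))
    (fun x y => by
      apply AddMonoidHom.ext
      intro z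
      exact ceB_add_left par x y z)

@[simp] lemma ceBHom_apply (x y : A) : ceBHom par x y = ceB Q x y := rfl

lemma ceB_self (x : A) : ceB Q x x = 2 * Q x := by
  have h := par x x
  have h0 := ce_zero par
  rw [sub_self, h0] at h
  unfold ceB
  linarith

/-- **CE-ALG**: the characteristic equation on the level of the quadratic form. -/
theorem ce_gram (φ : A →+ A) (q N : ℤ) (hφ : ∀ x, Q (φ x) = q * Q x) (P₀ : A)
    (h1 : Q P₀ = 1) (hN : Q (φ P₀ - P₀) = N)
    (hmul : Q (φ (φ P₀) - P₀) = N * Q (φ P₀ + P₀)) :
    Q (φ (φ P₀) - (q + 1 - N) • φ P₀ + q • P₀) = 0 := by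
  set u := P₀ with hu
  set v := φ P₀ with hv
  set w := φ (φ P₀) with hw
  set a : ℤ := q + 1 - N with ha
  have Qu : Q u = 1 := h1
  have Qv : Q v = q := by rw [hv, hφ, h1, mul_one]
  have Qw : Q w = q * q := by rw [hw, hφ, hφ, h1, mul_one]
  -- the polar form
  have Buv : ceB Q v u = a := by
    have := ce_sub par v u
    rw [hN, Qu, Qv] at this
    rw [ha]; linarith
  have Bwv : ceB Q w v = q * a := by
    have e : w + v = φ (v + u) := by rw [map_add]
    unfold ceB
    rw [e, hφ, ce_add par v u, Qw, Qv, Qu, Buv]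
    ring
  have Bwu : ceB Q w u = a * a - 2 * q := by
    have e1 := ce_sub par w u
    have e2 := ce_add par v u
    rw [hmul, e2, Qw, Qu, Qv, Buv] at e1
    rw [ha] at e1 ⊢
    nlinarith [e1]
  -- expand `2 Q(w - a v + q u)` by bilinearity
  have key : 2 * Q (w - a • v + q • u) = 0 := by
    rw [← ceB_self par, ← ceBHom_apply par]
    simp only [map_add, map_sub, map_zsmul, AddMonoidHom.add_apply, AddMonoidHom.sub_apply,
      AddMonoidHom.coe_smul, Pi.smul_apply, smul_eq_mul, ceBHom_apply]
    rw [ceB_self par, ceB_self par, ceB_self par, ceB_comm v w, ceB_comm u w, ceB_comm u v,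
      Bwv, Bwu, Buv, Qu, Qv, Qw]
    ring
  linarith

end QuadAlg

end Fermat.Agent.P7.helper75
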