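import Fermat.Agent.P7.helper52_Subst
import Fermat.Agent.P7.helper75_CEAlg

/-!
# P7 / S52, module CE: [FINAL] (helper52)

`ceStatement_of : ManinStatement → SubstACStatement → CEStatement` and, with `substAC`,
`ceStatement_of_manin : ManinStatement → CEStatement`.

With `θ := Φ² - a Φ + ℓ` on `W(k(E))`: the Gram computation `helper75.ce_gram` on the subgroup
`G` gives `h(θ P₀) = 0`, so `Z := θ P₀` is a constant point.  For `Q ∈ W(k)` let `s` be the
substitution endomorphism of `k(E)` attached to `X := P₀ + Q` (not constant).  `s` commutes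
with Frobenius and fixes constants, hence `Z = s(Z) = θ(X) = Z + θ(Q)` and `θ Q = 0`.
-/

set_option autoImplicit false
set_option linter.style.haveILetI false

open WeierstrassCurve WeierstrassCurve.Affine
open scoped WeierstrassCurve.Affine Classical

namespace Fermat.Agent.P7.helper52

open Fermat.Agent.P6.helper78

section mapPt

variable (W : WeierstrassCurve ℤ) {F K L : Type} [Field F] [Field K] [Field L]

/-- The additive map on points of `W` induced by a ring homomorphism of fields (Mathlib's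
`Point.map` in the `PtK` vocabulary). -/
noncomputable def mapPt (f : F →ₐ[ℤ] K) : PtK W F →+ PtK W K :=
  Point.map (W' := W) f

lemma mapPt_zero (f : F →ₐ[ℤ] K) : mapPt W f 0 = 0 := rfl

lemma mapPt_some (f : F →ₐ[ℤ] K) {x y : F}
    (h : (W.map (Int.castRingHom F)).toAffine.Nonsingular x y) :
    ∃ h', mapPt W f (Point.some x y h) = Point.some (f x) (f y) h' :=
  ⟨_, rfl⟩

lemma mapPt_comp (f : F →ₐ[ℤ] K) (g : K →ₐ[ℤ] L) (P : PtK W F) :
    mapPt W g (mapPt W f P) = mapPt W (g.comp f) P := by
  cases P <;> rfl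

lemma mapPt_injective (f : F →ₐ[ℤ] K) : Function.Injective (mapPt W f) :=
  Point.map_injective (W' := W) f

end mapPt

section basics

variable (W : WeierstrassCurve ℤ) (k : Type) [Field k]

lemma constPt_eq : constPt W k = mapPt W (constHom W k) := rfl

lemma ofCoord_injective : Function.Injective (ofCoord W k) :=
  IsFractionRing.injective (WkE W k).CoordinateRing (WkE W k).FunctionField

/-- The coordinate function `x` is not a constant. -/
lemma xK_ne_algebraMap (c : k) : xK W k ≠ algebraMap k (KE W k) c := by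
  intro h
  rw [algebraMap_KE_eq, xK] at h
  have h1 := ofCoord_injective W k h
  have h2 : CoordinateRing.XClass (WkE W k) c = 0 := by
    rw [CoordinateRing.XClass, Polynomial.C_sub, map_sub, h1, sub_self]
  exact CoordinateRing.XClass_ne_zero c h2

variable {W k}

/-- The generic point is not constant. -/
lemma not_const_of_isGenericPt {P₀ : PtK W (KE W k)} (hP₀ : IsGenericPt W k P₀) :
    ¬ ∃ Q : PtK W k, P₀ = constPt W k Q := by
  rintro ⟨Q, hQ⟩
  obtain ⟨h, rfl⟩ := hP₀
  cases Q with
  | zero => exact Point.some_ne_zero h hQ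
  | some x y hxy =>
    obtain ⟨h', e⟩ := mapPt_some W (constHom W k) hxy
    rw [constPt_eq, e] at hQ
    simp only [Point.some.injEq] at hQ
    exact xK_ne_algebraMap W k x hQ.1

lemma constPt_injective : Function.Injective (constPt W k) :=
  mapPt_injective W (constHom W k)

end basics

section frob

variable (W : WeierstrassCurve ℤ) (k : Type) [Field k] (ℓ : ℕ) [Fact ℓ.Prime] [CharP k ℓ]

lemma frobK_apply (x : KE W k) : frobK W k ℓ x = x ^ ℓ := rfl

lemma frobKPt_eq : frobKPt W k ℓ = mapPt W (frobK W k ℓ) := rfl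

/-- Frobenius commutes with every ring endomorphism of `k(E)`. -/
lemma frobKPt_map (s : KE W k →ₐ[ℤ] KE W k) (P : PtK W (KE W k)) :
    mapPt W s (frobKPt W k ℓ P) = frobKPt W k ℓ (mapPt W s P) := by
  rw [frobKPt_eq, mapPt_comp, mapPt_comp]
  have e : s.comp (frobK W k ℓ) = (frobK W k ℓ).comp s := by
    ext x
    simp [frobK_apply]
  rw [e]

/-- Frobenius on constant points. -/
lemma frobKPt_constPt (Q : PtK W k) :
    frobKPt W k ℓ (constPt W k Q) = constPt W k (frobPt W k ℓ Q) := by
  have e0 : frobPt W k ℓ = mapPt W (frobAlgHom k ℓ) := rfl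
  rw [frobKPt_eq, constPt_eq, e0, mapPt_comp, mapPt_comp]
  have e : (frobK W k ℓ).comp (constHom W k) = (constHom W k).comp (frobAlgHom k ℓ) := by
    ext x
    simp [frobK_apply, constHom, frobAlgHom_apply]
  rw [e]

end frob

/-- **[FINAL]** the characteristic equation from the height package and substitution. -/
theorem ceStatement_of (hM : ManinStatement) (hS : SubstACStatement) : CEStatement := by
  intro W ℓ _ hg k _ hdec _ _ Q
  obtain rfl : hdec = fun a b => Classical.propDecidable (a = b) := Subsingleton.elim _ _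
  obtain ⟨G, P₀, h, hman⟩ := hM W ℓ hg k
  set Φ := frobKPt W k ℓ with hΦ
  set a : ℤ := W.apOfModel ℓ with ha
  -- Step 1: the Gram computation on `G`
  have hZ : h (Φ (Φ P₀) - a • Φ P₀ + (ℓ : ℤ) • P₀) = 0 := by
    let φG : G →+ G :=
      AddMonoidHom.codRestrict (Φ.comp G.subtype) G (fun X => hman.mem_frob X.1 X.2)
    have hpar : ∀ x y : G, (fun X : G => h X.1) (x + y) + (fun X : G => h X.1) (x - y) =
        2 * (fun X : G => h X.1) x + 2 * (fun X : G => h X.1) y :=
      fun x y => hman.par x.1 x.2 y.1 y.2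
    have hN : (Nat.card (W.reductionMod ℓ).toAffine.Point : ℤ) = (ℓ : ℤ) + 1 - a := by
      rw [ha, WeierstrassCurve.apOfModel, WeierstrassCurve.traceOfFrobenius,
        WeierstrassCurve.card, Nat.card_zmod]
      ring
    have key := Fermat.Agent.P7.helper75.ce_gram (Q := fun X : G => h X.1) hpar φG (ℓ : ℤ)
      (Nat.card (W.reductionMod ℓ).toAffine.Point : ℤ)
      (fun X => hman.h_frob X.1 X.2) ⟨P₀, hman.mem_P₀⟩ hman.h_P₀ hman.h_count
      (by
        have := hman.h_mul
        rw [hman.h_count] at this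
        exact this)
    have e : ((ℓ : ℤ) + 1 - (Nat.card (W.reductionMod ℓ).toAffine.Point : ℤ)) = a := by
      rw [hN]; ring
    rw [e] at key
    exact key
  have hZG : Φ (Φ P₀) - a • Φ P₀ + (ℓ : ℤ) • P₀ ∈ G :=
    G.add_mem (G.sub_mem (hman.mem_frob _ (hman.mem_frob _ hman.mem_P₀))
      (G.zsmul_mem (hman.mem_frob _ hman.mem_P₀) a)) (G.zsmul_mem hman.mem_P₀ _)
  -- Step 2: `Z` is constant
  obtain ⟨Q₀, hQ₀⟩ := hman.const_of_h_eq_zero _ hZG hZ
  -- Step 3: substitution at `X = P₀ + Q`
  have hX : ¬ ∃ Q' : PtK W k, P₀ + constPt W k Q = constPt W k Q' := by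
    rintro ⟨Q', hQ'⟩
    apply not_const_of_isGenericPt hman.isGeneric
    refine ⟨Q' - Q, ?_⟩
    rw [map_sub, ← hQ']
    abel
  obtain ⟨s, hsc, hsP⟩ := hS W k P₀ (P₀ + constPt W k Q) hman.isGeneric hX
  have hsP' : mapPt W s P₀ = P₀ + constPt W k Q := hsP
  have hsconst : ∀ Q' : PtK W k, mapPt W s (constPt W k Q') = constPt W k Q' := by
    intro Q'
    rw [constPt_eq, mapPt_comp]
    have e : s.comp (constHom W k) = constHom W k := by
      ext c
      exact hsc c
    rw [e]
  have hsΦ : ∀ P, mapPt W s (Φ P) = Φ (mapPt W s P) :=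
    fun P => frobKPt_map W k ℓ s P
  have e1 : mapPt W s (Φ (Φ P₀) - a • Φ P₀ + (ℓ : ℤ) • P₀) =
      Φ (Φ P₀) - a • Φ P₀ + (ℓ : ℤ) • P₀ +
        (Φ (Φ (constPt W k Q)) - a • Φ (constPt W k Q) + (ℓ : ℤ) • constPt W k Q) := by
    rw [map_add, map_sub, map_zsmul, map_zsmul, hsΦ, hsΦ, hsP']
    simp only [map_add, smul_add]
    abel
  rw [hQ₀, hsconst, ← hQ₀] at e1
  have e2 : Φ (Φ (constPt W k Q)) - a • Φ (constPt W k Q) + (ℓ : ℤ) • constPt W k Q = 0 := by
    have := e1
    rwa [left_eq_add] at this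
  have e3 : constPt W k
      (frobPt W k ℓ (frobPt W k ℓ Q) - a • frobPt W k ℓ Q + (ℓ : ℤ) • Q) = 0 := by
    rw [map_add, map_sub, map_zsmul, map_zsmul, ← frobKPt_constPt, ← frobKPt_constPt]
    exact e2
  exact constPt_injective (by rw [e3, map_zero])

/-- **[FINAL]** the characteristic equation of Frobenius from the height package alone. -/
theorem ceStatement_of_manin (hM : ManinStatement) : CEStatement :=
  ceStatement_of hM substAC

end Fermat.Agent.P7.helper52
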