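import Mathlib

/-!
# P7 / S52, module FAM: the abstract assembly [FAM-ABS] (helper52)

Pure group theory, shape-independent (Mathlib only).

* `IsZBasis n P Q` : `(P, Q)` is a basis of the abelian group `A` (killed by `n`) with integer
  coefficients modulo `n`.
* `isZBasis_of_card` : for `p` prime, `#A = p²`, `A` killed by `p`, `P ≠ 0`, `Q ∉ ⟨P⟩`.
* `exists_equiv_of_bases` : if a group `G` acts on `A` and `A'` and every `σ ∈ G` has the SAME
  integer matrix in the bases `(P, Q)` of `A` and `(P', Q')` of `A'`, there is a `G`-equivariant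
  additive isomorphism `A ≃+ A'` mapping `P ↦ P'`, `Q ↦ Q'`.
-/

set_option autoImplicit false

namespace Fermat.Agent.P7.helper52

/-- `(P, Q)` is a basis of `A` with integer coefficients modulo `n`. -/
structure IsZBasis (n : ℕ) {A : Type*} [AddCommGroup A] (P Q : A) : Prop where
  tors : ∀ x : A, (n : ℤ) • x = 0
  span : ∀ x : A, ∃ a b : ℤ, x = a • P + b • Q
  indep : ∀ a b : ℤ, a • P + b • Q = 0 → (n : ℤ) ∣ a ∧ (n : ℤ) ∣ b

section basis

variable {n : ℕ} {A A' : Type*} [AddCommGroup A] [AddCommGroup A']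

lemma zsmul_eq_zero_of_dvd {x : A} (hx : (n : ℤ) • x = 0) {a : ℤ} (ha : (n : ℤ) ∣ a) :
    a • x = 0 := by
  obtain ⟨k, rfl⟩ := ha
  rw [mul_comm, mul_smul, hx, smul_zero]

/-- Transport of linear relations between two bases. -/
lemma IsZBasis.transport {P Q : A} {P' Q' : A'} (h : IsZBasis n P Q)
    (hP' : (n : ℤ) • P' = 0) (hQ' : (n : ℤ) • Q' = 0) {a b c d : ℤ}
    (e : a • P + b • Q = c • P + d • Q) : a • P' + b • Q' = c • P' + d • Q' := by
  have h0 : (a - c) • P + (b - d) • Q = 0 := by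
    rw [sub_smul, sub_smul]
    have : a • P + b • Q - (c • P + d • Q) = 0 := sub_eq_zero.mpr e
    rw [← this]; abel
  obtain ⟨h1, h2⟩ := h.indep _ _ h0
  have e1 := zsmul_eq_zero_of_dvd hP' h1
  have e2 := zsmul_eq_zero_of_dvd hQ' h2
  rw [sub_smul] at e1 e2
  have e1' : a • P' = c • P' := sub_eq_zero.mp e1
  have e2' : b • Q' = d • Q' := sub_eq_zero.mp e2
  rw [e1', e2']

end basis

section card

variable {A : Type*} [AddCommGroup A]

/-- For `p` prime: `#A = p²`, `A` killed by `p`, `P ≠ 0` and `Q ∉ ⟨P⟩` give a basis. -/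
theorem isZBasis_of_card [Finite A] (p : ℕ) (hp : p.Prime) (hcard : Nat.card A = p ^ 2)
    (htors : ∀ x : A, (p : ℤ) • x = 0) {P Q : A} (hP : P ≠ 0) (hQ : ∀ k : ℤ, Q ≠ k • P) :
    IsZBasis p P Q := by
  have hpZ : Prime (p : ℤ) := Nat.prime_iff_prime_int.mp hp
  -- if `p ∤ a` and `a • x = y` then `x` is a multiple of `y`
  have hinv : ∀ (a : ℤ) (x y : A), ¬ (p : ℤ) ∣ a → a • x = y → ∃ k : ℤ, x = k • y := by
    intro a x y ha hxy
    have hcop : IsCoprime a (p : ℤ) := (hpZ.coprime_iff_not_dvd.mpr ha).symm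
    obtain ⟨u, v, huv⟩ := hcop
    refine ⟨u, ?_⟩
    have : x = (u * a + v * p) • x := by rw [huv, one_smul]
    rw [this, add_smul, mul_smul, mul_smul, htors x, smul_zero, add_zero, hxy]
  have hindep : ∀ a b : ℤ, a • P + b • Q = 0 → (p : ℤ) ∣ a ∧ (p : ℤ) ∣ b := by
    intro a b hab
    have hb : (p : ℤ) ∣ b := by
      by_contra hb
      have e : b • Q = (-a) • P := by
        rw [neg_smul]; exact eq_neg_of_add_eq_zero_right hab
      obtain ⟨k, hk⟩ := hinv b Q _ hb e
      apply hQ (k * -a)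
      rw [hk, mul_smul]
    refine ⟨?_, hb⟩
    by_contra ha
    have hbQ : b • Q = 0 := zsmul_eq_zero_of_dvd (htors Q) hb
    rw [hbQ, add_zero] at hab
    obtain ⟨k, hk⟩ := hinv a P 0 ha hab
    apply hP
    rw [hk, smul_zero]
  refine ⟨htors, ?_, hindep⟩
  -- surjectivity by counting
  let f : Fin p × Fin p → A := fun ij => ((ij.1 : ℕ) : ℤ) • P + ((ij.2 : ℕ) : ℤ) • Q
  have hf : Function.Injective f := by
    rintro ⟨i, j⟩ ⟨i', j'⟩ hij
    have h0 : (((i : ℕ) : ℤ) - ((i' : ℕ) : ℤ)) • P + (((j : ℕ) : ℤ) - ((j' : ℕ) : ℤ)) • Q = 0 := by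
      have : f (i, j) - f (i', j') = 0 := sub_eq_zero.mpr hij
      rw [← this]
      simp only [f, sub_smul]
      abel
    obtain ⟨h1, h2⟩ := hindep _ _ h0
    have hi := i.2
    have hi' := i'.2
    have hj := j.2
    have hj' := j'.2
    have e1 : (i : ℕ) = (i' : ℕ) := by
      obtain ⟨k, hk⟩ := h1
      have : k = 0 := by
        by_contra hk0
        rcases lt_or_gt_of_ne hk0 with hlt | hgt
        · have : (p : ℤ) * k ≤ -(p : ℤ) := by nlinarith
          omega
        · have : (p : ℤ) * k ≥ (p : ℤ) := by nlinarith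
          omega
      rw [this, mul_zero] at hk
      omega
    have e2 : (j : ℕ) = (j' : ℕ) := by
      obtain ⟨k, hk⟩ := h2
      have : k = 0 := by
        by_contra hk0
        rcases lt_or_gt_of_ne hk0 with hlt | hgt
        · have : (p : ℤ) * k ≤ -(p : ℤ) := by nlinarith
          omega
        · have : (p : ℤ) * k ≥ (p : ℤ) := by nlinarith
          omega
      rw [this, mul_zero] at hk
      omega
    exact Prod.ext (Fin.ext e1) (Fin.ext e2)
  have hcard' : Nat.card (Fin p × Fin p) = Nat.card A := by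
    rw [hcard, Nat.card_prod, Nat.card_eq_fintype_card, Fintype.card_fin]
    ring
  have hbij : Function.Bijective f :=
    (Function.Injective.bijective_of_nat_card_le hf (le_of_eq hcard'.symm))
  intro x
  obtain ⟨⟨i, j⟩, hij⟩ := hbij.2 x
  exact ⟨_, _, hij.symm⟩

end card

section equiv

variable {n : ℕ} {G A A' : Type*} [Group G] [AddCommGroup A] [AddCommGroup A']
  [DistribMulAction G A] [DistribMulAction G A']

/-- The additive map attached to two bases. -/
theorem exists_hom_of_bases {P Q : A} {P' Q' : A'} (h : IsZBasis n P Q)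
    (hP' : (n : ℤ) • P' = 0) (hQ' : (n : ℤ) • Q' = 0) :
    ∃ e : A →+ A', ∀ a b : ℤ, e (a • P + b • Q) = a • P' + b • Q' := by
  choose ca cb hc using h.span
  have key : ∀ (x : A) (a b : ℤ), x = a • P + b • Q → ca x • P' + cb x • Q' = a • P' + b • Q' :=
    fun x a b hx => h.transport hP' hQ' ((hc x).symm.trans hx)
  have hadd : ∀ x y : A, ca (x + y) • P' + cb (x + y) • Q' =
      (ca x • P' + cb x • Q') + (ca y • P' + cb y • Q') := by
    intro x y
    rw [key (x + y) (ca x + ca y) (cb x + cb y) (by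
      conv_lhs => rw [hc x, hc y]
      rw [add_smul, add_smul]; abel)]
    rw [add_smul, add_smul]; abel
  refine ⟨AddMonoidHom.mk' (fun x => ca x • P' + cb x • Q') hadd, ?_⟩
  intro a b
  exact key _ a b rfl

/-- **[FAM-ABS]** two bases on which every `σ` has the same integer matrix are related by an
equivariant isomorphism. -/
theorem exists_equiv_of_bases {P Q : A} {P' Q' : A'} (h : IsZBasis n P Q)
    (h' : IsZBasis n P' Q')
    (hG : ∀ σ : G, ∃ a b c d : ℤ, σ • P = a • P + c • Q ∧ σ • Q = b • P + d • Q ∧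
      σ • P' = a • P' + c • Q' ∧ σ • Q' = b • P' + d • Q') :
    ∃ e : A ≃+ A', (∀ (σ : G) (x : A), e (σ • x) = σ • e x) ∧ e P = P' ∧ e Q = Q' := by
  obtain ⟨e, he⟩ := exists_hom_of_bases h (h'.tors P') (h'.tors Q')
  obtain ⟨e', he'⟩ := exists_hom_of_bases h' (h.tors P) (h.tors Q)
  have h1 : ∀ x, e' (e x) = x := by
    intro x
    obtain ⟨a, b, rfl⟩ := h.span x
    rw [he, he']
  have h2 : ∀ y, e (e' y) = y := by
    intro y
    obtain ⟨a, b, rfl⟩ := h'.span y
    rw [he', he]
  refine ⟨{ e with invFun := e', left_inv := h1, right_inv := h2 }, ?_, ?_, ?_⟩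
  · intro σ x
    show e (σ • x) = σ • e x
    obtain ⟨a, b, rfl⟩ := h.span x
    obtain ⟨α, β, γ, δ, e1, e2, e3, e4⟩ := hG σ
    rw [he, smul_add, smul_add, smul_comm σ a P, smul_comm σ b Q, smul_comm σ a P',
      smul_comm σ b Q', e1, e2, e3, e4]
    have : a • (α • P + γ • Q) + b • (β • P + δ • Q) =
        (a * α + b * β) • P + (a * γ + b * δ) • Q := by
      simp only [smul_add, add_smul, mul_smul]; abel
    rw [this, he]
    simp only [smul_add, add_smul, mul_smul]; abel
  · show e P = P'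
    have := he 1 0
    simpa using this
  · show e Q = Q'
    have := he 0 1
    simpa using this

end equiv

end Fermat.Agent.P7.helper52
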