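import Fermat.Agent.P7.helper52_CEDefs
import Fermat.Agent.S13.helper64_XOnly

/-!
# P7 / S52, module CE, package [CE-MANIN]: definitions and inner cut (helper92, sub-coordinator)

`K = k(E)` is `helper52.KE W k`.  We fix

* `rdeg r`   : the degree `max (deg num) (deg den)` of a rational function `r : RatFunc k`;
* `polyHom`  : `k[X] →+* K`, `kxHom : RatFunc k →+* K` (the subfield `k(x)` of `K`);
* `invCoord`, `invK` : the involution `y ↦ -y - a₁ x - a₃` of `K / k(x)`;
* `invPt`    : the induced endomorphism of `W(K)`;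
* `manG`     : the subgroup `{X | ι X = -X}` of `W(K)`;
* `xdeg`, `manH` : the height `h X = rdeg (x(X))` (junk value `0` if `x(X) ∉ k(x)`), `h 0 = 0`.
-/

set_option autoImplicit false

open WeierstrassCurve WeierstrassCurve.Affine Polynomial
open scoped WeierstrassCurve.Affine Classical Polynomial.Bivariate

namespace Fermat.Agent.P7.helper92

open Fermat.Agent.P6.helper78 Fermat.Agent.P7.helper52

/-- The degree of a rational function: `max (deg num) (deg den)`. -/
noncomputable def rdeg {k : Type} [Field k] (r : RatFunc k) : ℕ :=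
  max r.num.natDegree r.denom.natDegree

section defs

variable (W : WeierstrassCurve ℤ) (k : Type) [Field k]

/-- `k[X] → k(E)`. -/
noncomputable def polyHom : Polynomial k →+* KE W k :=
  (ofCoord W k).comp (algebraMap (Polynomial k) (WkE W k).CoordinateRing)

lemma ofCoord_injective : Function.Injective (ofCoord W k) :=
  IsFractionRing.injective (WkE W k).CoordinateRing (WkE W k).FunctionField

lemma polyHom_injective : Function.Injective (polyHom W k) := by
  unfold polyHom
  rw [RingHom.coe_comp]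
  exact (ofCoord_injective W k).comp (FaithfulSMul.algebraMap_injective _ _)

/-- `k(x) → k(E)`. -/
noncomputable def kxHom : RatFunc k →+* KE W k :=
  RatFunc.liftRingHom (polyHom W k) (by
    intro p hp
    rw [Submonoid.mem_comap]
    exact mem_nonZeroDivisors_of_ne_zero
      ((map_ne_zero_iff _ (polyHom_injective W k)).mpr (nonZeroDivisors.ne_zero hp)))

lemma polynomial_comp_negPolynomial {R : Type} [CommRing R] (V : Affine R) :
    V.polynomial.comp V.negPolynomial = V.polynomial := by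
  simp only [Affine.polynomial, Affine.negPolynomial, Polynomial.comp, eval₂_add, eval₂_sub,
    eval₂_mul, eval₂_pow, eval₂_C, eval₂_X]
  ring

lemma eval₂_mk_negPolynomial {R : Type} [CommRing R] (V : Affine R) :
    eval₂ (algebraMap (Polynomial R) V.CoordinateRing) (CoordinateRing.mk V V.negPolynomial)
      V.polynomial = 0 := by
  have h := Polynomial.hom_eval₂ V.polynomial (Polynomial.C : R[X] →+* R[X][Y])
    (CoordinateRing.mk V) V.negPolynomial
  have h2 : eval₂ (Polynomial.C : R[X] →+* R[X][Y]) V.negPolynomial V.polynomial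
      = V.polynomial := polynomial_comp_negPolynomial V
  rw [h2] at h
  rw [show algebraMap (Polynomial R) V.CoordinateRing
    = (CoordinateRing.mk V).comp (Polynomial.C : R[X] →+* R[X][Y]) from rfl, ← h]
  exact AdjoinRoot.mk_self

/-- The involution `Y ↦ -Y - a₁ X - a₃` of the coordinate ring. -/
noncomputable def invCoord : (WkE W k).CoordinateRing →+* (WkE W k).CoordinateRing :=
  AdjoinRoot.lift (algebraMap (Polynomial k) (WkE W k).CoordinateRing)
    (CoordinateRing.mk (WkE W k) (WkE W k).negPolynomial) (eval₂_mk_negPolynomial (WkE W k))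

lemma invCoord_mk_C (p : Polynomial k) :
    invCoord W k (CoordinateRing.mk (WkE W k) (Polynomial.C p))
      = CoordinateRing.mk (WkE W k) (Polynomial.C p) := by
  unfold invCoord
  exact AdjoinRoot.lift_of _

lemma invCoord_mk_Y :
    invCoord W k (CoordinateRing.mk (WkE W k) Polynomial.X)
      = CoordinateRing.mk (WkE W k) (WkE W k).negPolynomial := by
  unfold invCoord
  exact AdjoinRoot.lift_root _

lemma invCoord_invCoord (z : (WkE W k).CoordinateRing) : invCoord W k (invCoord W k z) = z := by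
  obtain ⟨p, rfl⟩ := AdjoinRoot.mk_surjective z
  induction p using Polynomial.induction_on' with
  | add p q hp hq => simp only [map_add, hp, hq]
  | monomial n a =>
    rw [← Polynomial.C_mul_X_pow_eq_monomial]
    simp only [map_mul, map_pow, invCoord_mk_C, invCoord_mk_Y]
    congr 2
    simp only [Affine.negPolynomial, map_sub, map_neg, invCoord_mk_C, invCoord_mk_Y]
    ring

lemma invCoord_injective : Function.Injective (invCoord W k) :=
  Function.LeftInverse.injective (invCoord_invCoord W k)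

/-- The involution of `k(E)` over `k(x)`, as a ring homomorphism. -/
noncomputable def invKHom : KE W k →+* KE W k :=
  IsFractionRing.lift (A := (WkE W k).CoordinateRing) (K := (WkE W k).FunctionField)
    (L := KE W k) (g := (ofCoord W k).comp (invCoord W k))
    ((ofCoord_injective W k).comp (invCoord_injective W k))

lemma invKHom_ofCoord (z : (WkE W k).CoordinateRing) :
    invKHom W k (ofCoord W k z) = ofCoord W k (invCoord W k z) :=
  IsFractionRing.lift_algebraMap (A := (WkE W k).CoordinateRing)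
    (K := (WkE W k).FunctionField) (L := KE W k) (g := (ofCoord W k).comp (invCoord W k))
    ((ofCoord_injective W k).comp (invCoord_injective W k)) z

/-- The involution of `k(E)` over `k(x)`, as a `ℤ`-algebra homomorphism. -/
noncomputable def invK : KE W k →ₐ[ℤ] KE W k :=
  (invKHom W k).toIntAlgHom

/-- The involution on points of `W` over `k(E)`. -/
noncomputable def invPt : PtK W (KE W k) →+ PtK W (KE W k) :=
  Point.map (W' := W) (invK W k)

/-- The subgroup `G = {X | ι X = -X}` of `W(k(E))`. -/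
noncomputable def manG : AddSubgroup (PtK W (KE W k)) :=
  (invPt W k + AddMonoidHom.id _).ker

lemma mem_manG_iff (X : PtK W (KE W k)) : X ∈ manG W k ↔ invPt W k X = -X := by
  unfold manG
  rw [AddMonoidHom.mem_ker, AddMonoidHom.add_apply, AddMonoidHom.id_apply,
    add_eq_zero_iff_eq_neg]

/-- The degree of an element of `k(x) ⊆ k(E)` (junk value `0` outside `k(x)`). -/
noncomputable def xdeg (z : KE W k) : ℤ :=
  if h : ∃ r : RatFunc k, kxHom W k r = z then (rdeg h.choose : ℤ) else 0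

/-- The height on `W(k(E))`: the degree of the `x`-coordinate as a rational function of `x`. -/
noncomputable def manH : PtK W (KE W k) → ℤ
  | .zero => 0
  | .some x _ _ => xdeg W k x

/-- The generic point. -/
noncomputable def genPt (h : (W.map (Int.castRingHom (KE W k))).toAffine.Nonsingular
    (xK W k) (yK W k)) : PtK W (KE W k) :=
  Point.some (xK W k) (yK W k) h

end defs

/-! ## The inner cut of [CE-MANIN] -/

section statements

open Fermat.Agent.S13.helper64

/-- Homogeneous numerator of `x(A+B) * x(A-B)` (denominator `oddT ^ 2`). -/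
def prodNum {A : Type*} [CommRing A] (b₄ b₆ b₈ X₁ Z₁ X₂ Z₂ : A) : A :=
  X₁ ^ 2 * X₂ ^ 2 - b₄ * X₁ * X₂ * Z₁ * Z₂ - b₆ * Z₁ * Z₂ * (X₁ * Z₂ + X₂ * Z₁)
    - b₈ * Z₁ ^ 2 * Z₂ ^ 2

/-- **[MAN-KX]** the structure of `k(E)` over `k(x)`. -/
structure IsKX (W : WeierstrassCurve ℤ) (k : Type) [Field k] : Prop where
  inj : Function.Injective (kxHom W k)
  kx_C : ∀ c : k, kxHom W k (RatFunc.C c) = algebraMap k (KE W k) c
  kx_X : kxHom W k RatFunc.X = xK W k
  inv_kx : ∀ r : RatFunc k, invK W k (kxHom W k r) = kxHom W k r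
  inv_y : invK W k (yK W k) =
    (W.map (Int.castRingHom (KE W k))).toAffine.negY (xK W k) (yK W k)
  fixed : ∀ z : KE W k, invK W k z = z → ∃ r : RatFunc k, kxHom W k r = z
  decomp : ∀ z : KE W k, ∃ a b : RatFunc k, z = kxHom W k a + kxHom W k b * yK W k
  gen : (W.map (Int.castRingHom (KE W k))).toAffine.Nonsingular (xK W k) (yK W k)

/-- **[MAN-KX]** -/
def KXStatement : Prop :=
  ∀ (W : WeierstrassCurve ℤ) (k : Type) [Field k], (WkE W k).Δ ≠ 0 → IsKX W k

/-- **[DEG-COMP]** (Mathlib only; Lüroth degree formula `RatFunc.finrank_eq_max_natDegree` +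
tower law): the degree of a composition of rational functions is multiplicative. -/
def RdegCompStatement : Prop :=
  ∀ (k : Type) [Field k] (σ : RatFunc k →ₐ[k] RatFunc k) (f : RatFunc k),
    rdeg (σ f) = rdeg f * rdeg (σ RatFunc.X)

/-- **[DEG-BIQ]** (Mathlib only; Gauss lemma in `k[X][T]`): if `s + t` and `s * t` are given by
the biquadratic forms in `r₁, r₂` then `deg s + deg t ≤ 2 deg r₁ + 2 deg r₂`. -/
def RdegBiqStatement : Prop :=
  ∀ (k : Type) [Field k] (V : WeierstrassCurve k) (r₁ r₂ s t : RatFunc k), r₁ ≠ r₂ →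
    (s + t) * (r₁ - r₂) ^ 2 =
      sumNum (RatFunc.C V.b₂) (RatFunc.C V.b₄) (RatFunc.C V.b₆) r₁ 1 r₂ 1 →
    s * t * (r₁ - r₂) ^ 2 =
      prodNum (RatFunc.C V.b₄) (RatFunc.C V.b₆) (RatFunc.C V.b₈) r₁ 1 r₂ 1 →
    rdeg s + rdeg t ≤ 2 * rdeg r₁ + 2 * rdeg r₂

/-- **[DEG-DUP]** (Mathlib only; `helper64.bezout_dbl`): the duplication formula has exact
degree `4` when `Δ ≠ 0`. -/
def RdegDupStatement : Prop :=
  ∀ (k : Type) [Field k] (V : WeierstrassCurve k), V.Δ ≠ 0 → ∀ r s : RatFunc k,
    dblZ (RatFunc.C V.b₂) (RatFunc.C V.b₄) (RatFunc.C V.b₆) r 1 ≠ 0 →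
    s * dblZ (RatFunc.C V.b₂) (RatFunc.C V.b₄) (RatFunc.C V.b₆) r 1 =
      dblX (RatFunc.C V.b₄) (RatFunc.C V.b₆) (RatFunc.C V.b₈) r 1 →
    rdeg s = 4 * rdeg r

/-- **[PAR-UB]** the upper bound in the parallelogram law. -/
def UBStatement : Prop :=
  ∀ (W : WeierstrassCurve ℤ) (k : Type) [Field k], (WkE W k).Δ ≠ 0 →
    ∀ P ∈ manG W k, ∀ Q ∈ manG W k, P ≠ 0 → Q ≠ 0 → P ≠ Q → P ≠ -Q →
      manH W k (P + Q) + manH W k (P - Q) ≤ 2 * manH W k P + 2 * manH W k Q

/-- **[PAR-DUP]** `h (2 X) = 4 h X` on `G`. -/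
def DupStatement : Prop :=
  ∀ (W : WeierstrassCurve ℤ) (k : Type) [Field k], (WkE W k).Δ ≠ 0 →
    ∀ X ∈ manG W k, manH W k (X + X) = 4 * manH W k X

/-- **[PAR-NEG]** `h (-X) = h X`. -/
def NegStatement : Prop :=
  ∀ (W : WeierstrassCurve ℤ) (k : Type) [Field k] (X : PtK W (KE W k)),
    manH W k (-X) = manH W k X

/-- **[MAN-PAR]** the parallelogram law on `G`. -/
def ParStatement : Prop :=
  ∀ (W : WeierstrassCurve ℤ) (k : Type) [Field k], (WkE W k).Δ ≠ 0 →
    ∀ P ∈ manG W k, ∀ Q ∈ manG W k,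
      manH W k (P + Q) + manH W k (P - Q) = 2 * manH W k P + 2 * manH W k Q

/-- **[MAN-GEN]** the generic point lies in `G` and has height `1`. -/
def GenStatement : Prop :=
  ∀ (W : WeierstrassCurve ℤ) (k : Type) [Field k], (WkE W k).Δ ≠ 0 →
    ∃ P₀ : PtK W (KE W k), IsGenericPt W k P₀ ∧ P₀ ∈ manG W k ∧ manH W k P₀ = 1

/-- **[MAN-FROB]** Frobenius preserves `G` and multiplies the height by `ℓ`. -/
def FrobStatement : Prop :=
  ∀ (W : WeierstrassCurve ℤ) (ℓ : ℕ) [Fact ℓ.Prime] (k : Type) [Field k] [CharP k ℓ],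
    (WkE W k).Δ ≠ 0 → ∀ X ∈ manG W k,
      frobKPt W k ℓ X ∈ manG W k ∧ manH W k (frobKPt W k ℓ X) = ℓ * manH W k X

/-- **[MAN-CNT]** Manin's count: `deg x(Φ P₀ - P₀) = #W(𝔽_ℓ)`. -/
def CntStatement : Prop :=
  ∀ (W : WeierstrassCurve ℤ) (ℓ : ℕ) [Fact ℓ.Prime], W.IsGoodPrimeFor ℓ →
    ∀ (k : Type) [Field k] [CharP k ℓ] (P₀ : PtK W (KE W k)), IsGenericPt W k P₀ →
      manH W k (frobKPt W k ℓ P₀ - P₀) = Nat.card (W.reductionMod ℓ).toAffine.Point

/-- **[MAN-MUL]** multiplicativity `h ((Φ - 1)(Φ + 1) P₀) = h ((Φ - 1) P₀) h ((Φ + 1) P₀)`. -/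
def MulStatement : Prop :=
  ∀ (W : WeierstrassCurve ℤ) (ℓ : ℕ) [Fact ℓ.Prime], W.IsGoodPrimeFor ℓ →
    ∀ (k : Type) [Field k] [CharP k ℓ] (P₀ : PtK W (KE W k)), IsGenericPt W k P₀ →
      manH W k (frobKPt W k ℓ (frobKPt W k ℓ P₀) - P₀) =
        manH W k (frobKPt W k ℓ P₀ - P₀) * manH W k (frobKPt W k ℓ P₀ + P₀)

/-- **[MAN-CONST]** points of `G` of height `0` are constant. -/
def ConstStatement : Prop :=
  ∀ (W : WeierstrassCurve ℤ) (k : Type) [Field k] [IsAlgClosed k], (WkE W k).Δ ≠ 0 →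
    ∀ X ∈ manG W k, manH W k X = 0 → ∃ Q : PtK W k, X = constPt W k Q

end statements

/-! ## Assembly -/

section assembly

/-- **[PAR-ALG]** the parallelogram law from the upper bound and the duplication formula. -/
theorem par_of_ub_dup {A : Type*} [AddCommGroup A] (G : AddSubgroup A) (h : A → ℤ)
    (h0 : h 0 = 0) (hneg : ∀ P : A, h (-P) = h P)
    (hub : ∀ P ∈ G, ∀ Q ∈ G, P ≠ 0 → Q ≠ 0 → P ≠ Q → P ≠ -Q →
      h (P + Q) + h (P - Q) ≤ 2 * h P + 2 * h Q)
    (hdup : ∀ P ∈ G, h (P + P) = 4 * h P) :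
    ∀ P ∈ G, ∀ Q ∈ G, h (P + Q) + h (P - Q) = 2 * h P + 2 * h Q := by
  intro P hP Q hQ
  by_cases hP0 : P = 0
  · subst hP0
    rw [zero_add, zero_sub, hneg, h0]; ring
  by_cases hQ0 : Q = 0
  · subst hQ0
    rw [add_zero, sub_zero, h0]; ring
  by_cases hPQ : P = Q
  · subst hPQ
    rw [sub_self, h0, hdup P hP]; ring
  by_cases hPQ' : P = -Q
  · subst hPQ'
    rw [neg_add_cancel, h0, show -Q - Q = -(Q + Q) by abel, hneg, hdup Q hQ, hneg]; ring
  have hle := hub P hP Q hQ hP0 hQ0 hPQ hPQ'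
  apply le_antisymm hle
  have hPQm : P + Q ∈ G := G.add_mem hP hQ
  have hPQs : P - Q ∈ G := G.sub_mem hP hQ
  have hs0 : P + Q ≠ 0 := fun e => hPQ' (eq_neg_of_add_eq_zero_left e)
  have hd0 : P - Q ≠ 0 := fun e => hPQ (sub_eq_zero.mp e)
  by_cases h2Q : Q + Q = 0
  · -- `2 Q = 0`, so `h Q = 0` and `P - Q = P + Q`
    have hQz : h Q = 0 := by
      have := hdup Q hQ
      rw [h2Q, h0] at this
      linarith
    have e1 : P - Q = P + Q := by
      rw [sub_eq_add_neg]; congr 1; exact (eq_neg_of_add_eq_zero_left h2Q).symm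
    have hne1 : P + Q ≠ Q := fun e => hP0 (by simpa using e)
    have hne2 : P + Q ≠ -Q := fun e => hP0 (by
      have : P + (Q + Q) = 0 := by rw [← add_assoc, e, neg_add_cancel]
      rwa [h2Q, add_zero] at this)
    have := hub (P + Q) hPQm Q hQ hs0 hQ0 hne1 hne2
    rw [add_assoc, h2Q, add_zero, add_sub_cancel_right, hQz] at this
    rw [e1, hQz]
    linarith
  by_cases h2P : P + P = 0
  · have hPz : h P = 0 := by
      have := hdup P hP
      rw [h2P, h0] at this
      linarith
    have e1 : P - Q = -(P + Q) := by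
      have : P = -P := eq_neg_of_add_eq_zero_left h2P
      rw [neg_add, ← this, sub_eq_add_neg]
    have hne1 : P + Q ≠ P := fun e => hQ0 (by simpa using e)
    have hne2 : P + Q ≠ -P := fun e => hQ0 (by
      have : (P + P) + Q = 0 := by rw [add_assoc, e, add_neg_cancel]
      rwa [h2P, zero_add] at this)
    have := hub (P + Q) hPQm P hP hs0 hP0 hne1 hne2
    rw [show P + Q + P = (P + P) + Q by abel, h2P, zero_add, add_sub_cancel_left, hPz] at this
    rw [e1, hneg, hPz]
    linarith
  -- generic case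
  have hne1 : P + Q ≠ P - Q := fun e => h2Q (by
    have : Q = -Q := by
      have := congrArg (fun z => z - P) e
      simpa [sub_eq_add_neg, add_comm, add_left_comm, add_assoc] using this
    calc Q + Q = Q + -Q := by rw [← this]
      _ = 0 := add_neg_cancel Q)
  have hne2 : P + Q ≠ -(P - Q) := fun e => h2P (by
    have : P + P = (P + Q) + (P - Q) := by abel
    rw [this, e, neg_add_cancel])
  have := hub (P + Q) hPQm (P - Q) hPQs hs0 hd0 hne1 hne2
  rw [show P + Q + (P - Q) = P + P by abel, show P + Q - (P - Q) = Q + Q by abel,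
    hdup P hP, hdup Q hQ] at this
  linarith


lemma manH_zero (W : WeierstrassCurve ℤ) (k : Type) [Field k] :
    manH W k (0 : PtK W (KE W k)) = 0 := rfl

/-- **[MAN-PAR]** from [PAR-UB], [PAR-DUP], [PAR-NEG]. -/
theorem par_of_parts (hUB : UBStatement) (hDup : DupStatement) (hNeg : NegStatement) :
    ParStatement := by
  intro W k _ hΔ
  exact par_of_ub_dup (manG W k) (manH W k) (manH_zero W k) (hNeg W k) (hUB W k hΔ)
    (hDup W k hΔ)

lemma delta_ne_zero_of_good (W : WeierstrassCurve ℤ) (ℓ : ℕ) [Fact ℓ.Prime]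
    (hgood : W.IsGoodPrimeFor ℓ) (k : Type) [Field k] [CharP k ℓ] : (WkE W k).Δ ≠ 0 := by
  change (W.map (Int.castRingHom k)).Δ ≠ 0
  rw [WeierstrassCurve.map_Δ]
  intro h
  apply hgood
  have h2 : ((W.Δ : ℤ) : k) = 0 := h
  exact (CharP.intCast_eq_zero_iff k ℓ W.Δ).mp h2

/-- **[MAN-ASM]** the Manin package from its parts. -/
theorem manin_of_parts (hGen : GenStatement) (hFrob : FrobStatement) (hPar : ParStatement)
    (hCnt : CntStatement) (hMul : MulStatement) (hConst : ConstStatement) :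
    ManinStatement := by
  intro W ℓ _ hgood k _ _ _
  have hΔ := delta_ne_zero_of_good W ℓ hgood k
  obtain ⟨P₀, hgen, hmem, h1⟩ := hGen W k hΔ
  refine ⟨manG W k, P₀, manH W k, ?_⟩
  exact
    { isGeneric := hgen
      mem_P₀ := hmem
      mem_frob := fun X hX => (hFrob W ℓ k hΔ X hX).1
      par := hPar W k hΔ
      h_frob := fun X hX => (hFrob W ℓ k hΔ X hX).2
      h_P₀ := h1
      h_count := hCnt W ℓ hgood k P₀ hgen
      h_mul := hMul W ℓ hgood k P₀ hgen
      const_of_h_eq_zero := hConst W k hΔ }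

end assembly

end Fermat.Agent.P7.helper92
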