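import Fermat.Agent.P7.helper52_CEFinal
import Fermat.Agent.P7.helper92_ManinDefs

/-!
# P7 / S52, module CE: the `IsAlgClosed` cut of [MAN-MUL] and the final wiring (helper52)

`helper92.MulStatement` quantifies over ALL fields `k` of characteristic `ℓ`, but the
substitution endomorphisms are only available for algebraically closed constants (`substAC`).
`ManinStatement` and `CEStatement` only use algebraically closed `k`, so the cut is repeated here
with `[IsAlgClosed k]`:

* `MulACStatement` : [MAN-MUL] for algebraically closed `k`;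
* `mulAC_of_mul : helper92.MulStatement → MulACStatement`;
* `manin_of_parts_ac` : the assembly `helper92.manin_of_parts` with `MulACStatement`;
* `ceStatement_of_parts` : `CEStatement` from the six parts.
-/

set_option autoImplicit false

open WeierstrassCurve WeierstrassCurve.Affine
open scoped WeierstrassCurve.Affine Classical

namespace Fermat.Agent.P7.helper52

open Fermat.Agent.P6.helper78 Fermat.Agent.P7.helper92

/-- **[MAN-MUL]**, algebraically closed constants:
`h ((Φ - 1)(Φ + 1) P₀) = h ((Φ - 1) P₀) h ((Φ + 1) P₀)`. -/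
def MulACStatement : Prop :=
  ∀ (W : WeierstrassCurve ℤ) (ℓ : ℕ) [Fact ℓ.Prime], W.IsGoodPrimeFor ℓ →
    ∀ (k : Type) [Field k] [CharP k ℓ] [IsAlgClosed k] (P₀ : PtK W (KE W k)),
      IsGenericPt W k P₀ →
      manH W k (frobKPt W k ℓ (frobKPt W k ℓ P₀) - P₀) =
        manH W k (frobKPt W k ℓ P₀ - P₀) * manH W k (frobKPt W k ℓ P₀ + P₀)

theorem mulAC_of_mul (h : MulStatement) : MulACStatement :=
  fun W ℓ _ hgood k _ _ _ P₀ hP₀ => h W ℓ hgood k P₀ hP₀

/-- **[MAN-ASM]** the Manin package from its parts, with [MAN-MUL] only for algebraically closed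
constants. -/
theorem manin_of_parts_ac (hGen : GenStatement) (hFrob : FrobStatement) (hPar : ParStatement)
    (hCnt : helper92.CntStatement) (hMul : MulACStatement) (hConst : ConstStatement) :
    ManinStatement := by
  intro W ℓ _ hgood k _ _ _
  have hΔ := delta_ne_zero_of_good W ℓ hgood k
  obtain ⟨P₀, hgen, hmem, h1⟩ := hGen W k hΔ
  refine ⟨manG W k, P₀, manH W k, ?_⟩
  exact
    { isGeneric := hgen
      mem_P₀ := hmem
      mem_frob := fun X hX => (hFrob W ℓ k hΔ X hX).1
      par := hPar W k hΔ
      h_frob := fun X hX => (hFrob W ℓ k hΔ X hX).2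
      h_P₀ := h1
      h_count := hCnt W ℓ hgood k P₀ hgen
      h_mul := hMul W ℓ hgood k P₀ hgen
      const_of_h_eq_zero := hConst W k hΔ }

/-- **[CE-FIN]** from the six parts of the Manin package. -/
theorem ceStatement_of_parts (hGen : GenStatement) (hFrob : FrobStatement) (hPar : ParStatement)
    (hCnt : helper92.CntStatement) (hMul : MulACStatement) (hConst : ConstStatement) :
    CEStatement :=
  ceStatement_of_manin (manin_of_parts_ac hGen hFrob hPar hCnt hMul hConst)

end Fermat.Agent.P7.helper52
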