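/-
P7 / S52, package [LOC3], part 2 (helper59): existence of node coordinates for a Weierstrass
curve with multiplicative reduction (odd residue characteristic), over an algebraically closed
valued field, and two valuation computations in node coordinates.
-/
import Mathlib.Algebra.CubicDiscriminant
import Mathlib.FieldTheory.IsAlgClosed.Basic
import Fermat.Agent.S05.helper7_Sawtooth

set_option autoImplicit false
set_option linter.unusedSimpArgs false
set_option linter.unusedVariables false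
set_option linter.unusedSectionVars false

namespace Fermat.Agent.P7.helper59

open WeierstrassCurve Fermat.Agent.S05.helper7

variable {K : Type*} [Field K] {Γ₀ : Type*} [LinearOrderedCommGroupWithZero Γ₀]
  (v : Valuation K Γ₀) (W : WeierstrassCurve K)

lemma ns_v_two_le_one : v (2 : K) ≤ 1 := by
  have h : (2 : K) = 1 + 1 := by norm_num
  rw [h]
  exact le_trans (Valuation.map_add _ _ _) (by simp)

lemma ns_v_four (h2 : v (2 : K) = 1) : v (4 : K) = 1 := by
  have h : (4 : K) = 2 * 2 := by norm_num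
  rw [h, map_mul, h2, one_mul]

lemma ns_v_three_le_one : v (3 : K) ≤ 1 := by
  have h : (3 : K) = 2 + 1 := by norm_num
  rw [h]
  exact le_trans (Valuation.map_add _ _ _) (max_le (ns_v_two_le_one v) (by simp))

lemma ns_v_twelve_le_one : v (12 : K) ≤ 1 := by
  have h : (12 : K) = 2 * 2 * 3 := by norm_num
  rw [h, map_mul, map_mul]
  exact mul_le_one' (mul_le_one' (ns_v_two_le_one v) (ns_v_two_le_one v)) (ns_v_three_le_one v)

/-- The roots of the `2`-division cubic of an integral curve are integral (`|4| = 1`). -/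
lemma v_le_one_of_twoTorsion_root (h2 : v (2 : K) = 1) (hb₂ : v W.b₂ ≤ 1) (hb₄ : v W.b₄ ≤ 1)
    (hb₆ : v W.b₆ ≤ 1) {x : K}
    (hx : 4 * x ^ 3 + W.b₂ * x ^ 2 + 2 * W.b₄ * x + W.b₆ = 0) : v x ≤ 1 := by
  by_contra hcon
  rw [not_le] at hcon
  have hpos : 0 < v x := lt_trans zero_lt_one hcon
  have e1 : 4 * x ^ 3 = -(W.b₂ * x ^ 2 + 2 * W.b₄ * x + W.b₆) := by linear_combination hx
  have h3 : v (4 * x ^ 3) = v x ^ 3 := by rw [map_mul, ns_v_four v h2, one_mul, map_pow]
  have hx1 : v x ≤ v x ^ 2 := by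
    rw [pow_two]
    calc v x = 1 * v x := (one_mul _).symm
      _ ≤ v x * v x := mul_le_mul_left hcon.le _
  have hle : v (-(W.b₂ * x ^ 2 + 2 * W.b₄ * x + W.b₆)) ≤ v x ^ 2 := by
    rw [Valuation.map_neg]
    refine le_trans (Valuation.map_add _ _ _) (max_le ?_ ?_)
    · refine le_trans (Valuation.map_add _ _ _) (max_le ?_ ?_)
      · rw [map_mul, map_pow]
        calc v W.b₂ * v x ^ 2 ≤ 1 * v x ^ 2 := mul_le_mul_left hb₂ _
          _ = v x ^ 2 := one_mul _
      · rw [map_mul, map_mul]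
        calc v 2 * v W.b₄ * v x ≤ 1 * v x :=
              mul_le_mul_left (mul_le_one' (ns_v_two_le_one v) hb₄) _
          _ = v x := one_mul _
          _ ≤ v x ^ 2 := hx1
    · exact le_trans hb₆ (le_trans hcon.le hx1)
  rw [← e1, h3] at hle
  have : v x ^ 2 < v x ^ 3 := by
    rw [pow_succ (v x) 2]
    calc v x ^ 2 = v x ^ 2 * 1 := (mul_one _).symm
      _ < v x ^ 2 * v x := mul_lt_mul_of_pos_left hcon (pow_pos hpos 2)
  exact absurd hle (not_le.mpr this)

/-- Node coordinates from two close roots of the `2`-division cubic. -/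
lemma nodeModel_of_close (h2 : v (2 : K) = 1) (hc₄ : v W.c₄ = 1) {x y z : K}
    (hb : W.b₂ = 4 * -(x + y + z)) (hc : 2 * W.b₄ = 4 * (x * y + x * z + y * z))
    (hd : W.b₆ = 4 * -(x * y * z)) (hx : v x ≤ 1) (hy : v y ≤ 1) (hz : v z ≤ 1)
    (hxy : v (x - y) < 1) :
    ∃ e C1 C2 : K, NodeModel W e C1 C2 ∧ NodeVal v C1 C2 ∧ v e ≤ 1 := by
  refine ⟨x, 12 * x ^ 2 + 2 * W.b₂ * x + 2 * W.b₄, W.b₂ + 12 * x, ⟨rfl, rfl, ?_⟩, ⟨h2, ?_, ?_⟩, hx⟩
  · rw [hb, hd]
    linear_combination x * hc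
  · -- `C2 ^ 2 = c₄ + 12 C1`
    have hC1 : v (12 * x ^ 2 + 2 * W.b₂ * x + 2 * W.b₄) < 1 := by
      have e1 : 12 * x ^ 2 + 2 * W.b₂ * x + 2 * W.b₄ = 4 * ((x - y) * (x - z)) := by
        rw [hb]
        linear_combination hc
      rw [e1, map_mul, ns_v_four v h2, one_mul, map_mul]
      have hxz : v (x - z) ≤ 1 := le_trans (Valuation.map_sub _ _ _) (max_le hx hz)
      calc v (x - y) * v (x - z) ≤ v (x - y) * 1 := mul_le_mul_right hxz _
        _ = v (x - y) := mul_one _
        _ < 1 := hxy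
    have e2 : (W.b₂ + 12 * x) ^ 2 =
        W.c₄ + 12 * (12 * x ^ 2 + 2 * W.b₂ * x + 2 * W.b₄) := by
      rw [WeierstrassCurve.c₄]
      ring
    have h12 : v (12 * (12 * x ^ 2 + 2 * W.b₂ * x + 2 * W.b₄)) < 1 := by
      rw [map_mul]
      calc v 12 * v (12 * x ^ 2 + 2 * W.b₂ * x + 2 * W.b₄)
          ≤ 1 * v (12 * x ^ 2 + 2 * W.b₂ * x + 2 * W.b₄) :=
            mul_le_mul_left (ns_v_twelve_le_one v) _
        _ = v (12 * x ^ 2 + 2 * W.b₂ * x + 2 * W.b₄) := one_mul _
        _ < 1 := hC1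
    have h3 : v ((W.b₂ + 12 * x) ^ 2) = 1 := by
      rw [e2, Valuation.map_add_eq_of_lt_left v (by rw [hc₄]; exact h12), hc₄]
    rw [map_pow] at h3
    exact (pow_eq_one_iff_of_nonneg zero_le two_ne_zero).mp h3
  · have e1 : 12 * x ^ 2 + 2 * W.b₂ * x + 2 * W.b₄ = 4 * ((x - y) * (x - z)) := by
      rw [hb]
      linear_combination hc
    rw [e1, map_mul, ns_v_four v h2, one_mul, map_mul]
    have hxz : v (x - z) ≤ 1 := le_trans (Valuation.map_sub _ _ _) (max_le hx hz)
    calc v (x - y) * v (x - z) ≤ v (x - y) * 1 := mul_le_mul_right hxz _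
      _ = v (x - y) := mul_one _
      _ < 1 := hxy

/-- **Existence of node coordinates**: an integral Weierstrass curve over an algebraically
closed valued field with `|2| = 1`, `|Δ| < 1`, `|c₄| = 1` has a root `e` of its `2`-division
cubic with `|F'(e)| < 1` and `|b₂ + 12 e| = 1`. -/
theorem exists_nodeModel [IsAlgClosed K] (h2 : v (2 : K) = 1) (hb₂ : v W.b₂ ≤ 1)
    (hb₄ : v W.b₄ ≤ 1) (hb₆ : v W.b₆ ≤ 1) (hΔ : v W.Δ < 1) (hc₄ : v W.c₄ = 1) :
    ∃ e C1 C2 : K, NodeModel W e C1 C2 ∧ NodeVal v C1 C2 ∧ v e ≤ 1 := by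
  have h4 : (4 : K) ≠ 0 := by
    rw [← Valuation.ne_zero_iff v, ns_v_four v h2]
    exact one_ne_zero
  have ha : W.twoTorsionPolynomial.a ≠ 0 := h4
  have hsplit : (Polynomial.map (RingHom.id K) W.twoTorsionPolynomial.toPoly).Splits :=
    IsAlgClosed.splits _
  obtain ⟨x, y, z, h3⟩ := (Cubic.splits_iff_roots_eq_three ha).mp hsplit
  have hb := Cubic.b_eq_three_roots ha h3
  have hc := Cubic.c_eq_three_roots ha h3
  have hd := Cubic.d_eq_three_roots ha h3
  have hdisc := Cubic.discr_eq_prod_three_roots ha h3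
  rw [twoTorsionPolynomial_discr] at hdisc
  simp only [RingHom.id_apply, twoTorsionPolynomial] at hb hc hd hdisc
  have rx : 4 * x ^ 3 + W.b₂ * x ^ 2 + 2 * W.b₄ * x + W.b₆ = 0 := by
    rw [hb, hc, hd]; ring
  have ry : 4 * y ^ 3 + W.b₂ * y ^ 2 + 2 * W.b₄ * y + W.b₆ = 0 := by
    rw [hb, hc, hd]; ring
  have rz : 4 * z ^ 3 + W.b₂ * z ^ 2 + 2 * W.b₄ * z + W.b₆ = 0 := by
    rw [hb, hc, hd]; ring
  have hx := v_le_one_of_twoTorsion_root v W h2 hb₂ hb₄ hb₆ rx
  have hy := v_le_one_of_twoTorsion_root v W h2 hb₂ hb₄ hb₆ ry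
  have hz := v_le_one_of_twoTorsion_root v W h2 hb₂ hb₄ hb₆ rz
  -- one of the differences is small
  have hprod : v (x - y) * v (x - z) * v (y - z) < 1 := by
    have e1 : W.Δ = 16 * ((x - y) * (x - z) * (y - z)) ^ 2 := by
      have h16 : (16 : K) ≠ 0 := by
        have : (16 : K) = 4 * 4 := by norm_num
        rw [this]
        exact mul_ne_zero h4 h4
      apply mul_left_cancel₀ h16
      rw [hdisc]
      ring
    have h16 : v (16 : K) = 1 := by
      have : (16 : K) = 4 * 4 := by norm_num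
      rw [this, map_mul, ns_v_four v h2, one_mul]
    rw [e1, map_mul, h16, one_mul, map_pow, map_mul, map_mul] at hΔ
    by_contra hcon
    rw [not_lt] at hcon
    have := one_le_pow₀ hcon (n := 2)
    exact absurd hΔ (not_lt.mpr this)
  have hxy1 : v (x - y) ≤ 1 := le_trans (Valuation.map_sub _ _ _) (max_le hx hy)
  have hxz1 : v (x - z) ≤ 1 := le_trans (Valuation.map_sub _ _ _) (max_le hx hz)
  have hyz1 : v (y - z) ≤ 1 := le_trans (Valuation.map_sub _ _ _) (max_le hy hz)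
  by_cases c1 : v (x - y) < 1
  · exact nodeModel_of_close v W h2 hc₄ hb hc hd hx hy hz c1
  by_cases c2 : v (x - z) < 1
  · refine nodeModel_of_close v W h2 hc₄ (x := x) (y := z) (z := y) ?_ ?_ ?_ hx hz hy c2
    · rw [hb]; ring
    · rw [hc]; ring
    · rw [hd]; ring
  by_cases c3 : v (y - z) < 1
  · refine nodeModel_of_close v W h2 hc₄ (x := y) (y := z) (z := x) ?_ ?_ ?_ hy hz hx c3
    · rw [hb]; ring
    · rw [hc]; ring
    · rw [hd]; ring
  exfalso
  have e1 : v (x - y) = 1 := le_antisymm hxy1 (not_lt.mp c1)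
  have e2 : v (x - z) = 1 := le_antisymm hxz1 (not_lt.mp c2)
  have e3 : v (y - z) = 1 := le_antisymm hyz1 (not_lt.mp c3)
  rw [e1, e2, e3] at hprod
  simp at hprod

variable {v W} {e C1 C2 : K}

/-- Another root of the `2`-division cubic which is congruent to `e` differs from `e` by at
most `|C1|`. -/
lemma v_root_sub_le (hm : NodeModel W e C1 C2) (hv : NodeVal v C1 C2) {e' : K}
    (he' : 4 * e' ^ 3 + W.b₂ * e' ^ 2 + 2 * W.b₄ * e' + W.b₆ = 0) (hclose : v (e' - e) < 1) :
    v (e' - e) ≤ v C1 := by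
  by_cases hδ : e' - e = 0
  · rw [hδ, map_zero]
    exact zero_le
  have key : (e' - e) * (C1 + (C2 * (e' - e) + 4 * (e' - e) ^ 2)) = 0 := by
    rw [hm.hC1, hm.hC2]
    linear_combination he' - hm.he
  have h0 : C1 + (C2 * (e' - e) + 4 * (e' - e) ^ 2) = 0 :=
    (mul_eq_zero.mp key).resolve_left hδ
  have hC1 : C1 = -((e' - e) * (C2 + 4 * (e' - e))) := by linear_combination h0
  have h4δ : v (4 * (e' - e)) < 1 := by
    rw [map_mul, hv.v4, one_mul]
    exact hclose
  have hunit : v (C2 + 4 * (e' - e)) = 1 := by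
    rw [Valuation.map_add_eq_of_lt_left v (by rw [hv.vC2]; exact h4δ), hv.vC2]
  rw [hC1, Valuation.map_neg, map_mul, hunit, mul_one]

/-- A point whose `x`-coordinate does not reduce to the node has nonsingular reduction. -/
lemma v_polynomial_eq_one_of_not_node [DecidableEq K] (hm : NodeModel W e C1 C2)
    (hv : NodeVal v C1 C2) (ha₁ : v W.a₁ ≤ 1) {x y : K} (h : W.toAffine.Equation x y)
    (hX : v (x - e) = 1) (hM : v (2 * y + W.a₁ * x + W.a₃) ≤ 1) :
    v (W.toAffine.polynomialX.evalEval x y) = 1 ∨ v (W.toAffine.polynomialY.evalEval x y) = 1 := by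
  rw [Affine.evalEval_polynomialX, Affine.evalEval_polynomialY]
  by_cases hM1 : v (2 * y + W.a₁ * x + W.a₃) = 1
  · exact Or.inr hM1
  left
  have hMlt : v (2 * y + W.a₁ * x + W.a₃) < 1 := lt_of_le_of_ne hM hM1
  have heq := hm.equation h
  simp only [nM, nX] at heq
  -- `M ^ 2 = X * (4 X ^ 2 + C2 X + C1)`
  have hq : v (4 * (x - e) ^ 2 + C2 * (x - e) + C1) < 1 := by
    have e1 : (2 * y + W.a₁ * x + W.a₃) ^ 2 =
        (x - e) * (4 * (x - e) ^ 2 + C2 * (x - e) + C1) := by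
      rw [heq]; ring
    have := congrArg v e1
    rw [map_pow, map_mul, hX, one_mul] at this
    rw [← this]
    exact pow_lt_one₀ zero_le hMlt two_ne_zero
  have hC1 := hv.vC1
  have e4 : 4 * (W.a₁ * y - (3 * x ^ 2 + 2 * W.a₂ * x + W.a₄)) =
      C2 * (x - e) + (2 * W.a₁ * (2 * y + W.a₁ * x + W.a₃) -
        3 * (4 * (x - e) ^ 2 + C2 * (x - e) + C1) + 2 * C1) := by
    rw [hm.hC1, hm.hC2]
    simp only [WeierstrassCurve.b₂, WeierstrassCurve.b₄]
    ring
  have hsmall : v (2 * W.a₁ * (2 * y + W.a₁ * x + W.a₃) -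
        3 * (4 * (x - e) ^ 2 + C2 * (x - e) + C1) + 2 * C1) < 1 := by
    refine lt_of_le_of_lt (Valuation.map_add _ _ _) (max_lt ?_ ?_)
    · refine lt_of_le_of_lt (Valuation.map_sub _ _ _) (max_lt ?_ ?_)
      · rw [map_mul, map_mul, hv.v2, one_mul]
        calc v W.a₁ * v (2 * y + W.a₁ * x + W.a₃) ≤ 1 * v (2 * y + W.a₁ * x + W.a₃) :=
              mul_le_mul_left ha₁ _
          _ = v (2 * y + W.a₁ * x + W.a₃) := one_mul _
          _ < 1 := hMlt
      · rw [map_mul]
        calc v 3 * v (4 * (x - e) ^ 2 + C2 * (x - e) + C1)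
            ≤ 1 * v (4 * (x - e) ^ 2 + C2 * (x - e) + C1) :=
              mul_le_mul_left (ns_v_three_le_one v) _
          _ = v (4 * (x - e) ^ 2 + C2 * (x - e) + C1) := one_mul _
          _ < 1 := hq
    · rw [map_mul, hv.v2, one_mul]
      exact hC1
  have hmain : v (C2 * (x - e)) = 1 := by rw [map_mul, hv.vC2, hX, one_mul]
  have := congrArg v e4
  rw [map_mul, hv.v4, one_mul,
    Valuation.map_add_eq_of_lt_left v (by rw [hmain]; exact hsmall), hmain] at this
  exact this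

end Fermat.Agent.P7.helper59
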