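import Mathlib
import Fermat.Agent.P7.helper92_ManinDefs

/-!
# P7 / S52, CE-MANIN, leaf [DEG-BIQ] (helper60, second prover): `RdegBiqStatement`

If `s + t` and `s * t` are given by the biquadratic forms in `r₁, r₂`, then
`rdeg s + rdeg t ≤ 2 rdeg r₁ + 2 rdeg r₂`.  Gauss lemma by hand: coprime cancellation
in `k[X]` and a top-coefficient argument.
-/

set_option autoImplicit false

open Polynomial

namespace Fermat.Agent.P7.helper60

open Fermat.Agent.S13.helper64 (sumNum)
open Fermat.Agent.P7.helper92 (rdeg prodNum RdegBiqStatement)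

variable {k : Type} [Field k]

/-- cancellation: `b ∣ a * x`, `a` and `b` coprime. -/
theorem dvd_of_coprime_mul {a b x : k[X]} (hab : IsCoprime a b) (h : b ∣ a * x) : b ∣ x :=
  hab.symm.dvd_of_dvd_mul_left h

/-- if `b` divides `c * x` and `d * x` with `c`, `d` coprime then `b ∣ x`. -/
theorem dvd_of_coprime_pair {b c d x : k[X]} (hcd : IsCoprime c d) (h1 : b ∣ c * x)
    (h2 : b ∣ d * x) : b ∣ x := by
  obtain ⟨u, v, huv⟩ := hcd
  have : x = u * (c * x) + v * (d * x) := by
    linear_combination (-x) * huv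
  rw [this]
  exact dvd_add (Dvd.dvd.mul_left h1 u) (Dvd.dvd.mul_left h2 v)

/-- **Gauss lemma, divisibility part**: the coefficient vector `(b d, a d + b c, a c)` of
`(b T - a)(d T - c)` is primitive, so a proportional polynomial vector `(W, U, V)` is a
polynomial multiple of it. -/
theorem exists_factor_of_prop (a b c d W U V : k[X]) (hab : IsCoprime a b)
    (hcd : IsCoprime c d) (hb : b ≠ 0) (hd : d ≠ 0)
    (h1 : (a * d + b * c) * W = U * (b * d)) (h2 : a * c * W = V * (b * d)) :
    ∃ g : k[X], W = g * (b * d) ∧ U = g * (a * d + b * c) ∧ V = g * (a * c) := by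
  -- `b ∣ W`
  have hbW : b ∣ W := by
    have e1 : b ∣ c * W := by
      apply dvd_of_coprime_mul hab
      refine ⟨V * d, ?_⟩
      linear_combination h2
    have e2 : b ∣ d * W := by
      apply dvd_of_coprime_mul hab
      refine ⟨U * d - c * W, ?_⟩
      linear_combination h1
    exact dvd_of_coprime_pair hcd e1 e2
  obtain ⟨W', rfl⟩ := hbW
  have h1' : (a * d + b * c) * W' = U * d := by
    apply mul_left_cancel₀ hb
    linear_combination h1
  have h2' : a * c * W' = V * d := by
    apply mul_left_cancel₀ hb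
    linear_combination h2
  have hdW : d ∣ W' := by
    have e1 : d ∣ a * W' := by
      apply dvd_of_coprime_mul hcd
      refine ⟨V, ?_⟩
      linear_combination h2'
    have e2 : d ∣ b * W' := by
      apply dvd_of_coprime_mul hcd
      refine ⟨U - a * W', ?_⟩
      linear_combination h1'
    exact dvd_of_coprime_pair hab e1 e2
  obtain ⟨g, rfl⟩ := hdW
  refine ⟨g, by ring, ?_, ?_⟩
  · apply mul_left_cancel₀ hd
    linear_combination -h1'
  · apply mul_left_cancel₀ hd
    linear_combination -h2'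

/-- a pair `(a, b)` with `b ≠ 0` has a nonzero coefficient in degree `max (deg a) (deg b)`. -/
theorem coeff_max_ne_zero (a b : k[X]) (hb : b ≠ 0) :
    a.coeff (max a.natDegree b.natDegree) ≠ 0 ∨ b.coeff (max a.natDegree b.natDegree) ≠ 0 := by
  rcases le_total a.natDegree b.natDegree with h | h
  · right
    rw [max_eq_right h]
    exact leadingCoeff_ne_zero.2 hb
  · rw [max_eq_left h]
    by_cases ha : a = 0
    · right
      subst ha
      rw [natDegree_zero] at h ⊢
      have hb0 : b.natDegree = 0 := Nat.le_zero.1 h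
      have := leadingCoeff_ne_zero.2 hb
      rwa [leadingCoeff, hb0] at this
    · left
      exact leadingCoeff_ne_zero.2 ha

/-- **Gauss lemma, degree part**: one of `b d`, `a d + b c`, `a c` has degree
`max (deg a) (deg b) + max (deg c) (deg d)`. -/
theorem le_natDegree_triple (a b c d : k[X]) (hb : b ≠ 0) (hd : d ≠ 0) :
    max a.natDegree b.natDegree + max c.natDegree d.natDegree ≤
      max (b * d).natDegree (max (a * d + b * c).natDegree (a * c).natDegree) := by
  set m := max a.natDegree b.natDegree with hm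
  set n := max c.natDegree d.natDegree with hn
  have ham : a.natDegree ≤ m := le_max_left _ _
  have hbm : b.natDegree ≤ m := le_max_right _ _
  have hcn : c.natDegree ≤ n := le_max_left _ _
  have hdn : d.natDegree ≤ n := le_max_right _ _
  have c1 : (b * d).coeff (m + n) = b.coeff m * d.coeff n :=
    coeff_mul_add_eq_of_natDegree_le hbm hdn
  have c2 : (a * d + b * c).coeff (m + n) = a.coeff m * d.coeff n + b.coeff m * c.coeff n := by
    rw [coeff_add, coeff_mul_add_eq_of_natDegree_le ham hdn,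
      coeff_mul_add_eq_of_natDegree_le hbm hcn]
  have c3 : (a * c).coeff (m + n) = a.coeff m * c.coeff n :=
    coeff_mul_add_eq_of_natDegree_le ham hcn
  by_contra hcon
  rw [not_le, max_lt_iff, max_lt_iff] at hcon
  obtain ⟨l1, l2, l3⟩ := hcon
  have z1 := coeff_eq_zero_of_natDegree_lt l1
  have z2 := coeff_eq_zero_of_natDegree_lt l2
  have z3 := coeff_eq_zero_of_natDegree_lt l3
  rw [c1] at z1
  rw [c2] at z2
  rw [c3] at z3
  rcases coeff_max_ne_zero a b hb with ha' | hb'
  · -- `a_m ≠ 0`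
    have hc0 : c.coeff n = 0 := (mul_eq_zero.1 z3).resolve_left ha'
    have hd0 : d.coeff n ≠ 0 := by
      rcases coeff_max_ne_zero c d hd with h | h
      · exact absurd hc0 h
      · exact h
    rw [hc0, mul_zero, add_zero] at z2
    rcases mul_eq_zero.1 z2 with h | h
    · exact ha' h
    · exact hd0 h
  · -- `b_m ≠ 0`
    have hd0 : d.coeff n = 0 := (mul_eq_zero.1 z1).resolve_left hb'
    have hc0 : c.coeff n ≠ 0 := by
      rcases coeff_max_ne_zero c d hd with h | h
      · exact h
      · exact absurd hd0 h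
    rw [hd0, mul_zero, zero_add] at z2
    rcases mul_eq_zero.1 z2 with h | h
    · exact hb' h
    · exact hc0 h

/-- **Gauss lemma for a quadratic**, in polynomial form. -/
theorem gauss_deg (a b c d W U V : k[X]) (hab : IsCoprime a b) (hcd : IsCoprime c d)
    (hb : b ≠ 0) (hd : d ≠ 0) (hW : W ≠ 0)
    (h1 : (a * d + b * c) * W = U * (b * d)) (h2 : a * c * W = V * (b * d)) :
    max a.natDegree b.natDegree + max c.natDegree d.natDegree ≤
      max W.natDegree (max U.natDegree V.natDegree) := by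
  obtain ⟨g, rfl, rfl, rfl⟩ := exists_factor_of_prop a b c d W U V hab hcd hb hd h1 h2
  have hg : g ≠ 0 := left_ne_zero_of_mul hW
  have key : ∀ z : k[X], z.natDegree ≤ (g * z).natDegree := by
    intro z
    by_cases hz : z = 0
    · subst hz; simp
    · rw [natDegree_mul hg hz]
      exact Nat.le_add_left _ _
  refine (le_natDegree_triple a b c d hb hd).trans ?_
  exact max_le_max (key _) (max_le_max (key _) (key _))

/-- **[DEG-BIQ]** -/
theorem rdegBiq : RdegBiqStatement := by
  intro k _ V r₁ r₂ s t hr hsum hprod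
  -- numerators and denominators
  set A₁ := r₁.num with hA₁
  set B₁ := r₁.denom with hB₁
  set A₂ := r₂.num with hA₂
  set B₂ := r₂.denom with hB₂
  set a := s.num
  set b := s.denom
  set c := t.num
  set d := t.denom
  have hB₁0 : B₁ ≠ 0 := r₁.denom_ne_zero
  have hB₂0 : B₂ ≠ 0 := r₂.denom_ne_zero
  have hb0 : b ≠ 0 := s.denom_ne_zero
  have hd0 : d ≠ 0 := t.denom_ne_zero
  let φ := algebraMap k[X] (RatFunc k)
  have hφ : Function.Injective φ := RatFunc.algebraMap_injective k
  have hφB₁ : φ B₁ ≠ 0 := (map_ne_zero_iff φ hφ).2 hB₁0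
  have hφB₂ : φ B₂ ≠ 0 := (map_ne_zero_iff φ hφ).2 hB₂0
  have hφb : φ b ≠ 0 := (map_ne_zero_iff φ hφ).2 hb0
  have hφd : φ d ≠ 0 := (map_ne_zero_iff φ hφ).2 hd0
  have er₁ : r₁ = φ A₁ / φ B₁ := (RatFunc.num_div_denom r₁).symm
  have er₂ : r₂ = φ A₂ / φ B₂ := (RatFunc.num_div_denom r₂).symm
  have es : s = φ a / φ b := (RatFunc.num_div_denom s).symm
  have et : t = φ c / φ d := (RatFunc.num_div_denom t).symm
  -- the three polynomials
  set Wp : k[X] := (A₁ * B₂ - A₂ * B₁) ^ 2 with hWp
  set Up : k[X] := sumNum (C V.b₂) (C V.b₄) (C V.b₆) A₁ B₁ A₂ B₂ with hUp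
  set Vp : k[X] := prodNum (C V.b₄) (C V.b₆) (C V.b₈) A₁ B₁ A₂ B₂ with hVp
  have hφC : ∀ x : k, φ (C x) = RatFunc.C x := fun x => RatFunc.algebraMap_C x
  have eW : φ Wp = (r₁ - r₂) ^ 2 * (φ B₁ * φ B₂) ^ 2 := by
    rw [hWp, er₁, er₂]
    simp only [map_pow, map_sub, map_mul]
    field_simp
  have eU : φ Up = sumNum (RatFunc.C V.b₂) (RatFunc.C V.b₄) (RatFunc.C V.b₆) r₁ 1 r₂ 1 *
      (φ B₁ * φ B₂) ^ 2 := by
    rw [hUp, er₁, er₂]
    simp only [sumNum, map_add, map_mul, map_pow, hφC, map_ofNat]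
    field_simp
  have eV : φ Vp = prodNum (RatFunc.C V.b₄) (RatFunc.C V.b₆) (RatFunc.C V.b₈) r₁ 1 r₂ 1 *
      (φ B₁ * φ B₂) ^ 2 := by
    rw [hVp, er₁, er₂]
    simp only [prodNum, map_sub, map_add, map_mul, map_pow, hφC]
    field_simp
  have hWp0 : Wp ≠ 0 := by
    intro h0
    have : φ Wp = 0 := by rw [h0, map_zero]
    rw [eW] at this
    have h3 : (r₁ - r₂) ^ 2 ≠ 0 := pow_ne_zero 2 (sub_ne_zero.2 hr)
    have h4 : (φ B₁ * φ B₂) ^ 2 ≠ 0 := pow_ne_zero 2 (mul_ne_zero hφB₁ hφB₂)
    exact mul_ne_zero h3 h4 this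
  have h1 : (a * d + b * c) * Wp = Up * (b * d) := by
    apply hφ
    simp only [map_mul, map_add]
    rw [eW, eU, ← hsum, es, et]
    field_simp
  have h2 : a * c * Wp = Vp * (b * d) := by
    apply hφ
    simp only [map_mul]
    rw [eW, eV, ← hprod, es, et]
    field_simp
  have hG := gauss_deg a b c d Wp Up Vp s.isCoprime_num_denom t.isCoprime_num_denom hb0 hd0
    hWp0 h1 h2
  -- degree bounds
  have dA₁ : A₁.natDegree ≤ rdeg r₁ := le_max_left _ _
  have dB₁ : B₁.natDegree ≤ rdeg r₁ := le_max_right _ _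
  have dA₂ : A₂.natDegree ≤ rdeg r₂ := le_max_left _ _
  have dB₂ : B₂.natDegree ≤ rdeg r₂ := le_max_right _ _
  have bW : Wp.natDegree ≤ 2 * rdeg r₁ + 2 * rdeg r₂ := by
    rw [hWp]
    compute_degree
    all_goals omega
  have bU : Up.natDegree ≤ 2 * rdeg r₁ + 2 * rdeg r₂ := by
    rw [hUp, sumNum]
    compute_degree
    all_goals omega
  have bV : Vp.natDegree ≤ 2 * rdeg r₁ + 2 * rdeg r₂ := by
    rw [hVp, prodNum]
    compute_degree
    all_goals omega
  show max a.natDegree b.natDegree + max c.natDegree d.natDegree ≤ _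
  exact hG.trans (max_le bW (max_le bU bV))

end Fermat.Agent.P7.helper60
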