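import Fermat.Agent.P7.helper65_RedIso
import Fermat.Agent.S54.helper91_Frobenius

/-!
# P7 / S52, leaf [CONG]: the `a_ℓ`-congruence from the characteristic equation (helper65)

Let `W, W'` be integral Weierstrass curves, `p` an odd prime, `ℓ ≠ p` a prime of good reduction
of both, `A` a place of `ℚ̄` over `ℓ` with residue field `k`, `σ` a Frobenius element at `A`.
If the characteristic equation of Frobenius `φ² - a_ℓ φ + ℓ = 0` holds on the `p`-torsion of both
reduced curves over `k` (`CETors`), then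

* `ce_galois`: `σ² P - a_ℓ(W) σ P + ℓ P = 0` for every `P ∈ E[p](ℚ̄)`;
* `cong_of_ce`: for every injective additive map `ψ : E[p] → E'[p]` commuting with `σ`,
  `p ∣ a_ℓ(W') - a_ℓ(W)`;
* `cong_of_ce_forall`: the same with the place and the Frobenius element chosen internally
  (`ψ` Galois-equivariant, `CETors` at every place over `ℓ`).

No Weil pairing, no trace: subtract the two equations transported along `ψ`.
-/

set_option autoImplicit false
set_option linter.style.haveILetI false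

open WeierstrassCurve WeierstrassCurve.Affine
open scoped WeierstrassCurve.Affine

namespace Fermat.Agent.P7.helper65

open Fermat.Agent.P6.helper78 Fermat.Agent.P6.helper65

noncomputable section

/-- The characteristic equation of Frobenius on the `p`-torsion of `W` over `k`. -/
def CETors (W : WeierstrassCurve ℤ) (p ℓ : ℕ) (k : Type) [Field k] [DecidableEq k]
    [Fact ℓ.Prime] [CharP k ℓ] : Prop :=
  ∀ Q : PtK W k, p • Q = 0 →
    frobPt W k ℓ (frobPt W k ℓ Q) - W.apOfModel ℓ • frobPt W k ℓ Q + ℓ • Q = 0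

section core

variable {W W' : WeierstrassCurve ℤ} {p ℓ : ℕ} {A : ValuationSubring NQbar}
  [DecidableEq (IsLocalRing.ResidueField A)] [Fact ℓ.Prime]
  [CharP (IsLocalRing.ResidueField A) ℓ]

/-- The characteristic equation on the Galois side: `σ² - a_ℓ σ + ℓ = 0` on `E[p](ℚ̄)` for every
Frobenius element `σ` at `A`. -/
theorem ce_galois (hp : p.Prime) (hℓp : ℓ ≠ p) (hW : W.IsGoodPrimeFor ℓ)
    (hA : A.LiesOverPrime ℓ) {σ : NGQ} (hσ : A.IsFrobeniusAt σ ℓ)
    (hCE : CETors W p ℓ (IsLocalRing.ResidueField A)) (P : Tors W p) :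
    σ • σ • P - W.apOfModel ℓ • (σ • P) + ℓ • P = 0 := by
  have hℓ : ℓ.Prime := Fact.out
  have hgood := nred_good A W hℓ hA hW
  have hn : ((p : ℕ) : NQbar) ∉ A.nonunits := nred_natCast_not_mem_nonunits A hℓ hp hℓp hA
  apply redTors_injective hgood hn
  rw [map_zero, map_add, map_sub, map_zsmul, map_nsmul, redTors_frobPt hgood hn hσ,
    redTors_frobPt hgood hn hσ]
  exact hCE _ (redTors_tors hgood P)

omit [DecidableEq (IsLocalRing.ResidueField A)] [Fact ℓ.Prime]
  [CharP (IsLocalRing.ResidueField A) ℓ] in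
/-- `E[p](ℚ̄)` is not trivial. -/
theorem exists_tors_ne_zero (hp : p.Prime) (hΔ : W.Δ ≠ 0) : ∃ P : Tors W p, P ≠ 0 := by
  have hΔQ : (W.map (Int.castRingHom ℚ)).Δ ≠ 0 := by
    rw [WeierstrassCurve.map_Δ, eq_intCast]
    exact_mod_cast hΔ
  have hcard : Nat.card (Tors W p) = p ^ 2 :=
    Fermat.Agent.P6.helper78.card_torsionBy_Qbar (W.map (Int.castRingHom ℚ)) hΔQ hp.one_le
  have h1 : 1 < Nat.card (Tors W p) := by
    rw [hcard]
    exact Nat.one_lt_pow (by norm_num) hp.one_lt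
  have hfin : Finite (Tors W p) := Nat.finite_of_card_ne_zero (by omega)
  have hnt : Nontrivial (Tors W p) := Finite.one_lt_card_iff_nontrivial.mp h1
  exact exists_ne 0

/-- **[CONG]**, core form. -/
theorem cong_of_ce (hp : p.Prime) (hℓp : ℓ ≠ p) (hW : W.IsGoodPrimeFor ℓ)
    (hW' : W'.IsGoodPrimeFor ℓ) (hA : A.LiesOverPrime ℓ) {σ : NGQ}
    (hσ : A.IsFrobeniusAt σ ℓ) (hCE : CETors W p ℓ (IsLocalRing.ResidueField A))
    (hCE' : CETors W' p ℓ (IsLocalRing.ResidueField A))
    (ψ : Tors W p →+ Tors W' p) (hψ : Function.Injective ψ)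
    (hψσ : ∀ P, ψ (σ • P) = σ • ψ P) :
    (p : ℤ) ∣ W'.apOfModel ℓ - W.apOfModel ℓ := by
  have hΔ : W.Δ ≠ 0 := by
    intro h0
    apply hW
    rw [h0]
    exact dvd_zero _
  obtain ⟨P, hP⟩ := exists_tors_ne_zero hp hΔ
  have h1 := congrArg ψ (ce_galois hp hℓp hW hA hσ hCE P)
  rw [map_zero, map_add, map_sub, map_zsmul, map_nsmul, hψσ, hψσ] at h1
  have h2 := ce_galois hp hℓp hW' hA hσ hCE' (ψ P)
  have h3 : (W'.apOfModel ℓ - W.apOfModel ℓ) • (σ • ψ P) = 0 := by
    rw [sub_smul]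
    have := congrArg₂ (· - ·) h1 h2
    simp only [sub_self] at this
    rw [← this]
    abel
  have hR0 : σ • ψ P ≠ 0 := by
    intro h0
    have h4 : ψ P = 0 := by
      have := congrArg (fun x => σ⁻¹ • x) h0
      simpa using this
    exact hP (hψ (h4.trans (map_zero ψ).symm))
  have h5 : (p : ℤ) • (σ • ψ P) = 0 := by
    have := nred_tors_nsmul W' p (σ • ψ P)
    apply Subtype.ext
    rw [Submodule.coe_smul, natCast_zsmul]
    exact this
  by_contra hnd
  have hcop : IsCoprime (p : ℤ) (W'.apOfModel ℓ - W.apOfModel ℓ) :=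
    (Nat.prime_iff_prime_int.mp hp).irreducible.coprime_iff_not_dvd.mpr hnd
  obtain ⟨u, v, huv⟩ := hcop
  apply hR0
  have h6 : (u * (p : ℤ) + v * (W'.apOfModel ℓ - W.apOfModel ℓ)) • (σ • ψ P) = 0 := by
    rw [add_smul, mul_smul, mul_smul, h5, h3, smul_zero, smul_zero, add_zero]
  rw [huv, one_smul] at h6
  exact h6

end core

/-- **[CONG]**, consumer form: the place and the Frobenius element are chosen internally. -/
theorem cong_of_ce_forall {W W' : WeierstrassCurve ℤ} {p ℓ : ℕ} (hp : p.Prime) (hℓ : ℓ.Prime)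
    (hℓp : ℓ ≠ p) (hW : W.IsGoodPrimeFor ℓ) (hW' : W'.IsGoodPrimeFor ℓ)
    (hCE : ∀ (A : ValuationSubring NQbar), A.LiesOverPrime ℓ →
      ∀ [DecidableEq (IsLocalRing.ResidueField A)] [Fact ℓ.Prime]
        [CharP (IsLocalRing.ResidueField A) ℓ],
        CETors W p ℓ (IsLocalRing.ResidueField A) ∧ CETors W' p ℓ (IsLocalRing.ResidueField A))
    (ψ : Tors W p →+ Tors W' p) (hψ : Function.Injective ψ)
    (hψσ : ∀ (σ : NGQ) (P : Tors W p), ψ (σ • P) = σ • ψ P) :
    (p : ℤ) ∣ W'.apOfModel ℓ - W.apOfModel ℓ := by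
  obtain ⟨A, hA⟩ := Fermat.Agent.S54.helper91.exists_valuationSubring_liesOver hℓ
  obtain ⟨σ, hσ⟩ := Fermat.Agent.S54.helper91.exists_isFrobeniusAt_of_liesOver A hℓ hA
  haveI : DecidableEq (IsLocalRing.ResidueField A) := Classical.decEq _
  haveI : Fact ℓ.Prime := ⟨hℓ⟩
  haveI : CharP (IsLocalRing.ResidueField A) ℓ := nred_charP A hℓ hA
  obtain ⟨h1, h2⟩ := hCE A hA
  exact cong_of_ce hp hℓp hW hW' hA hσ h1 h2 ψ hψ (hψσ σ)

end

end Fermat.Agent.P7.helper65
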