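import Fermat.Agent.P6.helper65_NRed
import Fermat.Agent.P6.helper78_NFrob
import Fermat.Agent.P7.helper19_RedAdd

/-!
# P7 / S52, leaf [CE-RED]: the additive reduction isomorphism on `p`-torsion (helper65)

For an integral Weierstrass curve `W`, a place `A` of `ℚ̄` over a good prime `ℓ` and an odd prime
`p ≠ ℓ`, the reduction homomorphism of helper19 (`redHomOf`) restricts to an ADDITIVE map

`redTors : E[p](ℚ̄) →+ W(k_A)`

which is injective, has image exactly the `p`-torsion of `W(k_A)` and intertwines every Frobenius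
element at `A` with the `ℓ`-power Frobenius `frobPt` of `W(k_A)`.

Main results: `redTors`, `redTors_injective`, `redTors_tors`, `redTors_surj`, `redTors_frob`,
`redTors_frobPt`, and the packaged statement `redIso : RedIsoStatement`.
-/

set_option autoImplicit false
set_option linter.style.haveILetI false

open WeierstrassCurve WeierstrassCurve.Affine
open scoped WeierstrassCurve.Affine

namespace Fermat.Agent.P7.helper65

open Fermat.Agent.P6.helper78 Fermat.Agent.P6.helper65 Fermat.Agent.P7.helper19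

noncomputable section

section setup

variable (W : WeierstrassCurve ℤ) (A : ValuationSubring NQbar)

theorem redIso_hWL :
    ((W.map (Int.castRingHom ℚ))⁄(AlgebraicClosure ℚ) : Affine (AlgebraicClosure ℚ)) =
      (W.map (Int.castRingHom A)).map A.subtype :=
  (nred_curve_eq W).trans (nred_map_subtype A W).symm

theorem redIso_hWk :
    (W.map (Int.castRingHom (IsLocalRing.ResidueField A)) :
        Affine (IsLocalRing.ResidueField A)) =
      (W.map (Int.castRingHom A)).map (IsLocalRing.residue A) :=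
  (nred_map_residue A W).symm

theorem redIso_hΔ (hgood : (W.map (Int.castRingHom (IsLocalRing.ResidueField A))).Δ ≠ 0) :
    IsLocalRing.residue A (W.map (Int.castRingHom A)).Δ ≠ 0 := by
  rw [← WeierstrassCurve.map_Δ, nred_map_residue]
  exact hgood

variable [DecidableEq (IsLocalRing.ResidueField A)]

/-- The reduction homomorphism on all `ℚ̄`-points of `W_ℚ` at a place of good reduction
(helper19's `redHomOf`, specialised). -/
def redAll (hgood : (W.map (Int.castRingHom (IsLocalRing.ResidueField A))).Δ ≠ 0) :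
    ((W.map (Int.castRingHom ℚ))⁄(AlgebraicClosure ℚ)).Point →+
      PtK W (IsLocalRing.ResidueField A) :=
  redHomOf A (IsLocalRing.residue A) (W.map (Int.castRingHom A)) (residue_eq_zero_iff_mem A)
    (redIso_hΔ W A hgood) (redIso_hWL W A) (redIso_hWk W A)

/-- The reduction homomorphism on `E[p]`. -/
def redTors (hgood : (W.map (Int.castRingHom (IsLocalRing.ResidueField A))).Δ ≠ 0) (p : ℕ) :
    Tors W p →+ PtK W (IsLocalRing.ResidueField A) :=
  (redAll W A hgood).comp
    (Submodule.torsionBy ℤ ((W.map (Int.castRingHom ℚ))⁄(AlgebraicClosure ℚ)).Point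
      (p : ℤ)).subtype.toAddMonoidHom

variable {W A}
variable (hgood : (W.map (Int.castRingHom (IsLocalRing.ResidueField A))).Δ ≠ 0) {p : ℕ}

theorem redTors_apply (P : Tors W p) : redTors W A hgood p P = redAll W A hgood P.1 := rfl

/-- On a nonzero torsion point of unit order the reduction is coordinatewise. -/
theorem redAll_some (hn : (p : NQbar) ∉ A.nonunits) {x y : NQbar}
    (h : ((W.map (Int.castRingHom ℚ))⁄(AlgebraicClosure ℚ)).Nonsingular x y)
    (hP : p • (Point.some x y h :
      ((W.map (Int.castRingHom ℚ))⁄(AlgebraicClosure ℚ)).Point) = 0) :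
    ∃ (hx : x ∈ A) (hy : y ∈ A)
      (h' : (W.map (Int.castRingHom (IsLocalRing.ResidueField A))).toAffine.Nonsingular
        (IsLocalRing.residue A ⟨x, hx⟩) (IsLocalRing.residue A ⟨y, hy⟩)),
      redAll W A hgood (Point.some x y h) = Point.some _ _ h' :=
  redHomOf_torsion A (IsLocalRing.residue A) (W.map (Int.castRingHom A))
    (residue_eq_zero_iff_mem A) (redIso_hΔ W A hgood) (redIso_hWL W A) (redIso_hWk W A)
    (valuation_natCast_eq_one A hn) h hP

/-- `redTors` is injective. -/
theorem redTors_injective (hn : (p : NQbar) ∉ A.nonunits) :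
    Function.Injective (redTors W A hgood p) := by
  intro P Q h
  apply Subtype.ext
  exact redHomOf_injOn_torsion A (IsLocalRing.residue A) (W.map (Int.castRingHom A))
    (residue_eq_zero_iff_mem A) (redIso_hΔ W A hgood) (redIso_hWL W A) (redIso_hWk W A)
    (valuation_natCast_eq_one A hn) (nred_tors_nsmul W p P) (nred_tors_nsmul W p Q) h

/-- The image of `redTors` is killed by `p`. -/
theorem redTors_tors (P : Tors W p) : p • redTors W A hgood p P = 0 := by
  rw [redTors_apply, ← map_nsmul, nred_tors_nsmul, map_zero]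

/-- `redTors` is onto the `p`-torsion of the reduced curve (`p` an odd prime, `ℓ ≠ p`), by
counting. -/
theorem redTors_surj {ℓ : ℕ} (hp : p.Prime) (hp2 : p ≠ 2) (hℓ : ℓ.Prime) (hℓp : ℓ ≠ p)
    (hA : A.LiesOverPrime ℓ) (Q : PtK W (IsLocalRing.ResidueField A)) (hQ : p • Q = 0) :
    ∃ P : Tors W p, redTors W A hgood p P = Q := by
  have hn : ((p : ℕ) : NQbar) ∉ A.nonunits := nred_natCast_not_mem_nonunits A hℓ hp hℓp hA
  obtain ⟨m, hm⟩ : ∃ m, p = 2 * m + 1 := hp.eq_two_or_odd'.resolve_left hp2
  subst hm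
  have hΔQ : (W.map (Int.castRingHom ℚ)).Δ ≠ 0 := by
    have h1 := nred_Δ_ne_zero A W hgood
    rw [WeierstrassCurve.map_Δ, eq_intCast] at h1 ⊢
    intro h0
    apply h1
    have : W.Δ = 0 := by exact_mod_cast h0
    rw [this, Int.cast_zero]
  have hcardT : Nat.card (Tors W (2 * m + 1)) = (2 * m + 1) ^ 2 :=
    Fermat.Agent.P6.helper78.card_torsionBy_Qbar (W.map (Int.castRingHom ℚ)) hΔQ hp.one_le
  have hpk : ((2 * m + 1 : ℕ) : IsLocalRing.ResidueField A) ≠ 0 :=
    nred_natCast_residueField_ne_zero A hℓ hp hℓp hA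
  obtain ⟨hfin, hcard⟩ := Fermat.Agent.S13.helper64.finite_torsion_and_card_le
    (W.map (Int.castRingHom (IsLocalRing.ResidueField A))) hgood m hpk
  let f : Tors W (2 * m + 1) →
      {Q : (W.map (Int.castRingHom (IsLocalRing.ResidueField A))).toAffine.Point |
        (2 * m + 1) • Q = 0} :=
    fun P => ⟨redTors W A hgood (2 * m + 1) P, redTors_tors hgood P⟩
  have hf : Function.Injective f := by
    intro P P' h
    exact redTors_injective hgood hn (congrArg Subtype.val h)
  have hbij := hf.bijective_of_nat_card_le (hcard.trans (le_of_eq hcardT.symm))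
  obtain ⟨P, hP⟩ := hbij.2 ⟨Q, hQ⟩
  exact ⟨P, congrArg Subtype.val hP⟩

/-- `redTors` intertwines Frobenius elements at `A` with the `ℓ`-power map on coordinates. -/
theorem redTors_frob {ℓ : ℕ} (hn : (p : NQbar) ∉ A.nonunits) {σ : NGQ}
    (hσ : A.IsFrobeniusAt σ ℓ) (P : Tors W p) :
    IsFrobImage W (IsLocalRing.ResidueField A) ℓ (redTors W A hgood p P)
      (redTors W A hgood p (σ • P)) := by
  obtain ⟨Q, hQ⟩ := P
  cases Q with
  | zero =>
    show redTors W A hgood p (σ • (0 : Tors W p)) = 0
    rw [smul_zero, map_zero]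
  | some x y hxy =>
    have hQ0 := nred_tors_nsmul W p ⟨Point.some x y hxy, hQ⟩
    obtain ⟨hx, hy, h', e⟩ := redAll_some hgood hn hxy hQ0
    have hQ1 := nred_tors_nsmul W p (σ • ⟨Point.some x y hxy, hQ⟩)
    have hsome : ((σ • (⟨Point.some x y hxy, hQ⟩ : Tors W p) : Tors W p) :
        ((W.map (Int.castRingHom ℚ))⁄(AlgebraicClosure ℚ)).Point) =
        Point.some (σ x) (σ y)
          ((WeierstrassCurve.Affine.baseChange_nonsingular _ σ.toAlgHom.injective ..).mpr hxy) :=
      rfl
    rw [hsome] at hQ1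
    obtain ⟨hx', hy', h'', e'⟩ := redAll_some hgood hn _ hQ1
    have e1 : redTors W A hgood p ⟨Point.some x y hxy, hQ⟩ = Point.some _ _ h' := e
    have e2 : redTors W A hgood p (σ • ⟨Point.some x y hxy, hQ⟩) = Point.some _ _ h'' := by
      rw [redTors_apply, hsome]
      exact e'
    rw [e1, e2]
    exact ⟨nred_residue_frob A hσ hx hx', nred_residue_frob A hσ hy hy'⟩

/-- `redTors` intertwines Frobenius elements at `A` with the Frobenius endomorphism `frobPt`. -/
theorem redTors_frobPt {ℓ : ℕ} [Fact ℓ.Prime] [CharP (IsLocalRing.ResidueField A) ℓ]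
    (hn : (p : NQbar) ∉ A.nonunits) {σ : NGQ} (hσ : A.IsFrobeniusAt σ ℓ) (P : Tors W p) :
    redTors W A hgood p (σ • P) =
      frobPt W (IsLocalRing.ResidueField A) ℓ (redTors W A hgood p P) :=
  (isFrobImage_iff W (IsLocalRing.ResidueField A) ℓ _ _).mp (redTors_frob hgood hn hσ P)

end setup

/-! ## The packaged statement -/

/-- **[CE-RED]** the additive reduction isomorphism on `p`-torsion at a good place. -/
def RedIsoStatement : Prop :=
  ∀ (W : WeierstrassCurve ℤ) (p ℓ : ℕ), p.Prime → p ≠ 2 → ℓ.Prime → ℓ ≠ p →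
    W.IsGoodPrimeFor ℓ →
    ∀ (A : ValuationSubring NQbar), A.LiesOverPrime ℓ →
    ∀ [DecidableEq (IsLocalRing.ResidueField A)],
      ∃ red : Tors W p →+ PtK W (IsLocalRing.ResidueField A),
        Function.Injective red ∧ (∀ P, p • red P = 0) ∧
        (∀ Q : PtK W (IsLocalRing.ResidueField A), p • Q = 0 → ∃ P, red P = Q) ∧
        (∀ σ : NGQ, A.IsFrobeniusAt σ ℓ →
          ∀ P, IsFrobImage W (IsLocalRing.ResidueField A) ℓ (red P) (red (σ • P))) ∧
        (∀ [Fact ℓ.Prime] [CharP (IsLocalRing.ResidueField A) ℓ] (σ : NGQ),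
          A.IsFrobeniusAt σ ℓ →
          ∀ P, red (σ • P) = frobPt W (IsLocalRing.ResidueField A) ℓ (red P))

theorem redIso : RedIsoStatement := by
  intro W p ℓ hp hp2 hℓ hℓp hW A hA _
  have hgood := nred_good A W hℓ hA hW
  have hn : ((p : ℕ) : NQbar) ∉ A.nonunits := nred_natCast_not_mem_nonunits A hℓ hp hℓp hA
  refine ⟨redTors W A hgood p, redTors_injective hgood hn, redTors_tors hgood,
    redTors_surj hgood hp hp2 hℓ hℓp hA, fun σ hσ P => redTors_frob hgood hn hσ P, ?_⟩
  intro _ _ σ hσ P
  exact redTors_frobPt hgood hn hσ P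

end

end Fermat.Agent.P7.helper65
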