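import Fermat.Agent.P7.helper66_KleinDefs

/-!
# P7 / S52, FAM: `kF (v_t) = kF v * famG (kH v) (kT v) t` (helper66)
-/

namespace Fermat.Agent.P7.helper66

open Fermat.Agent.P7.helper80 (kF kH kT)

set_option linter.unusedVariables false
set_option maxRecDepth 1000000
set_option linter.unusedSimpArgs false

variable {R : Type*} [CommRing R]

theorem famG_coeff_0 (v1 v2 P Q : R) (hP : P = kp v1 v2) (hQ : Q = kq v1 v2) :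
    v1 ^ 11 * v2 + 11 * v1 ^ 6 * v2 ^ 6 - v1 * v2 ^ 11 =
      kF v1 v2 * famGc (kH v1 v2) (kT v1 v2) 0 := by
  subst hP hQ
  simp only [famGc, kH, kT, kp, kq, kF]
  grind

theorem famG_coeff_1 (v1 v2 P Q : R) (hP : P = kp v1 v2) (hQ : Q = kq v1 v2) :
    -v1 ^ 11 * v2 * Q + 11 * v1 ^ 11 * v2 * P - 66 * v1 ^ 6 * v2 ^ 6 * Q + 66 * v1 ^ 6 * v2 ^ 6 * P + 11 * v1 * v2 ^ 11 * Q
      - v1 * v2 ^ 11 * P =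
      kF v1 v2 * famGc (kH v1 v2) (kT v1 v2) 1 := by
  subst hP hQ
  simp only [famGc, kH, kT, kp, kq, kF]
  grind

theorem famG_coeff_2 (v1 v2 P Q : R) (hP : P = kp v1 v2) (hQ : Q = kq v1 v2) :
    -11 * v1 ^ 11 * v2 * P * Q + 55 * v1 ^ 11 * v2 * P ^ 2 + 165 * v1 ^ 6 * v2 ^ 6 * Q ^ 2 - 396 * v1 ^ 6 * v2 ^ 6 * P * Q
      + 165 * v1 ^ 6 * v2 ^ 6 * P ^ 2 - 55 * v1 * v2 ^ 11 * Q ^ 2 + 11 * v1 * v2 ^ 11 * P * Q =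
      kF v1 v2 * famGc (kH v1 v2) (kT v1 v2) 2 := by
  subst hP hQ
  simp only [famGc, kH, kT, kp, kq, kF]
  grind

theorem famG_coeff_3 (v1 v2 P Q : R) (hP : P = kp v1 v2) (hQ : Q = kq v1 v2) :
    -55 * v1 ^ 11 * v2 * P ^ 2 * Q + 165 * v1 ^ 11 * v2 * P ^ 3 - 220 * v1 ^ 6 * v2 ^ 6 * Q ^ 3 + 990 * v1 ^ 6 * v2 ^ 6 * P * Q ^ 2
      - 990 * v1 ^ 6 * v2 ^ 6 * P ^ 2 * Q + 220 * v1 ^ 6 * v2 ^ 6 * P ^ 3 + 165 * v1 * v2 ^ 11 * Q ^ 3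
      - 55 * v1 * v2 ^ 11 * P * Q ^ 2 =
      kF v1 v2 * famGc (kH v1 v2) (kT v1 v2) 3 := by
  subst hP hQ
  simp only [famGc, kH, kT, kp, kq, kF]
  grind

theorem famG_coeff_4 (v1 v2 P Q : R) (hP : P = kp v1 v2) (hQ : Q = kq v1 v2) :
    -165 * v1 ^ 11 * v2 * P ^ 3 * Q + 330 * v1 ^ 11 * v2 * P ^ 4 + 165 * v1 ^ 6 * v2 ^ 6 * Q ^ 4 - 1320 * v1 ^ 6 * v2 ^ 6 * P * Q ^ 3
      + 2475 * v1 ^ 6 * v2 ^ 6 * P ^ 2 * Q ^ 2 - 1320 * v1 ^ 6 * v2 ^ 6 * P ^ 3 * Q + 165 * v1 ^ 6 * v2 ^ 6 * P ^ 4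
      - 330 * v1 * v2 ^ 11 * Q ^ 4 + 165 * v1 * v2 ^ 11 * P * Q ^ 3 =
      kF v1 v2 * famGc (kH v1 v2) (kT v1 v2) 4 := by
  subst hP hQ
  simp only [famGc, kH, kT, kp, kq, kF]
  grind

theorem famG_coeff_5 (v1 v2 P Q : R) (hP : P = kp v1 v2) (hQ : Q = kq v1 v2) :
    -330 * v1 ^ 11 * v2 * P ^ 4 * Q + 462 * v1 ^ 11 * v2 * P ^ 5 - 66 * v1 ^ 6 * v2 ^ 6 * Q ^ 5 + 990 * v1 ^ 6 * v2 ^ 6 * P * Q ^ 4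
      - 3300 * v1 ^ 6 * v2 ^ 6 * P ^ 2 * Q ^ 3 + 3300 * v1 ^ 6 * v2 ^ 6 * P ^ 3 * Q ^ 2 - 990 * v1 ^ 6 * v2 ^ 6 * P ^ 4 * Q
      + 66 * v1 ^ 6 * v2 ^ 6 * P ^ 5 + 462 * v1 * v2 ^ 11 * Q ^ 5 - 330 * v1 * v2 ^ 11 * P * Q ^ 4 =
      kF v1 v2 * famGc (kH v1 v2) (kT v1 v2) 5 := by
  subst hP hQ
  simp only [famGc, kH, kT, kp, kq, kF]
  grind

theorem famG_coeff_6 (v1 v2 P Q : R) (hP : P = kp v1 v2) (hQ : Q = kq v1 v2) :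
    -462 * v1 ^ 11 * v2 * P ^ 5 * Q + 462 * v1 ^ 11 * v2 * P ^ 6 + 11 * v1 ^ 6 * v2 ^ 6 * Q ^ 6 - 396 * v1 ^ 6 * v2 ^ 6 * P * Q ^ 5
      + 2475 * v1 ^ 6 * v2 ^ 6 * P ^ 2 * Q ^ 4 - 4400 * v1 ^ 6 * v2 ^ 6 * P ^ 3 * Q ^ 3 + 2475 * v1 ^ 6 * v2 ^ 6 * P ^ 4 * Q ^ 2
      - 396 * v1 ^ 6 * v2 ^ 6 * P ^ 5 * Q + 11 * v1 ^ 6 * v2 ^ 6 * P ^ 6 - 462 * v1 * v2 ^ 11 * Q ^ 6
      + 462 * v1 * v2 ^ 11 * P * Q ^ 5 =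
      kF v1 v2 * famGc (kH v1 v2) (kT v1 v2) 6 := by
  subst hP hQ
  simp only [famGc, kH, kT, kp, kq, kF]
  grind

theorem famG_coeff_7 (v1 v2 P Q : R) (hP : P = kp v1 v2) (hQ : Q = kq v1 v2) :
    -462 * v1 ^ 11 * v2 * P ^ 6 * Q + 330 * v1 ^ 11 * v2 * P ^ 7 + 66 * v1 ^ 6 * v2 ^ 6 * P * Q ^ 6 - 990 * v1 ^ 6 * v2 ^ 6 * P ^ 2 * Q ^ 5
      + 3300 * v1 ^ 6 * v2 ^ 6 * P ^ 3 * Q ^ 4 - 3300 * v1 ^ 6 * v2 ^ 6 * P ^ 4 * Q ^ 3 + 990 * v1 ^ 6 * v2 ^ 6 * P ^ 5 * Q ^ 2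
      - 66 * v1 ^ 6 * v2 ^ 6 * P ^ 6 * Q + 330 * v1 * v2 ^ 11 * Q ^ 7 - 462 * v1 * v2 ^ 11 * P * Q ^ 6 =
      kF v1 v2 * famGc (kH v1 v2) (kT v1 v2) 7 := by
  subst hP hQ
  simp only [famGc, kH, kT, kp, kq, kF]
  grind

theorem famG_coeff_8 (v1 v2 P Q : R) (hP : P = kp v1 v2) (hQ : Q = kq v1 v2) :
    -330 * v1 ^ 11 * v2 * P ^ 7 * Q + 165 * v1 ^ 11 * v2 * P ^ 8 + 165 * v1 ^ 6 * v2 ^ 6 * P ^ 2 * Q ^ 6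
      - 1320 * v1 ^ 6 * v2 ^ 6 * P ^ 3 * Q ^ 5 + 2475 * v1 ^ 6 * v2 ^ 6 * P ^ 4 * Q ^ 4 - 1320 * v1 ^ 6 * v2 ^ 6 * P ^ 5 * Q ^ 3
      + 165 * v1 ^ 6 * v2 ^ 6 * P ^ 6 * Q ^ 2 - 165 * v1 * v2 ^ 11 * Q ^ 8 + 330 * v1 * v2 ^ 11 * P * Q ^ 7 =
      kF v1 v2 * famGc (kH v1 v2) (kT v1 v2) 8 := by
  subst hP hQ
  simp only [famGc, kH, kT, kp, kq, kF]
  grind

theorem famG_coeff_9 (v1 v2 P Q : R) (hP : P = kp v1 v2) (hQ : Q = kq v1 v2) :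
    -165 * v1 ^ 11 * v2 * P ^ 8 * Q + 55 * v1 ^ 11 * v2 * P ^ 9 + 220 * v1 ^ 6 * v2 ^ 6 * P ^ 3 * Q ^ 6
      - 990 * v1 ^ 6 * v2 ^ 6 * P ^ 4 * Q ^ 5 + 990 * v1 ^ 6 * v2 ^ 6 * P ^ 5 * Q ^ 4 - 220 * v1 ^ 6 * v2 ^ 6 * P ^ 6 * Q ^ 3
      + 55 * v1 * v2 ^ 11 * Q ^ 9 - 165 * v1 * v2 ^ 11 * P * Q ^ 8 =
      kF v1 v2 * famGc (kH v1 v2) (kT v1 v2) 9 := by
  subst hP hQ
  simp only [famGc, kH, kT, kp, kq, kF]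
  grind

theorem famG_coeff_10 (v1 v2 P Q : R) (hP : P = kp v1 v2) (hQ : Q = kq v1 v2) :
    -55 * v1 ^ 11 * v2 * P ^ 9 * Q + 11 * v1 ^ 11 * v2 * P ^ 10 + 165 * v1 ^ 6 * v2 ^ 6 * P ^ 4 * Q ^ 6
      - 396 * v1 ^ 6 * v2 ^ 6 * P ^ 5 * Q ^ 5 + 165 * v1 ^ 6 * v2 ^ 6 * P ^ 6 * Q ^ 4 - 11 * v1 * v2 ^ 11 * Q ^ 10
      + 55 * v1 * v2 ^ 11 * P * Q ^ 9 =
      kF v1 v2 * famGc (kH v1 v2) (kT v1 v2) 10 := by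
  subst hP hQ
  simp only [famGc, kH, kT, kp, kq, kF]
  grind

theorem famG_coeff_11 (v1 v2 P Q : R) (hP : P = kp v1 v2) (hQ : Q = kq v1 v2) :
    -11 * v1 ^ 11 * v2 * P ^ 10 * Q + v1 ^ 11 * v2 * P ^ 11 + 66 * v1 ^ 6 * v2 ^ 6 * P ^ 5 * Q ^ 6 - 66 * v1 ^ 6 * v2 ^ 6 * P ^ 6 * Q ^ 5
      + v1 * v2 ^ 11 * Q ^ 11 - 11 * v1 * v2 ^ 11 * P * Q ^ 10 =
      kF v1 v2 * famGc (kH v1 v2) (kT v1 v2) 11 := by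
  subst hP hQ
  simp only [famGc, kH, kT, kp, kq, kF]
  grind

theorem famG_coeff_12 (v1 v2 P Q : R) (hP : P = kp v1 v2) (hQ : Q = kq v1 v2) :
    -v1 ^ 11 * v2 * P ^ 11 * Q + 11 * v1 ^ 6 * v2 ^ 6 * P ^ 6 * Q ^ 6 + v1 * v2 ^ 11 * P * Q ^ 11 =
      kF v1 v2 * famGc (kH v1 v2) (kT v1 v2) 12 := by
  subst hP hQ
  simp only [famGc, kH, kT, kp, kq, kF]
  grind

set_option maxRecDepth 1000000 in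
set_option maxHeartbeats 1000000 in
/-- `f (v + t * J grad f (v)) = f (v) * famG (H v) (T v) t`. -/
theorem famG_spec (v1 v2 t : R) :
    kF (kV1 v1 v2 t) (kV2 v1 v2 t) = kF v1 v2 * famG (kH v1 v2) (kT v1 v2) t := by
  simp only [famG, Finset.sum_range_succ, Finset.sum_range_zero]
  conv_lhs => simp only [kF, kV1, kV2]
  linear_combination (norm := skip) famG_coeff_0 v1 v2 _ _ rfl rfl + t ^ 1 * famG_coeff_1 v1 v2 _ _ rfl rfl + t ^ 2 * famG_coeff_2 v1 v2 _ _ rfl rfl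
    + t ^ 3 * famG_coeff_3 v1 v2 _ _ rfl rfl + t ^ 4 * famG_coeff_4 v1 v2 _ _ rfl rfl + t ^ 5 * famG_coeff_5 v1 v2 _ _ rfl rfl
    + t ^ 6 * famG_coeff_6 v1 v2 _ _ rfl rfl + t ^ 7 * famG_coeff_7 v1 v2 _ _ rfl rfl + t ^ 8 * famG_coeff_8 v1 v2 _ _ rfl rfl
    + t ^ 9 * famG_coeff_9 v1 v2 _ _ rfl rfl + t ^ 10 * famG_coeff_10 v1 v2 _ _ rfl rfl + t ^ 11 * famG_coeff_11 v1 v2 _ _ rfl rfl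
    + t ^ 12 * famG_coeff_12 v1 v2 _ _ rfl rfl
  grind

end Fermat.Agent.P7.helper66
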