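import Fermat.Agent.P7.helper66_KleinDefs

/-!
# P7 / S52, FAM: `kH (v_t) = famH (kH v) (kT v) t` (helper66)

The identity is split into its `t`-coefficients (`famH_coeff_k`); in the assembly `kp`, `kq`
are kept opaque, so every `ring` call is small.
-/

namespace Fermat.Agent.P7.helper66

open Fermat.Agent.P7.helper80 (kF kH kT)

set_option linter.unusedVariables false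
set_option maxRecDepth 1000000
set_option linter.unusedSimpArgs false

variable {R : Type*} [CommRing R]

theorem famH_coeff_0 (v1 v2 P Q : R) (hP : P = kp v1 v2) (hQ : Q = kq v1 v2) :
    -v1 ^ 20 - v2 ^ 20 + 228 * v1 ^ 15 * v2 ^ 5 - 228 * v1 ^ 5 * v2 ^ 15 - 494 * v1 ^ 10 * v2 ^ 10 =
      famHc (kH v1 v2) (kT v1 v2) 0 := by
  subst hP hQ
  simp only [famHc, kH, kT, kp, kq]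
  grind

theorem famH_coeff_1 (v1 v2 P Q : R) (hP : P = kp v1 v2) (hQ : Q = kq v1 v2) :
    -20 * v1 ^ 20 * P + 20 * v2 ^ 20 * Q - 1140 * v1 ^ 15 * v2 ^ 5 * Q + 3420 * v1 ^ 15 * v2 ^ 5 * P + 3420 * v1 ^ 5 * v2 ^ 15 * Q
      - 1140 * v1 ^ 5 * v2 ^ 15 * P + 4940 * v1 ^ 10 * v2 ^ 10 * Q - 4940 * v1 ^ 10 * v2 ^ 10 * P =
      famHc (kH v1 v2) (kT v1 v2) 1 := by
  subst hP hQ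
  simp only [famHc, kH, kT, kp, kq]
  grind

theorem famH_coeff_2 (v1 v2 P Q : R) (hP : P = kp v1 v2) (hQ : Q = kq v1 v2) :
    -190 * v1 ^ 20 * P ^ 2 - 190 * v2 ^ 20 * Q ^ 2 + 2280 * v1 ^ 15 * v2 ^ 5 * Q ^ 2 - 17100 * v1 ^ 15 * v2 ^ 5 * P * Q
      + 23940 * v1 ^ 15 * v2 ^ 5 * P ^ 2 - 23940 * v1 ^ 5 * v2 ^ 15 * Q ^ 2 + 17100 * v1 ^ 5 * v2 ^ 15 * P * Q
      - 2280 * v1 ^ 5 * v2 ^ 15 * P ^ 2 - 22230 * v1 ^ 10 * v2 ^ 10 * Q ^ 2 + 49400 * v1 ^ 10 * v2 ^ 10 * P * Q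
      - 22230 * v1 ^ 10 * v2 ^ 10 * P ^ 2 =
      famHc (kH v1 v2) (kT v1 v2) 2 := by
  subst hP hQ
  simp only [famHc, kH, kT, kp, kq]
  grind

theorem famH_coeff_3 (v1 v2 P Q : R) (hP : P = kp v1 v2) (hQ : Q = kq v1 v2) :
    -1140 * v1 ^ 20 * P ^ 3 + 1140 * v2 ^ 20 * Q ^ 3 - 2280 * v1 ^ 15 * v2 ^ 5 * Q ^ 3 + 34200 * v1 ^ 15 * v2 ^ 5 * P * Q ^ 2
      - 119700 * v1 ^ 15 * v2 ^ 5 * P ^ 2 * Q + 103740 * v1 ^ 15 * v2 ^ 5 * P ^ 3 + 103740 * v1 ^ 5 * v2 ^ 15 * Q ^ 3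
      - 119700 * v1 ^ 5 * v2 ^ 15 * P * Q ^ 2 + 34200 * v1 ^ 5 * v2 ^ 15 * P ^ 2 * Q - 2280 * v1 ^ 5 * v2 ^ 15 * P ^ 3
      + 59280 * v1 ^ 10 * v2 ^ 10 * Q ^ 3 - 222300 * v1 ^ 10 * v2 ^ 10 * P * Q ^ 2 + 222300 * v1 ^ 10 * v2 ^ 10 * P ^ 2 * Q
      - 59280 * v1 ^ 10 * v2 ^ 10 * P ^ 3 =
      famHc (kH v1 v2) (kT v1 v2) 3 := by
  subst hP hQ
  simp only [famHc, kH, kT, kp, kq]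
  grind

theorem famH_coeff_4 (v1 v2 P Q : R) (hP : P = kp v1 v2) (hQ : Q = kq v1 v2) :
    -4845 * v1 ^ 20 * P ^ 4 - 4845 * v2 ^ 20 * Q ^ 4 + 1140 * v1 ^ 15 * v2 ^ 5 * Q ^ 4 - 34200 * v1 ^ 15 * v2 ^ 5 * P * Q ^ 3
      + 239400 * v1 ^ 15 * v2 ^ 5 * P ^ 2 * Q ^ 2 - 518700 * v1 ^ 15 * v2 ^ 5 * P ^ 3 * Q + 311220 * v1 ^ 15 * v2 ^ 5 * P ^ 4
      - 311220 * v1 ^ 5 * v2 ^ 15 * Q ^ 4 + 518700 * v1 ^ 5 * v2 ^ 15 * P * Q ^ 3 - 239400 * v1 ^ 5 * v2 ^ 15 * P ^ 2 * Q ^ 2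
      + 34200 * v1 ^ 5 * v2 ^ 15 * P ^ 3 * Q - 1140 * v1 ^ 5 * v2 ^ 15 * P ^ 4 - 103740 * v1 ^ 10 * v2 ^ 10 * Q ^ 4
      + 592800 * v1 ^ 10 * v2 ^ 10 * P * Q ^ 3 - 1000350 * v1 ^ 10 * v2 ^ 10 * P ^ 2 * Q ^ 2 + 592800 * v1 ^ 10 * v2 ^ 10 * P ^ 3 * Q
      - 103740 * v1 ^ 10 * v2 ^ 10 * P ^ 4 =
      famHc (kH v1 v2) (kT v1 v2) 4 := by
  subst hP hQ
  simp only [famHc, kH, kT, kp, kq]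
  grind

theorem famH_coeff_5 (v1 v2 P Q : R) (hP : P = kp v1 v2) (hQ : Q = kq v1 v2) :
    -15504 * v1 ^ 20 * P ^ 5 + 15504 * v2 ^ 20 * Q ^ 5 - 228 * v1 ^ 15 * v2 ^ 5 * Q ^ 5 + 17100 * v1 ^ 15 * v2 ^ 5 * P * Q ^ 4
      - 239400 * v1 ^ 15 * v2 ^ 5 * P ^ 2 * Q ^ 3 + 1037400 * v1 ^ 15 * v2 ^ 5 * P ^ 3 * Q ^ 2 - 1556100 * v1 ^ 15 * v2 ^ 5 * P ^ 4 * Q
      + 684684 * v1 ^ 15 * v2 ^ 5 * P ^ 5 + 684684 * v1 ^ 5 * v2 ^ 15 * Q ^ 5 - 1556100 * v1 ^ 5 * v2 ^ 15 * P * Q ^ 4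
      + 1037400 * v1 ^ 5 * v2 ^ 15 * P ^ 2 * Q ^ 3 - 239400 * v1 ^ 5 * v2 ^ 15 * P ^ 3 * Q ^ 2 + 17100 * v1 ^ 5 * v2 ^ 15 * P ^ 4 * Q
      - 228 * v1 ^ 5 * v2 ^ 15 * P ^ 5 + 124488 * v1 ^ 10 * v2 ^ 10 * Q ^ 5 - 1037400 * v1 ^ 10 * v2 ^ 10 * P * Q ^ 4
      + 2667600 * v1 ^ 10 * v2 ^ 10 * P ^ 2 * Q ^ 3 - 2667600 * v1 ^ 10 * v2 ^ 10 * P ^ 3 * Q ^ 2
      + 1037400 * v1 ^ 10 * v2 ^ 10 * P ^ 4 * Q - 124488 * v1 ^ 10 * v2 ^ 10 * P ^ 5 =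
      famHc (kH v1 v2) (kT v1 v2) 5 := by
  subst hP hQ
  simp only [famHc, kH, kT, kp, kq]
  grind

theorem famH_coeff_6 (v1 v2 P Q : R) (hP : P = kp v1 v2) (hQ : Q = kq v1 v2) :
    -38760 * v1 ^ 20 * P ^ 6 - 38760 * v2 ^ 20 * Q ^ 6 - 3420 * v1 ^ 15 * v2 ^ 5 * P * Q ^ 5 + 119700 * v1 ^ 15 * v2 ^ 5 * P ^ 2 * Q ^ 4
      - 1037400 * v1 ^ 15 * v2 ^ 5 * P ^ 3 * Q ^ 3 + 3112200 * v1 ^ 15 * v2 ^ 5 * P ^ 4 * Q ^ 2 - 3423420 * v1 ^ 15 * v2 ^ 5 * P ^ 5 * Q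
      + 1141140 * v1 ^ 15 * v2 ^ 5 * P ^ 6 - 1141140 * v1 ^ 5 * v2 ^ 15 * Q ^ 6 + 3423420 * v1 ^ 5 * v2 ^ 15 * P * Q ^ 5
      - 3112200 * v1 ^ 5 * v2 ^ 15 * P ^ 2 * Q ^ 4 + 1037400 * v1 ^ 5 * v2 ^ 15 * P ^ 3 * Q ^ 3 - 119700 * v1 ^ 5 * v2 ^ 15 * P ^ 4 * Q ^ 2
      + 3420 * v1 ^ 5 * v2 ^ 15 * P ^ 5 * Q - 103740 * v1 ^ 10 * v2 ^ 10 * Q ^ 6 + 1244880 * v1 ^ 10 * v2 ^ 10 * P * Q ^ 5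
      - 4668300 * v1 ^ 10 * v2 ^ 10 * P ^ 2 * Q ^ 4 + 7113600 * v1 ^ 10 * v2 ^ 10 * P ^ 3 * Q ^ 3
      - 4668300 * v1 ^ 10 * v2 ^ 10 * P ^ 4 * Q ^ 2 + 1244880 * v1 ^ 10 * v2 ^ 10 * P ^ 5 * Q - 103740 * v1 ^ 10 * v2 ^ 10 * P ^ 6 =
      famHc (kH v1 v2) (kT v1 v2) 6 := by
  subst hP hQ
  simp only [famHc, kH, kT, kp, kq]
  grind

theorem famH_coeff_7 (v1 v2 P Q : R) (hP : P = kp v1 v2) (hQ : Q = kq v1 v2) :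
    -77520 * v1 ^ 20 * P ^ 7 + 77520 * v2 ^ 20 * Q ^ 7 - 23940 * v1 ^ 15 * v2 ^ 5 * P ^ 2 * Q ^ 5 + 518700 * v1 ^ 15 * v2 ^ 5 * P ^ 3 * Q ^ 4
      - 3112200 * v1 ^ 15 * v2 ^ 5 * P ^ 4 * Q ^ 3 + 6846840 * v1 ^ 15 * v2 ^ 5 * P ^ 5 * Q ^ 2 - 5705700 * v1 ^ 15 * v2 ^ 5 * P ^ 6 * Q
      + 1467180 * v1 ^ 15 * v2 ^ 5 * P ^ 7 + 1467180 * v1 ^ 5 * v2 ^ 15 * Q ^ 7 - 5705700 * v1 ^ 5 * v2 ^ 15 * P * Q ^ 6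
      + 6846840 * v1 ^ 5 * v2 ^ 15 * P ^ 2 * Q ^ 5 - 3112200 * v1 ^ 5 * v2 ^ 15 * P ^ 3 * Q ^ 4 + 518700 * v1 ^ 5 * v2 ^ 15 * P ^ 4 * Q ^ 3
      - 23940 * v1 ^ 5 * v2 ^ 15 * P ^ 5 * Q ^ 2 + 59280 * v1 ^ 10 * v2 ^ 10 * Q ^ 7 - 1037400 * v1 ^ 10 * v2 ^ 10 * P * Q ^ 6
      + 5601960 * v1 ^ 10 * v2 ^ 10 * P ^ 2 * Q ^ 5 - 12448800 * v1 ^ 10 * v2 ^ 10 * P ^ 3 * Q ^ 4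
      + 12448800 * v1 ^ 10 * v2 ^ 10 * P ^ 4 * Q ^ 3 - 5601960 * v1 ^ 10 * v2 ^ 10 * P ^ 5 * Q ^ 2
      + 1037400 * v1 ^ 10 * v2 ^ 10 * P ^ 6 * Q - 59280 * v1 ^ 10 * v2 ^ 10 * P ^ 7 =
      famHc (kH v1 v2) (kT v1 v2) 7 := by
  subst hP hQ
  simp only [famHc, kH, kT, kp, kq]
  grind

theorem famH_coeff_8 (v1 v2 P Q : R) (hP : P = kp v1 v2) (hQ : Q = kq v1 v2) :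
    -125970 * v1 ^ 20 * P ^ 8 - 125970 * v2 ^ 20 * Q ^ 8 - 103740 * v1 ^ 15 * v2 ^ 5 * P ^ 3 * Q ^ 5 + 1556100 * v1 ^ 15 * v2 ^ 5 * P ^ 4 * Q ^ 4
      - 6846840 * v1 ^ 15 * v2 ^ 5 * P ^ 5 * Q ^ 3 + 11411400 * v1 ^ 15 * v2 ^ 5 * P ^ 6 * Q ^ 2 - 7335900 * v1 ^ 15 * v2 ^ 5 * P ^ 7 * Q
      + 1467180 * v1 ^ 15 * v2 ^ 5 * P ^ 8 - 1467180 * v1 ^ 5 * v2 ^ 15 * Q ^ 8 + 7335900 * v1 ^ 5 * v2 ^ 15 * P * Q ^ 7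
      - 11411400 * v1 ^ 5 * v2 ^ 15 * P ^ 2 * Q ^ 6 + 6846840 * v1 ^ 5 * v2 ^ 15 * P ^ 3 * Q ^ 5 - 1556100 * v1 ^ 5 * v2 ^ 15 * P ^ 4 * Q ^ 4
      + 103740 * v1 ^ 5 * v2 ^ 15 * P ^ 5 * Q ^ 3 - 22230 * v1 ^ 10 * v2 ^ 10 * Q ^ 8 + 592800 * v1 ^ 10 * v2 ^ 10 * P * Q ^ 7
      - 4668300 * v1 ^ 10 * v2 ^ 10 * P ^ 2 * Q ^ 6 + 14938560 * v1 ^ 10 * v2 ^ 10 * P ^ 3 * Q ^ 5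
      - 21785400 * v1 ^ 10 * v2 ^ 10 * P ^ 4 * Q ^ 4 + 14938560 * v1 ^ 10 * v2 ^ 10 * P ^ 5 * Q ^ 3
      - 4668300 * v1 ^ 10 * v2 ^ 10 * P ^ 6 * Q ^ 2 + 592800 * v1 ^ 10 * v2 ^ 10 * P ^ 7 * Q - 22230 * v1 ^ 10 * v2 ^ 10 * P ^ 8 =
      famHc (kH v1 v2) (kT v1 v2) 8 := by
  subst hP hQ
  simp only [famHc, kH, kT, kp, kq]
  grind

theorem famH_coeff_9 (v1 v2 P Q : R) (hP : P = kp v1 v2) (hQ : Q = kq v1 v2) :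
    -167960 * v1 ^ 20 * P ^ 9 + 167960 * v2 ^ 20 * Q ^ 9 - 311220 * v1 ^ 15 * v2 ^ 5 * P ^ 4 * Q ^ 5 + 3423420 * v1 ^ 15 * v2 ^ 5 * P ^ 5 * Q ^ 4
      - 11411400 * v1 ^ 15 * v2 ^ 5 * P ^ 6 * Q ^ 3 + 14671800 * v1 ^ 15 * v2 ^ 5 * P ^ 7 * Q ^ 2
      - 7335900 * v1 ^ 15 * v2 ^ 5 * P ^ 8 * Q + 1141140 * v1 ^ 15 * v2 ^ 5 * P ^ 9 + 1141140 * v1 ^ 5 * v2 ^ 15 * Q ^ 9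
      - 7335900 * v1 ^ 5 * v2 ^ 15 * P * Q ^ 8 + 14671800 * v1 ^ 5 * v2 ^ 15 * P ^ 2 * Q ^ 7 - 11411400 * v1 ^ 5 * v2 ^ 15 * P ^ 3 * Q ^ 6
      + 3423420 * v1 ^ 5 * v2 ^ 15 * P ^ 4 * Q ^ 5 - 311220 * v1 ^ 5 * v2 ^ 15 * P ^ 5 * Q ^ 4 + 4940 * v1 ^ 10 * v2 ^ 10 * Q ^ 9
      - 222300 * v1 ^ 10 * v2 ^ 10 * P * Q ^ 8 + 2667600 * v1 ^ 10 * v2 ^ 10 * P ^ 2 * Q ^ 7 - 12448800 * v1 ^ 10 * v2 ^ 10 * P ^ 3 * Q ^ 6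
      + 26142480 * v1 ^ 10 * v2 ^ 10 * P ^ 4 * Q ^ 5 - 26142480 * v1 ^ 10 * v2 ^ 10 * P ^ 5 * Q ^ 4
      + 12448800 * v1 ^ 10 * v2 ^ 10 * P ^ 6 * Q ^ 3 - 2667600 * v1 ^ 10 * v2 ^ 10 * P ^ 7 * Q ^ 2
      + 222300 * v1 ^ 10 * v2 ^ 10 * P ^ 8 * Q - 4940 * v1 ^ 10 * v2 ^ 10 * P ^ 9 =
      famHc (kH v1 v2) (kT v1 v2) 9 := by
  subst hP hQ
  simp only [famHc, kH, kT, kp, kq]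
  grind

theorem famH_coeff_10 (v1 v2 P Q : R) (hP : P = kp v1 v2) (hQ : Q = kq v1 v2) :
    -184756 * v1 ^ 20 * P ^ 10 - 184756 * v2 ^ 20 * Q ^ 10 - 684684 * v1 ^ 15 * v2 ^ 5 * P ^ 5 * Q ^ 5
      + 5705700 * v1 ^ 15 * v2 ^ 5 * P ^ 6 * Q ^ 4 - 14671800 * v1 ^ 15 * v2 ^ 5 * P ^ 7 * Q ^ 3 + 14671800 * v1 ^ 15 * v2 ^ 5 * P ^ 8 * Q ^ 2
      - 5705700 * v1 ^ 15 * v2 ^ 5 * P ^ 9 * Q + 684684 * v1 ^ 15 * v2 ^ 5 * P ^ 10 - 684684 * v1 ^ 5 * v2 ^ 15 * Q ^ 10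
      + 5705700 * v1 ^ 5 * v2 ^ 15 * P * Q ^ 9 - 14671800 * v1 ^ 5 * v2 ^ 15 * P ^ 2 * Q ^ 8 + 14671800 * v1 ^ 5 * v2 ^ 15 * P ^ 3 * Q ^ 7
      - 5705700 * v1 ^ 5 * v2 ^ 15 * P ^ 4 * Q ^ 6 + 684684 * v1 ^ 5 * v2 ^ 15 * P ^ 5 * Q ^ 5 - 494 * v1 ^ 10 * v2 ^ 10 * Q ^ 10
      + 49400 * v1 ^ 10 * v2 ^ 10 * P * Q ^ 9 - 1000350 * v1 ^ 10 * v2 ^ 10 * P ^ 2 * Q ^ 8 + 7113600 * v1 ^ 10 * v2 ^ 10 * P ^ 3 * Q ^ 7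
      - 21785400 * v1 ^ 10 * v2 ^ 10 * P ^ 4 * Q ^ 6 + 31370976 * v1 ^ 10 * v2 ^ 10 * P ^ 5 * Q ^ 5
      - 21785400 * v1 ^ 10 * v2 ^ 10 * P ^ 6 * Q ^ 4 + 7113600 * v1 ^ 10 * v2 ^ 10 * P ^ 7 * Q ^ 3
      - 1000350 * v1 ^ 10 * v2 ^ 10 * P ^ 8 * Q ^ 2 + 49400 * v1 ^ 10 * v2 ^ 10 * P ^ 9 * Q - 494 * v1 ^ 10 * v2 ^ 10 * P ^ 10 =
      famHc (kH v1 v2) (kT v1 v2) 10 := by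
  subst hP hQ
  simp only [famHc, kH, kT, kp, kq]
  grind

theorem famH_coeff_11 (v1 v2 P Q : R) (hP : P = kp v1 v2) (hQ : Q = kq v1 v2) :
    -167960 * v1 ^ 20 * P ^ 11 + 167960 * v2 ^ 20 * Q ^ 11 - 1141140 * v1 ^ 15 * v2 ^ 5 * P ^ 6 * Q ^ 5
      + 7335900 * v1 ^ 15 * v2 ^ 5 * P ^ 7 * Q ^ 4 - 14671800 * v1 ^ 15 * v2 ^ 5 * P ^ 8 * Q ^ 3 + 11411400 * v1 ^ 15 * v2 ^ 5 * P ^ 9 * Q ^ 2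
      - 3423420 * v1 ^ 15 * v2 ^ 5 * P ^ 10 * Q + 311220 * v1 ^ 15 * v2 ^ 5 * P ^ 11 + 311220 * v1 ^ 5 * v2 ^ 15 * Q ^ 11
      - 3423420 * v1 ^ 5 * v2 ^ 15 * P * Q ^ 10 + 11411400 * v1 ^ 5 * v2 ^ 15 * P ^ 2 * Q ^ 9 - 14671800 * v1 ^ 5 * v2 ^ 15 * P ^ 3 * Q ^ 8
      + 7335900 * v1 ^ 5 * v2 ^ 15 * P ^ 4 * Q ^ 7 - 1141140 * v1 ^ 5 * v2 ^ 15 * P ^ 5 * Q ^ 6 - 4940 * v1 ^ 10 * v2 ^ 10 * P * Q ^ 10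
      + 222300 * v1 ^ 10 * v2 ^ 10 * P ^ 2 * Q ^ 9 - 2667600 * v1 ^ 10 * v2 ^ 10 * P ^ 3 * Q ^ 8 + 12448800 * v1 ^ 10 * v2 ^ 10 * P ^ 4 * Q ^ 7
      - 26142480 * v1 ^ 10 * v2 ^ 10 * P ^ 5 * Q ^ 6 + 26142480 * v1 ^ 10 * v2 ^ 10 * P ^ 6 * Q ^ 5
      - 12448800 * v1 ^ 10 * v2 ^ 10 * P ^ 7 * Q ^ 4 + 2667600 * v1 ^ 10 * v2 ^ 10 * P ^ 8 * Q ^ 3
      - 222300 * v1 ^ 10 * v2 ^ 10 * P ^ 9 * Q ^ 2 + 4940 * v1 ^ 10 * v2 ^ 10 * P ^ 10 * Q =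
      famHc (kH v1 v2) (kT v1 v2) 11 := by
  subst hP hQ
  simp only [famHc, kH, kT, kp, kq]
  grind

theorem famH_coeff_12 (v1 v2 P Q : R) (hP : P = kp v1 v2) (hQ : Q = kq v1 v2) :
    -125970 * v1 ^ 20 * P ^ 12 - 125970 * v2 ^ 20 * Q ^ 12 - 1467180 * v1 ^ 15 * v2 ^ 5 * P ^ 7 * Q ^ 5
      + 7335900 * v1 ^ 15 * v2 ^ 5 * P ^ 8 * Q ^ 4 - 11411400 * v1 ^ 15 * v2 ^ 5 * P ^ 9 * Q ^ 3 + 6846840 * v1 ^ 15 * v2 ^ 5 * P ^ 10 * Q ^ 2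
      - 1556100 * v1 ^ 15 * v2 ^ 5 * P ^ 11 * Q + 103740 * v1 ^ 15 * v2 ^ 5 * P ^ 12 - 103740 * v1 ^ 5 * v2 ^ 15 * Q ^ 12
      + 1556100 * v1 ^ 5 * v2 ^ 15 * P * Q ^ 11 - 6846840 * v1 ^ 5 * v2 ^ 15 * P ^ 2 * Q ^ 10 + 11411400 * v1 ^ 5 * v2 ^ 15 * P ^ 3 * Q ^ 9
      - 7335900 * v1 ^ 5 * v2 ^ 15 * P ^ 4 * Q ^ 8 + 1467180 * v1 ^ 5 * v2 ^ 15 * P ^ 5 * Q ^ 7 - 22230 * v1 ^ 10 * v2 ^ 10 * P ^ 2 * Q ^ 10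
      + 592800 * v1 ^ 10 * v2 ^ 10 * P ^ 3 * Q ^ 9 - 4668300 * v1 ^ 10 * v2 ^ 10 * P ^ 4 * Q ^ 8 + 14938560 * v1 ^ 10 * v2 ^ 10 * P ^ 5 * Q ^ 7
      - 21785400 * v1 ^ 10 * v2 ^ 10 * P ^ 6 * Q ^ 6 + 14938560 * v1 ^ 10 * v2 ^ 10 * P ^ 7 * Q ^ 5
      - 4668300 * v1 ^ 10 * v2 ^ 10 * P ^ 8 * Q ^ 4 + 592800 * v1 ^ 10 * v2 ^ 10 * P ^ 9 * Q ^ 3 - 22230 * v1 ^ 10 * v2 ^ 10 * P ^ 10 * Q ^ 2 =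
      famHc (kH v1 v2) (kT v1 v2) 12 := by
  subst hP hQ
  simp only [famHc, kH, kT, kp, kq]
  grind

theorem famH_coeff_13 (v1 v2 P Q : R) (hP : P = kp v1 v2) (hQ : Q = kq v1 v2) :
    -77520 * v1 ^ 20 * P ^ 13 + 77520 * v2 ^ 20 * Q ^ 13 - 1467180 * v1 ^ 15 * v2 ^ 5 * P ^ 8 * Q ^ 5
      + 5705700 * v1 ^ 15 * v2 ^ 5 * P ^ 9 * Q ^ 4 - 6846840 * v1 ^ 15 * v2 ^ 5 * P ^ 10 * Q ^ 3 + 3112200 * v1 ^ 15 * v2 ^ 5 * P ^ 11 * Q ^ 2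
      - 518700 * v1 ^ 15 * v2 ^ 5 * P ^ 12 * Q + 23940 * v1 ^ 15 * v2 ^ 5 * P ^ 13 + 23940 * v1 ^ 5 * v2 ^ 15 * Q ^ 13
      - 518700 * v1 ^ 5 * v2 ^ 15 * P * Q ^ 12 + 3112200 * v1 ^ 5 * v2 ^ 15 * P ^ 2 * Q ^ 11 - 6846840 * v1 ^ 5 * v2 ^ 15 * P ^ 3 * Q ^ 10
      + 5705700 * v1 ^ 5 * v2 ^ 15 * P ^ 4 * Q ^ 9 - 1467180 * v1 ^ 5 * v2 ^ 15 * P ^ 5 * Q ^ 8 - 59280 * v1 ^ 10 * v2 ^ 10 * P ^ 3 * Q ^ 10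
      + 1037400 * v1 ^ 10 * v2 ^ 10 * P ^ 4 * Q ^ 9 - 5601960 * v1 ^ 10 * v2 ^ 10 * P ^ 5 * Q ^ 8
      + 12448800 * v1 ^ 10 * v2 ^ 10 * P ^ 6 * Q ^ 7 - 12448800 * v1 ^ 10 * v2 ^ 10 * P ^ 7 * Q ^ 6
      + 5601960 * v1 ^ 10 * v2 ^ 10 * P ^ 8 * Q ^ 5 - 1037400 * v1 ^ 10 * v2 ^ 10 * P ^ 9 * Q ^ 4
      + 59280 * v1 ^ 10 * v2 ^ 10 * P ^ 10 * Q ^ 3 =
      famHc (kH v1 v2) (kT v1 v2) 13 := by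
  subst hP hQ
  simp only [famHc, kH, kT, kp, kq]
  grind

theorem famH_coeff_14 (v1 v2 P Q : R) (hP : P = kp v1 v2) (hQ : Q = kq v1 v2) :
    -38760 * v1 ^ 20 * P ^ 14 - 38760 * v2 ^ 20 * Q ^ 14 - 1141140 * v1 ^ 15 * v2 ^ 5 * P ^ 9 * Q ^ 5
      + 3423420 * v1 ^ 15 * v2 ^ 5 * P ^ 10 * Q ^ 4 - 3112200 * v1 ^ 15 * v2 ^ 5 * P ^ 11 * Q ^ 3
      + 1037400 * v1 ^ 15 * v2 ^ 5 * P ^ 12 * Q ^ 2 - 119700 * v1 ^ 15 * v2 ^ 5 * P ^ 13 * Q + 3420 * v1 ^ 15 * v2 ^ 5 * P ^ 14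
      - 3420 * v1 ^ 5 * v2 ^ 15 * Q ^ 14 + 119700 * v1 ^ 5 * v2 ^ 15 * P * Q ^ 13 - 1037400 * v1 ^ 5 * v2 ^ 15 * P ^ 2 * Q ^ 12
      + 3112200 * v1 ^ 5 * v2 ^ 15 * P ^ 3 * Q ^ 11 - 3423420 * v1 ^ 5 * v2 ^ 15 * P ^ 4 * Q ^ 10
      + 1141140 * v1 ^ 5 * v2 ^ 15 * P ^ 5 * Q ^ 9 - 103740 * v1 ^ 10 * v2 ^ 10 * P ^ 4 * Q ^ 10 + 1244880 * v1 ^ 10 * v2 ^ 10 * P ^ 5 * Q ^ 9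
      - 4668300 * v1 ^ 10 * v2 ^ 10 * P ^ 6 * Q ^ 8 + 7113600 * v1 ^ 10 * v2 ^ 10 * P ^ 7 * Q ^ 7
      - 4668300 * v1 ^ 10 * v2 ^ 10 * P ^ 8 * Q ^ 6 + 1244880 * v1 ^ 10 * v2 ^ 10 * P ^ 9 * Q ^ 5
      - 103740 * v1 ^ 10 * v2 ^ 10 * P ^ 10 * Q ^ 4 =
      famHc (kH v1 v2) (kT v1 v2) 14 := by
  subst hP hQ
  simp only [famHc, kH, kT, kp, kq]
  grind

theorem famH_coeff_15 (v1 v2 P Q : R) (hP : P = kp v1 v2) (hQ : Q = kq v1 v2) :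
    -15504 * v1 ^ 20 * P ^ 15 + 15504 * v2 ^ 20 * Q ^ 15 - 684684 * v1 ^ 15 * v2 ^ 5 * P ^ 10 * Q ^ 5
      + 1556100 * v1 ^ 15 * v2 ^ 5 * P ^ 11 * Q ^ 4 - 1037400 * v1 ^ 15 * v2 ^ 5 * P ^ 12 * Q ^ 3
      + 239400 * v1 ^ 15 * v2 ^ 5 * P ^ 13 * Q ^ 2 - 17100 * v1 ^ 15 * v2 ^ 5 * P ^ 14 * Q + 228 * v1 ^ 15 * v2 ^ 5 * P ^ 15
      + 228 * v1 ^ 5 * v2 ^ 15 * Q ^ 15 - 17100 * v1 ^ 5 * v2 ^ 15 * P * Q ^ 14 + 239400 * v1 ^ 5 * v2 ^ 15 * P ^ 2 * Q ^ 13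
      - 1037400 * v1 ^ 5 * v2 ^ 15 * P ^ 3 * Q ^ 12 + 1556100 * v1 ^ 5 * v2 ^ 15 * P ^ 4 * Q ^ 11
      - 684684 * v1 ^ 5 * v2 ^ 15 * P ^ 5 * Q ^ 10 - 124488 * v1 ^ 10 * v2 ^ 10 * P ^ 5 * Q ^ 10 + 1037400 * v1 ^ 10 * v2 ^ 10 * P ^ 6 * Q ^ 9
      - 2667600 * v1 ^ 10 * v2 ^ 10 * P ^ 7 * Q ^ 8 + 2667600 * v1 ^ 10 * v2 ^ 10 * P ^ 8 * Q ^ 7
      - 1037400 * v1 ^ 10 * v2 ^ 10 * P ^ 9 * Q ^ 6 + 124488 * v1 ^ 10 * v2 ^ 10 * P ^ 10 * Q ^ 5 =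
      famHc (kH v1 v2) (kT v1 v2) 15 := by
  subst hP hQ
  simp only [famHc, kH, kT, kp, kq]
  grind

theorem famH_coeff_16 (v1 v2 P Q : R) (hP : P = kp v1 v2) (hQ : Q = kq v1 v2) :
    -4845 * v1 ^ 20 * P ^ 16 - 4845 * v2 ^ 20 * Q ^ 16 - 311220 * v1 ^ 15 * v2 ^ 5 * P ^ 11 * Q ^ 5 + 518700 * v1 ^ 15 * v2 ^ 5 * P ^ 12 * Q ^ 4
      - 239400 * v1 ^ 15 * v2 ^ 5 * P ^ 13 * Q ^ 3 + 34200 * v1 ^ 15 * v2 ^ 5 * P ^ 14 * Q ^ 2 - 1140 * v1 ^ 15 * v2 ^ 5 * P ^ 15 * Q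
      + 1140 * v1 ^ 5 * v2 ^ 15 * P * Q ^ 15 - 34200 * v1 ^ 5 * v2 ^ 15 * P ^ 2 * Q ^ 14 + 239400 * v1 ^ 5 * v2 ^ 15 * P ^ 3 * Q ^ 13
      - 518700 * v1 ^ 5 * v2 ^ 15 * P ^ 4 * Q ^ 12 + 311220 * v1 ^ 5 * v2 ^ 15 * P ^ 5 * Q ^ 11 - 103740 * v1 ^ 10 * v2 ^ 10 * P ^ 6 * Q ^ 10
      + 592800 * v1 ^ 10 * v2 ^ 10 * P ^ 7 * Q ^ 9 - 1000350 * v1 ^ 10 * v2 ^ 10 * P ^ 8 * Q ^ 8 + 592800 * v1 ^ 10 * v2 ^ 10 * P ^ 9 * Q ^ 7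
      - 103740 * v1 ^ 10 * v2 ^ 10 * P ^ 10 * Q ^ 6 =
      famHc (kH v1 v2) (kT v1 v2) 16 := by
  subst hP hQ
  simp only [famHc, kH, kT, kp, kq]
  grind

theorem famH_coeff_17 (v1 v2 P Q : R) (hP : P = kp v1 v2) (hQ : Q = kq v1 v2) :
    -1140 * v1 ^ 20 * P ^ 17 + 1140 * v2 ^ 20 * Q ^ 17 - 103740 * v1 ^ 15 * v2 ^ 5 * P ^ 12 * Q ^ 5 + 119700 * v1 ^ 15 * v2 ^ 5 * P ^ 13 * Q ^ 4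
      - 34200 * v1 ^ 15 * v2 ^ 5 * P ^ 14 * Q ^ 3 + 2280 * v1 ^ 15 * v2 ^ 5 * P ^ 15 * Q ^ 2 + 2280 * v1 ^ 5 * v2 ^ 15 * P ^ 2 * Q ^ 15
      - 34200 * v1 ^ 5 * v2 ^ 15 * P ^ 3 * Q ^ 14 + 119700 * v1 ^ 5 * v2 ^ 15 * P ^ 4 * Q ^ 13 - 103740 * v1 ^ 5 * v2 ^ 15 * P ^ 5 * Q ^ 12
      - 59280 * v1 ^ 10 * v2 ^ 10 * P ^ 7 * Q ^ 10 + 222300 * v1 ^ 10 * v2 ^ 10 * P ^ 8 * Q ^ 9 - 222300 * v1 ^ 10 * v2 ^ 10 * P ^ 9 * Q ^ 8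
      + 59280 * v1 ^ 10 * v2 ^ 10 * P ^ 10 * Q ^ 7 =
      famHc (kH v1 v2) (kT v1 v2) 17 := by
  subst hP hQ
  simp only [famHc, kH, kT, kp, kq]
  grind

theorem famH_coeff_18 (v1 v2 P Q : R) (hP : P = kp v1 v2) (hQ : Q = kq v1 v2) :
    -190 * v1 ^ 20 * P ^ 18 - 190 * v2 ^ 20 * Q ^ 18 - 23940 * v1 ^ 15 * v2 ^ 5 * P ^ 13 * Q ^ 5 + 17100 * v1 ^ 15 * v2 ^ 5 * P ^ 14 * Q ^ 4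
      - 2280 * v1 ^ 15 * v2 ^ 5 * P ^ 15 * Q ^ 3 + 2280 * v1 ^ 5 * v2 ^ 15 * P ^ 3 * Q ^ 15 - 17100 * v1 ^ 5 * v2 ^ 15 * P ^ 4 * Q ^ 14
      + 23940 * v1 ^ 5 * v2 ^ 15 * P ^ 5 * Q ^ 13 - 22230 * v1 ^ 10 * v2 ^ 10 * P ^ 8 * Q ^ 10 + 49400 * v1 ^ 10 * v2 ^ 10 * P ^ 9 * Q ^ 9
      - 22230 * v1 ^ 10 * v2 ^ 10 * P ^ 10 * Q ^ 8 =
      famHc (kH v1 v2) (kT v1 v2) 18 := by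
  subst hP hQ
  simp only [famHc, kH, kT, kp, kq]
  grind

theorem famH_coeff_19 (v1 v2 P Q : R) (hP : P = kp v1 v2) (hQ : Q = kq v1 v2) :
    -20 * v1 ^ 20 * P ^ 19 + 20 * v2 ^ 20 * Q ^ 19 - 3420 * v1 ^ 15 * v2 ^ 5 * P ^ 14 * Q ^ 5 + 1140 * v1 ^ 15 * v2 ^ 5 * P ^ 15 * Q ^ 4
      + 1140 * v1 ^ 5 * v2 ^ 15 * P ^ 4 * Q ^ 15 - 3420 * v1 ^ 5 * v2 ^ 15 * P ^ 5 * Q ^ 14 - 4940 * v1 ^ 10 * v2 ^ 10 * P ^ 9 * Q ^ 10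
      + 4940 * v1 ^ 10 * v2 ^ 10 * P ^ 10 * Q ^ 9 =
      famHc (kH v1 v2) (kT v1 v2) 19 := by
  subst hP hQ
  simp only [famHc, kH, kT, kp, kq]
  grind

theorem famH_coeff_20 (v1 v2 P Q : R) (hP : P = kp v1 v2) (hQ : Q = kq v1 v2) :
    -v1 ^ 20 * P ^ 20 - v2 ^ 20 * Q ^ 20 - 228 * v1 ^ 15 * v2 ^ 5 * P ^ 15 * Q ^ 5 + 228 * v1 ^ 5 * v2 ^ 15 * P ^ 5 * Q ^ 15
      - 494 * v1 ^ 10 * v2 ^ 10 * P ^ 10 * Q ^ 10 =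
      famHc (kH v1 v2) (kT v1 v2) 20 := by
  subst hP hQ
  simp only [famHc, kH, kT, kp, kq]
  grind

set_option maxRecDepth 1000000 in
set_option maxHeartbeats 1000000 in
/-- `H (v + t * J grad f (v))` is the polynomial `famH` in `H (v)`, `T (v)`, `t`. -/
theorem famH_spec (v1 v2 t : R) :
    kH (kV1 v1 v2 t) (kV2 v1 v2 t) = famH (kH v1 v2) (kT v1 v2) t := by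
  simp only [famH, Finset.sum_range_succ, Finset.sum_range_zero]
  conv_lhs => simp only [kH, kV1, kV2]
  linear_combination (norm := skip) famH_coeff_0 v1 v2 _ _ rfl rfl + t ^ 1 * famH_coeff_1 v1 v2 _ _ rfl rfl + t ^ 2 * famH_coeff_2 v1 v2 _ _ rfl rfl
    + t ^ 3 * famH_coeff_3 v1 v2 _ _ rfl rfl + t ^ 4 * famH_coeff_4 v1 v2 _ _ rfl rfl + t ^ 5 * famH_coeff_5 v1 v2 _ _ rfl rfl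
    + t ^ 6 * famH_coeff_6 v1 v2 _ _ rfl rfl + t ^ 7 * famH_coeff_7 v1 v2 _ _ rfl rfl + t ^ 8 * famH_coeff_8 v1 v2 _ _ rfl rfl
    + t ^ 9 * famH_coeff_9 v1 v2 _ _ rfl rfl + t ^ 10 * famH_coeff_10 v1 v2 _ _ rfl rfl + t ^ 11 * famH_coeff_11 v1 v2 _ _ rfl rfl
    + t ^ 12 * famH_coeff_12 v1 v2 _ _ rfl rfl + t ^ 13 * famH_coeff_13 v1 v2 _ _ rfl rfl + t ^ 14 * famH_coeff_14 v1 v2 _ _ rfl rfl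
    + t ^ 15 * famH_coeff_15 v1 v2 _ _ rfl rfl + t ^ 16 * famH_coeff_16 v1 v2 _ _ rfl rfl + t ^ 17 * famH_coeff_17 v1 v2 _ _ rfl rfl
    + t ^ 18 * famH_coeff_18 v1 v2 _ _ rfl rfl + t ^ 19 * famH_coeff_19 v1 v2 _ _ rfl rfl + t ^ 20 * famH_coeff_20 v1 v2 _ _ rfl rfl
  grind

end Fermat.Agent.P7.helper66
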