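import Fermat.Agent.P7.helper66_KleinDefs

/-!
# P7 / S52, FAM: `t`-coefficients of `kT (v_t) = famT (kH v) (kT v) t`, part B (helper66)
-/

namespace Fermat.Agent.P7.helper66

open Fermat.Agent.P7.helper80 (kF kH kT)

set_option linter.unusedVariables false
set_option maxRecDepth 1000000
set_option linter.unusedSimpArgs false

variable {R : Type*} [CommRing R]

theorem famT_coeff_14 (v1 v2 P Q : R) (hP : P = kp v1 v2) (hQ : Q = kq v1 v2) :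
    145422675 * v1 ^ 30 * P ^ 14 + 145422675 * v2 ^ 30 * Q ^ 14 - 1066432950 * v1 ^ 25 * v2 ^ 5 * P ^ 9 * Q ^ 5
      + 8531463600 * v1 ^ 25 * v2 ^ 5 * P ^ 10 * Q ^ 4 - 23267628000 * v1 ^ 25 * v2 ^ 5 * P ^ 11 * Q ^ 3
      + 27145566000 * v1 ^ 25 * v2 ^ 5 * P ^ 12 * Q ^ 2 - 13572783000 * v1 ^ 25 * v2 ^ 5 * P ^ 13 * Q
      + 2326762800 * v1 ^ 25 * v2 ^ 5 * P ^ 14 - 2326762800 * v1 ^ 5 * v2 ^ 25 * Q ^ 14 + 13572783000 * v1 ^ 5 * v2 ^ 25 * P * Q ^ 13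
      - 27145566000 * v1 ^ 5 * v2 ^ 25 * P ^ 2 * Q ^ 12 + 23267628000 * v1 ^ 5 * v2 ^ 25 * P ^ 3 * Q ^ 11
      - 8531463600 * v1 ^ 5 * v2 ^ 25 * P ^ 4 * Q ^ 10 + 1066432950 * v1 ^ 5 * v2 ^ 25 * P ^ 5 * Q ^ 9
      - 48474225 * v1 ^ 20 * v2 ^ 10 * P ^ 4 * Q ^ 10 + 1551175200 * v1 ^ 20 * v2 ^ 10 * P ^ 5 * Q ^ 9
      - 17450721000 * v1 ^ 20 * v2 ^ 10 * P ^ 6 * Q ^ 8 + 93070512000 * v1 ^ 20 * v2 ^ 10 * P ^ 7 * Q ^ 7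
      - 264669268500 * v1 ^ 20 * v2 ^ 10 * P ^ 8 * Q ^ 6 + 423470829600 * v1 ^ 20 * v2 ^ 10 * P ^ 9 * Q ^ 5
      - 388181593800 * v1 ^ 20 * v2 ^ 10 * P ^ 10 * Q ^ 4 + 201652776000 * v1 ^ 20 * v2 ^ 10 * P ^ 11 * Q ^ 3
      - 56714843250 * v1 ^ 20 * v2 ^ 10 * P ^ 12 * Q ^ 2 + 7755876000 * v1 ^ 20 * v2 ^ 10 * P ^ 13 * Q
      - 387793800 * v1 ^ 20 * v2 ^ 10 * P ^ 14 - 387793800 * v1 ^ 10 * v2 ^ 20 * Q ^ 14 + 7755876000 * v1 ^ 10 * v2 ^ 20 * P * Q ^ 13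
      - 56714843250 * v1 ^ 10 * v2 ^ 20 * P ^ 2 * Q ^ 12 + 201652776000 * v1 ^ 10 * v2 ^ 20 * P ^ 3 * Q ^ 11
      - 388181593800 * v1 ^ 10 * v2 ^ 20 * P ^ 4 * Q ^ 10 + 423470829600 * v1 ^ 10 * v2 ^ 20 * P ^ 5 * Q ^ 9
      - 264669268500 * v1 ^ 10 * v2 ^ 20 * P ^ 6 * Q ^ 8 + 93070512000 * v1 ^ 10 * v2 ^ 20 * P ^ 7 * Q ^ 7
      - 17450721000 * v1 ^ 10 * v2 ^ 20 * P ^ 8 * Q ^ 6 + 1551175200 * v1 ^ 10 * v2 ^ 20 * P ^ 9 * Q ^ 5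
      - 48474225 * v1 ^ 10 * v2 ^ 20 * P ^ 10 * Q ^ 4 =
      famTc (kH v1 v2) (kT v1 v2) 14 := by
  subst hP hQ
  simp only [famTc, kH, kT, kp, kq]
  grind

theorem famT_coeff_15 (v1 v2 P Q : R) (hP : P = kp v1 v2) (hQ : Q = kq v1 v2) :
    155117520 * v1 ^ 30 * P ^ 15 - 155117520 * v2 ^ 30 * Q ^ 15 - 1706292720 * v1 ^ 25 * v2 ^ 5 * P ^ 10 * Q ^ 5
      + 11633814000 * v1 ^ 25 * v2 ^ 5 * P ^ 11 * Q ^ 4 - 27145566000 * v1 ^ 25 * v2 ^ 5 * P ^ 12 * Q ^ 3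
      + 27145566000 * v1 ^ 25 * v2 ^ 5 * P ^ 13 * Q ^ 2 - 11633814000 * v1 ^ 25 * v2 ^ 5 * P ^ 14 * Q
      + 1706292720 * v1 ^ 25 * v2 ^ 5 * P ^ 15 + 1706292720 * v1 ^ 5 * v2 ^ 25 * Q ^ 15 - 11633814000 * v1 ^ 5 * v2 ^ 25 * P * Q ^ 14
      + 27145566000 * v1 ^ 5 * v2 ^ 25 * P ^ 2 * Q ^ 13 - 27145566000 * v1 ^ 5 * v2 ^ 25 * P ^ 3 * Q ^ 12
      + 11633814000 * v1 ^ 5 * v2 ^ 25 * P ^ 4 * Q ^ 11 - 1706292720 * v1 ^ 5 * v2 ^ 25 * P ^ 5 * Q ^ 10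
      - 155117520 * v1 ^ 20 * v2 ^ 10 * P ^ 5 * Q ^ 10 + 3877938000 * v1 ^ 20 * v2 ^ 10 * P ^ 6 * Q ^ 9
      - 34901442000 * v1 ^ 20 * v2 ^ 10 * P ^ 7 * Q ^ 8 + 151239582000 * v1 ^ 20 * v2 ^ 10 * P ^ 8 * Q ^ 7
      - 352892358000 * v1 ^ 20 * v2 ^ 10 * P ^ 9 * Q ^ 6 + 465817912560 * v1 ^ 20 * v2 ^ 10 * P ^ 10 * Q ^ 5
      - 352892358000 * v1 ^ 20 * v2 ^ 10 * P ^ 11 * Q ^ 4 + 151239582000 * v1 ^ 20 * v2 ^ 10 * P ^ 12 * Q ^ 3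
      - 34901442000 * v1 ^ 20 * v2 ^ 10 * P ^ 13 * Q ^ 2 + 3877938000 * v1 ^ 20 * v2 ^ 10 * P ^ 14 * Q
      - 155117520 * v1 ^ 20 * v2 ^ 10 * P ^ 15 + 155117520 * v1 ^ 10 * v2 ^ 20 * Q ^ 15 - 3877938000 * v1 ^ 10 * v2 ^ 20 * P * Q ^ 14
      + 34901442000 * v1 ^ 10 * v2 ^ 20 * P ^ 2 * Q ^ 13 - 151239582000 * v1 ^ 10 * v2 ^ 20 * P ^ 3 * Q ^ 12
      + 352892358000 * v1 ^ 10 * v2 ^ 20 * P ^ 4 * Q ^ 11 - 465817912560 * v1 ^ 10 * v2 ^ 20 * P ^ 5 * Q ^ 10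
      + 352892358000 * v1 ^ 10 * v2 ^ 20 * P ^ 6 * Q ^ 9 - 151239582000 * v1 ^ 10 * v2 ^ 20 * P ^ 7 * Q ^ 8
      + 34901442000 * v1 ^ 10 * v2 ^ 20 * P ^ 8 * Q ^ 7 - 3877938000 * v1 ^ 10 * v2 ^ 20 * P ^ 9 * Q ^ 6
      + 155117520 * v1 ^ 10 * v2 ^ 20 * P ^ 10 * Q ^ 5 =
      famTc (kH v1 v2) (kT v1 v2) 15 := by
  subst hP hQ
  simp only [famTc, kH, kT, kp, kq]
  grind

theorem famT_coeff_16 (v1 v2 P Q : R) (hP : P = kp v1 v2) (hQ : Q = kq v1 v2) :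
    145422675 * v1 ^ 30 * P ^ 16 + 145422675 * v2 ^ 30 * Q ^ 16 - 2326762800 * v1 ^ 25 * v2 ^ 5 * P ^ 11 * Q ^ 5
      + 13572783000 * v1 ^ 25 * v2 ^ 5 * P ^ 12 * Q ^ 4 - 27145566000 * v1 ^ 25 * v2 ^ 5 * P ^ 13 * Q ^ 3
      + 23267628000 * v1 ^ 25 * v2 ^ 5 * P ^ 14 * Q ^ 2 - 8531463600 * v1 ^ 25 * v2 ^ 5 * P ^ 15 * Q
      + 1066432950 * v1 ^ 25 * v2 ^ 5 * P ^ 16 - 1066432950 * v1 ^ 5 * v2 ^ 25 * Q ^ 16 + 8531463600 * v1 ^ 5 * v2 ^ 25 * P * Q ^ 15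
      - 23267628000 * v1 ^ 5 * v2 ^ 25 * P ^ 2 * Q ^ 14 + 27145566000 * v1 ^ 5 * v2 ^ 25 * P ^ 3 * Q ^ 13
      - 13572783000 * v1 ^ 5 * v2 ^ 25 * P ^ 4 * Q ^ 12 + 2326762800 * v1 ^ 5 * v2 ^ 25 * P ^ 5 * Q ^ 11
      - 387793800 * v1 ^ 20 * v2 ^ 10 * P ^ 6 * Q ^ 10 + 7755876000 * v1 ^ 20 * v2 ^ 10 * P ^ 7 * Q ^ 9
      - 56714843250 * v1 ^ 20 * v2 ^ 10 * P ^ 8 * Q ^ 8 + 201652776000 * v1 ^ 20 * v2 ^ 10 * P ^ 9 * Q ^ 7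
      - 388181593800 * v1 ^ 20 * v2 ^ 10 * P ^ 10 * Q ^ 6 + 423470829600 * v1 ^ 20 * v2 ^ 10 * P ^ 11 * Q ^ 5
      - 264669268500 * v1 ^ 20 * v2 ^ 10 * P ^ 12 * Q ^ 4 + 93070512000 * v1 ^ 20 * v2 ^ 10 * P ^ 13 * Q ^ 3
      - 17450721000 * v1 ^ 20 * v2 ^ 10 * P ^ 14 * Q ^ 2 + 1551175200 * v1 ^ 20 * v2 ^ 10 * P ^ 15 * Q
      - 48474225 * v1 ^ 20 * v2 ^ 10 * P ^ 16 - 48474225 * v1 ^ 10 * v2 ^ 20 * Q ^ 16 + 1551175200 * v1 ^ 10 * v2 ^ 20 * P * Q ^ 15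
      - 17450721000 * v1 ^ 10 * v2 ^ 20 * P ^ 2 * Q ^ 14 + 93070512000 * v1 ^ 10 * v2 ^ 20 * P ^ 3 * Q ^ 13
      - 264669268500 * v1 ^ 10 * v2 ^ 20 * P ^ 4 * Q ^ 12 + 423470829600 * v1 ^ 10 * v2 ^ 20 * P ^ 5 * Q ^ 11
      - 388181593800 * v1 ^ 10 * v2 ^ 20 * P ^ 6 * Q ^ 10 + 201652776000 * v1 ^ 10 * v2 ^ 20 * P ^ 7 * Q ^ 9
      - 56714843250 * v1 ^ 10 * v2 ^ 20 * P ^ 8 * Q ^ 8 + 7755876000 * v1 ^ 10 * v2 ^ 20 * P ^ 9 * Q ^ 7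
      - 387793800 * v1 ^ 10 * v2 ^ 20 * P ^ 10 * Q ^ 6 =
      famTc (kH v1 v2) (kT v1 v2) 16 := by
  subst hP hQ
  simp only [famTc, kH, kT, kp, kq]
  grind

theorem famT_coeff_17 (v1 v2 P Q : R) (hP : P = kp v1 v2) (hQ : Q = kq v1 v2) :
    119759850 * v1 ^ 30 * P ^ 17 - 119759850 * v2 ^ 30 * Q ^ 17 - 2714556600 * v1 ^ 25 * v2 ^ 5 * P ^ 12 * Q ^ 5
      + 13572783000 * v1 ^ 25 * v2 ^ 5 * P ^ 13 * Q ^ 4 - 23267628000 * v1 ^ 25 * v2 ^ 5 * P ^ 14 * Q ^ 3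
      + 17062927200 * v1 ^ 25 * v2 ^ 5 * P ^ 15 * Q ^ 2 - 5332164750 * v1 ^ 25 * v2 ^ 5 * P ^ 16 * Q
      + 564582150 * v1 ^ 25 * v2 ^ 5 * P ^ 17 + 564582150 * v1 ^ 5 * v2 ^ 25 * Q ^ 17 - 5332164750 * v1 ^ 5 * v2 ^ 25 * P * Q ^ 16
      + 17062927200 * v1 ^ 5 * v2 ^ 25 * P ^ 2 * Q ^ 15 - 23267628000 * v1 ^ 5 * v2 ^ 25 * P ^ 3 * Q ^ 14
      + 13572783000 * v1 ^ 5 * v2 ^ 25 * P ^ 4 * Q ^ 13 - 2714556600 * v1 ^ 5 * v2 ^ 25 * P ^ 5 * Q ^ 12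
      - 775587600 * v1 ^ 20 * v2 ^ 10 * P ^ 7 * Q ^ 10 + 12603298500 * v1 ^ 20 * v2 ^ 10 * P ^ 8 * Q ^ 9
      - 75619791000 * v1 ^ 20 * v2 ^ 10 * P ^ 9 * Q ^ 8 + 221818053600 * v1 ^ 20 * v2 ^ 10 * P ^ 10 * Q ^ 7
      - 352892358000 * v1 ^ 20 * v2 ^ 10 * P ^ 11 * Q ^ 6 + 317603122200 * v1 ^ 20 * v2 ^ 10 * P ^ 12 * Q ^ 5
      - 162873396000 * v1 ^ 20 * v2 ^ 10 * P ^ 13 * Q ^ 4 + 46535256000 * v1 ^ 20 * v2 ^ 10 * P ^ 14 * Q ^ 3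
      - 6980288400 * v1 ^ 20 * v2 ^ 10 * P ^ 15 * Q ^ 2 + 484742250 * v1 ^ 20 * v2 ^ 10 * P ^ 16 * Q
      - 11405700 * v1 ^ 20 * v2 ^ 10 * P ^ 17 + 11405700 * v1 ^ 10 * v2 ^ 20 * Q ^ 17 - 484742250 * v1 ^ 10 * v2 ^ 20 * P * Q ^ 16
      + 6980288400 * v1 ^ 10 * v2 ^ 20 * P ^ 2 * Q ^ 15 - 46535256000 * v1 ^ 10 * v2 ^ 20 * P ^ 3 * Q ^ 14
      + 162873396000 * v1 ^ 10 * v2 ^ 20 * P ^ 4 * Q ^ 13 - 317603122200 * v1 ^ 10 * v2 ^ 20 * P ^ 5 * Q ^ 12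
      + 352892358000 * v1 ^ 10 * v2 ^ 20 * P ^ 6 * Q ^ 11 - 221818053600 * v1 ^ 10 * v2 ^ 20 * P ^ 7 * Q ^ 10
      + 75619791000 * v1 ^ 10 * v2 ^ 20 * P ^ 8 * Q ^ 9 - 12603298500 * v1 ^ 10 * v2 ^ 20 * P ^ 9 * Q ^ 8
      + 775587600 * v1 ^ 10 * v2 ^ 20 * P ^ 10 * Q ^ 7 =
      famTc (kH v1 v2) (kT v1 v2) 17 := by
  subst hP hQ
  simp only [famTc, kH, kT, kp, kq]
  grind

theorem famT_coeff_18 (v1 v2 P Q : R) (hP : P = kp v1 v2) (hQ : Q = kq v1 v2) :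
    86493225 * v1 ^ 30 * P ^ 18 + 86493225 * v2 ^ 30 * Q ^ 18 - 2714556600 * v1 ^ 25 * v2 ^ 5 * P ^ 13 * Q ^ 5
      + 11633814000 * v1 ^ 25 * v2 ^ 5 * P ^ 14 * Q ^ 4 - 17062927200 * v1 ^ 25 * v2 ^ 5 * P ^ 15 * Q ^ 3
      + 10664329500 * v1 ^ 25 * v2 ^ 5 * P ^ 16 * Q ^ 2 - 2822910750 * v1 ^ 25 * v2 ^ 5 * P ^ 17 * Q
      + 250925400 * v1 ^ 25 * v2 ^ 5 * P ^ 18 - 250925400 * v1 ^ 5 * v2 ^ 25 * Q ^ 18 + 2822910750 * v1 ^ 5 * v2 ^ 25 * P * Q ^ 17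
      - 10664329500 * v1 ^ 5 * v2 ^ 25 * P ^ 2 * Q ^ 16 + 17062927200 * v1 ^ 5 * v2 ^ 25 * P ^ 3 * Q ^ 15
      - 11633814000 * v1 ^ 5 * v2 ^ 25 * P ^ 4 * Q ^ 14 + 2714556600 * v1 ^ 5 * v2 ^ 25 * P ^ 5 * Q ^ 13
      - 1260329850 * v1 ^ 20 * v2 ^ 10 * P ^ 8 * Q ^ 10 + 16804398000 * v1 ^ 20 * v2 ^ 10 * P ^ 9 * Q ^ 9
      - 83181770100 * v1 ^ 20 * v2 ^ 10 * P ^ 10 * Q ^ 8 + 201652776000 * v1 ^ 20 * v2 ^ 10 * P ^ 11 * Q ^ 7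
      - 264669268500 * v1 ^ 20 * v2 ^ 10 * P ^ 12 * Q ^ 6 + 195448075200 * v1 ^ 20 * v2 ^ 10 * P ^ 13 * Q ^ 5
      - 81436698000 * v1 ^ 20 * v2 ^ 10 * P ^ 14 * Q ^ 4 + 18614102400 * v1 ^ 20 * v2 ^ 10 * P ^ 15 * Q ^ 3
      - 2181340125 * v1 ^ 20 * v2 ^ 10 * P ^ 16 * Q ^ 2 + 114057000 * v1 ^ 20 * v2 ^ 10 * P ^ 17 * Q
      - 1900950 * v1 ^ 20 * v2 ^ 10 * P ^ 18 - 1900950 * v1 ^ 10 * v2 ^ 20 * Q ^ 18 + 114057000 * v1 ^ 10 * v2 ^ 20 * P * Q ^ 17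
      - 2181340125 * v1 ^ 10 * v2 ^ 20 * P ^ 2 * Q ^ 16 + 18614102400 * v1 ^ 10 * v2 ^ 20 * P ^ 3 * Q ^ 15
      - 81436698000 * v1 ^ 10 * v2 ^ 20 * P ^ 4 * Q ^ 14 + 195448075200 * v1 ^ 10 * v2 ^ 20 * P ^ 5 * Q ^ 13
      - 264669268500 * v1 ^ 10 * v2 ^ 20 * P ^ 6 * Q ^ 12 + 201652776000 * v1 ^ 10 * v2 ^ 20 * P ^ 7 * Q ^ 11
      - 83181770100 * v1 ^ 10 * v2 ^ 20 * P ^ 8 * Q ^ 10 + 16804398000 * v1 ^ 10 * v2 ^ 20 * P ^ 9 * Q ^ 9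
      - 1260329850 * v1 ^ 10 * v2 ^ 20 * P ^ 10 * Q ^ 8 =
      famTc (kH v1 v2) (kT v1 v2) 18 := by
  subst hP hQ
  simp only [famTc, kH, kT, kp, kq]
  grind

end Fermat.Agent.P7.helper66
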