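import Fermat.Agent.P7.helper66_KleinDefs

/-!
# P7 / S52, FAM: `t`-coefficients of `kT (v_t) = famT (kH v) (kT v) t`, part C (helper66)
-/

namespace Fermat.Agent.P7.helper66

open Fermat.Agent.P7.helper80 (kF kH kT)

set_option linter.unusedVariables false
set_option maxRecDepth 1000000
set_option linter.unusedSimpArgs false

variable {R : Type*} [CommRing R]

theorem famT_coeff_19 (v1 v2 P Q : R) (hP : P = kp v1 v2) (hQ : Q = kq v1 v2) :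
    54627300 * v1 ^ 30 * P ^ 19 - 54627300 * v2 ^ 30 * Q ^ 19 - 2326762800 * v1 ^ 25 * v2 ^ 5 * P ^ 14 * Q ^ 5
      + 8531463600 * v1 ^ 25 * v2 ^ 5 * P ^ 15 * Q ^ 4 - 10664329500 * v1 ^ 25 * v2 ^ 5 * P ^ 16 * Q ^ 3
      + 5645821500 * v1 ^ 25 * v2 ^ 5 * P ^ 17 * Q ^ 2 - 1254627000 * v1 ^ 25 * v2 ^ 5 * P ^ 18 * Q
      + 92446200 * v1 ^ 25 * v2 ^ 5 * P ^ 19 + 92446200 * v1 ^ 5 * v2 ^ 25 * Q ^ 19 - 1254627000 * v1 ^ 5 * v2 ^ 25 * P * Q ^ 18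
      + 5645821500 * v1 ^ 5 * v2 ^ 25 * P ^ 2 * Q ^ 17 - 10664329500 * v1 ^ 5 * v2 ^ 25 * P ^ 3 * Q ^ 16
      + 8531463600 * v1 ^ 5 * v2 ^ 25 * P ^ 4 * Q ^ 15 - 2326762800 * v1 ^ 5 * v2 ^ 25 * P ^ 5 * Q ^ 14
      - 1680439800 * v1 ^ 20 * v2 ^ 10 * P ^ 9 * Q ^ 10 + 18484837800 * v1 ^ 20 * v2 ^ 10 * P ^ 10 * Q ^ 9
      - 75619791000 * v1 ^ 20 * v2 ^ 10 * P ^ 11 * Q ^ 8 + 151239582000 * v1 ^ 20 * v2 ^ 10 * P ^ 12 * Q ^ 7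
      - 162873396000 * v1 ^ 20 * v2 ^ 10 * P ^ 13 * Q ^ 6 + 97724037600 * v1 ^ 20 * v2 ^ 10 * P ^ 14 * Q ^ 5
      - 32574679200 * v1 ^ 20 * v2 ^ 10 * P ^ 15 * Q ^ 4 + 5816907000 * v1 ^ 20 * v2 ^ 10 * P ^ 16 * Q ^ 3
      - 513256500 * v1 ^ 20 * v2 ^ 10 * P ^ 17 * Q ^ 2 + 19009500 * v1 ^ 20 * v2 ^ 10 * P ^ 18 * Q
      - 200100 * v1 ^ 20 * v2 ^ 10 * P ^ 19 + 200100 * v1 ^ 10 * v2 ^ 20 * Q ^ 19 - 19009500 * v1 ^ 10 * v2 ^ 20 * P * Q ^ 18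
      + 513256500 * v1 ^ 10 * v2 ^ 20 * P ^ 2 * Q ^ 17 - 5816907000 * v1 ^ 10 * v2 ^ 20 * P ^ 3 * Q ^ 16
      + 32574679200 * v1 ^ 10 * v2 ^ 20 * P ^ 4 * Q ^ 15 - 97724037600 * v1 ^ 10 * v2 ^ 20 * P ^ 5 * Q ^ 14
      + 162873396000 * v1 ^ 10 * v2 ^ 20 * P ^ 6 * Q ^ 13 - 151239582000 * v1 ^ 10 * v2 ^ 20 * P ^ 7 * Q ^ 12
      + 75619791000 * v1 ^ 10 * v2 ^ 20 * P ^ 8 * Q ^ 11 - 18484837800 * v1 ^ 10 * v2 ^ 20 * P ^ 9 * Q ^ 10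
      + 1680439800 * v1 ^ 10 * v2 ^ 20 * P ^ 10 * Q ^ 9 =
      famTc (kH v1 v2) (kT v1 v2) 19 := by
  subst hP hQ
  simp only [famTc, kH, kT, kp, kq]
  grind

theorem famT_coeff_20 (v1 v2 P Q : R) (hP : P = kp v1 v2) (hQ : Q = kq v1 v2) :
    30045015 * v1 ^ 30 * P ^ 20 + 30045015 * v2 ^ 30 * Q ^ 20 - 1706292720 * v1 ^ 25 * v2 ^ 5 * P ^ 15 * Q ^ 5
      + 5332164750 * v1 ^ 25 * v2 ^ 5 * P ^ 16 * Q ^ 4 - 5645821500 * v1 ^ 25 * v2 ^ 5 * P ^ 17 * Q ^ 3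
      + 2509254000 * v1 ^ 25 * v2 ^ 5 * P ^ 18 * Q ^ 2 - 462231000 * v1 ^ 25 * v2 ^ 5 * P ^ 19 * Q
      + 27733860 * v1 ^ 25 * v2 ^ 5 * P ^ 20 - 27733860 * v1 ^ 5 * v2 ^ 25 * Q ^ 20 + 462231000 * v1 ^ 5 * v2 ^ 25 * P * Q ^ 19
      - 2509254000 * v1 ^ 5 * v2 ^ 25 * P ^ 2 * Q ^ 18 + 5645821500 * v1 ^ 5 * v2 ^ 25 * P ^ 3 * Q ^ 17
      - 5332164750 * v1 ^ 5 * v2 ^ 25 * P ^ 4 * Q ^ 16 + 1706292720 * v1 ^ 5 * v2 ^ 25 * P ^ 5 * Q ^ 15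
      - 1848483780 * v1 ^ 20 * v2 ^ 10 * P ^ 10 * Q ^ 10 + 16804398000 * v1 ^ 20 * v2 ^ 10 * P ^ 11 * Q ^ 9
      - 56714843250 * v1 ^ 20 * v2 ^ 10 * P ^ 12 * Q ^ 8 + 93070512000 * v1 ^ 20 * v2 ^ 10 * P ^ 13 * Q ^ 7
      - 81436698000 * v1 ^ 20 * v2 ^ 10 * P ^ 14 * Q ^ 6 + 39089615040 * v1 ^ 20 * v2 ^ 10 * P ^ 15 * Q ^ 5
      - 10179587250 * v1 ^ 20 * v2 ^ 10 * P ^ 16 * Q ^ 4 + 1368684000 * v1 ^ 20 * v2 ^ 10 * P ^ 17 * Q ^ 3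
      - 85542750 * v1 ^ 20 * v2 ^ 10 * P ^ 18 * Q ^ 2 + 2001000 * v1 ^ 20 * v2 ^ 10 * P ^ 19 * Q - 10005 * v1 ^ 20 * v2 ^ 10 * P ^ 20
      - 10005 * v1 ^ 10 * v2 ^ 20 * Q ^ 20 + 2001000 * v1 ^ 10 * v2 ^ 20 * P * Q ^ 19 - 85542750 * v1 ^ 10 * v2 ^ 20 * P ^ 2 * Q ^ 18
      + 1368684000 * v1 ^ 10 * v2 ^ 20 * P ^ 3 * Q ^ 17 - 10179587250 * v1 ^ 10 * v2 ^ 20 * P ^ 4 * Q ^ 16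
      + 39089615040 * v1 ^ 10 * v2 ^ 20 * P ^ 5 * Q ^ 15 - 81436698000 * v1 ^ 10 * v2 ^ 20 * P ^ 6 * Q ^ 14
      + 93070512000 * v1 ^ 10 * v2 ^ 20 * P ^ 7 * Q ^ 13 - 56714843250 * v1 ^ 10 * v2 ^ 20 * P ^ 8 * Q ^ 12
      + 16804398000 * v1 ^ 10 * v2 ^ 20 * P ^ 9 * Q ^ 11 - 1848483780 * v1 ^ 10 * v2 ^ 20 * P ^ 10 * Q ^ 10 =
      famTc (kH v1 v2) (kT v1 v2) 20 := by
  subst hP hQ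
  simp only [famTc, kH, kT, kp, kq]
  grind

theorem famT_coeff_21 (v1 v2 P Q : R) (hP : P = kp v1 v2) (hQ : Q = kq v1 v2) :
    14307150 * v1 ^ 30 * P ^ 21 - 14307150 * v2 ^ 30 * Q ^ 21 - 1066432950 * v1 ^ 25 * v2 ^ 5 * P ^ 16 * Q ^ 5
      + 2822910750 * v1 ^ 25 * v2 ^ 5 * P ^ 17 * Q ^ 4 - 2509254000 * v1 ^ 25 * v2 ^ 5 * P ^ 18 * Q ^ 3
      + 924462000 * v1 ^ 25 * v2 ^ 5 * P ^ 19 * Q ^ 2 - 138669300 * v1 ^ 25 * v2 ^ 5 * P ^ 20 * Q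
      + 6603300 * v1 ^ 25 * v2 ^ 5 * P ^ 21 + 6603300 * v1 ^ 5 * v2 ^ 25 * Q ^ 21 - 138669300 * v1 ^ 5 * v2 ^ 25 * P * Q ^ 20
      + 924462000 * v1 ^ 5 * v2 ^ 25 * P ^ 2 * Q ^ 19 - 2509254000 * v1 ^ 5 * v2 ^ 25 * P ^ 3 * Q ^ 18
      + 2822910750 * v1 ^ 5 * v2 ^ 25 * P ^ 4 * Q ^ 17 - 1066432950 * v1 ^ 5 * v2 ^ 25 * P ^ 5 * Q ^ 16
      - 1680439800 * v1 ^ 20 * v2 ^ 10 * P ^ 11 * Q ^ 10 + 12603298500 * v1 ^ 20 * v2 ^ 10 * P ^ 12 * Q ^ 9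
      - 34901442000 * v1 ^ 20 * v2 ^ 10 * P ^ 13 * Q ^ 8 + 46535256000 * v1 ^ 20 * v2 ^ 10 * P ^ 14 * Q ^ 7
      - 32574679200 * v1 ^ 20 * v2 ^ 10 * P ^ 15 * Q ^ 6 + 12215504700 * v1 ^ 20 * v2 ^ 10 * P ^ 16 * Q ^ 5
      - 2395197000 * v1 ^ 20 * v2 ^ 10 * P ^ 17 * Q ^ 4 + 228114000 * v1 ^ 20 * v2 ^ 10 * P ^ 18 * Q ^ 3
      - 9004500 * v1 ^ 20 * v2 ^ 10 * P ^ 19 * Q ^ 2 + 100050 * v1 ^ 20 * v2 ^ 10 * P ^ 20 * Q - 100050 * v1 ^ 10 * v2 ^ 20 * P * Q ^ 20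
      + 9004500 * v1 ^ 10 * v2 ^ 20 * P ^ 2 * Q ^ 19 - 228114000 * v1 ^ 10 * v2 ^ 20 * P ^ 3 * Q ^ 18
      + 2395197000 * v1 ^ 10 * v2 ^ 20 * P ^ 4 * Q ^ 17 - 12215504700 * v1 ^ 10 * v2 ^ 20 * P ^ 5 * Q ^ 16
      + 32574679200 * v1 ^ 10 * v2 ^ 20 * P ^ 6 * Q ^ 15 - 46535256000 * v1 ^ 10 * v2 ^ 20 * P ^ 7 * Q ^ 14
      + 34901442000 * v1 ^ 10 * v2 ^ 20 * P ^ 8 * Q ^ 13 - 12603298500 * v1 ^ 10 * v2 ^ 20 * P ^ 9 * Q ^ 12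
      + 1680439800 * v1 ^ 10 * v2 ^ 20 * P ^ 10 * Q ^ 11 =
      famTc (kH v1 v2) (kT v1 v2) 21 := by
  subst hP hQ
  simp only [famTc, kH, kT, kp, kq]
  grind

theorem famT_coeff_22 (v1 v2 P Q : R) (hP : P = kp v1 v2) (hQ : Q = kq v1 v2) :
    5852925 * v1 ^ 30 * P ^ 22 + 5852925 * v2 ^ 30 * Q ^ 22 - 564582150 * v1 ^ 25 * v2 ^ 5 * P ^ 17 * Q ^ 5
      + 1254627000 * v1 ^ 25 * v2 ^ 5 * P ^ 18 * Q ^ 4 - 924462000 * v1 ^ 25 * v2 ^ 5 * P ^ 19 * Q ^ 3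
      + 277338600 * v1 ^ 25 * v2 ^ 5 * P ^ 20 * Q ^ 2 - 33016500 * v1 ^ 25 * v2 ^ 5 * P ^ 21 * Q + 1200600 * v1 ^ 25 * v2 ^ 5 * P ^ 22
      - 1200600 * v1 ^ 5 * v2 ^ 25 * Q ^ 22 + 33016500 * v1 ^ 5 * v2 ^ 25 * P * Q ^ 21 - 277338600 * v1 ^ 5 * v2 ^ 25 * P ^ 2 * Q ^ 20
      + 924462000 * v1 ^ 5 * v2 ^ 25 * P ^ 3 * Q ^ 19 - 1254627000 * v1 ^ 5 * v2 ^ 25 * P ^ 4 * Q ^ 18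
      + 564582150 * v1 ^ 5 * v2 ^ 25 * P ^ 5 * Q ^ 17 - 1260329850 * v1 ^ 20 * v2 ^ 10 * P ^ 12 * Q ^ 10
      + 7755876000 * v1 ^ 20 * v2 ^ 10 * P ^ 13 * Q ^ 9 - 17450721000 * v1 ^ 20 * v2 ^ 10 * P ^ 14 * Q ^ 8
      + 18614102400 * v1 ^ 20 * v2 ^ 10 * P ^ 15 * Q ^ 7 - 10179587250 * v1 ^ 20 * v2 ^ 10 * P ^ 16 * Q ^ 6
      + 2874236400 * v1 ^ 20 * v2 ^ 10 * P ^ 17 * Q ^ 5 - 399199500 * v1 ^ 20 * v2 ^ 10 * P ^ 18 * Q ^ 4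
      + 24012000 * v1 ^ 20 * v2 ^ 10 * P ^ 19 * Q ^ 3 - 450225 * v1 ^ 20 * v2 ^ 10 * P ^ 20 * Q ^ 2
      - 450225 * v1 ^ 10 * v2 ^ 20 * P ^ 2 * Q ^ 20 + 24012000 * v1 ^ 10 * v2 ^ 20 * P ^ 3 * Q ^ 19
      - 399199500 * v1 ^ 10 * v2 ^ 20 * P ^ 4 * Q ^ 18 + 2874236400 * v1 ^ 10 * v2 ^ 20 * P ^ 5 * Q ^ 17
      - 10179587250 * v1 ^ 10 * v2 ^ 20 * P ^ 6 * Q ^ 16 + 18614102400 * v1 ^ 10 * v2 ^ 20 * P ^ 7 * Q ^ 15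
      - 17450721000 * v1 ^ 10 * v2 ^ 20 * P ^ 8 * Q ^ 14 + 7755876000 * v1 ^ 10 * v2 ^ 20 * P ^ 9 * Q ^ 13
      - 1260329850 * v1 ^ 10 * v2 ^ 20 * P ^ 10 * Q ^ 12 =
      famTc (kH v1 v2) (kT v1 v2) 22 := by
  subst hP hQ
  simp only [famTc, kH, kT, kp, kq]
  grind

end Fermat.Agent.P7.helper66
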