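import Fermat.Agent.P7.helper66_KleinDefs

/-!
# P7 / S52, FAM: `t`-coefficients of `kT (v_t) = famT (kH v) (kT v) t`, part D (helper66)
-/

namespace Fermat.Agent.P7.helper66

open Fermat.Agent.P7.helper80 (kF kH kT)

set_option linter.unusedVariables false
set_option maxRecDepth 1000000
set_option linter.unusedSimpArgs false

variable {R : Type*} [CommRing R]

theorem famT_coeff_23 (v1 v2 P Q : R) (hP : P = kp v1 v2) (hQ : Q = kq v1 v2) :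
    2035800 * v1 ^ 30 * P ^ 23 - 2035800 * v2 ^ 30 * Q ^ 23 - 250925400 * v1 ^ 25 * v2 ^ 5 * P ^ 18 * Q ^ 5
      + 462231000 * v1 ^ 25 * v2 ^ 5 * P ^ 19 * Q ^ 4 - 277338600 * v1 ^ 25 * v2 ^ 5 * P ^ 20 * Q ^ 3
      + 66033000 * v1 ^ 25 * v2 ^ 5 * P ^ 21 * Q ^ 2 - 6003000 * v1 ^ 25 * v2 ^ 5 * P ^ 22 * Q + 156600 * v1 ^ 25 * v2 ^ 5 * P ^ 23
      + 156600 * v1 ^ 5 * v2 ^ 25 * Q ^ 23 - 6003000 * v1 ^ 5 * v2 ^ 25 * P * Q ^ 22 + 66033000 * v1 ^ 5 * v2 ^ 25 * P ^ 2 * Q ^ 21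
      - 277338600 * v1 ^ 5 * v2 ^ 25 * P ^ 3 * Q ^ 20 + 462231000 * v1 ^ 5 * v2 ^ 25 * P ^ 4 * Q ^ 19
      - 250925400 * v1 ^ 5 * v2 ^ 25 * P ^ 5 * Q ^ 18 - 775587600 * v1 ^ 20 * v2 ^ 10 * P ^ 13 * Q ^ 10
      + 3877938000 * v1 ^ 20 * v2 ^ 10 * P ^ 14 * Q ^ 9 - 6980288400 * v1 ^ 20 * v2 ^ 10 * P ^ 15 * Q ^ 8
      + 5816907000 * v1 ^ 20 * v2 ^ 10 * P ^ 16 * Q ^ 7 - 2395197000 * v1 ^ 20 * v2 ^ 10 * P ^ 17 * Q ^ 6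
      + 479039400 * v1 ^ 20 * v2 ^ 10 * P ^ 18 * Q ^ 5 - 42021000 * v1 ^ 20 * v2 ^ 10 * P ^ 19 * Q ^ 4
      + 1200600 * v1 ^ 20 * v2 ^ 10 * P ^ 20 * Q ^ 3 - 1200600 * v1 ^ 10 * v2 ^ 20 * P ^ 3 * Q ^ 20
      + 42021000 * v1 ^ 10 * v2 ^ 20 * P ^ 4 * Q ^ 19 - 479039400 * v1 ^ 10 * v2 ^ 20 * P ^ 5 * Q ^ 18
      + 2395197000 * v1 ^ 10 * v2 ^ 20 * P ^ 6 * Q ^ 17 - 5816907000 * v1 ^ 10 * v2 ^ 20 * P ^ 7 * Q ^ 16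
      + 6980288400 * v1 ^ 10 * v2 ^ 20 * P ^ 8 * Q ^ 15 - 3877938000 * v1 ^ 10 * v2 ^ 20 * P ^ 9 * Q ^ 14
      + 775587600 * v1 ^ 10 * v2 ^ 20 * P ^ 10 * Q ^ 13 =
      famTc (kH v1 v2) (kT v1 v2) 23 := by
  subst hP hQ
  simp only [famTc, kH, kT, kp, kq]
  grind

theorem famT_coeff_24 (v1 v2 P Q : R) (hP : P = kp v1 v2) (hQ : Q = kq v1 v2) :
    593775 * v1 ^ 30 * P ^ 24 + 593775 * v2 ^ 30 * Q ^ 24 - 92446200 * v1 ^ 25 * v2 ^ 5 * P ^ 19 * Q ^ 5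
      + 138669300 * v1 ^ 25 * v2 ^ 5 * P ^ 20 * Q ^ 4 - 66033000 * v1 ^ 25 * v2 ^ 5 * P ^ 21 * Q ^ 3
      + 12006000 * v1 ^ 25 * v2 ^ 5 * P ^ 22 * Q ^ 2 - 783000 * v1 ^ 25 * v2 ^ 5 * P ^ 23 * Q + 13050 * v1 ^ 25 * v2 ^ 5 * P ^ 24
      - 13050 * v1 ^ 5 * v2 ^ 25 * Q ^ 24 + 783000 * v1 ^ 5 * v2 ^ 25 * P * Q ^ 23 - 12006000 * v1 ^ 5 * v2 ^ 25 * P ^ 2 * Q ^ 22
      + 66033000 * v1 ^ 5 * v2 ^ 25 * P ^ 3 * Q ^ 21 - 138669300 * v1 ^ 5 * v2 ^ 25 * P ^ 4 * Q ^ 20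
      + 92446200 * v1 ^ 5 * v2 ^ 25 * P ^ 5 * Q ^ 19 - 387793800 * v1 ^ 20 * v2 ^ 10 * P ^ 14 * Q ^ 10
      + 1551175200 * v1 ^ 20 * v2 ^ 10 * P ^ 15 * Q ^ 9 - 2181340125 * v1 ^ 20 * v2 ^ 10 * P ^ 16 * Q ^ 8
      + 1368684000 * v1 ^ 20 * v2 ^ 10 * P ^ 17 * Q ^ 7 - 399199500 * v1 ^ 20 * v2 ^ 10 * P ^ 18 * Q ^ 6
      + 50425200 * v1 ^ 20 * v2 ^ 10 * P ^ 19 * Q ^ 5 - 2101050 * v1 ^ 20 * v2 ^ 10 * P ^ 20 * Q ^ 4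
      - 2101050 * v1 ^ 10 * v2 ^ 20 * P ^ 4 * Q ^ 20 + 50425200 * v1 ^ 10 * v2 ^ 20 * P ^ 5 * Q ^ 19
      - 399199500 * v1 ^ 10 * v2 ^ 20 * P ^ 6 * Q ^ 18 + 1368684000 * v1 ^ 10 * v2 ^ 20 * P ^ 7 * Q ^ 17
      - 2181340125 * v1 ^ 10 * v2 ^ 20 * P ^ 8 * Q ^ 16 + 1551175200 * v1 ^ 10 * v2 ^ 20 * P ^ 9 * Q ^ 15
      - 387793800 * v1 ^ 10 * v2 ^ 20 * P ^ 10 * Q ^ 14 =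
      famTc (kH v1 v2) (kT v1 v2) 24 := by
  subst hP hQ
  simp only [famTc, kH, kT, kp, kq]
  grind

theorem famT_coeff_25 (v1 v2 P Q : R) (hP : P = kp v1 v2) (hQ : Q = kq v1 v2) :
    142506 * v1 ^ 30 * P ^ 25 - 142506 * v2 ^ 30 * Q ^ 25 - 27733860 * v1 ^ 25 * v2 ^ 5 * P ^ 20 * Q ^ 5
      + 33016500 * v1 ^ 25 * v2 ^ 5 * P ^ 21 * Q ^ 4 - 12006000 * v1 ^ 25 * v2 ^ 5 * P ^ 22 * Q ^ 3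
      + 1566000 * v1 ^ 25 * v2 ^ 5 * P ^ 23 * Q ^ 2 - 65250 * v1 ^ 25 * v2 ^ 5 * P ^ 24 * Q + 522 * v1 ^ 25 * v2 ^ 5 * P ^ 25
      + 522 * v1 ^ 5 * v2 ^ 25 * Q ^ 25 - 65250 * v1 ^ 5 * v2 ^ 25 * P * Q ^ 24 + 1566000 * v1 ^ 5 * v2 ^ 25 * P ^ 2 * Q ^ 23
      - 12006000 * v1 ^ 5 * v2 ^ 25 * P ^ 3 * Q ^ 22 + 33016500 * v1 ^ 5 * v2 ^ 25 * P ^ 4 * Q ^ 21
      - 27733860 * v1 ^ 5 * v2 ^ 25 * P ^ 5 * Q ^ 20 - 155117520 * v1 ^ 20 * v2 ^ 10 * P ^ 15 * Q ^ 10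
      + 484742250 * v1 ^ 20 * v2 ^ 10 * P ^ 16 * Q ^ 9 - 513256500 * v1 ^ 20 * v2 ^ 10 * P ^ 17 * Q ^ 8
      + 228114000 * v1 ^ 20 * v2 ^ 10 * P ^ 18 * Q ^ 7 - 42021000 * v1 ^ 20 * v2 ^ 10 * P ^ 19 * Q ^ 6
      + 2521260 * v1 ^ 20 * v2 ^ 10 * P ^ 20 * Q ^ 5 - 2521260 * v1 ^ 10 * v2 ^ 20 * P ^ 5 * Q ^ 20
      + 42021000 * v1 ^ 10 * v2 ^ 20 * P ^ 6 * Q ^ 19 - 228114000 * v1 ^ 10 * v2 ^ 20 * P ^ 7 * Q ^ 18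
      + 513256500 * v1 ^ 10 * v2 ^ 20 * P ^ 8 * Q ^ 17 - 484742250 * v1 ^ 10 * v2 ^ 20 * P ^ 9 * Q ^ 16
      + 155117520 * v1 ^ 10 * v2 ^ 20 * P ^ 10 * Q ^ 15 =
      famTc (kH v1 v2) (kT v1 v2) 25 := by
  subst hP hQ
  simp only [famTc, kH, kT, kp, kq]
  grind

theorem famT_coeff_26 (v1 v2 P Q : R) (hP : P = kp v1 v2) (hQ : Q = kq v1 v2) :
    27405 * v1 ^ 30 * P ^ 26 + 27405 * v2 ^ 30 * Q ^ 26 - 6603300 * v1 ^ 25 * v2 ^ 5 * P ^ 21 * Q ^ 5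
      + 6003000 * v1 ^ 25 * v2 ^ 5 * P ^ 22 * Q ^ 4 - 1566000 * v1 ^ 25 * v2 ^ 5 * P ^ 23 * Q ^ 3
      + 130500 * v1 ^ 25 * v2 ^ 5 * P ^ 24 * Q ^ 2 - 2610 * v1 ^ 25 * v2 ^ 5 * P ^ 25 * Q + 2610 * v1 ^ 5 * v2 ^ 25 * P * Q ^ 25
      - 130500 * v1 ^ 5 * v2 ^ 25 * P ^ 2 * Q ^ 24 + 1566000 * v1 ^ 5 * v2 ^ 25 * P ^ 3 * Q ^ 23 - 6003000 * v1 ^ 5 * v2 ^ 25 * P ^ 4 * Q ^ 22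
      + 6603300 * v1 ^ 5 * v2 ^ 25 * P ^ 5 * Q ^ 21 - 48474225 * v1 ^ 20 * v2 ^ 10 * P ^ 16 * Q ^ 10
      + 114057000 * v1 ^ 20 * v2 ^ 10 * P ^ 17 * Q ^ 9 - 85542750 * v1 ^ 20 * v2 ^ 10 * P ^ 18 * Q ^ 8
      + 24012000 * v1 ^ 20 * v2 ^ 10 * P ^ 19 * Q ^ 7 - 2101050 * v1 ^ 20 * v2 ^ 10 * P ^ 20 * Q ^ 6
      - 2101050 * v1 ^ 10 * v2 ^ 20 * P ^ 6 * Q ^ 20 + 24012000 * v1 ^ 10 * v2 ^ 20 * P ^ 7 * Q ^ 19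
      - 85542750 * v1 ^ 10 * v2 ^ 20 * P ^ 8 * Q ^ 18 + 114057000 * v1 ^ 10 * v2 ^ 20 * P ^ 9 * Q ^ 17
      - 48474225 * v1 ^ 10 * v2 ^ 20 * P ^ 10 * Q ^ 16 =
      famTc (kH v1 v2) (kT v1 v2) 26 := by
  subst hP hQ
  simp only [famTc, kH, kT, kp, kq]
  grind

end Fermat.Agent.P7.helper66
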