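import Fermat.Agent.P7.helper66_KleinDefs

/-!
# P7 / S52, FAM: `t`-coefficients of `kT (v_t) = famT (kH v) (kT v) t`, part E (helper66)
-/

namespace Fermat.Agent.P7.helper66

open Fermat.Agent.P7.helper80 (kF kH kT)

set_option linter.unusedVariables false
set_option maxRecDepth 1000000
set_option linter.unusedSimpArgs false

variable {R : Type*} [CommRing R]

theorem famT_coeff_27 (v1 v2 P Q : R) (hP : P = kp v1 v2) (hQ : Q = kq v1 v2) :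
    4060 * v1 ^ 30 * P ^ 27 - 4060 * v2 ^ 30 * Q ^ 27 - 1200600 * v1 ^ 25 * v2 ^ 5 * P ^ 22 * Q ^ 5 + 783000 * v1 ^ 25 * v2 ^ 5 * P ^ 23 * Q ^ 4
      - 130500 * v1 ^ 25 * v2 ^ 5 * P ^ 24 * Q ^ 3 + 5220 * v1 ^ 25 * v2 ^ 5 * P ^ 25 * Q ^ 2 + 5220 * v1 ^ 5 * v2 ^ 25 * P ^ 2 * Q ^ 25
      - 130500 * v1 ^ 5 * v2 ^ 25 * P ^ 3 * Q ^ 24 + 783000 * v1 ^ 5 * v2 ^ 25 * P ^ 4 * Q ^ 23 - 1200600 * v1 ^ 5 * v2 ^ 25 * P ^ 5 * Q ^ 22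
      - 11405700 * v1 ^ 20 * v2 ^ 10 * P ^ 17 * Q ^ 10 + 19009500 * v1 ^ 20 * v2 ^ 10 * P ^ 18 * Q ^ 9
      - 9004500 * v1 ^ 20 * v2 ^ 10 * P ^ 19 * Q ^ 8 + 1200600 * v1 ^ 20 * v2 ^ 10 * P ^ 20 * Q ^ 7
      - 1200600 * v1 ^ 10 * v2 ^ 20 * P ^ 7 * Q ^ 20 + 9004500 * v1 ^ 10 * v2 ^ 20 * P ^ 8 * Q ^ 19
      - 19009500 * v1 ^ 10 * v2 ^ 20 * P ^ 9 * Q ^ 18 + 11405700 * v1 ^ 10 * v2 ^ 20 * P ^ 10 * Q ^ 17 =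
      famTc (kH v1 v2) (kT v1 v2) 27 := by
  subst hP hQ
  simp only [famTc, kH, kT, kp, kq]
  grind

theorem famT_coeff_28 (v1 v2 P Q : R) (hP : P = kp v1 v2) (hQ : Q = kq v1 v2) :
    435 * v1 ^ 30 * P ^ 28 + 435 * v2 ^ 30 * Q ^ 28 - 156600 * v1 ^ 25 * v2 ^ 5 * P ^ 23 * Q ^ 5 + 65250 * v1 ^ 25 * v2 ^ 5 * P ^ 24 * Q ^ 4
      - 5220 * v1 ^ 25 * v2 ^ 5 * P ^ 25 * Q ^ 3 + 5220 * v1 ^ 5 * v2 ^ 25 * P ^ 3 * Q ^ 25 - 65250 * v1 ^ 5 * v2 ^ 25 * P ^ 4 * Q ^ 24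
      + 156600 * v1 ^ 5 * v2 ^ 25 * P ^ 5 * Q ^ 23 - 1900950 * v1 ^ 20 * v2 ^ 10 * P ^ 18 * Q ^ 10
      + 2001000 * v1 ^ 20 * v2 ^ 10 * P ^ 19 * Q ^ 9 - 450225 * v1 ^ 20 * v2 ^ 10 * P ^ 20 * Q ^ 8
      - 450225 * v1 ^ 10 * v2 ^ 20 * P ^ 8 * Q ^ 20 + 2001000 * v1 ^ 10 * v2 ^ 20 * P ^ 9 * Q ^ 19
      - 1900950 * v1 ^ 10 * v2 ^ 20 * P ^ 10 * Q ^ 18 =
      famTc (kH v1 v2) (kT v1 v2) 28 := by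
  subst hP hQ
  simp only [famTc, kH, kT, kp, kq]
  grind

theorem famT_coeff_29 (v1 v2 P Q : R) (hP : P = kp v1 v2) (hQ : Q = kq v1 v2) :
    30 * v1 ^ 30 * P ^ 29 - 30 * v2 ^ 30 * Q ^ 29 - 13050 * v1 ^ 25 * v2 ^ 5 * P ^ 24 * Q ^ 5 + 2610 * v1 ^ 25 * v2 ^ 5 * P ^ 25 * Q ^ 4
      + 2610 * v1 ^ 5 * v2 ^ 25 * P ^ 4 * Q ^ 25 - 13050 * v1 ^ 5 * v2 ^ 25 * P ^ 5 * Q ^ 24 - 200100 * v1 ^ 20 * v2 ^ 10 * P ^ 19 * Q ^ 10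
      + 100050 * v1 ^ 20 * v2 ^ 10 * P ^ 20 * Q ^ 9 - 100050 * v1 ^ 10 * v2 ^ 20 * P ^ 9 * Q ^ 20
      + 200100 * v1 ^ 10 * v2 ^ 20 * P ^ 10 * Q ^ 19 =
      famTc (kH v1 v2) (kT v1 v2) 29 := by
  subst hP hQ
  simp only [famTc, kH, kT, kp, kq]
  grind

theorem famT_coeff_30 (v1 v2 P Q : R) (hP : P = kp v1 v2) (hQ : Q = kq v1 v2) :
    v1 ^ 30 * P ^ 30 + v2 ^ 30 * Q ^ 30 - 522 * v1 ^ 25 * v2 ^ 5 * P ^ 25 * Q ^ 5 + 522 * v1 ^ 5 * v2 ^ 25 * P ^ 5 * Q ^ 25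
      - 10005 * v1 ^ 20 * v2 ^ 10 * P ^ 20 * Q ^ 10 - 10005 * v1 ^ 10 * v2 ^ 20 * P ^ 10 * Q ^ 20 =
      famTc (kH v1 v2) (kT v1 v2) 30 := by
  subst hP hQ
  simp only [famTc, kH, kT, kp, kq]
  grind

end Fermat.Agent.P7.helper66
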