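import Fermat.Agent.P7.helper66_KleinFamTA
import Fermat.Agent.P7.helper66_KleinFamTB
import Fermat.Agent.P7.helper66_KleinFamTC
import Fermat.Agent.P7.helper66_KleinFamTD
import Fermat.Agent.P7.helper66_KleinFamTE

/-!
# P7 / S52, FAM: `kT (v_t) = famT (kH v) (kT v) t` (helper66)

The identity is split into its `t`-coefficients (`famT_coeff_k`, files `helper66_KleinFamTA` ... `TE`);
in the assembly `kp`, `kq` are kept opaque, so every `ring` call is small.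
-/

namespace Fermat.Agent.P7.helper66

open Fermat.Agent.P7.helper80 (kF kH kT)

variable {R : Type*} [CommRing R]

set_option maxRecDepth 1000000 in
set_option maxHeartbeats 1000000 in
/-- `T (v + t * J grad f (v))` is the polynomial `famT` in `H (v)`, `T (v)`, `t`. -/
theorem famT_spec (v1 v2 t : R) :
    kT (kV1 v1 v2 t) (kV2 v1 v2 t) = famT (kH v1 v2) (kT v1 v2) t := by
  simp only [famT, Finset.sum_range_succ, Finset.sum_range_zero]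
  conv_lhs => simp only [kT, kV1, kV2]
  linear_combination (norm := skip) famT_coeff_0 v1 v2 _ _ rfl rfl + t ^ 1 * famT_coeff_1 v1 v2 _ _ rfl rfl + t ^ 2 * famT_coeff_2 v1 v2 _ _ rfl rfl
    + t ^ 3 * famT_coeff_3 v1 v2 _ _ rfl rfl + t ^ 4 * famT_coeff_4 v1 v2 _ _ rfl rfl + t ^ 5 * famT_coeff_5 v1 v2 _ _ rfl rfl
    + t ^ 6 * famT_coeff_6 v1 v2 _ _ rfl rfl + t ^ 7 * famT_coeff_7 v1 v2 _ _ rfl rfl + t ^ 8 * famT_coeff_8 v1 v2 _ _ rfl rfl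
    + t ^ 9 * famT_coeff_9 v1 v2 _ _ rfl rfl + t ^ 10 * famT_coeff_10 v1 v2 _ _ rfl rfl + t ^ 11 * famT_coeff_11 v1 v2 _ _ rfl rfl
    + t ^ 12 * famT_coeff_12 v1 v2 _ _ rfl rfl + t ^ 13 * famT_coeff_13 v1 v2 _ _ rfl rfl + t ^ 14 * famT_coeff_14 v1 v2 _ _ rfl rfl
    + t ^ 15 * famT_coeff_15 v1 v2 _ _ rfl rfl + t ^ 16 * famT_coeff_16 v1 v2 _ _ rfl rfl + t ^ 17 * famT_coeff_17 v1 v2 _ _ rfl rfl
    + t ^ 18 * famT_coeff_18 v1 v2 _ _ rfl rfl + t ^ 19 * famT_coeff_19 v1 v2 _ _ rfl rfl + t ^ 20 * famT_coeff_20 v1 v2 _ _ rfl rfl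
    + t ^ 21 * famT_coeff_21 v1 v2 _ _ rfl rfl + t ^ 22 * famT_coeff_22 v1 v2 _ _ rfl rfl + t ^ 23 * famT_coeff_23 v1 v2 _ _ rfl rfl
    + t ^ 24 * famT_coeff_24 v1 v2 _ _ rfl rfl + t ^ 25 * famT_coeff_25 v1 v2 _ _ rfl rfl + t ^ 26 * famT_coeff_26 v1 v2 _ _ rfl rfl
    + t ^ 27 * famT_coeff_27 v1 v2 _ _ rfl rfl + t ^ 28 * famT_coeff_28 v1 v2 _ _ rfl rfl + t ^ 29 * famT_coeff_29 v1 v2 _ _ rfl rfl
    + t ^ 30 * famT_coeff_30 v1 v2 _ _ rfl rfl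
  grind

end Fermat.Agent.P7.helper66
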