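import Fermat.Agent.P7.helper47_ChoiceDefs
import Fermat.Agent.P7.helper66_KleinFamG
import Fermat.Agent.P7.helper66_KleinFamH
import Fermat.Agent.P7.helper66_KleinFamT

/-!
# P7 / S52, FAM: the family has INTEGER polynomial invariants (helper66)

In the vocabulary of `helper47_ChoiceDefs`:

* `famC4_eq`, `famC6_eq`, `famF_eq` : over any commutative ring,
  `famC4 a b t = -famH (kleinH a b) (kleinT a b) t`,
  `famC6 a b t = -famT (kleinH a b) (kleinT a b) t`,
  `kleinF (famA a b t) (famB a b t) = kleinF a b * famG (kleinH a b) (kleinT a b) t`,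
  where `famH`, `famT`, `famG` are the explicit polynomials of `helper66_KleinDefs` with integer
  coefficients (Rubin-Silverberg family);
* `fam_rat` : the field `rat` of `helper47.IsFamBase` from `hH`, `hT` alone (no Galois theory);
* `fam_int` : for an integer `t` the invariants are the INTEGERS
  `intC4 W t = -famH (-c₄) (-c₆) t`, `intC6 W t = -famT (-c₄) (-c₆) t`, and
  `t ∣ intC4 W t - c₄`, `t ∣ intC6 W t - c₆` (`intC4_sub_dvd`, `intC6_sub_dvd`).
-/

set_option autoImplicit false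

namespace Fermat.Agent.P7.helper66

open Fermat.Agent.P7.helper47 (kleinF kleinH kleinT kleinWa kleinWb famA famB famC4 famC6 CQb)

section Ring

variable {R : Type*} [CommRing R]

theorem kleinF_eq_kF (a b : R) : kleinF a b = helper80.kF a b := rfl
theorem kleinH_eq_kH (a b : R) : kleinH a b = helper80.kH a b := rfl
theorem kleinT_eq_kT (a b : R) : kleinT a b = helper80.kT a b := rfl

theorem famA_eq_kV1 (a b t : R) : famA a b t = kV1 a b t := by
  simp only [famA, kleinWa, kV1, kp]; ring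

theorem famB_eq_kV2 (a b t : R) : famB a b t = kV2 a b t := by
  simp only [famB, kleinWb, kV2, kq]; ring

/-- `c₄` of the member `t` is an integer polynomial in `H (v₀)`, `T (v₀)`, `t`. -/
theorem famC4_eq (a b t : R) : famC4 a b t = -famH (kleinH a b) (kleinT a b) t := by
  rw [famC4, famA_eq_kV1, famB_eq_kV2, kleinH_eq_kH, famH_spec]; rfl

/-- `c₆` of the member `t` is an integer polynomial in `H (v₀)`, `T (v₀)`, `t`. -/
theorem famC6_eq (a b t : R) : famC6 a b t = -famT (kleinH a b) (kleinT a b) t := by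
  rw [famC6, famA_eq_kV1, famB_eq_kV2, kleinT_eq_kT, famT_spec]; rfl

/-- `f (v_t) = f (v₀) * famG (H (v₀)) (T (v₀)) t`. -/
theorem famF_eq (a b t : R) :
    kleinF (famA a b t) (famB a b t) = kleinF a b * famG (kleinH a b) (kleinT a b) t := by
  rw [famA_eq_kV1, famB_eq_kV2, kleinF_eq_kF, famG_spec]; rfl

/-- `famH H T t - H` is divisible by `t`. -/
theorem famH_sub (H T t : R) :
    famH H T t - H = t * ∑ k ∈ Finset.range 20, famHc H T (k + 1) * t ^ k := by
  have h0 : famHc H T 0 = H := rfl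
  rw [famH, Finset.sum_range_succ', Finset.mul_sum, pow_zero, mul_one, h0, add_sub_cancel_right]
  exact Finset.sum_congr rfl (fun k _ => by ring)

/-- `famT H T t - T` is divisible by `t`. -/
theorem famT_sub (H T t : R) :
    famT H T t - T = t * ∑ k ∈ Finset.range 30, famTc H T (k + 1) * t ^ k := by
  have h0 : famTc H T 0 = T := rfl
  rw [famT, Finset.sum_range_succ', Finset.mul_sum, pow_zero, mul_one, h0, add_sub_cancel_right]
  exact Finset.sum_congr rfl (fun k _ => by ring)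

/-- `famG H T t - 1` is divisible by `t`. -/
theorem famG_sub (H T t : R) :
    famG H T t - 1 = t * ∑ k ∈ Finset.range 12, famGc H T (k + 1) * t ^ k := by
  have h0 : famGc H T 0 = 1 := rfl
  rw [famG, Finset.sum_range_succ', Finset.mul_sum, pow_zero, mul_one, h0, add_sub_cancel_right]
  exact Finset.sum_congr rfl (fun k _ => by ring)

end Ring

/-- The integer `c₄` of the member `t ∈ ℤ` of the family through `W`. -/
def intC4 (W : WeierstrassCurve ℤ) (t : ℤ) : ℤ := -famH (-W.c₄) (-W.c₆) t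

/-- The integer `c₆` of the member `t ∈ ℤ` of the family through `W`. -/
def intC6 (W : WeierstrassCurve ℤ) (t : ℤ) : ℤ := -famT (-W.c₄) (-W.c₆) t

/-- The rational `c₄` of the member `t ∈ ℚ` of the family through `W`. -/
def ratC4 (W : WeierstrassCurve ℤ) (t : ℚ) : ℚ := -famH (-(W.c₄ : ℚ)) (-(W.c₆ : ℚ)) t

/-- The rational `c₆` of the member `t ∈ ℚ` of the family through `W`. -/
def ratC6 (W : WeierstrassCurve ℤ) (t : ℚ) : ℚ := -famT (-(W.c₄ : ℚ)) (-(W.c₆ : ℚ)) t

variable {W : WeierstrassCurve ℤ} {a b : CQb}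

theorem famC4_rat (hH : kleinH a b = -((W.c₄ : ℤ) : CQb)) (hT : kleinT a b = -((W.c₆ : ℤ) : CQb))
    (t : ℚ) : algebraMap ℚ CQb (ratC4 W t) = famC4 a b (algebraMap ℚ CQb t) := by
  rw [famC4_eq, hH, hT, ratC4, map_neg, map_famH]
  simp

theorem famC6_rat (hH : kleinH a b = -((W.c₄ : ℤ) : CQb)) (hT : kleinT a b = -((W.c₆ : ℤ) : CQb))
    (t : ℚ) : algebraMap ℚ CQb (ratC6 W t) = famC6 a b (algebraMap ℚ CQb t) := by
  rw [famC6_eq, hH, hT, ratC6, map_neg, map_famT]
  simp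

/-- The field `rat` of `helper47.IsFamBase`, from `hH` and `hT` alone. -/
theorem fam_rat (hH : kleinH a b = -((W.c₄ : ℤ) : CQb)) (hT : kleinT a b = -((W.c₆ : ℤ) : CQb)) :
    ∀ t : ℚ, ∃ C₄ C₆ : ℚ,
      algebraMap ℚ CQb C₄ = famC4 a b (algebraMap ℚ CQb t) ∧
      algebraMap ℚ CQb C₆ = famC6 a b (algebraMap ℚ CQb t) :=
  fun t => ⟨ratC4 W t, ratC6 W t, famC4_rat hH hT t, famC6_rat hH hT t⟩

theorem famC4_int (hH : kleinH a b = -((W.c₄ : ℤ) : CQb)) (hT : kleinT a b = -((W.c₆ : ℤ) : CQb))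
    (t : ℤ) : ((intC4 W t : ℤ) : CQb) = famC4 a b ((t : ℤ) : CQb) := by
  rw [famC4_eq, hH, hT, intC4]
  have := map_famH (Int.castRingHom CQb) (-W.c₄) (-W.c₆) t
  simp only [eq_intCast, Int.cast_neg] at this
  rw [Int.cast_neg, this]

theorem famC6_int (hH : kleinH a b = -((W.c₄ : ℤ) : CQb)) (hT : kleinT a b = -((W.c₆ : ℤ) : CQb))
    (t : ℤ) : ((intC6 W t : ℤ) : CQb) = famC6 a b ((t : ℤ) : CQb) := by
  rw [famC6_eq, hH, hT, intC6]
  have := map_famT (Int.castRingHom CQb) (-W.c₄) (-W.c₆) t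
  simp only [eq_intCast, Int.cast_neg] at this
  rw [Int.cast_neg, this]

theorem intC4_sub_dvd (W : WeierstrassCurve ℤ) (t : ℤ) : t ∣ intC4 W t - W.c₄ := by
  refine ⟨-(∑ k ∈ Finset.range 20, famHc (-W.c₄) (-W.c₆) (k + 1) * t ^ k), ?_⟩
  have := famH_sub (-W.c₄) (-W.c₆) t
  rw [intC4]
  linear_combination -this

theorem intC6_sub_dvd (W : WeierstrassCurve ℤ) (t : ℤ) : t ∣ intC6 W t - W.c₆ := by
  refine ⟨-(∑ k ∈ Finset.range 30, famTc (-W.c₄) (-W.c₆) (k + 1) * t ^ k), ?_⟩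
  have := famT_sub (-W.c₄) (-W.c₆) t
  rw [intC6]
  linear_combination -this

/-- Integrality of the members `t ∈ ℤ`, in the shape used by `helper47.ContStatement`
(with `N = m`). -/
theorem fam_int (hH : kleinH a b = -((W.c₄ : ℤ) : CQb)) (hT : kleinT a b = -((W.c₆ : ℤ) : CQb))
    (t : ℤ) : ∃ C₄ C₆ : ℤ, ((C₄ : ℤ) : CQb) = famC4 a b ((t : ℤ) : CQb) ∧
      ((C₆ : ℤ) : CQb) = famC6 a b ((t : ℤ) : CQb) ∧ t ∣ C₄ - W.c₄ ∧ t ∣ C₆ - W.c₆ :=
  ⟨intC4 W t, intC6 W t, famC4_int hH hT t, famC6_int hH hT t, intC4_sub_dvd W t,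
    intC6_sub_dvd W t⟩

end Fermat.Agent.P7.helper66
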