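import Fermat.Agent.P7.helper80_KleinBezout

/-!
# P7 / S52 (3-5 switch), FAM data: Klein's icosahedral forms and the Rubin-Silverberg family

Pure polynomial identities over an arbitrary commutative ring (helper66).

* `kF`, `kH`, `kT` : Klein's forms of degree 12, 20, 30 (definitions of `helper80_KleinBezout`,
  `helper80.kT_sq_add_kH_cube : T^2 + H^3 = 1728 f^5`).
* `kV1`, `kV2` : the line `v_t = v + t * J (grad f)(v)` in the `v`-plane.
* `famH`, `famT`, `famG` : integer polynomials in `(H, T, t)` (coefficients `famHc`, `famTc`,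
  `famGc`) with
  `kH v_t = famH (kH v) (kT v) t`, `kT v_t = famT (kH v) (kT v) t`,
  `kF v_t = kF v * famG (kH v) (kT v) t` (proved in `helper66_KleinFamH/T/G`).
  With `c4 = -H`, `c6 = -T` this is the family of all elliptic curves with the same
  (symplectic) mod 5 representation as `y^2 = x^3 - 27 c4 x - 54 c6`.
-/

namespace Fermat.Agent.P7.helper66

open Fermat.Agent.P7.helper80 (kF kH kT)

variable {R : Type*} [CommRing R]

/-- `d f / d v2 = v1 * kp`. -/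
def kp (v1 v2 : R) : R := v1 ^ 10 + 66 * v1 ^ 5 * v2 ^ 5 - 11 * v2 ^ 10

/-- `d f / d v1 = v2 * kq`. -/
def kq (v1 v2 : R) : R := 11 * v1 ^ 10 + 66 * v1 ^ 5 * v2 ^ 5 - v2 ^ 10

/-- First coordinate of `v_t = v + t * (d f / d v2, - d f / d v1)`. -/
def kV1 (v1 v2 t : R) : R := v1 * (1 + t * kp v1 v2)

/-- Second coordinate of `v_t = v + t * (d f / d v2, - d f / d v1)`. -/
def kV2 (v1 v2 t : R) : R := v2 * (1 - t * kq v1 v2)

@[simp] theorem kV1_zero (v1 v2 : R) : kV1 v1 v2 0 = v1 := by unfold kV1; ring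
@[simp] theorem kV2_zero (v1 v2 : R) : kV2 v1 v2 0 = v2 := by unfold kV2; ring

/-- Euler: `det (v, w) = -12 f` for `w = (v1 * kp, - v2 * kq)`. -/
theorem kdet (v1 v2 : R) :
    v1 * (-(v2 * kq v1 v2)) - v2 * (v1 * kp v1 v2) = -12 * kF v1 v2 := by
  unfold kq kp kF; ring

/-- The coefficient of `t ^ k` in `H (v_t)`, as a polynomial in `H (v)`, `T (v)`. -/
def famHc (H T : R) : ℕ → R
  | 0 => H
  | 1 => -20 * T
  | 2 => -190 * H ^ 2
  | 3 => 1140 * H * T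
  | 4 => -855 * H ^ 3 - 5700 * T ^ 2
  | 5 => -15504 * H ^ 2 * T
  | 6 => -102600 * H ^ 4 - 63840 * H * T ^ 2
  | 7 => 259920 * H ^ 3 * T + 182400 * T ^ 3
  | 8 => -1000350 * H ^ 5 - 1126320 * H ^ 2 * T ^ 2
  | 9 => 7736040 * H ^ 4 * T + 7904000 * H * T ^ 3
  | 10 => 10003500 * H ^ 6 - 5619744 * H ^ 3 * T ^ 2 - 15808000 * T ^ 4
  | 11 => -54685800 * H ^ 5 * T - 54853760 * H ^ 2 * T ^ 3
  | 12 => -45015750 * H ^ 7 - 7202520 * H ^ 4 * T ^ 2 + 37939200 * H * T ^ 4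
  | 13 => 35089200 * H ^ 6 * T - 23201280 * H ^ 3 * T ^ 3 - 58368000 * T ^ 5
  | 14 => -207765000 * H ^ 8 - 495188640 * H ^ 5 * T ^ 2 - 287462400 * H ^ 2 * T ^ 4
  | 15 => 415530000 * H ^ 7 * T + 882458496 * H ^ 4 * T ^ 3 + 466944000 * H * T ^ 5
  | 16 => -77911875 * H ^ 9 - 714711600 * H ^ 6 * T ^ 2 - 1220474880 * H ^ 3 * T ^ 4 - 583680000 * T ^ 6
  | 17 => -353200500 * H ^ 8 * T - 715080960 * H ^ 5 * T ^ 3 - 361881600 * H ^ 2 * T ^ 5
  | 18 => -779118750 * H ^ 10 - 2182917600 * H ^ 7 * T ^ 2 - 2026391040 * H ^ 4 * T ^ 4 - 622592000 * H * T ^ 6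
  | 19 => 694372500 * H ^ 9 * T + 2044414080 * H ^ 6 * T ^ 3 + 2005401600 * H ^ 3 * T ^ 5 + 655360000 * T ^ 7
  | 20 => 184528125 * H ^ 11 + 549301500 * H ^ 8 * T ^ 2 + 544997376 * H ^ 5 * T ^ 4 + 180224000 * H ^ 2 * T ^ 6
  | _ => 0

/-- The coefficient of `t ^ k` in `T (v_t)`, as a polynomial in `H (v)`, `T (v)`. -/
def famTc (H T : R) : ℕ → R
  | 0 => T
  | 1 => 30 * H ^ 2
  | 2 => -435 * H * T
  | 3 => -1160 * H ^ 3 + 2900 * T ^ 2
  | 4 => 27405 * H ^ 2 * T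
  | 5 => 95526 * H ^ 4 - 46980 * H * T ^ 2
  | 6 => -437175 * H ^ 3 * T + 156600 * T ^ 3
  | 7 => 1879200 * H ^ 5 + 3915000 * H ^ 2 * T ^ 2
  | 8 => -8554275 * H ^ 4 * T - 14407200 * H * T ^ 3
  | 9 => 24312150 * H ^ 6 + 42021000 * H ^ 3 * T ^ 2 + 32016000 * T ^ 4
  | 10 => -246633255 * H ^ 5 * T - 216588240 * H ^ 2 * T ^ 3
  | 11 => -162081000 * H ^ 7 + 1352475900 * H ^ 4 * T ^ 2 + 1459929600 * H * T ^ 4
  | 12 => 4131714825 * H ^ 6 * T + 1612005600 * H ^ 3 * T ^ 3 - 2433216000 * T ^ 5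
  | 13 => 6928962750 * H ^ 8 - 5235216300 * H ^ 5 * T ^ 2 - 12044419200 * H ^ 2 * T ^ 4
  | 14 => -43190534475 * H ^ 7 * T - 43045111800 * H ^ 4 * T ^ 3
  | 15 => 79575287760 * H ^ 6 * T ^ 2 + 79420170240 * H ^ 3 * T ^ 4
  | 16 => -176688550125 * H ^ 8 * T - 474659611200 * H ^ 5 * T ^ 3 - 297825638400 * H ^ 2 * T ^ 5
  | 17 => -311803323750 * H ^ 10 - 77604382800 * H ^ 7 * T ^ 2 + 935084908800 * H ^ 4 * T ^ 4 + 700766208000 * H * T ^ 6
  | 18 => 1694131392375 * H ^ 9 * T + 2776512362400 * H ^ 6 * T ^ 3 + 303665356800 * H ^ 3 * T ^ 5 - 778629120000 * T ^ 7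
  | 19 => 328214025000 * H ^ 11 - 3481840250100 * H ^ 8 * T ^ 2 - 8100765158400 * H ^ 5 * T ^ 4 - 4290656256000 * H ^ 2 * T ^ 6
  | 20 => -2874607835625 * H ^ 10 * T - 2424887357760 * H ^ 7 * T ^ 3 + 3892110842880 * H ^ 4 * T ^ 5 + 3442360320000 * H * T ^ 7
  | 21 => -2215444668750 * H ^ 12 - 3077188825500 * H ^ 9 * T ^ 2 - 2709129888000 * H ^ 6 * T ^ 4 - 5125838438400 * H ^ 3 * T ^ 6 - 3278438400000 * T ^ 8
  | 22 => 1403114956875 * H ^ 11 * T - 1724509423800 * H ^ 8 * T ^ 3 - 7701051801600 * H ^ 5 * T ^ 5 - 4573421568000 * H ^ 2 * T ^ 7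
  | 23 => -7705894500000 * H ^ 13 - 33414470973000 * H ^ 10 * T ^ 2 - 49888700928000 * H ^ 7 * T ^ 4 - 30337884979200 * H ^ 4 * T ^ 6 - 6157762560000 * H * T ^ 8
  | 24 => 5089101159375 * H ^ 12 * T + 22687218914400 * H ^ 9 * T ^ 3 + 35246094796800 * H ^ 6 * T ^ 5 + 22779445248000 * H ^ 3 * T ^ 7 + 5131468800000 * T ^ 9
  | 25 => -17627233668750 * H ^ 14 - 70097953635000 * H ^ 11 * T ^ 2 - 105528606261120 * H ^ 8 * T ^ 4 - 71274600677376 * H ^ 5 * T ^ 6 - 18216714240000 * H ^ 2 * T ^ 8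
  | 26 => 40985726371875 * H ^ 13 * T + 163672057566000 * H ^ 10 * T ^ 3 + 245438120632320 * H ^ 7 * T ^ 5 + 163803539865600 * H ^ 4 * T ^ 7 + 41051750400000 * H * T ^ 9
  | 27 => 9632368125000 * H ^ 15 + 8104032382500 * H ^ 12 * T ^ 2 - 63806176396800 * H ^ 9 * T ^ 4 - 143803576074240 * H ^ 6 * T ^ 6 - 111934439424000 * H ^ 3 * T ^ 8 - 30408704000000 * T ^ 10
  | 28 => -21432019078125 * H ^ 14 * T - 85719228804000 * H ^ 11 * T ^ 3 - 128580522647040 * H ^ 8 * T ^ 5 - 85731449241600 * H ^ 5 * T ^ 7 - 21438136320000 * H ^ 2 * T ^ 9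
  | 29 => -11210083593750 * H ^ 16 - 49873523512500 * H ^ 13 * T ^ 2 - 87394892457600 * H ^ 10 * T ^ 4 - 75042714746880 * H ^ 7 * T ^ 6 - 31344427008000 * H ^ 4 * T ^ 8 - 5033164800000 * H * T ^ 10
  | 30 => 4110363984375 * H ^ 15 * T + 19796866155000 * H ^ 12 * T ^ 3 + 38083944628224 * H ^ 9 * T ^ 5 + 36574189977600 * H ^ 6 * T ^ 7 + 17532190720000 * H ^ 3 * T ^ 9 + 3355443200000 * T ^ 11
  | _ => 0

/-- The coefficient of `t ^ k` in `f (v_t) / f (v)`, as a polynomial in `H (v)`, `T (v)`. -/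
def famGc (H T : R) : ℕ → R
  | 0 => 1
  | 1 => 0
  | 2 => 66 * H
  | 3 => -440 * T
  | 4 => -1485 * H ^ 2
  | 5 => 3168 * H * T
  | 6 => -5940 * H ^ 3 - 10560 * T ^ 2
  | 7 => -4752 * H ^ 2 * T
  | 8 => -66825 * H ^ 4 - 63360 * H * T ^ 2
  | 9 => 142560 * H ^ 3 * T + 140800 * T ^ 3
  | 10 => 133650 * H ^ 5 + 133056 * H ^ 2 * T ^ 2
  | 11 => -61560 * H ^ 4 * T - 61440 * H * T ^ 3
  | 12 => 91125 * H ^ 6 + 193536 * H ^ 3 * T ^ 2 + 102400 * T ^ 4
  | _ => 0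

/-- `H (v_t)` as a polynomial in `H (v)`, `T (v)`, `t`. -/
def famH (H T t : R) : R := ∑ k ∈ Finset.range 21, famHc H T k * t ^ k

/-- `T (v_t)` as a polynomial in `H (v)`, `T (v)`, `t`. -/
def famT (H T t : R) : R := ∑ k ∈ Finset.range 31, famTc H T k * t ^ k

/-- `f (v_t) / f (v)` as a polynomial in `H (v)`, `T (v)`, `t`. -/
def famG (H T t : R) : R := ∑ k ∈ Finset.range 13, famGc H T k * t ^ k

@[simp] theorem famH_zero (H T : R) : famH H T 0 = H := by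
  simp [famH, Finset.sum_range_succ', famHc]
@[simp] theorem famT_zero (H T : R) : famT H T 0 = T := by
  simp [famT, Finset.sum_range_succ', famTc]
@[simp] theorem famG_zero (H T : R) : famG H T 0 = 1 := by
  simp [famG, Finset.sum_range_succ', famGc]

/-- The families are compatible with ring homomorphisms. -/
theorem map_famHc {S : Type*} [CommRing S] (φ : R →+* S) (H T : R) (k : ℕ) :
    φ (famHc H T k) = famHc (φ H) (φ T) k := by
  unfold famHc; split <;> simp only [map_neg, map_mul, map_add, map_sub, map_pow, map_ofNat, map_zero]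
theorem map_famTc {S : Type*} [CommRing S] (φ : R →+* S) (H T : R) (k : ℕ) :
    φ (famTc H T k) = famTc (φ H) (φ T) k := by
  unfold famTc; split <;> simp only [map_neg, map_mul, map_add, map_sub, map_pow, map_ofNat, map_zero]
theorem map_famGc {S : Type*} [CommRing S] (φ : R →+* S) (H T : R) (k : ℕ) :
    φ (famGc H T k) = famGc (φ H) (φ T) k := by
  unfold famGc; split <;> simp only [map_neg, map_mul, map_add, map_sub, map_pow, map_ofNat, map_zero, map_one]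
theorem map_famH {S : Type*} [CommRing S] (φ : R →+* S) (H T t : R) :
    φ (famH H T t) = famH (φ H) (φ T) (φ t) := by
  simp [famH, map_famHc]
theorem map_famT {S : Type*} [CommRing S] (φ : R →+* S) (H T t : R) :
    φ (famT H T t) = famT (φ H) (φ T) (φ t) := by
  simp [famT, map_famTc]
theorem map_famG {S : Type*} [CommRing S] (φ : R →+* S) (H T t : R) :
    φ (famG H T t) = famG (φ H) (φ T) (φ t) := by
  simp [famG, map_famGc]

end Fermat.Agent.P7.helper66
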