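import Fermat.Agent.P7.helper66_KleinDefs

/-!
# P7 / S52, FAM: `t`-coefficients of `kT (v_t) = famT (kH v) (kT v) t`, part A (helper66)
-/

namespace Fermat.Agent.P7.helper66

open Fermat.Agent.P7.helper80 (kF kH kT)

set_option linter.unusedVariables false
set_option maxRecDepth 1000000
set_option linter.unusedSimpArgs false

variable {R : Type*} [CommRing R]

theorem famT_coeff_0 (v1 v2 P Q : R) (hP : P = kp v1 v2) (hQ : Q = kq v1 v2) :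
    v1 ^ 30 + v2 ^ 30 + 522 * v1 ^ 25 * v2 ^ 5 - 522 * v1 ^ 5 * v2 ^ 25 - 10005 * v1 ^ 20 * v2 ^ 10 - 10005 * v1 ^ 10 * v2 ^ 20 =
      famTc (kH v1 v2) (kT v1 v2) 0 := by
  subst hP hQ
  simp only [famTc, kH, kT, kp, kq]
  grind

theorem famT_coeff_1 (v1 v2 P Q : R) (hP : P = kp v1 v2) (hQ : Q = kq v1 v2) :
    30 * v1 ^ 30 * P - 30 * v2 ^ 30 * Q - 2610 * v1 ^ 25 * v2 ^ 5 * Q + 13050 * v1 ^ 25 * v2 ^ 5 * P + 13050 * v1 ^ 5 * v2 ^ 25 * Q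
      - 2610 * v1 ^ 5 * v2 ^ 25 * P + 100050 * v1 ^ 20 * v2 ^ 10 * Q - 200100 * v1 ^ 20 * v2 ^ 10 * P
      + 200100 * v1 ^ 10 * v2 ^ 20 * Q - 100050 * v1 ^ 10 * v2 ^ 20 * P =
      famTc (kH v1 v2) (kT v1 v2) 1 := by
  subst hP hQ
  simp only [famTc, kH, kT, kp, kq]
  grind

theorem famT_coeff_2 (v1 v2 P Q : R) (hP : P = kp v1 v2) (hQ : Q = kq v1 v2) :
    435 * v1 ^ 30 * P ^ 2 + 435 * v2 ^ 30 * Q ^ 2 + 5220 * v1 ^ 25 * v2 ^ 5 * Q ^ 2 - 65250 * v1 ^ 25 * v2 ^ 5 * P * Q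
      + 156600 * v1 ^ 25 * v2 ^ 5 * P ^ 2 - 156600 * v1 ^ 5 * v2 ^ 25 * Q ^ 2 + 65250 * v1 ^ 5 * v2 ^ 25 * P * Q
      - 5220 * v1 ^ 5 * v2 ^ 25 * P ^ 2 - 450225 * v1 ^ 20 * v2 ^ 10 * Q ^ 2 + 2001000 * v1 ^ 20 * v2 ^ 10 * P * Q
      - 1900950 * v1 ^ 20 * v2 ^ 10 * P ^ 2 - 1900950 * v1 ^ 10 * v2 ^ 20 * Q ^ 2 + 2001000 * v1 ^ 10 * v2 ^ 20 * P * Q
      - 450225 * v1 ^ 10 * v2 ^ 20 * P ^ 2 =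
      famTc (kH v1 v2) (kT v1 v2) 2 := by
  subst hP hQ
  simp only [famTc, kH, kT, kp, kq]
  grind

theorem famT_coeff_3 (v1 v2 P Q : R) (hP : P = kp v1 v2) (hQ : Q = kq v1 v2) :
    4060 * v1 ^ 30 * P ^ 3 - 4060 * v2 ^ 30 * Q ^ 3 - 5220 * v1 ^ 25 * v2 ^ 5 * Q ^ 3 + 130500 * v1 ^ 25 * v2 ^ 5 * P * Q ^ 2
      - 783000 * v1 ^ 25 * v2 ^ 5 * P ^ 2 * Q + 1200600 * v1 ^ 25 * v2 ^ 5 * P ^ 3 + 1200600 * v1 ^ 5 * v2 ^ 25 * Q ^ 3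
      - 783000 * v1 ^ 5 * v2 ^ 25 * P * Q ^ 2 + 130500 * v1 ^ 5 * v2 ^ 25 * P ^ 2 * Q - 5220 * v1 ^ 5 * v2 ^ 25 * P ^ 3
      + 1200600 * v1 ^ 20 * v2 ^ 10 * Q ^ 3 - 9004500 * v1 ^ 20 * v2 ^ 10 * P * Q ^ 2 + 19009500 * v1 ^ 20 * v2 ^ 10 * P ^ 2 * Q
      - 11405700 * v1 ^ 20 * v2 ^ 10 * P ^ 3 + 11405700 * v1 ^ 10 * v2 ^ 20 * Q ^ 3 - 19009500 * v1 ^ 10 * v2 ^ 20 * P * Q ^ 2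
      + 9004500 * v1 ^ 10 * v2 ^ 20 * P ^ 2 * Q - 1200600 * v1 ^ 10 * v2 ^ 20 * P ^ 3 =
      famTc (kH v1 v2) (kT v1 v2) 3 := by
  subst hP hQ
  simp only [famTc, kH, kT, kp, kq]
  grind

theorem famT_coeff_4 (v1 v2 P Q : R) (hP : P = kp v1 v2) (hQ : Q = kq v1 v2) :
    27405 * v1 ^ 30 * P ^ 4 + 27405 * v2 ^ 30 * Q ^ 4 + 2610 * v1 ^ 25 * v2 ^ 5 * Q ^ 4 - 130500 * v1 ^ 25 * v2 ^ 5 * P * Q ^ 3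
      + 1566000 * v1 ^ 25 * v2 ^ 5 * P ^ 2 * Q ^ 2 - 6003000 * v1 ^ 25 * v2 ^ 5 * P ^ 3 * Q + 6603300 * v1 ^ 25 * v2 ^ 5 * P ^ 4
      - 6603300 * v1 ^ 5 * v2 ^ 25 * Q ^ 4 + 6003000 * v1 ^ 5 * v2 ^ 25 * P * Q ^ 3 - 1566000 * v1 ^ 5 * v2 ^ 25 * P ^ 2 * Q ^ 2
      + 130500 * v1 ^ 5 * v2 ^ 25 * P ^ 3 * Q - 2610 * v1 ^ 5 * v2 ^ 25 * P ^ 4 - 2101050 * v1 ^ 20 * v2 ^ 10 * Q ^ 4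
      + 24012000 * v1 ^ 20 * v2 ^ 10 * P * Q ^ 3 - 85542750 * v1 ^ 20 * v2 ^ 10 * P ^ 2 * Q ^ 2 + 114057000 * v1 ^ 20 * v2 ^ 10 * P ^ 3 * Q
      - 48474225 * v1 ^ 20 * v2 ^ 10 * P ^ 4 - 48474225 * v1 ^ 10 * v2 ^ 20 * Q ^ 4 + 114057000 * v1 ^ 10 * v2 ^ 20 * P * Q ^ 3
      - 85542750 * v1 ^ 10 * v2 ^ 20 * P ^ 2 * Q ^ 2 + 24012000 * v1 ^ 10 * v2 ^ 20 * P ^ 3 * Q - 2101050 * v1 ^ 10 * v2 ^ 20 * P ^ 4 =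
      famTc (kH v1 v2) (kT v1 v2) 4 := by
  subst hP hQ
  simp only [famTc, kH, kT, kp, kq]
  grind

theorem famT_coeff_5 (v1 v2 P Q : R) (hP : P = kp v1 v2) (hQ : Q = kq v1 v2) :
    142506 * v1 ^ 30 * P ^ 5 - 142506 * v2 ^ 30 * Q ^ 5 - 522 * v1 ^ 25 * v2 ^ 5 * Q ^ 5 + 65250 * v1 ^ 25 * v2 ^ 5 * P * Q ^ 4
      - 1566000 * v1 ^ 25 * v2 ^ 5 * P ^ 2 * Q ^ 3 + 12006000 * v1 ^ 25 * v2 ^ 5 * P ^ 3 * Q ^ 2 - 33016500 * v1 ^ 25 * v2 ^ 5 * P ^ 4 * Q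
      + 27733860 * v1 ^ 25 * v2 ^ 5 * P ^ 5 + 27733860 * v1 ^ 5 * v2 ^ 25 * Q ^ 5 - 33016500 * v1 ^ 5 * v2 ^ 25 * P * Q ^ 4
      + 12006000 * v1 ^ 5 * v2 ^ 25 * P ^ 2 * Q ^ 3 - 1566000 * v1 ^ 5 * v2 ^ 25 * P ^ 3 * Q ^ 2 + 65250 * v1 ^ 5 * v2 ^ 25 * P ^ 4 * Q
      - 522 * v1 ^ 5 * v2 ^ 25 * P ^ 5 + 2521260 * v1 ^ 20 * v2 ^ 10 * Q ^ 5 - 42021000 * v1 ^ 20 * v2 ^ 10 * P * Q ^ 4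
      + 228114000 * v1 ^ 20 * v2 ^ 10 * P ^ 2 * Q ^ 3 - 513256500 * v1 ^ 20 * v2 ^ 10 * P ^ 3 * Q ^ 2
      + 484742250 * v1 ^ 20 * v2 ^ 10 * P ^ 4 * Q - 155117520 * v1 ^ 20 * v2 ^ 10 * P ^ 5 + 155117520 * v1 ^ 10 * v2 ^ 20 * Q ^ 5
      - 484742250 * v1 ^ 10 * v2 ^ 20 * P * Q ^ 4 + 513256500 * v1 ^ 10 * v2 ^ 20 * P ^ 2 * Q ^ 3
      - 228114000 * v1 ^ 10 * v2 ^ 20 * P ^ 3 * Q ^ 2 + 42021000 * v1 ^ 10 * v2 ^ 20 * P ^ 4 * Q - 2521260 * v1 ^ 10 * v2 ^ 20 * P ^ 5 =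
      famTc (kH v1 v2) (kT v1 v2) 5 := by
  subst hP hQ
  simp only [famTc, kH, kT, kp, kq]
  grind

theorem famT_coeff_6 (v1 v2 P Q : R) (hP : P = kp v1 v2) (hQ : Q = kq v1 v2) :
    593775 * v1 ^ 30 * P ^ 6 + 593775 * v2 ^ 30 * Q ^ 6 - 13050 * v1 ^ 25 * v2 ^ 5 * P * Q ^ 5 + 783000 * v1 ^ 25 * v2 ^ 5 * P ^ 2 * Q ^ 4
      - 12006000 * v1 ^ 25 * v2 ^ 5 * P ^ 3 * Q ^ 3 + 66033000 * v1 ^ 25 * v2 ^ 5 * P ^ 4 * Q ^ 2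
      - 138669300 * v1 ^ 25 * v2 ^ 5 * P ^ 5 * Q + 92446200 * v1 ^ 25 * v2 ^ 5 * P ^ 6 - 92446200 * v1 ^ 5 * v2 ^ 25 * Q ^ 6
      + 138669300 * v1 ^ 5 * v2 ^ 25 * P * Q ^ 5 - 66033000 * v1 ^ 5 * v2 ^ 25 * P ^ 2 * Q ^ 4 + 12006000 * v1 ^ 5 * v2 ^ 25 * P ^ 3 * Q ^ 3
      - 783000 * v1 ^ 5 * v2 ^ 25 * P ^ 4 * Q ^ 2 + 13050 * v1 ^ 5 * v2 ^ 25 * P ^ 5 * Q - 2101050 * v1 ^ 20 * v2 ^ 10 * Q ^ 6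
      + 50425200 * v1 ^ 20 * v2 ^ 10 * P * Q ^ 5 - 399199500 * v1 ^ 20 * v2 ^ 10 * P ^ 2 * Q ^ 4 + 1368684000 * v1 ^ 20 * v2 ^ 10 * P ^ 3 * Q ^ 3
      - 2181340125 * v1 ^ 20 * v2 ^ 10 * P ^ 4 * Q ^ 2 + 1551175200 * v1 ^ 20 * v2 ^ 10 * P ^ 5 * Q
      - 387793800 * v1 ^ 20 * v2 ^ 10 * P ^ 6 - 387793800 * v1 ^ 10 * v2 ^ 20 * Q ^ 6 + 1551175200 * v1 ^ 10 * v2 ^ 20 * P * Q ^ 5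
      - 2181340125 * v1 ^ 10 * v2 ^ 20 * P ^ 2 * Q ^ 4 + 1368684000 * v1 ^ 10 * v2 ^ 20 * P ^ 3 * Q ^ 3
      - 399199500 * v1 ^ 10 * v2 ^ 20 * P ^ 4 * Q ^ 2 + 50425200 * v1 ^ 10 * v2 ^ 20 * P ^ 5 * Q - 2101050 * v1 ^ 10 * v2 ^ 20 * P ^ 6 =
      famTc (kH v1 v2) (kT v1 v2) 6 := by
  subst hP hQ
  simp only [famTc, kH, kT, kp, kq]
  grind

theorem famT_coeff_7 (v1 v2 P Q : R) (hP : P = kp v1 v2) (hQ : Q = kq v1 v2) :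
    2035800 * v1 ^ 30 * P ^ 7 - 2035800 * v2 ^ 30 * Q ^ 7 - 156600 * v1 ^ 25 * v2 ^ 5 * P ^ 2 * Q ^ 5
      + 6003000 * v1 ^ 25 * v2 ^ 5 * P ^ 3 * Q ^ 4 - 66033000 * v1 ^ 25 * v2 ^ 5 * P ^ 4 * Q ^ 3 + 277338600 * v1 ^ 25 * v2 ^ 5 * P ^ 5 * Q ^ 2
      - 462231000 * v1 ^ 25 * v2 ^ 5 * P ^ 6 * Q + 250925400 * v1 ^ 25 * v2 ^ 5 * P ^ 7 + 250925400 * v1 ^ 5 * v2 ^ 25 * Q ^ 7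
      - 462231000 * v1 ^ 5 * v2 ^ 25 * P * Q ^ 6 + 277338600 * v1 ^ 5 * v2 ^ 25 * P ^ 2 * Q ^ 5 - 66033000 * v1 ^ 5 * v2 ^ 25 * P ^ 3 * Q ^ 4
      + 6003000 * v1 ^ 5 * v2 ^ 25 * P ^ 4 * Q ^ 3 - 156600 * v1 ^ 5 * v2 ^ 25 * P ^ 5 * Q ^ 2 + 1200600 * v1 ^ 20 * v2 ^ 10 * Q ^ 7
      - 42021000 * v1 ^ 20 * v2 ^ 10 * P * Q ^ 6 + 479039400 * v1 ^ 20 * v2 ^ 10 * P ^ 2 * Q ^ 5 - 2395197000 * v1 ^ 20 * v2 ^ 10 * P ^ 3 * Q ^ 4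
      + 5816907000 * v1 ^ 20 * v2 ^ 10 * P ^ 4 * Q ^ 3 - 6980288400 * v1 ^ 20 * v2 ^ 10 * P ^ 5 * Q ^ 2
      + 3877938000 * v1 ^ 20 * v2 ^ 10 * P ^ 6 * Q - 775587600 * v1 ^ 20 * v2 ^ 10 * P ^ 7 + 775587600 * v1 ^ 10 * v2 ^ 20 * Q ^ 7
      - 3877938000 * v1 ^ 10 * v2 ^ 20 * P * Q ^ 6 + 6980288400 * v1 ^ 10 * v2 ^ 20 * P ^ 2 * Q ^ 5
      - 5816907000 * v1 ^ 10 * v2 ^ 20 * P ^ 3 * Q ^ 4 + 2395197000 * v1 ^ 10 * v2 ^ 20 * P ^ 4 * Q ^ 3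
      - 479039400 * v1 ^ 10 * v2 ^ 20 * P ^ 5 * Q ^ 2 + 42021000 * v1 ^ 10 * v2 ^ 20 * P ^ 6 * Q - 1200600 * v1 ^ 10 * v2 ^ 20 * P ^ 7 =
      famTc (kH v1 v2) (kT v1 v2) 7 := by
  subst hP hQ
  simp only [famTc, kH, kT, kp, kq]
  grind

theorem famT_coeff_8 (v1 v2 P Q : R) (hP : P = kp v1 v2) (hQ : Q = kq v1 v2) :
    5852925 * v1 ^ 30 * P ^ 8 + 5852925 * v2 ^ 30 * Q ^ 8 - 1200600 * v1 ^ 25 * v2 ^ 5 * P ^ 3 * Q ^ 5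
      + 33016500 * v1 ^ 25 * v2 ^ 5 * P ^ 4 * Q ^ 4 - 277338600 * v1 ^ 25 * v2 ^ 5 * P ^ 5 * Q ^ 3
      + 924462000 * v1 ^ 25 * v2 ^ 5 * P ^ 6 * Q ^ 2 - 1254627000 * v1 ^ 25 * v2 ^ 5 * P ^ 7 * Q + 564582150 * v1 ^ 25 * v2 ^ 5 * P ^ 8
      - 564582150 * v1 ^ 5 * v2 ^ 25 * Q ^ 8 + 1254627000 * v1 ^ 5 * v2 ^ 25 * P * Q ^ 7 - 924462000 * v1 ^ 5 * v2 ^ 25 * P ^ 2 * Q ^ 6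
      + 277338600 * v1 ^ 5 * v2 ^ 25 * P ^ 3 * Q ^ 5 - 33016500 * v1 ^ 5 * v2 ^ 25 * P ^ 4 * Q ^ 4
      + 1200600 * v1 ^ 5 * v2 ^ 25 * P ^ 5 * Q ^ 3 - 450225 * v1 ^ 20 * v2 ^ 10 * Q ^ 8 + 24012000 * v1 ^ 20 * v2 ^ 10 * P * Q ^ 7
      - 399199500 * v1 ^ 20 * v2 ^ 10 * P ^ 2 * Q ^ 6 + 2874236400 * v1 ^ 20 * v2 ^ 10 * P ^ 3 * Q ^ 5
      - 10179587250 * v1 ^ 20 * v2 ^ 10 * P ^ 4 * Q ^ 4 + 18614102400 * v1 ^ 20 * v2 ^ 10 * P ^ 5 * Q ^ 3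
      - 17450721000 * v1 ^ 20 * v2 ^ 10 * P ^ 6 * Q ^ 2 + 7755876000 * v1 ^ 20 * v2 ^ 10 * P ^ 7 * Q
      - 1260329850 * v1 ^ 20 * v2 ^ 10 * P ^ 8 - 1260329850 * v1 ^ 10 * v2 ^ 20 * Q ^ 8 + 7755876000 * v1 ^ 10 * v2 ^ 20 * P * Q ^ 7
      - 17450721000 * v1 ^ 10 * v2 ^ 20 * P ^ 2 * Q ^ 6 + 18614102400 * v1 ^ 10 * v2 ^ 20 * P ^ 3 * Q ^ 5
      - 10179587250 * v1 ^ 10 * v2 ^ 20 * P ^ 4 * Q ^ 4 + 2874236400 * v1 ^ 10 * v2 ^ 20 * P ^ 5 * Q ^ 3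
      - 399199500 * v1 ^ 10 * v2 ^ 20 * P ^ 6 * Q ^ 2 + 24012000 * v1 ^ 10 * v2 ^ 20 * P ^ 7 * Q - 450225 * v1 ^ 10 * v2 ^ 20 * P ^ 8 =
      famTc (kH v1 v2) (kT v1 v2) 8 := by
  subst hP hQ
  simp only [famTc, kH, kT, kp, kq]
  grind

theorem famT_coeff_9 (v1 v2 P Q : R) (hP : P = kp v1 v2) (hQ : Q = kq v1 v2) :
    14307150 * v1 ^ 30 * P ^ 9 - 14307150 * v2 ^ 30 * Q ^ 9 - 6603300 * v1 ^ 25 * v2 ^ 5 * P ^ 4 * Q ^ 5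
      + 138669300 * v1 ^ 25 * v2 ^ 5 * P ^ 5 * Q ^ 4 - 924462000 * v1 ^ 25 * v2 ^ 5 * P ^ 6 * Q ^ 3
      + 2509254000 * v1 ^ 25 * v2 ^ 5 * P ^ 7 * Q ^ 2 - 2822910750 * v1 ^ 25 * v2 ^ 5 * P ^ 8 * Q
      + 1066432950 * v1 ^ 25 * v2 ^ 5 * P ^ 9 + 1066432950 * v1 ^ 5 * v2 ^ 25 * Q ^ 9 - 2822910750 * v1 ^ 5 * v2 ^ 25 * P * Q ^ 8
      + 2509254000 * v1 ^ 5 * v2 ^ 25 * P ^ 2 * Q ^ 7 - 924462000 * v1 ^ 5 * v2 ^ 25 * P ^ 3 * Q ^ 6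
      + 138669300 * v1 ^ 5 * v2 ^ 25 * P ^ 4 * Q ^ 5 - 6603300 * v1 ^ 5 * v2 ^ 25 * P ^ 5 * Q ^ 4
      + 100050 * v1 ^ 20 * v2 ^ 10 * Q ^ 9 - 9004500 * v1 ^ 20 * v2 ^ 10 * P * Q ^ 8 + 228114000 * v1 ^ 20 * v2 ^ 10 * P ^ 2 * Q ^ 7
      - 2395197000 * v1 ^ 20 * v2 ^ 10 * P ^ 3 * Q ^ 6 + 12215504700 * v1 ^ 20 * v2 ^ 10 * P ^ 4 * Q ^ 5
      - 32574679200 * v1 ^ 20 * v2 ^ 10 * P ^ 5 * Q ^ 4 + 46535256000 * v1 ^ 20 * v2 ^ 10 * P ^ 6 * Q ^ 3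
      - 34901442000 * v1 ^ 20 * v2 ^ 10 * P ^ 7 * Q ^ 2 + 12603298500 * v1 ^ 20 * v2 ^ 10 * P ^ 8 * Q
      - 1680439800 * v1 ^ 20 * v2 ^ 10 * P ^ 9 + 1680439800 * v1 ^ 10 * v2 ^ 20 * Q ^ 9 - 12603298500 * v1 ^ 10 * v2 ^ 20 * P * Q ^ 8
      + 34901442000 * v1 ^ 10 * v2 ^ 20 * P ^ 2 * Q ^ 7 - 46535256000 * v1 ^ 10 * v2 ^ 20 * P ^ 3 * Q ^ 6
      + 32574679200 * v1 ^ 10 * v2 ^ 20 * P ^ 4 * Q ^ 5 - 12215504700 * v1 ^ 10 * v2 ^ 20 * P ^ 5 * Q ^ 4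
      + 2395197000 * v1 ^ 10 * v2 ^ 20 * P ^ 6 * Q ^ 3 - 228114000 * v1 ^ 10 * v2 ^ 20 * P ^ 7 * Q ^ 2
      + 9004500 * v1 ^ 10 * v2 ^ 20 * P ^ 8 * Q - 100050 * v1 ^ 10 * v2 ^ 20 * P ^ 9 =
      famTc (kH v1 v2) (kT v1 v2) 9 := by
  subst hP hQ
  simp only [famTc, kH, kT, kp, kq]
  grind

theorem famT_coeff_10 (v1 v2 P Q : R) (hP : P = kp v1 v2) (hQ : Q = kq v1 v2) :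
    30045015 * v1 ^ 30 * P ^ 10 + 30045015 * v2 ^ 30 * Q ^ 10 - 27733860 * v1 ^ 25 * v2 ^ 5 * P ^ 5 * Q ^ 5
      + 462231000 * v1 ^ 25 * v2 ^ 5 * P ^ 6 * Q ^ 4 - 2509254000 * v1 ^ 25 * v2 ^ 5 * P ^ 7 * Q ^ 3
      + 5645821500 * v1 ^ 25 * v2 ^ 5 * P ^ 8 * Q ^ 2 - 5332164750 * v1 ^ 25 * v2 ^ 5 * P ^ 9 * Q
      + 1706292720 * v1 ^ 25 * v2 ^ 5 * P ^ 10 - 1706292720 * v1 ^ 5 * v2 ^ 25 * Q ^ 10 + 5332164750 * v1 ^ 5 * v2 ^ 25 * P * Q ^ 9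
      - 5645821500 * v1 ^ 5 * v2 ^ 25 * P ^ 2 * Q ^ 8 + 2509254000 * v1 ^ 5 * v2 ^ 25 * P ^ 3 * Q ^ 7
      - 462231000 * v1 ^ 5 * v2 ^ 25 * P ^ 4 * Q ^ 6 + 27733860 * v1 ^ 5 * v2 ^ 25 * P ^ 5 * Q ^ 5
      - 10005 * v1 ^ 20 * v2 ^ 10 * Q ^ 10 + 2001000 * v1 ^ 20 * v2 ^ 10 * P * Q ^ 9 - 85542750 * v1 ^ 20 * v2 ^ 10 * P ^ 2 * Q ^ 8
      + 1368684000 * v1 ^ 20 * v2 ^ 10 * P ^ 3 * Q ^ 7 - 10179587250 * v1 ^ 20 * v2 ^ 10 * P ^ 4 * Q ^ 6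
      + 39089615040 * v1 ^ 20 * v2 ^ 10 * P ^ 5 * Q ^ 5 - 81436698000 * v1 ^ 20 * v2 ^ 10 * P ^ 6 * Q ^ 4
      + 93070512000 * v1 ^ 20 * v2 ^ 10 * P ^ 7 * Q ^ 3 - 56714843250 * v1 ^ 20 * v2 ^ 10 * P ^ 8 * Q ^ 2
      + 16804398000 * v1 ^ 20 * v2 ^ 10 * P ^ 9 * Q - 1848483780 * v1 ^ 20 * v2 ^ 10 * P ^ 10 - 1848483780 * v1 ^ 10 * v2 ^ 20 * Q ^ 10
      + 16804398000 * v1 ^ 10 * v2 ^ 20 * P * Q ^ 9 - 56714843250 * v1 ^ 10 * v2 ^ 20 * P ^ 2 * Q ^ 8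
      + 93070512000 * v1 ^ 10 * v2 ^ 20 * P ^ 3 * Q ^ 7 - 81436698000 * v1 ^ 10 * v2 ^ 20 * P ^ 4 * Q ^ 6
      + 39089615040 * v1 ^ 10 * v2 ^ 20 * P ^ 5 * Q ^ 5 - 10179587250 * v1 ^ 10 * v2 ^ 20 * P ^ 6 * Q ^ 4
      + 1368684000 * v1 ^ 10 * v2 ^ 20 * P ^ 7 * Q ^ 3 - 85542750 * v1 ^ 10 * v2 ^ 20 * P ^ 8 * Q ^ 2
      + 2001000 * v1 ^ 10 * v2 ^ 20 * P ^ 9 * Q - 10005 * v1 ^ 10 * v2 ^ 20 * P ^ 10 =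
      famTc (kH v1 v2) (kT v1 v2) 10 := by
  subst hP hQ
  simp only [famTc, kH, kT, kp, kq]
  grind

theorem famT_coeff_11 (v1 v2 P Q : R) (hP : P = kp v1 v2) (hQ : Q = kq v1 v2) :
    54627300 * v1 ^ 30 * P ^ 11 - 54627300 * v2 ^ 30 * Q ^ 11 - 92446200 * v1 ^ 25 * v2 ^ 5 * P ^ 6 * Q ^ 5
      + 1254627000 * v1 ^ 25 * v2 ^ 5 * P ^ 7 * Q ^ 4 - 5645821500 * v1 ^ 25 * v2 ^ 5 * P ^ 8 * Q ^ 3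
      + 10664329500 * v1 ^ 25 * v2 ^ 5 * P ^ 9 * Q ^ 2 - 8531463600 * v1 ^ 25 * v2 ^ 5 * P ^ 10 * Q
      + 2326762800 * v1 ^ 25 * v2 ^ 5 * P ^ 11 + 2326762800 * v1 ^ 5 * v2 ^ 25 * Q ^ 11 - 8531463600 * v1 ^ 5 * v2 ^ 25 * P * Q ^ 10
      + 10664329500 * v1 ^ 5 * v2 ^ 25 * P ^ 2 * Q ^ 9 - 5645821500 * v1 ^ 5 * v2 ^ 25 * P ^ 3 * Q ^ 8
      + 1254627000 * v1 ^ 5 * v2 ^ 25 * P ^ 4 * Q ^ 7 - 92446200 * v1 ^ 5 * v2 ^ 25 * P ^ 5 * Q ^ 6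
      - 200100 * v1 ^ 20 * v2 ^ 10 * P * Q ^ 10 + 19009500 * v1 ^ 20 * v2 ^ 10 * P ^ 2 * Q ^ 9 - 513256500 * v1 ^ 20 * v2 ^ 10 * P ^ 3 * Q ^ 8
      + 5816907000 * v1 ^ 20 * v2 ^ 10 * P ^ 4 * Q ^ 7 - 32574679200 * v1 ^ 20 * v2 ^ 10 * P ^ 5 * Q ^ 6
      + 97724037600 * v1 ^ 20 * v2 ^ 10 * P ^ 6 * Q ^ 5 - 162873396000 * v1 ^ 20 * v2 ^ 10 * P ^ 7 * Q ^ 4
      + 151239582000 * v1 ^ 20 * v2 ^ 10 * P ^ 8 * Q ^ 3 - 75619791000 * v1 ^ 20 * v2 ^ 10 * P ^ 9 * Q ^ 2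
      + 18484837800 * v1 ^ 20 * v2 ^ 10 * P ^ 10 * Q - 1680439800 * v1 ^ 20 * v2 ^ 10 * P ^ 11 + 1680439800 * v1 ^ 10 * v2 ^ 20 * Q ^ 11
      - 18484837800 * v1 ^ 10 * v2 ^ 20 * P * Q ^ 10 + 75619791000 * v1 ^ 10 * v2 ^ 20 * P ^ 2 * Q ^ 9
      - 151239582000 * v1 ^ 10 * v2 ^ 20 * P ^ 3 * Q ^ 8 + 162873396000 * v1 ^ 10 * v2 ^ 20 * P ^ 4 * Q ^ 7
      - 97724037600 * v1 ^ 10 * v2 ^ 20 * P ^ 5 * Q ^ 6 + 32574679200 * v1 ^ 10 * v2 ^ 20 * P ^ 6 * Q ^ 5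
      - 5816907000 * v1 ^ 10 * v2 ^ 20 * P ^ 7 * Q ^ 4 + 513256500 * v1 ^ 10 * v2 ^ 20 * P ^ 8 * Q ^ 3
      - 19009500 * v1 ^ 10 * v2 ^ 20 * P ^ 9 * Q ^ 2 + 200100 * v1 ^ 10 * v2 ^ 20 * P ^ 10 * Q =
      famTc (kH v1 v2) (kT v1 v2) 11 := by
  subst hP hQ
  simp only [famTc, kH, kT, kp, kq]
  grind

theorem famT_coeff_12 (v1 v2 P Q : R) (hP : P = kp v1 v2) (hQ : Q = kq v1 v2) :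
    86493225 * v1 ^ 30 * P ^ 12 + 86493225 * v2 ^ 30 * Q ^ 12 - 250925400 * v1 ^ 25 * v2 ^ 5 * P ^ 7 * Q ^ 5
      + 2822910750 * v1 ^ 25 * v2 ^ 5 * P ^ 8 * Q ^ 4 - 10664329500 * v1 ^ 25 * v2 ^ 5 * P ^ 9 * Q ^ 3
      + 17062927200 * v1 ^ 25 * v2 ^ 5 * P ^ 10 * Q ^ 2 - 11633814000 * v1 ^ 25 * v2 ^ 5 * P ^ 11 * Q
      + 2714556600 * v1 ^ 25 * v2 ^ 5 * P ^ 12 - 2714556600 * v1 ^ 5 * v2 ^ 25 * Q ^ 12 + 11633814000 * v1 ^ 5 * v2 ^ 25 * P * Q ^ 11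
      - 17062927200 * v1 ^ 5 * v2 ^ 25 * P ^ 2 * Q ^ 10 + 10664329500 * v1 ^ 5 * v2 ^ 25 * P ^ 3 * Q ^ 9
      - 2822910750 * v1 ^ 5 * v2 ^ 25 * P ^ 4 * Q ^ 8 + 250925400 * v1 ^ 5 * v2 ^ 25 * P ^ 5 * Q ^ 7
      - 1900950 * v1 ^ 20 * v2 ^ 10 * P ^ 2 * Q ^ 10 + 114057000 * v1 ^ 20 * v2 ^ 10 * P ^ 3 * Q ^ 9
      - 2181340125 * v1 ^ 20 * v2 ^ 10 * P ^ 4 * Q ^ 8 + 18614102400 * v1 ^ 20 * v2 ^ 10 * P ^ 5 * Q ^ 7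
      - 81436698000 * v1 ^ 20 * v2 ^ 10 * P ^ 6 * Q ^ 6 + 195448075200 * v1 ^ 20 * v2 ^ 10 * P ^ 7 * Q ^ 5
      - 264669268500 * v1 ^ 20 * v2 ^ 10 * P ^ 8 * Q ^ 4 + 201652776000 * v1 ^ 20 * v2 ^ 10 * P ^ 9 * Q ^ 3
      - 83181770100 * v1 ^ 20 * v2 ^ 10 * P ^ 10 * Q ^ 2 + 16804398000 * v1 ^ 20 * v2 ^ 10 * P ^ 11 * Q
      - 1260329850 * v1 ^ 20 * v2 ^ 10 * P ^ 12 - 1260329850 * v1 ^ 10 * v2 ^ 20 * Q ^ 12 + 16804398000 * v1 ^ 10 * v2 ^ 20 * P * Q ^ 11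
      - 83181770100 * v1 ^ 10 * v2 ^ 20 * P ^ 2 * Q ^ 10 + 201652776000 * v1 ^ 10 * v2 ^ 20 * P ^ 3 * Q ^ 9
      - 264669268500 * v1 ^ 10 * v2 ^ 20 * P ^ 4 * Q ^ 8 + 195448075200 * v1 ^ 10 * v2 ^ 20 * P ^ 5 * Q ^ 7
      - 81436698000 * v1 ^ 10 * v2 ^ 20 * P ^ 6 * Q ^ 6 + 18614102400 * v1 ^ 10 * v2 ^ 20 * P ^ 7 * Q ^ 5
      - 2181340125 * v1 ^ 10 * v2 ^ 20 * P ^ 8 * Q ^ 4 + 114057000 * v1 ^ 10 * v2 ^ 20 * P ^ 9 * Q ^ 3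
      - 1900950 * v1 ^ 10 * v2 ^ 20 * P ^ 10 * Q ^ 2 =
      famTc (kH v1 v2) (kT v1 v2) 12 := by
  subst hP hQ
  simp only [famTc, kH, kT, kp, kq]
  grind

theorem famT_coeff_13 (v1 v2 P Q : R) (hP : P = kp v1 v2) (hQ : Q = kq v1 v2) :
    119759850 * v1 ^ 30 * P ^ 13 - 119759850 * v2 ^ 30 * Q ^ 13 - 564582150 * v1 ^ 25 * v2 ^ 5 * P ^ 8 * Q ^ 5
      + 5332164750 * v1 ^ 25 * v2 ^ 5 * P ^ 9 * Q ^ 4 - 17062927200 * v1 ^ 25 * v2 ^ 5 * P ^ 10 * Q ^ 3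
      + 23267628000 * v1 ^ 25 * v2 ^ 5 * P ^ 11 * Q ^ 2 - 13572783000 * v1 ^ 25 * v2 ^ 5 * P ^ 12 * Q
      + 2714556600 * v1 ^ 25 * v2 ^ 5 * P ^ 13 + 2714556600 * v1 ^ 5 * v2 ^ 25 * Q ^ 13 - 13572783000 * v1 ^ 5 * v2 ^ 25 * P * Q ^ 12
      + 23267628000 * v1 ^ 5 * v2 ^ 25 * P ^ 2 * Q ^ 11 - 17062927200 * v1 ^ 5 * v2 ^ 25 * P ^ 3 * Q ^ 10
      + 5332164750 * v1 ^ 5 * v2 ^ 25 * P ^ 4 * Q ^ 9 - 564582150 * v1 ^ 5 * v2 ^ 25 * P ^ 5 * Q ^ 8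
      - 11405700 * v1 ^ 20 * v2 ^ 10 * P ^ 3 * Q ^ 10 + 484742250 * v1 ^ 20 * v2 ^ 10 * P ^ 4 * Q ^ 9
      - 6980288400 * v1 ^ 20 * v2 ^ 10 * P ^ 5 * Q ^ 8 + 46535256000 * v1 ^ 20 * v2 ^ 10 * P ^ 6 * Q ^ 7
      - 162873396000 * v1 ^ 20 * v2 ^ 10 * P ^ 7 * Q ^ 6 + 317603122200 * v1 ^ 20 * v2 ^ 10 * P ^ 8 * Q ^ 5
      - 352892358000 * v1 ^ 20 * v2 ^ 10 * P ^ 9 * Q ^ 4 + 221818053600 * v1 ^ 20 * v2 ^ 10 * P ^ 10 * Q ^ 3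
      - 75619791000 * v1 ^ 20 * v2 ^ 10 * P ^ 11 * Q ^ 2 + 12603298500 * v1 ^ 20 * v2 ^ 10 * P ^ 12 * Q
      - 775587600 * v1 ^ 20 * v2 ^ 10 * P ^ 13 + 775587600 * v1 ^ 10 * v2 ^ 20 * Q ^ 13 - 12603298500 * v1 ^ 10 * v2 ^ 20 * P * Q ^ 12
      + 75619791000 * v1 ^ 10 * v2 ^ 20 * P ^ 2 * Q ^ 11 - 221818053600 * v1 ^ 10 * v2 ^ 20 * P ^ 3 * Q ^ 10
      + 352892358000 * v1 ^ 10 * v2 ^ 20 * P ^ 4 * Q ^ 9 - 317603122200 * v1 ^ 10 * v2 ^ 20 * P ^ 5 * Q ^ 8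
      + 162873396000 * v1 ^ 10 * v2 ^ 20 * P ^ 6 * Q ^ 7 - 46535256000 * v1 ^ 10 * v2 ^ 20 * P ^ 7 * Q ^ 6
      + 6980288400 * v1 ^ 10 * v2 ^ 20 * P ^ 8 * Q ^ 5 - 484742250 * v1 ^ 10 * v2 ^ 20 * P ^ 9 * Q ^ 4
      + 11405700 * v1 ^ 10 * v2 ^ 20 * P ^ 10 * Q ^ 3 =
      famTc (kH v1 v2) (kT v1 v2) 13 := by
  subst hP hQ
  simp only [famTc, kH, kT, kp, kq]
  grind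

end Fermat.Agent.P7.helper66
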