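import Fermat.Agent.P7.helper94_ManinDup

/-!
# P7 / S52, module CE, package [CE-MANIN], row [PAR-UB] (helper69)

`ub_of (hKX : KXStatement) (hB : RdegBiqStatement) : UBStatement`:
for `P, Q ∈ G = {X | ι X = -X}`, nonzero, `P ≠ ±Q`,
`h (P + Q) + h (P - Q) ≤ 2 h P + 2 h Q`.

`P = (kxHom r₁, y₁)`, `Q = (kxHom r₂, y₂)` with `r₁ ≠ r₂`; `x(P + Q) = kxHom s`,
`x(P - Q) = kxHom t`.  The two biquadratic identities

* `(x(P+Q) + x(P-Q)) (x₁ - x₂)² = sumNum(x₁, x₂)`  (`helper64.sumNum_eq`),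
* `x(P+Q) x(P-Q) (x₁ - x₂)² = prodNum(x₁, x₂)`     (`prodNum_eq`, new),

pull back along the injective `kxHom`, and [DEG-BIQ] gives the bound.
-/

set_option autoImplicit false
set_option linter.unusedSectionVars false
set_option linter.style.haveILetI false
set_option linter.unusedVariables false
set_option linter.unusedSimpArgs false

open WeierstrassCurve WeierstrassCurve.Affine Polynomial
open scoped WeierstrassCurve.Affine Classical Polynomial.Bivariate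

namespace Fermat.Agent.P7.helper69

open Fermat.Agent.P6.helper78 Fermat.Agent.P7.helper52 Fermat.Agent.P7.helper92
open Fermat.Agent.S13.helper64

/-! ## The product identity -/

section field

variable {F : Type*} [Field F] {W : Affine F}

/-- `x₃ (x₁ - x₂)²` for the chord of slope `ℓ = u / (x₁ - x₂)`. -/
lemma addX_mul_sq (x₁ x₂ ℓ u : F) (h : ℓ * (x₁ - x₂) = u) :
    W.addX x₁ x₂ ℓ * (x₁ - x₂) ^ 2 =
      u ^ 2 + W.a₁ * (x₁ - x₂) * u - (W.a₂ + x₁ + x₂) * (x₁ - x₂) ^ 2 := by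
  subst h
  simp only [addX]
  ring

/-- the polynomial identity behind `x(A+B) x(A-B)` -/
lemma prodNum_core {x₁ y₁ x₂ y₂ : F} (h₁ : W.Equation x₁ y₁) (h₂ : W.Equation x₂ y₂) :
    ((y₁ - y₂) ^ 2 + W.a₁ * (x₁ - x₂) * (y₁ - y₂) - (W.a₂ + x₁ + x₂) * (x₁ - x₂) ^ 2) *
      ((y₁ - W.negY x₂ y₂) ^ 2 + W.a₁ * (x₁ - x₂) * (y₁ - W.negY x₂ y₂)
        - (W.a₂ + x₁ + x₂) * (x₁ - x₂) ^ 2) =
      prodNum W.b₄ W.b₆ W.b₈ x₁ 1 x₂ 1 * (x₁ - x₂) ^ 2 := by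
  rw [equation_iff] at h₁ h₂
  simp only [prodNum, negY, WeierstrassCurve.b₄, WeierstrassCurve.b₆, WeierstrassCurve.b₈]
  linear_combination
    (W.a₁ ^ 2 * x₁ * x₂ - W.a₁ ^ 2 * x₂ ^ 2 + W.a₁ * W.a₃ * x₁ - W.a₁ * W.a₃ * x₂
      + W.a₁ * x₁ * y₁ - 2 * W.a₁ * x₂ * y₂ - W.a₂ * x₁ ^ 2 + 4 * W.a₂ * x₁ * x₂
      - 2 * W.a₂ * x₂ ^ 2 + W.a₃ * y₁ - 2 * W.a₃ * y₂ + W.a₄ * x₁ + W.a₆ - x₁ ^ 3
      + 2 * x₁ ^ 2 * x₂ + 2 * x₁ * x₂ ^ 2 + y₁ ^ 2 - 2 * x₂ ^ 3 - 2 * y₂ ^ 2) * h₁ +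
    (-(W.a₁ ^ 2 * x₁ ^ 2) + W.a₁ ^ 2 * x₁ * x₂ - W.a₁ * W.a₃ * x₁ + W.a₁ * W.a₃ * x₂
      + W.a₁ * x₂ * y₂ - 4 * W.a₂ * x₁ ^ 2 + 4 * W.a₂ * x₁ * x₂ - W.a₂ * x₂ ^ 2
      + W.a₃ * y₂ - 2 * W.a₄ * x₁ + W.a₄ * x₂ - W.a₆ - 4 * x₁ ^ 3 + 2 * x₁ ^ 2 * x₂
      + 2 * x₁ * x₂ ^ 2 - x₂ ^ 3 + y₂ ^ 2) * h₂

/-- x-only formula for `x(A+B) * x(A-B)` (needs `x₁ ≠ x₂`: on the `2`-torsion locus the
identity fails for arbitrary `ℓp`, `ℓm`). -/
lemma prodNum_eq {x₁ y₁ x₂ y₂ : F} (h₁ : W.Equation x₁ y₁) (h₂ : W.Equation x₂ y₂)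
    (hx : x₁ ≠ x₂) (ℓp ℓm : F)
    (hp : ℓp * (x₁ - x₂) = y₁ - y₂) (hm : ℓm * (x₁ - x₂) = y₁ - W.negY x₂ y₂) :
    prodNum W.b₄ W.b₆ W.b₈ x₁ 1 x₂ 1 =
      W.addX x₁ x₂ ℓp * W.addX x₁ x₂ ℓm * (x₁ - x₂) ^ 2 := by
  have hd : (x₁ - x₂) ^ 2 ≠ 0 := pow_ne_zero 2 (sub_ne_zero.mpr hx)
  apply mul_right_cancel₀ hd
  rw [← prodNum_core h₁ h₂, ← addX_mul_sq (W := W) x₁ x₂ ℓp _ hp,
    ← addX_mul_sq (W := W) x₁ x₂ ℓm _ hm]
  ring

end field

/-! ## Pulling back along `kxHom` -/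

section Main

variable (W : WeierstrassCurve ℤ) (k : Type) [Field k]

/-- `kxHom` of the numerator of the sum -/
lemma kxHom_sumNum (kx : IsKX W k) (r₁ r₂ : RatFunc k) :
    kxHom W k (sumNum (RatFunc.C (W.map (Int.castRingHom k)).b₂)
        (RatFunc.C (W.map (Int.castRingHom k)).b₄)
        (RatFunc.C (W.map (Int.castRingHom k)).b₆) r₁ 1 r₂ 1) =
      sumNum (W.map (Int.castRingHom (KE W k))).b₂ (W.map (Int.castRingHom (KE W k))).b₄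
        (W.map (Int.castRingHom (KE W k))).b₆ (kxHom W k r₁) 1 (kxHom W k r₂) 1 := by
  simp only [sumNum, map_add, map_mul, map_pow, map_one, map_ofNat,
    helper94.kxHom_C_b₂ W k kx, helper94.kxHom_C_b₄ W k kx, helper94.kxHom_C_b₆ W k kx]

/-- `kxHom` of the numerator of the product -/
lemma kxHom_prodNum (kx : IsKX W k) (r₁ r₂ : RatFunc k) :
    kxHom W k (prodNum (RatFunc.C (W.map (Int.castRingHom k)).b₄)
        (RatFunc.C (W.map (Int.castRingHom k)).b₆)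
        (RatFunc.C (W.map (Int.castRingHom k)).b₈) r₁ 1 r₂ 1) =
      prodNum (W.map (Int.castRingHom (KE W k))).b₄ (W.map (Int.castRingHom (KE W k))).b₆
        (W.map (Int.castRingHom (KE W k))).b₈ (kxHom W k r₁) 1 (kxHom W k r₂) 1 := by
  simp only [prodNum, map_add, map_sub, map_mul, map_pow, map_one, map_ofNat,
    helper94.kxHom_C_b₄ W k kx, helper94.kxHom_C_b₆ W k kx, helper94.kxHom_C_b₈ W k kx]

end Main

/-- **[PAR-UB]** -/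
theorem ub_of (hKX : KXStatement) (hB : RdegBiqStatement) : UBStatement := by
  intro W k _ hΔ P hP Q hQ hP0 hQ0 hPQ hPQ'
  have kx := hKX W k hΔ
  rcases P with _ | ⟨x₁, y₁, h₁⟩
  · exact absurd rfl hP0
  rcases Q with _ | ⟨x₂, y₂, h₂⟩
  · exact absurd rfl hQ0
  obtain ⟨r₁, hr₁⟩ := helper94.exists_kxHom_eq_of_mem_manG W k kx hP
  obtain ⟨r₂, hr₂⟩ := helper94.exists_kxHom_eq_of_mem_manG W k kx hQ
  have hmP := helper94.manH_some_kxHom W k kx r₁ (h := h₁) hr₁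
  have hmQ := helper94.manH_some_kxHom W k kx r₂ (h := h₂) hr₂
  -- `x₁ ≠ x₂`
  have hx : x₁ ≠ x₂ := by
    intro hx
    rcases (Point.X_eq_iff (h₁ := h₁) (h₂ := h₂)).mp hx with e | e
    · exact hPQ e
    · exact hPQ' e
  have hr : r₁ ≠ r₂ := by
    intro e
    apply hx
    rw [← hr₁, ← hr₂, e]
  have hd : x₁ - x₂ ≠ 0 := sub_ne_zero.mpr hx
  -- the sum
  have hadd : (Point.some x₁ y₁ h₁ : PtK W (KE W k)) + Point.some x₂ y₂ h₂ =
      Point.some _ _ (nonsingular_add h₁ h₂ fun hxy => hx hxy.left) :=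
    Point.add_of_X_ne hx
  -- the difference
  have hsub : (Point.some x₁ y₁ h₁ : PtK W (KE W k)) - Point.some x₂ y₂ h₂ =
      Point.some _ _ (nonsingular_add h₁ ((nonsingular_neg ..).mpr h₂)
        fun hxy => hx hxy.left) := by
    rw [sub_eq_add_neg, Point.neg_some]
    exact Point.add_of_X_ne hx
  have hPQm := (manG W k).add_mem hP hQ
  have hPQs := (manG W k).sub_mem hP hQ
  rw [hadd] at hPQm ⊢
  rw [hsub] at hPQs ⊢
  obtain ⟨s, hs⟩ := helper94.exists_kxHom_eq_of_mem_manG W k kx hPQm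
  obtain ⟨t, ht⟩ := helper94.exists_kxHom_eq_of_mem_manG W k kx hPQs
  rw [helper94.manH_some_kxHom W k kx s hs, helper94.manH_some_kxHom W k kx t ht, hmP, hmQ]
  -- the slopes
  have hp : (W.map (Int.castRingHom (KE W k))).toAffine.slope x₁ x₂ y₁ y₂ * (x₁ - x₂) =
      y₁ - y₂ := by
    rw [slope_of_X_ne hx, div_mul_cancel₀ _ hd]
  have hm : (W.map (Int.castRingHom (KE W k))).toAffine.slope x₁ x₂ y₁
      ((W.map (Int.castRingHom (KE W k))).toAffine.negY x₂ y₂) * (x₁ - x₂) =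
      y₁ - (W.map (Int.castRingHom (KE W k))).toAffine.negY x₂ y₂ := by
    rw [slope_of_X_ne hx, div_mul_cancel₀ _ hd]
  have hsum := sumNum_eq h₁.1 h₂.1 _ _ hp hm
  have hprod := prodNum_eq h₁.1 h₂.1 hx _ _ hp hm
  have e1 : (s + t) * (r₁ - r₂) ^ 2 =
      sumNum (RatFunc.C (W.map (Int.castRingHom k)).b₂)
        (RatFunc.C (W.map (Int.castRingHom k)).b₄)
        (RatFunc.C (W.map (Int.castRingHom k)).b₆) r₁ 1 r₂ 1 := by
    apply kx.inj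
    rw [kxHom_sumNum W k kx, map_mul, map_add, map_pow, map_sub, hs, ht, hr₁, hr₂]
    exact hsum.symm
  have e2 : s * t * (r₁ - r₂) ^ 2 =
      prodNum (RatFunc.C (W.map (Int.castRingHom k)).b₄)
        (RatFunc.C (W.map (Int.castRingHom k)).b₆)
        (RatFunc.C (W.map (Int.castRingHom k)).b₈) r₁ 1 r₂ 1 := by
    apply kx.inj
    rw [kxHom_prodNum W k kx, map_mul, map_mul, map_pow, map_sub, hs, ht, hr₁, hr₂]
    exact hprod.symm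
  have h4 := hB k (W.map (Int.castRingHom k)) r₁ r₂ s t hr e1 e2
  exact_mod_cast h4

end Fermat.Agent.P7.helper69
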