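import Mathlib
import Fermat.Agent.P7.helper80_KleinBezout

/-!
# P7 / S52, module FAM: Klein's universal level-5 structure, definitions (helper73)

Klein's forms `kF, kH, kT` (helper80) define the universal curve `E_v : y² = x³ + 27 kH x + 54 kT`
over the cone of `X(5)`.  Here: the covariant `w = J ∇f`, the two universal points of order 5
`P_z(v) = (kxP, kyP)` (coefficients in `ℚ(z)`, `z` a primitive 5th root of unity) and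
`Q(v) = (kxQ, kyQ)` (rational coefficients), slopes, and Klein's matrix `T`.
All formulas were derived from the Tate curve and verified in exact arithmetic.
-/

set_option autoImplicit false

namespace Fermat.Agent.P7.helper73

open Fermat.Agent.P7.helper80

variable {K : Type*} [Field K]

/-- first component of the covariant `w = J ∇f` (degree 11) -/
def kW1 (u v : K) : K :=
  -u ^ 11 - 66 * u ^ 6 * v ^ 5 + 11 * u * v ^ 10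

/-- second component of the covariant `w = J ∇f` (degree 11) -/
def kW2 (u v : K) : K :=
  11 * u ^ 10 * v + 66 * u ^ 5 * v ^ 6 - v ^ 11

/-- `x`-coordinate of the universal point `Q` (rational coefficients) -/
def kxQ (u v : K) : K :=
  3 * u ^ 10 + 36 * u ^ 8 * v ^ 2 - 36 * u ^ 7 * v ^ 3 + 72 * u ^ 6 * v ^ 4 + 90 * u ^ 5 * v ^ 5 + 180 * u ^ 4 * v ^ 6 + 108 * u ^ 3 * v ^ 7 + 72 * u ^ 2 * v ^ 8 + 36 * u * v ^ 9 + 3 * v ^ 10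

/-- `y`-coordinate of the universal point `Q` -/
def kyQ (u v : K) : K :=
  108 * u ^ 13 * v ^ 2 + 108 * u ^ 12 * v ^ 3 + 432 * u ^ 11 * v ^ 4 + 540 * u ^ 9 * v ^ 6 + 648 * u ^ 8 * v ^ 7 + 2268 * u ^ 7 * v ^ 8 + 3132 * u ^ 6 * v ^ 9 + 2700 * u ^ 5 * v ^ 10 + 1620 * u ^ 4 * v ^ 11 + 972 * u ^ 3 * v ^ 12 + 432 * u ^ 2 * v ^ 13 + 108 * u * v ^ 14

/-- `x`-coordinate of `2Q` -/
def kx2Q (u v : K) : K :=
  3 * u ^ 10 - 36 * u ^ 9 * v + 72 * u ^ 8 * v ^ 2 - 108 * u ^ 7 * v ^ 3 + 180 * u ^ 6 * v ^ 4 - 90 * u ^ 5 * v ^ 5 + 72 * u ^ 4 * v ^ 6 + 36 * u ^ 3 * v ^ 7 + 36 * u ^ 2 * v ^ 8 + 3 * v ^ 10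

/-- `y`-coordinate of `2Q` -/
def ky2Q (u v : K) : K :=
  108 * u ^ 14 * v - 432 * u ^ 13 * v ^ 2 + 972 * u ^ 12 * v ^ 3 - 1620 * u ^ 11 * v ^ 4 + 2700 * u ^ 10 * v ^ 5 - 3132 * u ^ 9 * v ^ 6 + 2268 * u ^ 8 * v ^ 7 - 648 * u ^ 7 * v ^ 8 + 540 * u ^ 6 * v ^ 9 + 432 * u ^ 4 * v ^ 11 - 108 * u ^ 3 * v ^ 12 + 108 * u ^ 2 * v ^ 13

/-- tangent slope at `Q` -/
def ksQ (u v : K) : K :=
  3 * u ^ 5 - 6 * u ^ 4 * v + 18 * u ^ 3 * v ^ 2 + 6 * u ^ 2 * v ^ 3 + 12 * u * v ^ 4 + 3 * v ^ 5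

/-- tangent slope at `2Q` -/
def ks2Q (u v : K) : K :=
  -3 * u ^ 5 + 12 * u ^ 4 * v - 6 * u ^ 3 * v ^ 2 + 18 * u ^ 2 * v ^ 3 + 6 * u * v ^ 4 + 3 * v ^ 5

/-- `x`-coordinate of the universal point `P` (`z` a primitive 5th root of unity) -/
def kxP (z u v : K) : K :=
  -(93 / 5) * u ^ 10 - (36 / 5) * z ^ 2 * u ^ 10 - (36 / 5) * z ^ 3 * u ^ 10 - (198 / 5) * u ^ 5 * v ^ 5 - (396 / 5) * z ^ 2 * u ^ 5 * v ^ 5 - (396 / 5) * z ^ 3 * u ^ 5 * v ^ 5 - (57 / 5) * v ^ 10 + (36 / 5) * z ^ 2 * v ^ 10 + (36 / 5) * z ^ 3 * v ^ 10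

/-- `y`-coordinate of the universal point `P` -/
def kyP (z u v : K) : K :=
  -(108 / 5) * u ^ 15 - (216 / 5) * z * u ^ 15 + (108 / 5) * z ^ 2 * u ^ 15 - (324 / 5) * z ^ 3 * u ^ 15 - (972 / 5) * u ^ 10 * v ^ 5 - (1944 / 5) * z * u ^ 10 * v ^ 5 + (1512 / 5) * z ^ 2 * u ^ 10 * v ^ 5 - (3456 / 5) * z ^ 3 * u ^ 10 * v ^ 5 + (2484 / 5) * u ^ 5 * v ^ 10 + (4968 / 5) * z * u ^ 5 * v ^ 10 + (3456 / 5) * z ^ 2 * u ^ 5 * v ^ 10 + (1512 / 5) * z ^ 3 * u ^ 5 * v ^ 10 - (216 / 5) * v ^ 15 - (432 / 5) * z * v ^ 15 - (324 / 5) * z ^ 2 * v ^ 15 - (108 / 5) * z ^ 3 * v ^ 15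

/-- tangent slope at `P` -/
def ksP (z u v : K) : K :=
  -(3 / 5) * u ^ 5 - (6 / 5) * z * u ^ 5 - (24 / 5) * z ^ 2 * u ^ 5 + (18 / 5) * z ^ 3 * u ^ 5 + (21 / 5) * v ^ 5 + (42 / 5) * z * v ^ 5 + (18 / 5) * z ^ 2 * v ^ 5 + (24 / 5) * z ^ 3 * v ^ 5

/-- chord slope through `Q` and `P` -/
def klPQ (z u v : K) : K :=
  (3 / 5) * u ^ 5 + (6 / 5) * z * u ^ 5 - (6 / 5) * z ^ 2 * u ^ 5 + (12 / 5) * z ^ 3 * u ^ 5 + 6 * u ^ 3 * v ^ 2 - 6 * z ^ 3 * u ^ 3 * v ^ 2 + 6 * u ^ 2 * v ^ 3 - 6 * z ^ 2 * u ^ 2 * v ^ 3 + 6 * u * v ^ 4 - 6 * z * u * v ^ 4 + (9 / 5) * v ^ 5 + (18 / 5) * z * v ^ 5 + (12 / 5) * z ^ 2 * v ^ 5 + (6 / 5) * z ^ 3 * v ^ 5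

/-- the linear form `2 y_P / (3 x_P - s_P^2)` in `u^5, v^5` -/
def kL2 (z u v : K) : K :=
  (18 / 5) * u ^ 5 + (36 / 5) * z * u ^ 5 - (6 / 5) * z ^ 2 * u ^ 5 + (42 / 5) * z ^ 3 * u ^ 5 + (24 / 5) * v ^ 5 + (48 / 5) * z * v ^ 5 + (42 / 5) * z ^ 2 * v ^ 5 + (6 / 5) * z ^ 3 * v ^ 5

/-- the complementary linear form, `kL2 * kL2' = 3 x_P - s_P^2` -/
def kL2' (z u v : K) : K :=
  -(24 / 5) * u ^ 5 - (48 / 5) * z * u ^ 5 - (42 / 5) * z ^ 2 * u ^ 5 - (6 / 5) * z ^ 3 * u ^ 5 + (18 / 5) * v ^ 5 + (36 / 5) * z * v ^ 5 - (6 / 5) * z ^ 2 * v ^ 5 + (42 / 5) * z ^ 3 * v ^ 5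

/-- entry `a` of Klein's matrix `T = [[a, b], [b, -a]]` -/
def kTa (z : K) : K :=
  -(1 / 5) - (2 / 5) * z - (3 / 5) * z ^ 2 + (1 / 5) * z ^ 3

/-- entry `b` of Klein's matrix `T = [[a, b], [b, -a]]` -/
def kTb (z : K) : K :=
  (2 / 5) + (4 / 5) * z + (1 / 5) * z ^ 2 + (3 / 5) * z ^ 3

/-- first coordinate of `T v` -/
def kTu (z u v : K) : K := kTa z * u + kTb z * v

/-- second coordinate of `T v` -/
def kTv (z u v : K) : K := kTb z * u - kTa z * v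

/-- the family `v_t = v + t w(v)`, first coordinate -/
def famU (u v t : K) : K := u + t * kW1 u v

/-- the family `v_t = v + t w(v)`, second coordinate -/
def famV (u v t : K) : K := v + t * kW2 u v

theorem det_kW (u v : K) : u * kW2 u v - v * kW1 u v = 12 * kF u v := by
  simp only [kW1, kW2, kF]; ring

end Fermat.Agent.P7.helper73
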