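import Mathlib
import Fermat.Agent.P7.helper73_FamDefs

/-!
# P7 / S52, module FAM: certificates for the universal level-5 structure (helper73)

Polynomial identities (generated, exact arithmetic in `ℚ(ζ₅)[u, v]`): the points `P_z`, `Q`, `2Q`
lie on `E_v`; tangent / chord relations (`2 P_z = P_{z²}`, `P_{z⁴} = -P_z`, `2 Q`, `4 Q = -Q`,
`Q ∘ S = Q + P`); transformation laws under `S = diag(z, 1)` and `U`; rigidity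
(`u⁵, v⁵` are linear in the tangent slope `ksP` and `kL2 = 2 y_P / (3 x_P - s_P²)`);
nonvanishing certificates (`x_Q - x_P`, `x_Q - x_{2P}`, `y_P`, `y_Q` divide `kF²`).
-/

set_option autoImplicit false
set_option maxHeartbeats 1600000
set_option linter.unusedSectionVars false

namespace Fermat.Agent.P7.helper73

open Fermat.Agent.P7.helper80

variable {K : Type*} [Field K] [CharZero K]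

/-- cofactor: `(kxQ - kxP z) * kC1 = kF ^ 2` -/
def kC1 (z u v : K) : K :=
  (1 / 18) * u ^ 12 * v ^ 2 - (1 / 36) * z ^ 2 * u ^ 12 * v ^ 2 - (1 / 36) * z ^ 3 * u ^ 12 * v ^ 2 - (5 / 36) * u ^ 10 * v ^ 4 + (5 / 36) * z ^ 2 * u ^ 10 * v ^ 4 + (5 / 36) * z ^ 3 * u ^ 10 * v ^ 4 + (5 / 36) * u ^ 9 * v ^ 5 - (5 / 36) * z ^ 2 * u ^ 9 * v ^ 5 - (5 / 36) * z ^ 3 * u ^ 9 * v ^ 5 + (5 / 36) * u ^ 8 * v ^ 6 - (5 / 18) * z ^ 2 * u ^ 8 * v ^ 6 - (5 / 18) * z ^ 3 * u ^ 8 * v ^ 6 + (7 / 36) * u ^ 7 * v ^ 7 + (7 / 18) * z ^ 2 * u ^ 7 * v ^ 7 + (7 / 18) * z ^ 3 * u ^ 7 * v ^ 7 - (5 / 12) * u ^ 5 * v ^ 9 - (5 / 18) * z ^ 2 * u ^ 5 * v ^ 9 - (5 / 18) * z ^ 3 * u ^ 5 * v ^ 9 + (5 / 12) * u ^ 4 * v ^ 10 + (5 / 18) * z ^ 2 * u ^ 4 * v ^ 10 + (5 / 18) * z ^ 3 * u ^ 4 * v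 ^ 10 - (5 / 18) * u ^ 3 * v ^ 11 - (5 / 36) * z ^ 2 * u ^ 3 * v ^ 11 - (5 / 36) * z ^ 3 * u ^ 3 * v ^ 11 + (1 / 12) * u ^ 2 * v ^ 12 + (1 / 36) * z ^ 2 * u ^ 2 * v ^ 12 + (1 / 36) * z ^ 3 * u ^ 2 * v ^ 12

/-- cofactor: `(kxQ - kxP (z^2)) * kC2 = kF ^ 2` -/
def kC2 (z u v : K) : K :=
  (1 / 12) * u ^ 12 * v ^ 2 + (1 / 36) * z ^ 2 * u ^ 12 * v ^ 2 + (1 / 36) * z ^ 3 * u ^ 12 * v ^ 2 - (5 / 18) * u ^ 10 * v ^ 4 - (5 / 36) * z ^ 2 * u ^ 10 * v ^ 4 - (5 / 36) * z ^ 3 * u ^ 10 * v ^ 4 + (5 / 18) * u ^ 9 * v ^ 5 + (5 / 36) * z ^ 2 * u ^ 9 * v ^ 5 + (5 / 36) * z ^ 3 * u ^ 9 * v ^ 5 + (5 / 12) * u ^ 8 * v ^ 6 + (5 / 18) * z ^ 2 * u ^ 8 * v ^ 6 + (5 / 18) * z ^ 3 * u ^ 8 * v ^ 6 - (7 / 36) * u ^ 7 * v ^ 7 - (7 / 18) * z ^ 2 * u ^ 7 * v ^ 7 - (7 / 18) * z ^ 3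 * u ^ 7 * v ^ 7 - (5 / 36) * u ^ 5 * v ^ 9 + (5 / 18) * z ^ 2 * u ^ 5 * v ^ 9 + (5 / 18) * z ^ 3 * u ^ 5 * v ^ 9 + (5 / 36) * u ^ 4 * v ^ 10 - (5 / 18) * z ^ 2 * u ^ 4 * v ^ 10 - (5 / 18) * z ^ 3 * u ^ 4 * v ^ 10 - (5 / 36) * u ^ 3 * v ^ 11 + (5 / 36) * z ^ 2 * u ^ 3 * v ^ 11 + (5 / 36) * z ^ 3 * u ^ 3 * v ^ 11 + (1 / 18) * u ^ 2 * v ^ 12 - (1 / 36) * z ^ 2 * u ^ 2 * v ^ 12 - (1 / 36) * z ^ 3 * u ^ 2 * v ^ 12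

/-- cofactor: `kyP * kC3 = kF ^ 2` -/
def kC3 (z u v : K) : K :=
  -(1 / 27) * u ^ 7 * v ^ 2 - (2 / 27) * z * u ^ 7 * v ^ 2 - (7 / 108) * z ^ 2 * u ^ 7 * v ^ 2 - (1 / 108) * z ^ 3 * u ^ 7 * v ^ 2 + (1 / 36) * u ^ 2 * v ^ 7 + (1 / 18) * z * u ^ 2 * v ^ 7 - (1 / 108) * z ^ 2 * u ^ 2 * v ^ 7 + (7 / 108) * z ^ 3 * u ^ 2 * v ^ 7

/-- cofactor: `kyQ * kC4 = kF ^ 2` -/
def kC4 (u v : K) : K :=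
  (1 / 108) * u ^ 9 - (1 / 108) * u ^ 8 * v - (1 / 36) * u ^ 7 * v ^ 2 + (7 / 108) * u ^ 6 * v ^ 3 - (7 / 108) * u ^ 4 * v ^ 5 + (7 / 108) * u ^ 3 * v ^ 6 - (1 / 27) * u ^ 2 * v ^ 7 + (1 / 108) * u * v ^ 8

theorem kyP_sq {z : K} (hz : z ^ 4 + z ^ 3 + z ^ 2 + z + 1 = 0) (u v : K) :
    kyP z u v ^ 2 = kxP z u v ^ 3 + 27 * kH u v * kxP z u v + 54 * kT u v := by
  simp only [kyP, kxP, kH, kT]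
  linear_combination ((793152 / 125) * u ^ 30 - (559872 / 125) * z * u ^ 30 + (793152 / 125) * z ^ 2 * u ^ 30 + (93312 / 125) * z ^ 4 * u ^ 30 + (46656 / 125) * z ^ 5 * u ^ 30 + (16842816 / 125) * u ^ 25 * v ^ 5 - (12643776 / 125) * z * u ^ 25 * v ^ 5 + (16842816 / 125) * z ^ 2 * u ^ 25 * v ^ 5 + (3079296 / 125) * z ^ 4 * u ^ 25 * v ^ 5 + (1539648 / 125) * z ^ 5 * u ^ 25 * v ^ 5 + (16282944 / 25) * u ^ 20 * v ^ 10 - (14649984 / 25) * z * u ^ 20 * v ^ 10 + (16282944 / 25) * z ^ 2 * u ^ 20 * v ^ 10 + (6718464 / 25) * z ^ 4 * u ^ 20 * v ^ 10 + (3359232 / 25) * z ^ 5 * u ^ 20 * v ^ 10 - (16282944 / 25) * u ^ 15 * v ^ 15 - (2846016 / 25) * z * u ^ 15 * v ^ 15 - (16282944 / 25) * z ^ 2 * u ^ 15 * v ^ 15 + (23607936 / 25) * z ^ 4 * u ^ 15 * v ^ 15 + (11803968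 / 25) * z ^ 5 * u ^ 15 * v ^ 15 + (11710656 / 25) * u ^ 10 * v ^ 20 + (14649984 / 25) * z * u ^ 10 * v ^ 20 + (11710656 / 25) * z ^ 2 * u ^ 10 * v ^ 20 - (6718464 / 25) * z ^ 4 * u ^ 10 * v ^ 20 - (3359232 / 25) * z ^ 5 * u ^ 10 * v ^ 20 - (8817984 / 125) * u ^ 5 * v ^ 25 - (12643776 / 125) * z * u ^ 5 * v ^ 25 - (8817984 / 125) * z ^ 2 * u ^ 5 * v ^ 25 + (3079296 / 125) * z ^ 4 * u ^ 5 * v ^ 25 + (1539648 / 125) * z ^ 5 * u ^ 5 * v ^ 25 + (373248 / 125) * v ^ 30 + (559872 / 125) * z * v ^ 30 + (373248 / 125) * z ^ 2 * v ^ 30 - (93312 / 125) * z ^ 4 * v ^ 30 - (46656 / 125) * z ^ 5 * v ^ 30) * hz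

theorem kyQ_sq (u v : K) :
    kyQ u v ^ 2 = kxQ u v ^ 3 + 27 * kH u v * kxQ u v + 54 * kT u v := by
  simp only [kyQ, kxQ, kH, kT]
  ring

theorem ky2Q_sq (u v : K) :
    ky2Q u v ^ 2 = kx2Q u v ^ 3 + 27 * kH u v * kx2Q u v + 54 * kT u v := by
  simp only [ky2Q, kx2Q, kH, kT]
  ring

theorem ksP_mul {z : K} (hz : z ^ 4 + z ^ 3 + z ^ 2 + z + 1 = 0) (u v : K) :
    ksP z u v * (2 * kyP z u v) = 3 * kxP z u v ^ 2 + 27 * kH u v := by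
  simp only [ksP, kyP, kxP, kH]
  linear_combination (-(24624 / 25) * u ^ 20 + (27216 / 25) * z * u ^ 20 - (15552 / 25) * z ^ 2 * u ^ 20 - (263088 / 25) * u ^ 15 * v ^ 5 + (268272 / 25) * z * u ^ 15 * v ^ 5 - (225504 / 25) * z ^ 2 * u ^ 15 * v ^ 5 + (128304 / 25) * u ^ 10 * v ^ 10 - (351216 / 25) * z * u ^ 10 * v ^ 10 - (574128 / 25) * z ^ 2 * u ^ 10 * v ^ 10 + (191808 / 25) * u ^ 5 * v ^ 15 + (230688 / 25) * z * u ^ 5 * v ^ 15 + (154224 / 25) * z ^ 2 * u ^ 5 * v ^ 15 - (18144 / 25) * v ^ 20 - (18144 / 25) * z * v ^ 20 - (9072 / 25) * z ^ 2 * v ^ 20) * hz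

theorem kxP_dbl {z : K} (hz : z ^ 4 + z ^ 3 + z ^ 2 + z + 1 = 0) (u v : K) :
    kxP (z ^ 2) u v = ksP z u v ^ 2 - 2 * kxP z u v := by
  simp only [ksP, kxP]
  linear_combination (-(1404 / 25) * u ^ 10 + (1368 / 25) * z * u ^ 10 - (504 / 25) * z ^ 2 * u ^ 10 - (2844 / 25) * u ^ 5 * v ^ 5 + (3348 / 25) * z * u ^ 5 * v ^ 5 - (2844 / 25) * z ^ 2 * u ^ 5 * v ^ 5 - (1296 / 25) * v ^ 10 - (468 / 25) * z * v ^ 10 - (396 / 25) * z ^ 2 * v ^ 10) * hz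

theorem kyP_dbl {z : K} (hz : z ^ 4 + z ^ 3 + z ^ 2 + z + 1 = 0) (u v : K) :
    kyP (z ^ 2) u v = -(ksP z u v * (kxP (z ^ 2) u v - kxP z u v) + kyP z u v) := by
  simp only [ksP, kxP, kyP]
  linear_combination (-(216 / 5) * u ^ 15 + (432 / 25) * z ^ 2 * u ^ 15 - (1296 / 25) * z ^ 3 * u ^ 15 + (1512 / 25) * z ^ 4 * u ^ 15 - (648 / 25) * z ^ 5 * u ^ 15 - (1944 / 5) * u ^ 10 * v ^ 5 + (7128 / 25) * z ^ 2 * u ^ 10 * v ^ 5 - (15984 / 25) * z ^ 3 * u ^ 10 * v ^ 5 + (16848 / 25) * z ^ 4 * u ^ 10 * v ^ 5 - (7992 / 25) * z ^ 5 * u ^ 10 * v ^ 5 + (4968 / 5) * u ^ 5 * v ^ 10 + (25704 / 25) * z ^ 2 * u ^ 5 * v ^ 10 - (17712 / 25) * z ^ 3 * u ^ 5 * v ^ 10 + (864 / 25) * z ^ 4 * u ^ 5 * v ^ 10 - (8856 / 25) * z ^ 5 * u ^ 5 * v ^ 10 - (432 / 5) * v ^ 15 - (2376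 / 25) * z ^ 2 * v ^ 15 + (1728 / 25) * z ^ 3 * v ^ 15 - (216 / 25) * z ^ 4 * v ^ 15 + (864 / 25) * z ^ 5 * v ^ 15) * hz

theorem kxP_inv {z : K} (hz : z ^ 4 + z ^ 3 + z ^ 2 + z + 1 = 0) (u v : K) :
    kxP (z ^ 4) u v = kxP z u v := by
  simp only [kxP]
  linear_combination ((36 / 5) * z ^ 2 * u ^ 10 - (36 / 5) * z ^ 4 * u ^ 10 + (36 / 5) * z ^ 7 * u ^ 10 - (36 / 5) * z ^ 8 * u ^ 10 + (396 / 5) * z ^ 2 * u ^ 5 * v ^ 5 - (396 / 5) * z ^ 4 * u ^ 5 * v ^ 5 + (396 / 5) * z ^ 7 * u ^ 5 * v ^ 5 - (396 / 5) * z ^ 8 * u ^ 5 * v ^ 5 - (36 / 5) * z ^ 2 * v ^ 10 + (36 / 5) * z ^ 4 * v ^ 10 - (36 / 5) * z ^ 7 * v ^ 10 + (36 / 5) * z ^ 8 * v ^ 10) * hz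

theorem kyP_inv {z : K} (hz : z ^ 4 + z ^ 3 + z ^ 2 + z + 1 = 0) (u v : K) :
    kyP (z ^ 4) u v = -kyP z u v := by
  simp only [kyP]
  linear_combination (-(216 / 5) * u ^ 15 + (324 / 5) * z ^ 2 * u ^ 15 - (432 / 5) * z ^ 3 * u ^ 15 + (108 / 5) * z ^ 4 * u ^ 15 + (324 / 5) * z ^ 7 * u ^ 15 - (324 / 5) * z ^ 8 * u ^ 15 - (1944 / 5) * u ^ 10 * v ^ 5 + (3456 / 5) * z ^ 2 * u ^ 10 * v ^ 5 - (4968 / 5) * z ^ 3 * u ^ 10 * v ^ 5 + (1512 / 5) * z ^ 4 * u ^ 10 * v ^ 5 + (3456 / 5) * z ^ 7 * u ^ 10 * v ^ 5 - (3456 / 5) * z ^ 8 * u ^ 10 * v ^ 5 + (4968 / 5) * u ^ 5 * v ^ 10 - (1512 / 5) * z ^ 2 * u ^ 5 * v ^ 10 - (1944 / 5) * z ^ 3 * u ^ 5 * v ^ 10 + (3456 / 5) * z ^ 4 * u ^ 5 * v ^ 10 - (1512 / 5) * z ^ 7 * u ^ 5 * v ^ 10 + (1512 / 5) * z ^ 8 * u ^ 5 * v ^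 10 - (432 / 5) * v ^ 15 + (108 / 5) * z ^ 2 * v ^ 15 + (216 / 5) * z ^ 3 * v ^ 15 - (324 / 5) * z ^ 4 * v ^ 15 + (108 / 5) * z ^ 7 * v ^ 15 - (108 / 5) * z ^ 8 * v ^ 15) * hz

theorem ksQ_mul (u v : K) :
    ksQ u v * (2 * kyQ u v) = 3 * kxQ u v ^ 2 + 27 * kH u v := by
  simp only [ksQ, kyQ, kxQ, kH]
  ring

theorem kx2Q_eq (u v : K) :
    kx2Q u v = ksQ u v ^ 2 - 2 * kxQ u v := by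
  simp only [kx2Q, ksQ, kxQ]
  ring

theorem ky2Q_eq (u v : K) :
    ky2Q u v = -(ksQ u v * (kx2Q u v - kxQ u v) + kyQ u v) := by
  simp only [ky2Q, kx2Q, ksQ, kxQ, kyQ]
  ring

theorem ks2Q_mul (u v : K) :
    ks2Q u v * (2 * ky2Q u v) = 3 * kx2Q u v ^ 2 + 27 * kH u v := by
  simp only [ks2Q, ky2Q, kx2Q, kH]
  ring

theorem kxQ_eq (u v : K) :
    kxQ u v = ks2Q u v ^ 2 - 2 * kx2Q u v := by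
  simp only [kx2Q, ks2Q, kxQ]
  ring

theorem kyQ_eq (u v : K) :
    -kyQ u v = -(ks2Q u v * (kxQ u v - kx2Q u v) + ky2Q u v) := by
  simp only [ky2Q, kx2Q, ks2Q, kxQ, kyQ]
  ring

theorem klPQ_mul {z : K} (hz : z ^ 4 + z ^ 3 + z ^ 2 + z + 1 = 0) (u v : K) :
    klPQ z u v * (kxQ u v - kxP z u v) = kyQ u v - kyP z u v := by
  simp only [klPQ, kxQ, kxP, kyQ, kyP]
  linear_combination (-(216 / 25) * u ^ 15 - (216 / 25) * z * u ^ 15 + (432 / 25) * z ^ 2 * u ^ 15 + (216 / 5) * u ^ 13 * v ^ 2 - (216 / 5) * z ^ 2 * u ^ 13 * v ^ 2 - (216 / 5) * z * u ^ 12 * v ^ 3 - (216 / 5) * u ^ 11 * v ^ 4 - (1944 / 25) * u ^ 10 * v ^ 5 - (1944 / 25) * z * u ^ 10 * v ^ 5 + (4968 / 25) * z ^ 2 * u ^ 10 * v ^ 5 + (2376 / 5) * u ^ 8 * v ^ 7 - (2376 / 5) * z ^ 2 * u ^ 8 * v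 ^ 7 - (2376 / 5) * z * u ^ 7 * v ^ 8 - (2376 / 5) * u ^ 6 * v ^ 9 + (4968 / 25) * u ^ 5 * v ^ 10 + (4968 / 25) * z * u ^ 5 * v ^ 10 + (1944 / 25) * z ^ 2 * u ^ 5 * v ^ 10 - (216 / 5) * u ^ 3 * v ^ 12 + (216 / 5) * z ^ 2 * u ^ 3 * v ^ 12 + (216 / 5) * z * u ^ 2 * v ^ 13 + (216 / 5) * u * v ^ 14 - (432 / 25) * v ^ 15 - (432 / 25) * z * v ^ 15 - (216 / 25) * z ^ 2 * v ^ 15) * hz

theorem kxQ_S {z : K} (hz : z ^ 4 + z ^ 3 + z ^ 2 + z + 1 = 0) (u v : K) :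
    kxQ (z * u) v = klPQ z u v ^ 2 - kxQ u v - kxP z u v := by
  simp only [klPQ, kxQ, kxP]
  linear_combination (-(399 / 25) * u ^ 10 + (363 / 25) * z * u ^ 10 - (144 / 25) * z ^ 2 * u ^ 10 - 3 * z ^ 5 * u ^ 10 + 3 * z ^ 6 * u ^ 10 + (144 / 5) * u ^ 8 * v ^ 2 - (216 / 5) * z * u ^ 8 * v ^ 2 + (144 / 5) * z ^ 2 * u ^ 8 * v ^ 2 - 36 * z ^ 3 * u ^ 8 * v ^ 2 + 36 * z ^ 4 * u ^ 8 * v ^ 2 - (216 / 5) * u ^ 7 * v ^ 3 + (144 / 5) * z * u ^ 7 * v ^ 3 + 36 * z ^ 2 * u ^ 7 * v ^ 3 - 36 * z ^ 3 * u ^ 7 * v ^ 3 + (144 / 5) * u ^ 6 * v ^ 4 - 36 * z * u ^ 6 * v ^ 4 + 36 * z ^ 2 * u ^ 6 * v ^ 4 - (594 / 25) * u ^ 5 * v ^ 5 + (378 / 25) * z * u ^ 5 * v ^ 5 - (144 / 25) * z ^ 2 * u ^ 5 * v ^ 5 + 72 * u ^ 4 * v ^ 6 + (72 / 5) * u ^ 3 * v ^ 7 + (72 / 5) * z * u ^ 3 *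 v ^ 7 + (72 / 5) * z ^ 2 * u ^ 3 * v ^ 7 + (72 / 5) * u ^ 2 * v ^ 8 + (72 / 5) * z * u ^ 2 * v ^ 8 + (72 / 5) * u * v ^ 9 - (216 / 25) * v ^ 10 - (108 / 25) * z * v ^ 10 - (36 / 25) * z ^ 2 * v ^ 10) * hz

theorem kyQ_S {z : K} (hz : z ^ 4 + z ^ 3 + z ^ 2 + z + 1 = 0) (u v : K) :
    kyQ (z * u) v = -(klPQ z u v * (kxQ (z * u) v - kxQ u v) + kyQ u v) := by
  simp only [klPQ, kxQ, kyQ]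
  linear_combination (-(9 / 5) * u ^ 15 - (9 / 5) * z * u ^ 15 + (36 / 5) * z ^ 2 * u ^ 15 - (54 / 5) * z ^ 3 * u ^ 15 + (36 / 5) * z ^ 4 * u ^ 15 - (9 / 5) * z ^ 5 * u ^ 15 - (9 / 5) * z ^ 6 * u ^ 15 + (36 / 5) * z ^ 7 * u ^ 15 - (54 / 5) * z ^ 8 * u ^ 15 + (36 / 5) * z ^ 9 * u ^ 15 + (342 / 5) * u ^ 13 * v ^ 2 - (558 / 5) * z * u ^ 13 * v ^ 2 + (432 / 5) * z ^ 2 * u ^ 13 * v ^ 2 - (558 / 5) * z ^ 3 * u ^ 13 * v ^ 2 + (342 / 5) * z ^ 4 * u ^ 13 * v ^ 2 + (342 / 5) * z ^ 5 * u ^ 13 * v ^ 2 - (558 / 5) * z ^ 6 * u ^ 13 * v ^ 2 + (432 / 5) * z ^ 7 * u ^ 13 * v ^ 2 - 90 * z ^ 8 * u ^ 13 * v ^ 2 + 90 * z ^ 9 * u ^ 13 * v ^ 2 + (558 / 5) * u ^ 12 * v ^ 3 - (342 / 5) * z * u ^ 12 * v ^ 3 - (342 / 5) * z ^ 2 * u ^ 12 * v ^ 3 + (558 / 5) * z ^ 3 * u ^ 12 *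 v ^ 3 - (432 / 5) * z ^ 4 * u ^ 12 * v ^ 3 + (558 / 5) * z ^ 5 * u ^ 12 * v ^ 3 - (342 / 5) * z ^ 6 * u ^ 12 * v ^ 3 - 90 * z ^ 7 * u ^ 12 * v ^ 3 + 90 * z ^ 8 * u ^ 12 * v ^ 3 + (774 / 5) * u ^ 11 * v ^ 4 - (1116 / 5) * z * u ^ 11 * v ^ 4 + (774 / 5) * z ^ 2 * u ^ 11 * v ^ 4 - (216 / 5) * z ^ 3 * u ^ 11 * v ^ 4 - (216 / 5) * z ^ 4 * u ^ 11 * v ^ 4 + (774 / 5) * z ^ 5 * u ^ 11 * v ^ 4 - 180 * z ^ 6 * u ^ 11 * v ^ 4 + 198 * z ^ 7 * u ^ 11 * v ^ 4 - (297 / 5) * u ^ 10 * v ^ 5 - (297 / 5) * z * u ^ 10 * v ^ 5 + (2178 / 5) * z ^ 2 * u ^ 10 * v ^ 5 - (3762 / 5) * z ^ 3 * u ^ 10 * v ^ 5 + (2178 / 5) * z ^ 4 * u ^ 10 * v ^ 5 - (27 / 5) * z ^ 5 * u ^ 10 * v ^ 5 - (27 / 5) * z ^ 6 * u ^ 10 * v ^ 5 + (18 / 5) * z ^ 7 * u ^ 10 * v ^ 5 + (18 / 5) * z ^ 8 * u ^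 10 * v ^ 5 + (18 / 5) * z ^ 9 * u ^ 10 * v ^ 5 + 108 * z ^ 4 * u ^ 9 * v ^ 6 + 108 * z ^ 5 * u ^ 9 * v ^ 6 - (1188 / 5) * u ^ 8 * v ^ 7 - (1188 / 5) * z * u ^ 8 * v ^ 7 + (4752 / 5) * z ^ 2 * u ^ 8 * v ^ 7 - (864 / 5) * z ^ 3 * u ^ 8 * v ^ 7 - (864 / 5) * z ^ 4 * u ^ 8 * v ^ 7 + (216 / 5) * z ^ 5 * u ^ 8 * v ^ 7 + (216 / 5) * z ^ 6 * u ^ 8 * v ^ 7 + (216 / 5) * z ^ 7 * u ^ 8 * v ^ 7 + (1188 / 5) * u ^ 7 * v ^ 8 + (1188 / 5) * z * u ^ 7 * v ^ 8 + (1404 / 5) * z ^ 2 * u ^ 7 * v ^ 8 + (1404 / 5) * z ^ 3 * u ^ 7 * v ^ 8 - (216 / 5) * z ^ 4 * u ^ 7 * v ^ 8 - (216 / 5) * z ^ 5 * u ^ 7 * v ^ 8 - (216 / 5) * z ^ 6 * u ^ 7 * v ^ 8 + (3564 / 5) * u ^ 6 * v ^ 9 - (2268 / 5) * z * u ^ 6 * v ^ 9 + (3672 / 5) * z ^ 2 * u ^ 6 * v ^ 9 + (432 / 5) * z ^ 3 * u ^ 6 *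 v ^ 9 + (432 / 5) * z ^ 4 * u ^ 6 * v ^ 9 + (432 / 5) * z ^ 5 * u ^ 6 * v ^ 9 + 378 * u ^ 5 * v ^ 10 + 378 * z * u ^ 5 * v ^ 10 + 108 * z ^ 2 * u ^ 5 * v ^ 10 + 108 * z ^ 3 * u ^ 5 * v ^ 10 + 108 * z ^ 4 * u ^ 5 * v ^ 10 + 216 * z * u ^ 4 * v ^ 11 + 216 * z ^ 2 * u ^ 4 * v ^ 11 + 216 * z ^ 3 * u ^ 4 * v ^ 11 + (648 / 5) * u ^ 3 * v ^ 12 + (648 / 5) * z * u ^ 3 * v ^ 12 + (648 / 5) * z ^ 2 * u ^ 3 * v ^ 12 + (432 / 5) * u ^ 2 * v ^ 13 + (432 / 5) * z * u ^ 2 * v ^ 13 + (216 / 5) * u * v ^ 14) * hz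

theorem kH_S {z : K} (hz : z ^ 4 + z ^ 3 + z ^ 2 + z + 1 = 0) (u v : K) :
    kH (z * u) v = kH u v := by
  simp only [kH]
  linear_combination (u ^ 20 - z * u ^ 20 + z ^ 5 * u ^ 20 - z ^ 6 * u ^ 20 + z ^ 10 * u ^ 20 - z ^ 11 * u ^ 20 + z ^ 15 * u ^ 20 - z ^ 16 * u ^ 20 - 228 * u ^ 15 * v ^ 5 + 228 * z * u ^ 15 * v ^ 5 - 228 * z ^ 5 * u ^ 15 * v ^ 5 + 228 * z ^ 6 * u ^ 15 * v ^ 5 - 228 * z ^ 10 * u ^ 15 * v ^ 5 + 228 * z ^ 11 * u ^ 15 * v ^ 5 + 494 * u ^ 10 * v ^ 10 - 494 * z * u ^ 10 * v ^ 10 + 494 * z ^ 5 * u ^ 10 * v ^ 10 - 494 * z ^ 6 * u ^ 10 * v ^ 10 + 228 * u ^ 5 * v ^ 15 - 228 * z * u ^ 5 * v ^ 15) * hz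

theorem kT_S {z : K} (hz : z ^ 4 + z ^ 3 + z ^ 2 + z + 1 = 0) (u v : K) :
    kT (z * u) v = kT u v := by
  simp only [kT]
  linear_combination (-u ^ 30 + z * u ^ 30 - z ^ 5 * u ^ 30 + z ^ 6 * u ^ 30 - z ^ 10 * u ^ 30 + z ^ 11 * u ^ 30 - z ^ 15 * u ^ 30 + z ^ 16 * u ^ 30 - z ^ 20 * u ^ 30 + z ^ 21 * u ^ 30 - z ^ 25 * u ^ 30 + z ^ 26 * u ^ 30 - 522 * u ^ 25 * v ^ 5 + 522 * z * u ^ 25 * v ^ 5 - 522 * z ^ 5 * u ^ 25 * v ^ 5 + 522 * z ^ 6 * u ^ 25 * v ^ 5 - 522 * z ^ 10 * u ^ 25 * v ^ 5 + 522 * z ^ 11 * u ^ 25 * v ^ 5 - 522 * z ^ 15 * u ^ 25 * v ^ 5 + 522 * z ^ 16 * u ^ 25 * v ^ 5 - 522 * z ^ 20 * u ^ 25 * v ^ 5 + 522 * z ^ 21 * u ^ 25 * v ^ 5 + 10005 * u ^ 20 * v ^ 10 - 10005 * z * u ^ 20 * v ^ 10 + 10005 * z ^ 5 * u ^ 20 * v ^ 10 - 10005 * z ^ 6 * u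 ^ 20 * v ^ 10 + 10005 * z ^ 10 * u ^ 20 * v ^ 10 - 10005 * z ^ 11 * u ^ 20 * v ^ 10 + 10005 * z ^ 15 * u ^ 20 * v ^ 10 - 10005 * z ^ 16 * u ^ 20 * v ^ 10 + 10005 * u ^ 10 * v ^ 20 - 10005 * z * u ^ 10 * v ^ 20 + 10005 * z ^ 5 * u ^ 10 * v ^ 20 - 10005 * z ^ 6 * u ^ 10 * v ^ 20 + 522 * u ^ 5 * v ^ 25 - 522 * z * u ^ 5 * v ^ 25) * hz

theorem kF_S {z : K} (hz : z ^ 4 + z ^ 3 + z ^ 2 + z + 1 = 0) (u v : K) :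
    kF (z * u) v = z * kF u v := by
  simp only [kF]
  linear_combination (-z * u ^ 11 * v + z ^ 2 * u ^ 11 * v - z ^ 6 * u ^ 11 * v + z ^ 7 * u ^ 11 * v - 11 * z * u ^ 6 * v ^ 6 + 11 * z ^ 2 * u ^ 6 * v ^ 6) * hz

theorem kxP_S {z : K} (hz : z ^ 4 + z ^ 3 + z ^ 2 + z + 1 = 0) (u v : K) :
    kxP z (z * u) v = kxP z u v := by
  simp only [kxP]
  linear_combination ((93 / 5) * u ^ 10 - (93 / 5) * z * u ^ 10 + (36 / 5) * z ^ 2 * u ^ 10 - (36 / 5) * z ^ 4 * u ^ 10 + (93 / 5) * z ^ 5 * u ^ 10 - (93 / 5) * z ^ 6 * u ^ 10 + (36 / 5) * z ^ 7 * u ^ 10 - (36 / 5) * z ^ 9 * u ^ 10 + (198 / 5) * u ^ 5 * v ^ 5 - (198 / 5) * z * u ^ 5 * v ^ 5 + (396 / 5) * z ^ 2 * u ^ 5 * v ^ 5 - (396 / 5) * z ^ 4 * u ^ 5 * v ^ 5) * hz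

theorem kyP_S {z : K} (hz : z ^ 4 + z ^ 3 + z ^ 2 + z + 1 = 0) (u v : K) :
    kyP z (z * u) v = kyP z u v := by
  simp only [kyP]
  linear_combination ((108 / 5) * u ^ 15 + (108 / 5) * z * u ^ 15 - (324 / 5) * z ^ 2 * u ^ 15 + (432 / 5) * z ^ 3 * u ^ 15 - (324 / 5) * z ^ 4 * u ^ 15 + (108 / 5) * z ^ 5 * u ^ 15 + (108 / 5) * z ^ 6 * u ^ 15 - (324 / 5) * z ^ 7 * u ^ 15 + (432 / 5) * z ^ 8 * u ^ 15 - (324 / 5) * z ^ 9 * u ^ 15 + (108 / 5) * z ^ 10 * u ^ 15 + (108 / 5) * z ^ 11 * u ^ 15 - (324 / 5) * z ^ 12 * u ^ 15 + (432 / 5) * z ^ 13 * u ^ 15 - (324 / 5) * z ^ 14 * u ^ 15 + (972 / 5) * u ^ 10 * v ^ 5 + (972 / 5) * z * u ^ 10 * v ^ 5 - (3456 / 5) * z ^ 2 * u ^ 10 * v ^ 5 + (4968 / 5) * z ^ 3 * u ^ 10 * v ^ 5 - (3456 / 5) * z ^ 4 * u ^ 10 * v ^ 5 + (972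 / 5) * z ^ 5 * u ^ 10 * v ^ 5 + (972 / 5) * z ^ 6 * u ^ 10 * v ^ 5 - (3456 / 5) * z ^ 7 * u ^ 10 * v ^ 5 + (4968 / 5) * z ^ 8 * u ^ 10 * v ^ 5 - (3456 / 5) * z ^ 9 * u ^ 10 * v ^ 5 - (2484 / 5) * u ^ 5 * v ^ 10 - (2484 / 5) * z * u ^ 5 * v ^ 10 + (1512 / 5) * z ^ 2 * u ^ 5 * v ^ 10 + (1944 / 5) * z ^ 3 * u ^ 5 * v ^ 10 + (1512 / 5) * z ^ 4 * u ^ 5 * v ^ 10) * hz

theorem kW1_S {z : K} (hz : z ^ 4 + z ^ 3 + z ^ 2 + z + 1 = 0) (u v : K) :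
    kW1 (z * u) v = z * kW1 u v := by
  simp only [kW1]
  linear_combination (z * u ^ 11 - z ^ 2 * u ^ 11 + z ^ 6 * u ^ 11 - z ^ 7 * u ^ 11 + 66 * z * u ^ 6 * v ^ 5 - 66 * z ^ 2 * u ^ 6 * v ^ 5) * hz

theorem kW2_S {z : K} (hz : z ^ 4 + z ^ 3 + z ^ 2 + z + 1 = 0) (u v : K) :
    kW2 (z * u) v = kW2 u v := by
  simp only [kW2]
  linear_combination (-11 * u ^ 10 * v + 11 * z * u ^ 10 * v - 11 * z ^ 5 * u ^ 10 * v + 11 * z ^ 6 * u ^ 10 * v - 66 * u ^ 5 * v ^ 6 + 66 * z * u ^ 5 * v ^ 6) * hz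

theorem kH_U (u v : K) :
    kH (-v) u = kH u v := by
  simp only [kH]
  ring

theorem kT_U (u v : K) :
    kT (-v) u = kT u v := by
  simp only [kT]
  ring

theorem kF_U (u v : K) :
    kF (-v) u = kF u v := by
  simp only [kF]
  ring

theorem kW1_U (u v : K) :
    kW1 (-v) u = -kW2 u v := by
  simp only [kW1, kW2]
  ring

theorem kW2_U (u v : K) :
    kW2 (-v) u = kW1 u v := by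
  simp only [kW1, kW2]
  ring

theorem kxQ_U (u v : K) :
    kxQ (-v) u = kx2Q u v := by
  simp only [kxQ, kx2Q]
  ring

theorem kyQ_U (u v : K) :
    kyQ (-v) u = -ky2Q u v := by
  simp only [kyQ, ky2Q]
  ring

theorem kxP_U {z : K} (hz : z ^ 4 + z ^ 3 + z ^ 2 + z + 1 = 0) (u v : K) :
    kxP z (-v) u = kxP (z ^ 2) u v := by
  simp only [kxP]
  linear_combination ((36 / 5) * u ^ 10 - (36 / 5) * z * u ^ 10 + (36 / 5) * z ^ 2 * u ^ 10 + (396 / 5) * u ^ 5 * v ^ 5 - (396 / 5) * z * u ^ 5 * v ^ 5 + (396 / 5) * z ^ 2 * u ^ 5 * v ^ 5 - (36 / 5) * v ^ 10 + (36 / 5) * z * v ^ 10 - (36 / 5) * z ^ 2 * v ^ 10) * hz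

theorem kyP_U {z : K} (hz : z ^ 4 + z ^ 3 + z ^ 2 + z + 1 = 0) (u v : K) :
    kyP z (-v) u = kyP (z ^ 2) u v := by
  simp only [kyP]
  linear_combination (-(108 / 5) * u ^ 15 - (324 / 5) * z * u ^ 15 + (324 / 5) * z ^ 2 * u ^ 15 - (1512 / 5) * u ^ 10 * v ^ 5 - (3456 / 5) * z * u ^ 10 * v ^ 5 + (3456 / 5) * z ^ 2 * u ^ 10 * v ^ 5 - (3456 / 5) * u ^ 5 * v ^ 10 + (1512 / 5) * z * u ^ 5 * v ^ 10 - (1512 / 5) * z ^ 2 * u ^ 5 * v ^ 10 + (324 / 5) * v ^ 15 - (108 / 5) * z * v ^ 15 + (108 / 5) * z ^ 2 * v ^ 15) * hz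

theorem kL2_mul {z : K} (hz : z ^ 4 + z ^ 3 + z ^ 2 + z + 1 = 0) (u v : K) :
    (3 * kxP z u v - ksP z u v ^ 2) * kL2 z u v = 2 * kyP z u v := by
  simp only [kL2, kxP, ksP, kyP]
  linear_combination (-(19872 / 125) * u ^ 15 - (4104 / 25) * z * u ^ 15 + (5832 / 25) * z ^ 2 * u ^ 15 - (2808 / 5) * z ^ 3 * u ^ 15 + (10368 / 25) * z ^ 4 * u ^ 15 - (13608 / 125) * z ^ 5 * u ^ 15 - (36288 / 125) * u ^ 10 * v ^ 5 - (5616 / 25) * z * u ^ 10 * v ^ 5 - (26352 / 25) * z ^ 2 * u ^ 10 * v ^ 5 - (1944 / 5) * z ^ 3 * u ^ 10 * v ^ 5 + (11232 / 25) * z ^ 4 * u ^ 10 * v ^ 5 - (38232 / 125) * z ^ 5 * u ^ 10 * v ^ 5 - (215784 / 125) * u ^ 5 * v ^ 10 - (47088 / 25) * z * u ^ 5 * v ^ 10 - (2376 / 25) * z ^ 2 * u ^ 5 * v ^ 10 - (2808 / 5) * z ^ 3 * u ^ 5 * v ^ 10 - (7344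 / 25) * z ^ 4 * u ^ 5 * v ^ 10 - (29376 / 125) * z ^ 5 * u ^ 5 * v ^ 10 - (20304 / 125) * v ^ 15 - (12528 / 25) * z * v ^ 15 - (17496 / 25) * z ^ 2 * v ^ 15 - (1944 / 5) * z ^ 3 * v ^ 15 - (5184 / 25) * z ^ 4 * v ^ 15 - (3456 / 125) * z ^ 5 * v ^ 15) * hz

theorem kL2_mul' {z : K} (hz : z ^ 4 + z ^ 3 + z ^ 2 + z + 1 = 0) (u v : K) :
    kL2 z u v * kL2' z u v = 3 * kxP z u v - ksP z u v ^ 2 := by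
  simp only [kL2, kL2', kxP, ksP]
  linear_combination ((972 / 25) * u ^ 10 - (2664 / 25) * z * u ^ 10 + (72 / 25) * z ^ 2 * u ^ 10 + (2592 / 25) * u ^ 5 * v ^ 5 - (4104 / 25) * z * u ^ 5 * v ^ 5 + (2592 / 25) * z ^ 2 * u ^ 5 * v ^ 5 + (1728 / 25) * v ^ 10 + (1764 / 25) * z * v ^ 10 + (828 / 25) * z ^ 2 * v ^ 10) * hz

theorem kA2_mul {z : K} (hz : z ^ 4 + z ^ 3 + z ^ 2 + z + 1 = 0) (u v : K) :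
    (3 * kxP z u v - ksP z u v ^ 2) * (u * v) = (-(36 / 5) - (72 / 5) * z ^ 2 - (72 / 5) * z ^ 3) * kF u v := by
  simp only [kxP, ksP, kF]
  linear_combination (-(1224 / 25) * u ^ 11 * v + (1188 / 25) * z * u ^ 11 * v - (324 / 25) * z ^ 2 * u ^ 11 * v - (864 / 25) * u ^ 6 * v ^ 6 + (1368 / 25) * z * u ^ 6 * v ^ 6 - (864 / 25) * z ^ 2 * u ^ 6 * v ^ 6 - (1476 / 25) * u * v ^ 11 - (288 / 25) * z * u * v ^ 11 - (576 / 25) * z ^ 2 * u * v ^ 11) * hz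

theorem kU5_eq {z : K} (hz : z ^ 4 + z ^ 3 + z ^ 2 + z + 1 = 0) (u v : K) :
    90 * u ^ 5 = ((24 / 5) + (48 / 5) * z + (42 / 5) * z ^ 2 + (6 / 5) * z ^ 3) * ksP z u v - ((21 / 5) + (42 / 5) * z + (18 / 5) * z ^ 2 + (24 / 5) * z ^ 3) * kL2 z u v := by
  simp only [ksP, kL2]
  linear_combination (108 * u ^ 5 - 36 * z * u ^ 5 + 36 * z ^ 2 * u ^ 5) * hz

theorem kV5_eq {z : K} (hz : z ^ 4 + z ^ 3 + z ^ 2 + z + 1 = 0) (u v : K) :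
    90 * v ^ 5 = (-(3 / 5) - (6 / 5) * z - (24 / 5) * z ^ 2 + (18 / 5) * z ^ 3) * kL2 z u v - ((18 / 5) + (36 / 5) * z - (6 / 5) * z ^ 2 + (42 / 5) * z ^ 3) * ksP z u v := by
  simp only [ksP, kL2]
  linear_combination (108 * v ^ 5 - 36 * z * v ^ 5 + 36 * z ^ 2 * v ^ 5) * hz

theorem kC1_mul {z : K} (hz : z ^ 4 + z ^ 3 + z ^ 2 + z + 1 = 0) (u v : K) :
    (kxQ u v - kxP z u v) * kC1 z u v = kF u v ^ 2 := by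
  simp only [kC1, kxQ, kxP, kF]
  linear_combination ((1 / 5) * u ^ 22 * v ^ 2 - (1 / 5) * z * u ^ 22 * v ^ 2 - (1 / 5) * z ^ 2 * u ^ 22 * v ^ 2 - u ^ 20 * v ^ 4 + z * u ^ 20 * v ^ 4 + z ^ 2 * u ^ 20 * v ^ 4 + u ^ 19 * v ^ 5 - z * u ^ 19 * v ^ 5 - z ^ 2 * u ^ 19 * v ^ 5 + 2 * u ^ 18 * v ^ 6 - 2 * z * u ^ 18 * v ^ 6 - 2 * z ^ 2 * u ^ 18 * v ^ 6 - (3 / 5) * u ^ 17 * v ^ 7 + (3 / 5) * z * u ^ 17 * v ^ 7 + (3 / 5) * z ^ 2 * u ^ 17 * v ^ 7 - 9 * u ^ 15 * v ^ 9 + 9 * z * u ^ 15 * v ^ 9 + 9 * z ^ 2 * u ^ 15 * v ^ 9 + 9 * u ^ 14 * v ^ 10 - 9 * z * u ^ 14 * v ^ 10 - 9 * z ^ 2 * u ^ 14 * v ^ 10 + 23 * u ^ 13 * v ^ 11 - 23 * z * u ^ 13 * v ^ 11 - 23 * z ^ 2 * u ^ 13 * v ^ 11 - (156 / 5) * u ^ 12 * v ^ 12 + (156 / 5) * z * u ^ 12 * v ^ 12 + (156 / 5) * z ^ 2 *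 u ^ 12 * v ^ 12 + 23 * u ^ 10 * v ^ 14 - 23 * z * u ^ 10 * v ^ 14 - 23 * z ^ 2 * u ^ 10 * v ^ 14 - 23 * u ^ 9 * v ^ 15 + 23 * z * u ^ 9 * v ^ 15 + 23 * z ^ 2 * u ^ 9 * v ^ 15 + 9 * u ^ 8 * v ^ 16 - 9 * z * u ^ 8 * v ^ 16 - 9 * z ^ 2 * u ^ 8 * v ^ 16 + (3 / 5) * u ^ 7 * v ^ 17 - (3 / 5) * z * u ^ 7 * v ^ 17 - (3 / 5) * z ^ 2 * u ^ 7 * v ^ 17 - 2 * u ^ 5 * v ^ 19 + 2 * z * u ^ 5 * v ^ 19 + 2 * z ^ 2 * u ^ 5 * v ^ 19 + 2 * u ^ 4 * v ^ 20 - 2 * z * u ^ 4 * v ^ 20 - 2 * z ^ 2 * u ^ 4 * v ^ 20 - u ^ 3 * v ^ 21 + z * u ^ 3 * v ^ 21 + z ^ 2 * u ^ 3 * v ^ 21 + (1 / 5) * u ^ 2 * v ^ 22 - (1 / 5) * z * u ^ 2 * v ^ 22 - (1 / 5) * z ^ 2 * u ^ 2 * v ^ 22) * hz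

theorem kC2_mul {z : K} (hz : z ^ 4 + z ^ 3 + z ^ 2 + z + 1 = 0) (u v : K) :
    (kxQ u v - kxP (z ^ 2) u v) * kC2 z u v = kF u v ^ 2 := by
  simp only [kC2, kxQ, kxP, kF]
  linear_combination ((4 / 5) * u ^ 22 * v ^ 2 - (4 / 5) * z * u ^ 22 * v ^ 2 + (3 / 5) * z ^ 2 * u ^ 22 * v ^ 2 + (1 / 5) * z ^ 5 * u ^ 22 * v ^ 2 - 3 * u ^ 20 * v ^ 4 + 3 * z * u ^ 20 * v ^ 4 - 2 * z ^ 2 * u ^ 20 * v ^ 4 - z ^ 5 * u ^ 20 * v ^ 4 + 3 * u ^ 19 * v ^ 5 - 3 * z * u ^ 19 * v ^ 5 + 2 * z ^ 2 * u ^ 19 * v ^ 5 + z ^ 5 * u ^ 19 * v ^ 5 + 5 * u ^ 18 * v ^ 6 - 5 * z * u ^ 18 * v ^ 6 + 3 * z ^ 2 * u ^ 18 * v ^ 6 + 2 * z ^ 5 * u ^ 18 * v ^ 6 + (23 / 5) * u ^ 17 * v ^ 7 - (23 / 5) * z * u ^ 17 * v ^ 7 + (26 / 5) * z ^ 2 * u ^ 17 * v ^ 7 - (3 / 5) * z ^ 5 * u ^ 17 * v ^ 7 - 32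 * u ^ 15 * v ^ 9 + 32 * z * u ^ 15 * v ^ 9 - 23 * z ^ 2 * u ^ 15 * v ^ 9 - 9 * z ^ 5 * u ^ 15 * v ^ 9 + 32 * u ^ 14 * v ^ 10 - 32 * z * u ^ 14 * v ^ 10 + 23 * z ^ 2 * u ^ 14 * v ^ 10 + 9 * z ^ 5 * u ^ 14 * v ^ 10 + 55 * u ^ 13 * v ^ 11 - 55 * z * u ^ 13 * v ^ 11 + 32 * z ^ 2 * u ^ 13 * v ^ 11 + 23 * z ^ 5 * u ^ 13 * v ^ 11 - (234 / 5) * u ^ 12 * v ^ 12 + (234 / 5) * z * u ^ 12 * v ^ 12 - (78 / 5) * z ^ 2 * u ^ 12 * v ^ 12 - (156 / 5) * z ^ 5 * u ^ 12 * v ^ 12 + 14 * u ^ 10 * v ^ 14 - 14 * z * u ^ 10 * v ^ 14 - 9 * z ^ 2 * u ^ 10 * v ^ 14 + 23 * z ^ 5 * u ^ 10 * v ^ 14 - 14 * u ^ 9 * v ^ 15 + 14 * z * u ^ 9 * v ^ 15 + 9 * z ^ 2 * u ^ 9 * v ^ 15 - 23 * z ^ 5 * u ^ 9 * v ^ 15 - 5 * u ^ 8 * v ^ 16 + 5 * z * u ^ 8 * v ^ 16 - 14 * z ^ 2 * u ^ 8 * v ^ 16 +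 9 * z ^ 5 * u ^ 8 * v ^ 16 + (32 / 5) * u ^ 7 * v ^ 17 - (32 / 5) * z * u ^ 7 * v ^ 17 + (29 / 5) * z ^ 2 * u ^ 7 * v ^ 17 + (3 / 5) * z ^ 5 * u ^ 7 * v ^ 17 - u ^ 5 * v ^ 19 + z * u ^ 5 * v ^ 19 + z ^ 2 * u ^ 5 * v ^ 19 - 2 * z ^ 5 * u ^ 5 * v ^ 19 + u ^ 4 * v ^ 20 - z * u ^ 4 * v ^ 20 - z ^ 2 * u ^ 4 * v ^ 20 + 2 * z ^ 5 * u ^ 4 * v ^ 20 + z ^ 2 * u ^ 3 * v ^ 21 - z ^ 5 * u ^ 3 * v ^ 21 - (1 / 5) * u ^ 2 * v ^ 22 + (1 / 5) * z * u ^ 2 * v ^ 22 - (2 / 5) * z ^ 2 * u ^ 2 * v ^ 22 + (1 / 5) * z ^ 5 * u ^ 2 * v ^ 22) * hz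

theorem kC3_mul {z : K} (hz : z ^ 4 + z ^ 3 + z ^ 2 + z + 1 = 0) (u v : K) :
    kyP z u v * kC3 z u v = kF u v ^ 2 := by
  simp only [kC3, kyP, kF]
  linear_combination (-(1 / 5) * u ^ 22 * v ^ 2 + (17 / 5) * z * u ^ 22 * v ^ 2 + (3 / 5) * z ^ 2 * u ^ 22 * v ^ 2 - (77 / 5) * u ^ 17 * v ^ 7 + (209 / 5) * z * u ^ 17 * v ^ 7 + (11 / 5) * z ^ 2 * u ^ 17 * v ^ 7 - (714 / 5) * u ^ 12 * v ^ 12 + (238 / 5) * z * u ^ 12 * v ^ 12 - (238 / 5) * z ^ 2 * u ^ 12 * v ^ 12 + (187 / 5) * u ^ 7 * v ^ 17 + (121 / 5) * z * u ^ 7 * v ^ 17 + (99 / 5) * z ^ 2 * u ^ 7 * v ^ 17 - (11 / 5) * u ^ 2 * v ^ 22 - (13 / 5) * z * u ^ 2 * v ^ 22 - (7 / 5) * z ^ 2 * u ^ 2 * v ^ 22) * hz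

theorem kC4_mul (u v : K) :
    kyQ u v * kC4 u v = kF u v ^ 2 := by
  simp only [kC4, kyQ, kF]
  ring

end Fermat.Agent.P7.helper73
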