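import Mathlib
import Fermat.Agent.P7.helper73_FamDefs

/-!
# P7 / S52, module FAM: transformation laws under Klein's matrix `T` (helper73)

`T = [[a, b], [b, -a]]`, `a = kTa z`, `b = kTb z`, `det T = 1`, `T² = -1`.  The forms `kH, kT, kF`
are invariant, the covariant `w` is equivariant, and `P_z(T v) = -Q(v)`, `Q(T v) = P_z(v)`.
Proofs are staged through the quintics `(T v)_1⁵`, `(T v)_2⁵` to keep `ring` small.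
-/

set_option autoImplicit false
set_option maxHeartbeats 1600000
set_option linter.unusedSectionVars false
set_option linter.unusedVariables false

namespace Fermat.Agent.P7.helper73

open Fermat.Agent.P7.helper80

variable {K : Type*} [Field K] [CharZero K]

/-- `(T v)_1 ^ 5`, reduced -/
def kTu5 (z u v : K) : K :=
  -(4 / 25) * u ^ 5 - (8 / 25) * z * u ^ 5 - (7 / 25) * z ^ 2 * u ^ 5 - (1 / 25) * z ^ 3 * u ^ 5 + (3 / 5) * u ^ 4 * v + (6 / 5) * z * u ^ 4 * v + (4 / 5) * z ^ 2 * u ^ 4 * v + (2 / 5) * z ^ 3 * u ^ 4 * v - (2 / 5) * u ^ 3 * v ^ 2 - (4 / 5) * z * u ^ 3 * v ^ 2 - (6 / 5) * z ^ 2 * u ^ 3 * v ^ 2 + (2 / 5) * z ^ 3 * u ^ 3 * v ^ 2 + (4 / 5) * u ^ 2 * v ^ 3 + (8 / 5) * z * u ^ 2 * v ^ 3 + (2 / 5) * z ^ 2 * u ^ 2 * v ^ 3 + (6 / 5) * z ^ 3 * u ^ 2 * v ^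 3 + (1 / 5) * u * v ^ 4 + (2 / 5) * z * u * v ^ 4 - (2 / 5) * z ^ 2 * u * v ^ 4 + (4 / 5) * z ^ 3 * u * v ^ 4 + (3 / 25) * v ^ 5 + (6 / 25) * z * v ^ 5 - (1 / 25) * z ^ 2 * v ^ 5 + (7 / 25) * z ^ 3 * v ^ 5

/-- `(T v)_2 ^ 5`, reduced -/
def kTv5 (z u v : K) : K :=
  (3 / 25) * u ^ 5 + (6 / 25) * z * u ^ 5 - (1 / 25) * z ^ 2 * u ^ 5 + (7 / 25) * z ^ 3 * u ^ 5 - (1 / 5) * u ^ 4 * v - (2 / 5) * z * u ^ 4 * v + (2 / 5) * z ^ 2 * u ^ 4 * v - (4 / 5) * z ^ 3 * u ^ 4 * v + (4 / 5) * u ^ 3 * v ^ 2 + (8 / 5) * z * u ^ 3 * v ^ 2 + (2 / 5) * z ^ 2 * u ^ 3 * v ^ 2 + (6 / 5) * z ^ 3 * u ^ 3 * v ^ 2 + (2 / 5) * u ^ 2 * v ^ 3 + (4 / 5) * z * u ^ 2 * v ^ 3 + (6 / 5) * z ^ 2 * u ^ 2 * v ^ 3 - (2 / 5) * z ^ 3 * u ^ 2 * v ^ 3 + (3 / 5) * u * v ^ 4 + (6 / 5) * z * u * v ^ 4 + (4 /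 5) * z ^ 2 * u * v ^ 4 + (2 / 5) * z ^ 3 * u * v ^ 4 + (4 / 25) * v ^ 5 + (8 / 25) * z * v ^ 5 + (7 / 25) * z ^ 2 * v ^ 5 + (1 / 25) * z ^ 3 * v ^ 5

/-- `kH` as a form in `X = u⁵`, `Y = v⁵` -/
def kHq (X Y : K) : K :=
  -X ^ 4 + 228 * X ^ 3 * Y - 494 * X ^ 2 * Y ^ 2 - 228 * X * Y ^ 3 - Y ^ 4

/-- `kT` as a form in `X = u⁵`, `Y = v⁵` -/
def kTq (X Y : K) : K :=
  X ^ 6 + 522 * X ^ 5 * Y - 10005 * X ^ 4 * Y ^ 2 - 10005 * X ^ 2 * Y ^ 4 - 522 * X * Y ^ 5 + Y ^ 6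

/-- `kF / (u v)` as a form in `X = u⁵`, `Y = v⁵` -/
def kFq (X Y : K) : K :=
  X ^ 2 + 11 * X * Y - Y ^ 2

/-- `kxP` as a form in `X = u⁵`, `Y = v⁵` -/
def kxPq (z X Y : K) : K :=
  -(93 / 5) * X ^ 2 - (36 / 5) * z ^ 2 * X ^ 2 - (36 / 5) * z ^ 3 * X ^ 2 - (198 / 5) * X * Y - (396 / 5) * z ^ 2 * X * Y - (396 / 5) * z ^ 3 * X * Y - (57 / 5) * Y ^ 2 + (36 / 5) * z ^ 2 * Y ^ 2 + (36 / 5) * z ^ 3 * Y ^ 2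

/-- `kyP` as a form in `X = u⁵`, `Y = v⁵` -/
def kyPq (z X Y : K) : K :=
  -(108 / 5) * X ^ 3 - (216 / 5) * z * X ^ 3 + (108 / 5) * z ^ 2 * X ^ 3 - (324 / 5) * z ^ 3 * X ^ 3 - (972 / 5) * X ^ 2 * Y - (1944 / 5) * z * X ^ 2 * Y + (1512 / 5) * z ^ 2 * X ^ 2 * Y - (3456 / 5) * z ^ 3 * X ^ 2 * Y + (2484 / 5) * X * Y ^ 2 + (4968 / 5) * z * X * Y ^ 2 + (3456 / 5) * z ^ 2 * X * Y ^ 2 + (1512 / 5) * z ^ 3 * X * Y ^ 2 - (216 / 5) * Y ^ 3 - (432 / 5) * z * Y ^ 3 - (324 / 5) * z ^ 2 * Y ^ 3 - (108 / 5) * z ^ 3 * Y ^ 3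

theorem kH_eq_kHq (u v : K) : kH u v = kHq (u ^ 5) (v ^ 5) := by
  simp only [kH, kHq]; ring

theorem kT_eq_kTq (u v : K) : kT u v = kTq (u ^ 5) (v ^ 5) := by
  simp only [kT, kTq]; ring

theorem kF_eq_kFq (u v : K) : kF u v = u * v * kFq (u ^ 5) (v ^ 5) := by
  simp only [kF, kFq]; ring

theorem kxP_eq_kxPq (z u v : K) : kxP z u v = kxPq z (u ^ 5) (v ^ 5) := by
  simp only [kxP, kxPq]; ring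

theorem kyP_eq_kyPq (z u v : K) : kyP z u v = kyPq z (u ^ 5) (v ^ 5) := by
  simp only [kyP, kyPq]; ring

theorem kW1_eq (u v : K) : kW1 u v = -u * ((u ^ 5) ^ 2 + 66 * u ^ 5 * v ^ 5 - 11 * (v ^ 5) ^ 2) := by
  simp only [kW1]; ring

theorem kW2_eq (u v : K) : kW2 u v = v * (11 * (u ^ 5) ^ 2 + 66 * u ^ 5 * v ^ 5 - (v ^ 5) ^ 2) := by
  simp only [kW2]; ring

theorem kTu_pow5 {z : K} (hz : z ^ 4 + z ^ 3 + z ^ 2 + z + 1 = 0) (u v : K) :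
    kTu z u v ^ 5 = kTu5 z u v := by
  simp only [kTu, kTu5, kTa, kTb]
  linear_combination ((499 / 3125) * u ^ 5 + (491 / 3125) * z * u ^ 5 - (34 / 625) * z ^ 2 * u ^ 5 - (178 / 625) * z ^ 3 * u ^ 5 - (84 / 625) * z ^ 4 * u ^ 5 + (117 / 3125) * z ^ 5 * u ^ 5 + (283 / 3125) * z ^ 6 * u ^ 5 + (24 / 625) * z ^ 7 * u ^ 5 - (47 / 625) * z ^ 8 * u ^ 5 + (19 / 625) * z ^ 9 * u ^ 5 - (16 / 3125) * z ^ 10 * u ^ 5 + (1 / 3125) * z ^ 11 * u ^ 5 - (373 / 625) * u ^ 4 * v - (357 / 625) * z * u ^ 4 * v + (67 / 125) * z ^ 2 * u ^ 4 * v + (4 / 5) * z ^ 3 * u ^ 4 * v + (147 / 125) * z ^ 4 * u ^ 4 * v + (211 / 625) * z ^ 5 * u ^ 4 * v - (71 / 625) * z ^ 6 * u ^ 4 * v + (3 / 125) * z ^ 7 * u ^ 4 * v - (2 / 5) * z ^ 8 * u ^ 4 * v + (33 / 125) * z ^ 9 * u ^ 4 * v - (38 / 625) * z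 ^ 10 * u ^ 4 * v + (3 / 625) * z ^ 11 * u ^ 4 * v + (242 / 625) * u ^ 3 * v ^ 2 + (178 / 625) * z * u ^ 3 * v ^ 2 - (14 / 125) * z ^ 2 * u ^ 3 * v ^ 2 - (376 / 125) * z ^ 3 * u ^ 3 * v ^ 2 - (264 / 125) * z ^ 4 * u ^ 3 * v ^ 2 - (1524 / 625) * z ^ 5 * u ^ 3 * v ^ 2 - (746 / 625) * z ^ 6 * u ^ 3 * v ^ 2 + (84 / 125) * z ^ 7 * u ^ 3 * v ^ 2 - (74 / 125) * z ^ 8 * u ^ 3 * v ^ 2 + (94 / 125) * z ^ 9 * u ^ 3 * v ^ 2 - (168 / 625) * z ^ 10 * u ^ 3 * v ^ 2 + (18 / 625) * z ^ 11 * u ^ 3 * v ^ 2 - (484 / 625) * u ^ 2 * v ^ 3 - (356 / 625) * z * u ^ 2 * v ^ 3 + (54 / 25) * z ^ 2 * u ^ 2 * v ^ 3 + (204 / 125) * z ^ 3 * u ^ 2 * v ^ 3 + (26 / 5) * z ^ 4 * u ^ 2 * v ^ 3 + (2208 / 625) * z ^ 5 * u ^ 2 * v ^ 3 + (1402 / 625) * z ^ 6 * u ^ 2 * v ^ 3 + (58 / 25) * z ^ 7 * u ^ 2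 * v ^ 3 - (104 / 125) * z ^ 8 * u ^ 2 * v ^ 3 + (18 / 25) * z ^ 9 * u ^ 2 * v ^ 3 - (324 / 625) * z ^ 10 * u ^ 2 * v ^ 3 + (54 / 625) * z ^ 11 * u ^ 2 * v ^ 3 - (141 / 625) * u * v ^ 4 - (269 / 625) * z * u * v ^ 4 - (12 / 125) * z ^ 2 * u * v ^ 4 - (406 / 125) * z ^ 3 * u * v ^ 4 - (292 / 125) * z ^ 4 * u * v ^ 4 - (2293 / 625) * z ^ 5 * u * v ^ 4 - (2037 / 625) * z ^ 6 * u * v ^ 4 - (148 / 125) * z ^ 7 * u * v ^ 4 - (219 / 125) * z ^ 8 * u * v ^ 4 + (27 / 125) * z ^ 9 * u * v ^ 4 - (216 / 625) * z ^ 10 * u * v ^ 4 + (81 / 625) * z ^ 11 * u * v ^ 4 - (343 / 3125) * v ^ 5 - (87 / 3125) * z * v ^ 5 + (383 / 625) * z ^ 2 * v ^ 5 + (216 / 625) * z ^ 3 * v ^ 5 + (783 / 625) * z ^ 4 * v ^ 5 + (3481 / 3125) * z ^ 5 * v ^ 5 + (3169 / 3125) * z ^ 6 * v ^ 5 + (687 / 625)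 * z ^ 7 * v ^ 5 + (234 / 625) * z ^ 8 * v ^ 5 + (297 / 625) * z ^ 9 * v ^ 5 + (162 / 3125) * z ^ 10 * v ^ 5 + (243 / 3125) * z ^ 11 * v ^ 5) * hz

theorem kTv_pow5 {z : K} (hz : z ^ 4 + z ^ 3 + z ^ 2 + z + 1 = 0) (u v : K) :
    kTv z u v ^ 5 = kTv5 z u v := by
  simp only [kTv, kTv5, kTa, kTb]
  linear_combination (-(343 / 3125) * u ^ 5 - (87 / 3125) * z * u ^ 5 + (383 / 625) * z ^ 2 * u ^ 5 + (216 / 625) * z ^ 3 * u ^ 5 + (783 / 625) * z ^ 4 * u ^ 5 + (3481 / 3125) * z ^ 5 * u ^ 5 + (3169 / 3125) * z ^ 6 * u ^ 5 + (687 / 625) * z ^ 7 * u ^ 5 + (234 / 625) * z ^ 8 * u ^ 5 + (297 / 625) * z ^ 9 * u ^ 5 + (162 / 3125) * z ^ 10 * u ^ 5 + (243 / 3125) * z ^ 11 * u ^ 5 + (141 / 625) * u ^ 4 * v + (269 / 625) * z * u ^ 4 * v + (12 / 125) * z ^ 2 * u ^ 4 * v + (406 /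 125) * z ^ 3 * u ^ 4 * v + (292 / 125) * z ^ 4 * u ^ 4 * v + (2293 / 625) * z ^ 5 * u ^ 4 * v + (2037 / 625) * z ^ 6 * u ^ 4 * v + (148 / 125) * z ^ 7 * u ^ 4 * v + (219 / 125) * z ^ 8 * u ^ 4 * v - (27 / 125) * z ^ 9 * u ^ 4 * v + (216 / 625) * z ^ 10 * u ^ 4 * v - (81 / 625) * z ^ 11 * u ^ 4 * v - (484 / 625) * u ^ 3 * v ^ 2 - (356 / 625) * z * u ^ 3 * v ^ 2 + (54 / 25) * z ^ 2 * u ^ 3 * v ^ 2 + (204 / 125) * z ^ 3 * u ^ 3 * v ^ 2 + (26 / 5) * z ^ 4 * u ^ 3 * v ^ 2 + (2208 / 625) * z ^ 5 * u ^ 3 * v ^ 2 + (1402 / 625) * z ^ 6 * u ^ 3 * v ^ 2 + (58 / 25) * z ^ 7 * u ^ 3 * v ^ 2 - (104 / 125) * z ^ 8 * u ^ 3 * v ^ 2 + (18 / 25) * z ^ 9 * u ^ 3 * v ^ 2 - (324 / 625) * z ^ 10 * u ^ 3 * v ^ 2 + (54 / 625) * z ^ 11 * u ^ 3 * v ^ 2 - (242 / 625) * u ^ 2 * v ^ 3 - (178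 / 625) * z * u ^ 2 * v ^ 3 + (14 / 125) * z ^ 2 * u ^ 2 * v ^ 3 + (376 / 125) * z ^ 3 * u ^ 2 * v ^ 3 + (264 / 125) * z ^ 4 * u ^ 2 * v ^ 3 + (1524 / 625) * z ^ 5 * u ^ 2 * v ^ 3 + (746 / 625) * z ^ 6 * u ^ 2 * v ^ 3 - (84 / 125) * z ^ 7 * u ^ 2 * v ^ 3 + (74 / 125) * z ^ 8 * u ^ 2 * v ^ 3 - (94 / 125) * z ^ 9 * u ^ 2 * v ^ 3 + (168 / 625) * z ^ 10 * u ^ 2 * v ^ 3 - (18 / 625) * z ^ 11 * u ^ 2 * v ^ 3 - (373 / 625) * u * v ^ 4 - (357 / 625) * z * u * v ^ 4 + (67 / 125) * z ^ 2 * u * v ^ 4 + (4 / 5) * z ^ 3 * u * v ^ 4 + (147 / 125) * z ^ 4 * u * v ^ 4 + (211 / 625) * z ^ 5 * u * v ^ 4 - (71 / 625) * z ^ 6 * u * v ^ 4 + (3 / 125) * z ^ 7 * u * v ^ 4 - (2 / 5) * z ^ 8 * u * v ^ 4 + (33 / 125) * z ^ 9 * u * v ^ 4 - (38 / 625) * z ^ 10 * u * v ^ 4 + (3 / 625) * z ^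 11 * u * v ^ 4 - (499 / 3125) * v ^ 5 - (491 / 3125) * z * v ^ 5 + (34 / 625) * z ^ 2 * v ^ 5 + (178 / 625) * z ^ 3 * v ^ 5 + (84 / 625) * z ^ 4 * v ^ 5 - (117 / 3125) * z ^ 5 * v ^ 5 - (283 / 3125) * z ^ 6 * v ^ 5 - (24 / 625) * z ^ 7 * v ^ 5 + (47 / 625) * z ^ 8 * v ^ 5 - (19 / 625) * z ^ 9 * v ^ 5 + (16 / 3125) * z ^ 10 * v ^ 5 - (1 / 3125) * z ^ 11 * v ^ 5) * hz

theorem kTa_sq_add {z : K} (hz : z ^ 4 + z ^ 3 + z ^ 2 + z + 1 = 0) (u v : K) :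
    kTa z ^ 2 + kTb z ^ 2 = -1 := by
  simp only [kTa, kTb]
  linear_combination ((6 / 5) - (2 / 5) * z + (2 / 5) * z ^ 2) * hz

/-- `(T v)_1 ^ 10`, reduced -/
def kTu10 (z u v : K) : K :=
  -(7 / 125) * u ^ 10 + (11 / 125) * z ^ 2 * u ^ 10 + (11 / 125) * z ^ 3 * u ^ 10 + (8 / 25) * u ^ 9 * v - (14 / 25) * z ^ 2 * u ^ 9 * v - (14 / 25) * z ^ 3 * u ^ 9 * v - (27 / 25) * u ^ 8 * v ^ 2 + (36 / 25) * z ^ 2 * u ^ 8 * v ^ 2 + (36 / 25) * z ^ 3 * u ^ 8 * v ^ 2 + (24 / 25) * u ^ 7 * v ^ 3 - (72 / 25) * z ^ 2 * u ^ 7 * v ^ 3 - (72 / 25) * z ^ 3 * u ^ 7 * v ^ 3 - (84 / 25) * u ^ 6 * v ^ 4 + (42 / 25) * z ^ 2 * u ^ 6 * v ^ 4 + (42 / 25) * z ^ 3 * u ^ 6 * v ^ 4 - (252 / 125) * u ^ 5 * v ^ 5 - (504 / 125) * z ^ 2 * u ^ 5 * v ^ 5 - (504 / 125) * z ^ 3 * u ^ 5 * v ^ 5 - (126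 / 25) * u ^ 4 * v ^ 6 - (42 / 25) * z ^ 2 * u ^ 4 * v ^ 6 - (42 / 25) * z ^ 3 * u ^ 4 * v ^ 6 - (96 / 25) * u ^ 3 * v ^ 7 - (72 / 25) * z ^ 2 * u ^ 3 * v ^ 7 - (72 / 25) * z ^ 3 * u ^ 3 * v ^ 7 - (63 / 25) * u ^ 2 * v ^ 8 - (36 / 25) * z ^ 2 * u ^ 2 * v ^ 8 - (36 / 25) * z ^ 3 * u ^ 2 * v ^ 8 - (22 / 25) * u * v ^ 9 - (14 / 25) * z ^ 2 * u * v ^ 9 - (14 / 25) * z ^ 3 * u * v ^ 9 - (18 / 125) * v ^ 10 - (11 / 125) * z ^ 2 * v ^ 10 - (11 / 125) * z ^ 3 * v ^ 10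

/-- `(T v)_1 ^ 5 (T v)_2 ^ 5`, reduced -/
def kTuv (z u v : K) : K :=
  -(1 / 125) * u ^ 10 - (2 / 125) * z ^ 2 * u ^ 10 - (2 / 125) * z ^ 3 * u ^ 10 - (1 / 25) * u ^ 9 * v - (2 / 25) * z ^ 2 * u ^ 9 * v - (2 / 25) * z ^ 3 * u ^ 9 * v - (1 / 25) * u ^ 8 * v ^ 2 - (2 / 25) * z ^ 2 * u ^ 8 * v ^ 2 - (2 / 25) * z ^ 3 * u ^ 8 * v ^ 2 + (2 / 25) * u ^ 7 * v ^ 3 + (4 / 25) * z ^ 2 * u ^ 7 * v ^ 3 + (4 / 25) * z ^ 3 * u ^ 7 * v ^ 3 + (3 / 25) * u ^ 6 * v ^ 4 + (6 / 25) * z ^ 2 * u ^ 6 * v ^ 4 + (6 / 25) * z ^ 3 * u ^ 6 * v ^ 4 - (11 / 125) * u ^ 5 * v ^ 5 - (22 / 125) * z ^ 2 * u ^ 5 * v ^ 5 - (22 / 125) * z ^ 3 * u ^ 5 * v ^ 5 - (3 / 25) * u ^ 4 * v ^ 6 - (6 / 25) * z ^ 2 * u ^ 4 * v ^ 6 - (6 / 25) * z ^ 3 * u ^ 4 * v ^ 6 + (2 / 25) * u ^ 3 * v ^ 7 + (4 / 25) * z ^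 2 * u ^ 3 * v ^ 7 + (4 / 25) * z ^ 3 * u ^ 3 * v ^ 7 + (1 / 25) * u ^ 2 * v ^ 8 + (2 / 25) * z ^ 2 * u ^ 2 * v ^ 8 + (2 / 25) * z ^ 3 * u ^ 2 * v ^ 8 - (1 / 25) * u * v ^ 9 - (2 / 25) * z ^ 2 * u * v ^ 9 - (2 / 25) * z ^ 3 * u * v ^ 9 + (1 / 125) * v ^ 10 + (2 / 125) * z ^ 2 * v ^ 10 + (2 / 125) * z ^ 3 * v ^ 10

/-- `(T v)_2 ^ 10`, reduced -/
def kTv10 (z u v : K) : K :=
  -(18 / 125) * u ^ 10 - (11 / 125) * z ^ 2 * u ^ 10 - (11 / 125) * z ^ 3 * u ^ 10 + (22 / 25) * u ^ 9 * v + (14 / 25) * z ^ 2 * u ^ 9 * v + (14 / 25) * z ^ 3 * u ^ 9 * v - (63 / 25) * u ^ 8 * v ^ 2 - (36 / 25) * z ^ 2 * u ^ 8 * v ^ 2 - (36 / 25) * z ^ 3 * u ^ 8 * v ^ 2 + (96 / 25) * u ^ 7 * v ^ 3 + (72 / 25) * z ^ 2 * u ^ 7 * v ^ 3 + (72 / 25) * z ^ 3 * u ^ 7 * v ^ 3 - (126 / 25) * u ^ 6 * v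 ^ 4 - (42 / 25) * z ^ 2 * u ^ 6 * v ^ 4 - (42 / 25) * z ^ 3 * u ^ 6 * v ^ 4 + (252 / 125) * u ^ 5 * v ^ 5 + (504 / 125) * z ^ 2 * u ^ 5 * v ^ 5 + (504 / 125) * z ^ 3 * u ^ 5 * v ^ 5 - (84 / 25) * u ^ 4 * v ^ 6 + (42 / 25) * z ^ 2 * u ^ 4 * v ^ 6 + (42 / 25) * z ^ 3 * u ^ 4 * v ^ 6 - (24 / 25) * u ^ 3 * v ^ 7 + (72 / 25) * z ^ 2 * u ^ 3 * v ^ 7 + (72 / 25) * z ^ 3 * u ^ 3 * v ^ 7 - (27 / 25) * u ^ 2 * v ^ 8 + (36 / 25) * z ^ 2 * u ^ 2 * v ^ 8 + (36 / 25) * z ^ 3 * u ^ 2 * v ^ 8 - (8 / 25) * u * v ^ 9 + (14 / 25) * z ^ 2 * u * v ^ 9 + (14 / 25) * z ^ 3 * u * v ^ 9 - (7 / 125) * v ^ 10 + (11 / 125) * z ^ 2 * v ^ 10 + (11 / 125) * z ^ 3 * v ^ 10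

theorem kTu5_sq {z : K} (hz : z ^ 4 + z ^ 3 + z ^ 2 + z + 1 = 0) (u v : K) :
    kTu5 z u v ^ 2 = kTu10 z u v := by
  simp only [kTu5, kTu10]
  linear_combination ((51 / 625) * u ^ 10 + (13 / 625) * z * u ^ 10 + (1 / 625) * z ^ 2 * u ^ 10 - (64 / 125) * u ^ 9 * v - (32 / 125) * z * u ^ 9 * v - (4 / 125) * z ^ 2 * u ^ 9 * v + (196 / 125) * u ^ 8 * v ^ 2 + (48 / 125) * z * u ^ 8 * v ^ 2 + (16 / 125) * z ^ 2 * u ^ 8 * v ^ 2 - (212 / 125) * u ^ 7 * v ^ 3 - (156 / 125) * z * u ^ 7 * v ^ 3 + (28 / 125) * z ^ 2 * u ^ 7 * v ^ 3 + (552 / 125) * u ^ 6 * v ^ 4 - (24 / 125) * z * u ^ 6 * v ^ 4 + (132 / 125) * z ^ 2 * u ^ 6 * v ^ 4 + (986 / 625) * u ^ 5 * v ^ 5 - (2082 / 625) * z * u ^ 5 * v ^ 5 + (986 / 625) * z ^ 2 * u ^ 5 * v ^ 5 + (708 / 125) * u ^ 4 * v ^ 6 - (396 / 125)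 * z * u ^ 4 * v ^ 6 + (288 / 125) * z ^ 2 * u ^ 4 * v ^ 6 + (508 / 125) * u ^ 3 * v ^ 7 - (396 / 125) * z * u ^ 3 * v ^ 7 + (268 / 125) * z ^ 2 * u ^ 3 * v ^ 7 + (344 / 125) * u ^ 2 * v ^ 8 - (228 / 125) * z * u ^ 2 * v ^ 8 + (164 / 125) * z ^ 2 * u ^ 2 * v ^ 8 + (116 / 125) * u * v ^ 9 - (92 / 125) * z * u * v ^ 9 + (56 / 125) * z ^ 2 * u * v ^ 9 + (99 / 625) * v ^ 10 - (63 / 625) * z * v ^ 10 + (49 / 625) * z ^ 2 * v ^ 10) * hz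

theorem kTu5_mul {z : K} (hz : z ^ 4 + z ^ 3 + z ^ 2 + z + 1 = 0) (u v : K) :
    kTu5 z u v * kTv5 z u v = kTuv z u v := by
  simp only [kTu5, kTv5, kTuv]
  linear_combination (-(7 / 625) * u ^ 10 - (41 / 625) * z * u ^ 10 - (7 / 625) * z ^ 2 * u ^ 10 + (18 / 125) * u ^ 9 * v + (34 / 125) * z * u ^ 9 * v + (18 / 125) * z ^ 2 * u ^ 9 * v - (32 / 125) * u ^ 8 * v ^ 2 - (116 / 125) * z * u ^ 8 * v ^ 2 - (32 / 125) * z ^ 2 * u ^ 8 * v ^ 2 + (64 / 125) * u ^ 7 * v ^ 3 + (232 / 125) * z * u ^ 7 * v ^ 3 + (64 / 125) * z ^ 2 * u ^ 7 * v ^ 3 - (54 / 125) * u ^ 6 * v ^ 4 - (102 / 125) * z * u ^ 6 * v ^ 4 - (54 / 125) * z ^ 2 * u ^ 6 * v ^ 4 + (548 / 625) * u ^ 5 * v ^ 5 + (1424 / 625) * z * u ^ 5 * v ^ 5 + (548 / 625) * z ^ 2 * u ^ 5 * v ^ 5 + (54 / 125) * u ^ 4 * v ^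 6 + (102 / 125) * z * u ^ 4 * v ^ 6 + (54 / 125) * z ^ 2 * u ^ 4 * v ^ 6 + (64 / 125) * u ^ 3 * v ^ 7 + (232 / 125) * z * u ^ 3 * v ^ 7 + (64 / 125) * z ^ 2 * u ^ 3 * v ^ 7 + (32 / 125) * u ^ 2 * v ^ 8 + (116 / 125) * z * u ^ 2 * v ^ 8 + (32 / 125) * z ^ 2 * u ^ 2 * v ^ 8 + (18 / 125) * u * v ^ 9 + (34 / 125) * z * u * v ^ 9 + (18 / 125) * z ^ 2 * u * v ^ 9 + (7 / 625) * v ^ 10 + (41 / 625) * z * v ^ 10 + (7 / 625) * z ^ 2 * v ^ 10) * hz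

theorem kTv5_sq {z : K} (hz : z ^ 4 + z ^ 3 + z ^ 2 + z + 1 = 0) (u v : K) :
    kTv5 z u v ^ 2 = kTv10 z u v := by
  simp only [kTv5, kTv10]
  linear_combination ((99 / 625) * u ^ 10 - (63 / 625) * z * u ^ 10 + (49 / 625) * z ^ 2 * u ^ 10 - (116 / 125) * u ^ 9 * v + (92 / 125) * z * u ^ 9 * v - (56 / 125) * z ^ 2 * u ^ 9 * v + (344 / 125) * u ^ 8 * v ^ 2 - (228 / 125) * z * u ^ 8 * v ^ 2 + (164 / 125) * z ^ 2 * u ^ 8 * v ^ 2 - (508 / 125) * u ^ 7 * v ^ 3 + (396 / 125) * z * u ^ 7 * v ^ 3 - (268 / 125) * z ^ 2 * u ^ 7 * v ^ 3 + (708 / 125) * u ^ 6 * v ^ 4 - (396 / 125) * z * u ^ 6 * v ^ 4 + (288 / 125) * z ^ 2 * u ^ 6 * v ^ 4 - (986 / 625) * u ^ 5 * v ^ 5 + (2082 / 625) * z * u ^ 5 * v ^ 5 - (986 / 625) * z ^ 2 * u ^ 5 * v ^ 5 + (552 / 125) * u ^ 4 * v ^ 6 - (24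 / 125) * z * u ^ 4 * v ^ 6 + (132 / 125) * z ^ 2 * u ^ 4 * v ^ 6 + (212 / 125) * u ^ 3 * v ^ 7 + (156 / 125) * z * u ^ 3 * v ^ 7 - (28 / 125) * z ^ 2 * u ^ 3 * v ^ 7 + (196 / 125) * u ^ 2 * v ^ 8 + (48 / 125) * z * u ^ 2 * v ^ 8 + (16 / 125) * z ^ 2 * u ^ 2 * v ^ 8 + (64 / 125) * u * v ^ 9 + (32 / 125) * z * u * v ^ 9 + (4 / 125) * z ^ 2 * u * v ^ 9 + (51 / 625) * v ^ 10 + (13 / 625) * z * v ^ 10 + (1 / 625) * z ^ 2 * v ^ 10) * hz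

theorem kH_T {z : K} (hz : z ^ 4 + z ^ 3 + z ^ 2 + z + 1 = 0) (u v : K) :
    kH (kTu z u v) (kTv z u v) = kH u v := by
  have hA := kTu_pow5 hz u v
  have hB := kTv_pow5 hz u v
  have h1 := kTu5_sq hz u v
  have h2 := kTu5_mul hz u v
  have h3 := kTv5_sq hz u v
  have e : kH (kTu z u v) (kTv z u v) = -(kTu10 z u v ^ 2 + kTv10 z u v ^ 2) + 228 * (kTu10 z u v * kTuv z u v - kTuv z u v * kTv10 z u v) - 494 * kTuv z u v ^ 2 := by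
    rw [kH_eq_kHq, hA, hB, ← h1, ← h2, ← h3]
    simp only [kHq]
    ring
  rw [e]
  simp only [kTu10, kTuv, kTv10, kH]
  linear_combination ((98 / 125) * u ^ 20 - (98 / 125) * z * u ^ 20 - (98 / 125) * z ^ 2 * u ^ 20 + (24 / 125) * u ^ 19 * v - (24 / 125) * z * u ^ 19 * v - (24 / 125) * z ^ 2 * u ^ 19 * v - (144 / 125) * u ^ 18 * v ^ 2 + (144 / 125) * z * u ^ 18 * v ^ 2 + (144 / 125) * z ^ 2 * u ^ 18 * v ^ 2 + (528 / 125) * u ^ 17 * v ^ 3 - (528 / 125) * z * u ^ 17 * v ^ 3 - (528 / 125) * z ^ 2 * u ^ 17 * v ^ 3 - (1392 / 125) * u ^ 16 * v ^ 4 + (1392 / 125) * z * u ^ 16 * v ^ 4 + (1392 / 125) * z ^ 2 * u ^ 16 * v ^ 4 - (20064 / 125) * u ^ 15 * v ^ 5 + (20064 / 125) * z * u ^ 15 * v ^ 5 + (20064 / 125) * z ^ 2 * u ^ 15 * v ^ 5 - (4344 / 125) * u ^ 14 * v ^ 6 +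 (4344 / 125) * z * u ^ 14 * v ^ 6 + (4344 / 125) * z ^ 2 * u ^ 14 * v ^ 6 + (4944 / 125) * u ^ 13 * v ^ 7 - (4944 / 125) * z * u ^ 13 * v ^ 7 - (4944 / 125) * z ^ 2 * u ^ 13 * v ^ 7 - (6048 / 125) * u ^ 12 * v ^ 8 + (6048 / 125) * z * u ^ 12 * v ^ 8 + (6048 / 125) * z ^ 2 * u ^ 12 * v ^ 8 + (2712 / 125) * u ^ 11 * v ^ 9 - (2712 / 125) * z * u ^ 11 * v ^ 9 - (2712 / 125) * z ^ 2 * u ^ 11 * v ^ 9 + (43492 / 125) * u ^ 10 * v ^ 10 - (43492 / 125) * z * u ^ 10 * v ^ 10 - (43492 / 125) * z ^ 2 * u ^ 10 * v ^ 10 - (2712 / 125) * u ^ 9 * v ^ 11 + (2712 / 125) * z * u ^ 9 * v ^ 11 + (2712 / 125) * z ^ 2 * u ^ 9 * v ^ 11 - (6048 / 125) * u ^ 8 * v ^ 12 + (6048 / 125) * z * u ^ 8 * v ^ 12 + (6048 / 125) * z ^ 2 * u ^ 8 * v ^ 12 - (4944 / 125) * u ^ 7 * v ^ 13 + (4944 / 125)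 * z * u ^ 7 * v ^ 13 + (4944 / 125) * z ^ 2 * u ^ 7 * v ^ 13 - (4344 / 125) * u ^ 6 * v ^ 14 + (4344 / 125) * z * u ^ 6 * v ^ 14 + (4344 / 125) * z ^ 2 * u ^ 6 * v ^ 14 + (20064 / 125) * u ^ 5 * v ^ 15 - (20064 / 125) * z * u ^ 5 * v ^ 15 - (20064 / 125) * z ^ 2 * u ^ 5 * v ^ 15 - (1392 / 125) * u ^ 4 * v ^ 16 + (1392 / 125) * z * u ^ 4 * v ^ 16 + (1392 / 125) * z ^ 2 * u ^ 4 * v ^ 16 - (528 / 125) * u ^ 3 * v ^ 17 + (528 / 125) * z * u ^ 3 * v ^ 17 + (528 / 125) * z ^ 2 * u ^ 3 * v ^ 17 - (144 / 125) * u ^ 2 * v ^ 18 + (144 / 125) * z * u ^ 2 * v ^ 18 + (144 / 125) * z ^ 2 * u ^ 2 * v ^ 18 - (24 / 125) * u * v ^ 19 + (24 / 125) * z * u * v ^ 19 + (24 / 125) * z ^ 2 * u * v ^ 19 + (98 / 125) * v ^ 20 - (98 / 125) * z * v ^ 20 - (98 / 125) * z ^ 2 * v ^ 20) * hz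

theorem kxP_T {z : K} (hz : z ^ 4 + z ^ 3 + z ^ 2 + z + 1 = 0) (u v : K) :
    kxP z (kTu z u v) (kTv z u v) = kxQ u v := by
  have hA := kTu_pow5 hz u v
  have hB := kTv_pow5 hz u v
  have h1 := kTu5_sq hz u v
  have h2 := kTu5_mul hz u v
  have h3 := kTv5_sq hz u v
  have e : kxP z (kTu z u v) (kTv z u v) = (-(57 / 5) + (36 / 5) * z ^ 2 + (36 / 5) * z ^ 3) * kTv10 z u v + (-(198 / 5) - (396 / 5) * z ^ 2 - (396 / 5) * z ^ 3) * kTuv z u v + (-(93 / 5) - (36 / 5) * z ^ 2 - (36 / 5) * z ^ 3) * kTu10 z u v := by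
    rw [kxP_eq_kxPq, hA, hB, ← h1, ← h2, ← h3]
    simp only [kxPq]
    ring
  rw [e]
  simp only [kTu10, kTuv, kTv10, kxQ]
  linear_combination (-(72 / 5) * u ^ 9 * v + (72 / 5) * z * u ^ 9 * v + (72 / 5) * z ^ 2 * u ^ 9 * v + (72 / 5) * u ^ 8 * v ^ 2 - (72 / 5) * z * u ^ 8 * v ^ 2 - (72 / 5) * z ^ 2 * u ^ 8 * v ^ 2 - (144 / 5) * u ^ 7 * v ^ 3 + (144 / 5) * z * u ^ 7 * v ^ 3 + (144 / 5) * z ^ 2 * u ^ 7 * v ^ 3 + (216 / 5) * u ^ 6 * v ^ 4 - (216 / 5) * z * u ^ 6 * v ^ 4 - (216 / 5) * z ^ 2 * u ^ 6 * v ^ 4 - 72 * u ^ 5 * v ^ 5 + 72 * z * u ^ 5 * v ^ 5 + 72 * z ^ 2 * u ^ 5 * v ^ 5 - (216 / 5) * u ^ 4 * v ^ 6 + (216 / 5) * z * u ^ 4 * v ^ 6 + (216 / 5) * z ^ 2 * u ^ 4 * v ^ 6 - (144 / 5) * u ^ 3 * v ^ 7 + (144 / 5) * z * u ^ 3 * v ^ 7 + (144 / 5) * z ^ 2 * u ^ 3 *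 v ^ 7 - (72 / 5) * u ^ 2 * v ^ 8 + (72 / 5) * z * u ^ 2 * v ^ 8 + (72 / 5) * z ^ 2 * u ^ 2 * v ^ 8 - (72 / 5) * u * v ^ 9 + (72 / 5) * z * u * v ^ 9 + (72 / 5) * z ^ 2 * u * v ^ 9) * hz

theorem kyP_T {z : K} (hz : z ^ 4 + z ^ 3 + z ^ 2 + z + 1 = 0) (u v : K) :
    kyP z (kTu z u v) (kTv z u v) = -kyQ u v := by
  have hA := kTu_pow5 hz u v
  have hB := kTv_pow5 hz u v
  have h1 := kTu5_sq hz u v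
  have h2 := kTu5_mul hz u v
  have h3 := kTv5_sq hz u v
  have e : kyP z (kTu z u v) (kTv z u v) = (-(216 / 5) - (432 / 5) * z - (324 / 5) * z ^ 2 - (108 / 5) * z ^ 3) * (kTv5 z u v * kTv10 z u v) + ((2484 / 5) + (4968 / 5) * z + (3456 / 5) * z ^ 2 + (1512 / 5) * z ^ 3) * (kTu5 z u v * kTv10 z u v) + (-(972 / 5) - (1944 / 5) * z + (1512 / 5) * z ^ 2 - (3456 / 5) * z ^ 3) * (kTu10 z u v * kTv5 z u v) + (-(108 / 5) - (216 / 5) * z + (108 / 5) * z ^ 2 - (324 / 5) * z ^ 3) * (kTu5 z u v * kTu10 z u v) := by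
    rw [kyP_eq_kyPq, hA, hB, ← h1, ← h3]
    simp only [kyPq]
    ring
  rw [e]
  simp only [kTu5, kTv5, kTu10, kTv10, kyQ]
  linear_combination ((8316 / 625) * u ^ 15 + (24948 / 625) * z * u ^ 15 + (24948 / 625) * z ^ 2 * u ^ 15 + (14256 / 625) * z ^ 3 * u ^ 15 + (14256 / 625) * z ^ 4 * u ^ 15 - (9504 / 625) * z ^ 5 * u ^ 15 - (79056 / 625) * u ^ 14 * v - (237168 / 625) * z * u ^ 14 * v - (237168 / 625) * z ^ 2 * u ^ 14 * v - (152496 / 625) * z ^ 3 * u ^ 14 * v - (152496 / 625) * z ^ 4 * u ^ 14 * v + (81864 / 625) * z ^ 5 * u ^ 14 * v + (414288 / 625) * u ^ 13 * v ^ 2 + (972864 / 625) * z * u ^ 13 * v ^ 2 + (1026864 / 625) * z ^ 2 * u ^ 13 * v ^ 2 + (645408 / 625) * z ^ 3 * u ^ 13 * v ^ 2 + (645408 / 625) * z ^ 4 * u ^ 13 * v ^ 2 - (343872 / 625) * z ^ 5 * u ^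 13 * v ^ 2 - (836784 / 625) * u ^ 12 * v ^ 3 - (2780352 / 625) * z * u ^ 12 * v ^ 3 - (2726352 / 625) * z ^ 2 * u ^ 12 * v ^ 3 - (1702944 / 625) * z ^ 3 * u ^ 12 * v ^ 3 - (1702944 / 625) * z ^ 4 * u ^ 12 * v ^ 3 + (984096 / 625) * z ^ 5 * u ^ 12 * v ^ 3 + (1984392 / 625) * u ^ 11 * v ^ 4 + (4873176 / 625) * z * u ^ 11 * v ^ 4 + (5089176 / 625) * z ^ 2 * u ^ 11 * v ^ 4 + (3227472 / 625) * z ^ 3 * u ^ 11 * v ^ 4 + (3227472 / 625) * z ^ 4 * u ^ 11 * v ^ 4 - (1707048 / 625) * z ^ 5 * u ^ 11 * v ^ 4 - (2272212 / 625) * u ^ 10 * v ^ 5 - (6816636 / 625) * z * u ^ 10 * v ^ 5 - (6816636 / 625) * z ^ 2 * u ^ 10 * v ^ 5 - (3912192 / 625) * z ^ 3 * u ^ 10 * v ^ 5 - (3912192 / 625) * z ^ 4 * u ^ 10 * v ^ 5 + (2588328 / 625) * z ^ 5 * u ^ 10 * v ^ 5 + (2818584 / 625) * u ^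 9 * v ^ 6 + (7105752 / 625) * z * u ^ 9 * v ^ 6 + (7375752 / 625) * z ^ 2 * u ^ 9 * v ^ 6 + (5763744 / 625) * z ^ 3 * u ^ 9 * v ^ 6 + (5763744 / 625) * z ^ 4 * u ^ 9 * v ^ 6 - (1945296 / 625) * z ^ 5 * u ^ 9 * v ^ 6 - (1285632 / 625) * u ^ 8 * v ^ 7 - (5476896 / 625) * z * u ^ 8 * v ^ 7 - (5152896 / 625) * z ^ 2 * u ^ 8 * v ^ 7 - (1065312 / 625) * z ^ 3 * u ^ 8 * v ^ 7 - (1065312 / 625) * z ^ 4 * u ^ 8 * v ^ 7 + (3010608 / 625) * z ^ 5 * u ^ 8 * v ^ 7 + (2939976 / 625) * u ^ 7 * v ^ 8 + (3149928 / 625) * z * u ^ 7 * v ^ 8 + (4283928 / 625) * z ^ 2 * u ^ 7 * v ^ 8 + (6021216 / 625) * z ^ 3 * u ^ 7 * v ^ 8 + (6021216 / 625) * z ^ 4 * u ^ 7 * v ^ 8 + (532656 / 625) * z ^ 5 * u ^ 7 * v ^ 8 + (1880712 / 625) * u ^ 6 * v ^ 9 - (2187864 / 625) * z * u ^ 6 * v ^ 9 - (621864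 / 625) * z ^ 2 * u ^ 6 * v ^ 9 + (3890592 / 625) * z ^ 3 * u ^ 6 * v ^ 9 + (3890592 / 625) * z ^ 4 * u ^ 6 * v ^ 9 + (2881872 / 625) * z ^ 5 * u ^ 6 * v ^ 9 + (2341116 / 625) * u ^ 5 * v ^ 10 + (273348 / 625) * z * u ^ 5 * v ^ 10 + (1623348 / 625) * z ^ 2 * u ^ 5 * v ^ 10 + (5176656 / 625) * z ^ 3 * u ^ 5 * v ^ 10 + (5176656 / 625) * z ^ 4 * u ^ 5 * v ^ 10 + (1956096 / 625) * z ^ 5 * u ^ 5 * v ^ 10 + (1261656 / 625) * u ^ 4 * v ^ 11 - (265032 / 625) * z * u ^ 4 * v ^ 11 + (544968 / 625) * z ^ 2 * u ^ 4 * v ^ 11 + (3414096 / 625) * z ^ 3 * u ^ 4 * v ^ 11 + (3414096 / 625) * z ^ 4 * u ^ 4 * v ^ 11 + (1613736 / 625) * z ^ 5 * u ^ 4 * v ^ 11 + (795312 / 625) * u ^ 3 * v ^ 12 - (44064 / 625) * z * u ^ 3 * v ^ 12 + (441936 / 625) * z ^ 2 * u ^ 3 * v ^ 12 + (1968192 /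 625) * z ^ 3 * u ^ 3 * v ^ 12 + (1968192 / 625) * z ^ 4 * u ^ 3 * v ^ 12 + (851472 / 625) * z ^ 5 * u ^ 3 * v ^ 12 + (334584 / 625) * u ^ 2 * v ^ 13 - (76248 / 625) * z * u ^ 2 * v ^ 13 + (139752 / 625) * z ^ 2 * u ^ 2 * v ^ 13 + (687744 / 625) * z ^ 3 * u ^ 2 * v ^ 13 + (687744 / 625) * z ^ 4 * u ^ 2 * v ^ 13 + (322704 / 625) * z ^ 5 * u ^ 2 * v ^ 13 + (83808 / 625) * u * v ^ 14 - (18576 / 625) * z * u * v ^ 14 + (35424 / 625) * z ^ 2 * u * v ^ 14 + (163728 / 625) * z ^ 3 * u * v ^ 14 + (163728 / 625) * z ^ 4 * u * v ^ 14 + (76248 / 625) * z ^ 5 * u * v ^ 14 + (1188 / 625) * v ^ 15 + (3564 / 625) * z * v ^ 15 + (3564 / 625) * z ^ 2 * v ^ 15 + (19008 / 625) * z ^ 3 * v ^ 15 + (19008 / 625) * z ^ 4 * v ^ 15 + (7128 / 625) * z ^ 5 * v ^ 15) * hz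

theorem kF_T {z : K} (hz : z ^ 4 + z ^ 3 + z ^ 2 + z + 1 = 0) (u v : K) :
    kF (kTu z u v) (kTv z u v) = kF u v := by
  have hA := kTu_pow5 hz u v
  have hB := kTv_pow5 hz u v
  have h1 := kTu5_sq hz u v
  have h2 := kTu5_mul hz u v
  have h3 := kTv5_sq hz u v
  have e : kF (kTu z u v) (kTv z u v) = kTu z u v * kTv z u v * (kTu10 z u v + 11 * kTuv z u v - kTv10 z u v) := by
    rw [kF_eq_kFq, hA, hB, ← h1, ← h2, ← h3]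
    simp only [kFq]
    ring
  rw [e]
  simp only [kTu, kTv, kTa, kTb, kTu10, kTuv, kTv10, kF]
  linear_combination (-(23 / 25) * u ^ 11 * v + (31 / 25) * z * u ^ 11 * v + (11 / 25) * z ^ 2 * u ^ 11 * v + (16 / 25) * z ^ 3 * u ^ 11 * v + (16 / 25) * z ^ 4 * u ^ 11 * v - (6 / 25) * z ^ 5 * u ^ 11 * v - (1 / 5) * u ^ 10 * v ^ 2 - (3 / 5) * z * u ^ 10 * v ^ 2 - (3 / 5) * z ^ 2 * u ^ 10 * v ^ 2 - (8 / 5) * z ^ 3 * u ^ 10 * v ^ 2 - (8 / 5) * z ^ 4 * u ^ 10 * v ^ 2 - (2 / 5) * z ^ 5 * u ^ 10 * v ^ 2 + (1 / 5) * u ^ 9 * v ^ 3 + (3 / 5) * z * u ^ 9 * v ^ 3 + (3 / 5) * z ^ 2 * u ^ 9 * v ^ 3 + (8 / 5) * z ^ 3 * u ^ 9 * v ^ 3 + (8 / 5) * z ^ 4 * u ^ 9 * v ^ 3 + (2 / 5) * z ^ 5 * u ^ 9 * v ^ 3 - (2 / 5) * u ^ 8 * v ^ 4 - (6 / 5) * z * u ^ 8 * v ^ 4 - (6 / 5) * z ^ 2 * u ^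 8 * v ^ 4 - (16 / 5) * z ^ 3 * u ^ 8 * v ^ 4 - (16 / 5) * z ^ 4 * u ^ 8 * v ^ 4 - (4 / 5) * z ^ 5 * u ^ 8 * v ^ 4 + (3 / 5) * u ^ 7 * v ^ 5 + (9 / 5) * z * u ^ 7 * v ^ 5 + (9 / 5) * z ^ 2 * u ^ 7 * v ^ 5 + (24 / 5) * z ^ 3 * u ^ 7 * v ^ 5 + (24 / 5) * z ^ 4 * u ^ 7 * v ^ 5 + (6 / 5) * z ^ 5 * u ^ 7 * v ^ 5 - (278 / 25) * u ^ 6 * v ^ 6 + (266 / 25) * z * u ^ 6 * v ^ 6 + (46 / 25) * z ^ 2 * u ^ 6 * v ^ 6 - (24 / 25) * z ^ 3 * u ^ 6 * v ^ 6 - (24 / 25) * z ^ 4 * u ^ 6 * v ^ 6 - (116 / 25) * z ^ 5 * u ^ 6 * v ^ 6 - (3 / 5) * u ^ 5 * v ^ 7 - (9 / 5) * z * u ^ 5 * v ^ 7 - (9 / 5) * z ^ 2 * u ^ 5 * v ^ 7 - (24 / 5) * z ^ 3 * u ^ 5 * v ^ 7 - (24 / 5) * z ^ 4 * u ^ 5 * v ^ 7 - (6 / 5) * z ^ 5 * u ^ 5 * v ^ 7 - (2 / 5) * u ^ 4 * v ^ 8 - (6 / 5) * z * u ^ 4 * v ^ 8 - (6 /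 5) * z ^ 2 * u ^ 4 * v ^ 8 - (16 / 5) * z ^ 3 * u ^ 4 * v ^ 8 - (16 / 5) * z ^ 4 * u ^ 4 * v ^ 8 - (4 / 5) * z ^ 5 * u ^ 4 * v ^ 8 - (1 / 5) * u ^ 3 * v ^ 9 - (3 / 5) * z * u ^ 3 * v ^ 9 - (3 / 5) * z ^ 2 * u ^ 3 * v ^ 9 - (8 / 5) * z ^ 3 * u ^ 3 * v ^ 9 - (8 / 5) * z ^ 4 * u ^ 3 * v ^ 9 - (2 / 5) * z ^ 5 * u ^ 3 * v ^ 9 - (1 / 5) * u ^ 2 * v ^ 10 - (3 / 5) * z * u ^ 2 * v ^ 10 - (3 / 5) * z ^ 2 * u ^ 2 * v ^ 10 - (8 / 5) * z ^ 3 * u ^ 2 * v ^ 10 - (8 / 5) * z ^ 4 * u ^ 2 * v ^ 10 - (2 / 5) * z ^ 5 * u ^ 2 * v ^ 10 + (23 / 25) * u * v ^ 11 - (31 / 25) * z * u * v ^ 11 - (11 / 25) * z ^ 2 * u * v ^ 11 - (16 / 25) * z ^ 3 * u * v ^ 11 - (16 / 25) * z ^ 4 * u * v ^ 11 + (6 / 25) * z ^ 5 * u * v ^ 11) * hz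

theorem kW1_T {z : K} (hz : z ^ 4 + z ^ 3 + z ^ 2 + z + 1 = 0) (u v : K) :
    kW1 (kTu z u v) (kTv z u v) = kTa z * kW1 u v + kTb z * kW2 u v := by
  have hA := kTu_pow5 hz u v
  have hB := kTv_pow5 hz u v
  have h1 := kTu5_sq hz u v
  have h2 := kTu5_mul hz u v
  have h3 := kTv5_sq hz u v
  have e : kW1 (kTu z u v) (kTv z u v) = -kTu z u v * (kTu10 z u v + 66 * kTuv z u v - 11 * kTv10 z u v) := by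
    rw [kW1_eq, hA, hB, ← h1, ← h2, ← h3]
    ring
  rw [e]
  simp only [kTu, kTa, kTb, kTu10, kTuv, kTv10, kW1, kW2]
  linear_combination (-(36 / 5) * u ^ 10 * v - (36 / 5) * z * u ^ 10 * v + (12 / 5) * z ^ 2 * u ^ 10 * v + (48 / 5) * u ^ 9 * v ^ 2 + (48 / 5) * z * u ^ 9 * v ^ 2 + (24 / 5) * z ^ 2 * u ^ 9 * v ^ 2 - (84 / 5) * u ^ 8 * v ^ 3 - (84 / 5) * z * u ^ 8 * v ^ 3 - (12 / 5) * z ^ 2 * u ^ 8 * v ^ 3 + (132 / 5) * u ^ 7 * v ^ 4 + (132 / 5) * z * u ^ 7 * v ^ 4 + (36 / 5) * z ^ 2 * u ^ 7 * v ^ 4 - (216 / 5) * u ^ 6 * v ^ 5 - (216 / 5) * z * u ^ 6 * v ^ 5 - (48 / 5) * z ^ 2 * u ^ 6 * v ^ 5 - (48 / 5) * u ^ 5 * v ^ 6 - (48 / 5) * z * u ^ 5 * v ^ 6 + (216 / 5) * z ^ 2 * u ^ 5 * v ^ 6 - (36 / 5) * u ^ 4 * v ^ 7 - (36 / 5) * z * u ^ 4 * v ^ 7 + (132 / 5) * z ^ 2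 * u ^ 4 * v ^ 7 - (12 / 5) * u ^ 3 * v ^ 8 - (12 / 5) * z * u ^ 3 * v ^ 8 + (84 / 5) * z ^ 2 * u ^ 3 * v ^ 8 - (24 / 5) * u ^ 2 * v ^ 9 - (24 / 5) * z * u ^ 2 * v ^ 9 + (48 / 5) * z ^ 2 * u ^ 2 * v ^ 9 + (12 / 5) * u * v ^ 10 + (12 / 5) * z * u * v ^ 10 + (36 / 5) * z ^ 2 * u * v ^ 10) * hz

theorem kW2_T {z : K} (hz : z ^ 4 + z ^ 3 + z ^ 2 + z + 1 = 0) (u v : K) :
    kW2 (kTu z u v) (kTv z u v) = kTb z * kW1 u v - kTa z * kW2 u v := by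
  have hA := kTu_pow5 hz u v
  have hB := kTv_pow5 hz u v
  have h1 := kTu5_sq hz u v
  have h2 := kTu5_mul hz u v
  have h3 := kTv5_sq hz u v
  have e : kW2 (kTu z u v) (kTv z u v) = kTv z u v * (11 * kTu10 z u v + 66 * kTuv z u v - kTv10 z u v) := by
    rw [kW2_eq, hA, hB, ← h1, ← h2, ← h3]
    ring
  rw [e]
  simp only [kTv, kTa, kTb, kTu10, kTuv, kTv10, kW1, kW2]
  linear_combination (-(12 / 5) * u ^ 10 * v - (12 / 5) * z * u ^ 10 * v - (36 / 5) * z ^ 2 * u ^ 10 * v - (24 / 5) * u ^ 9 * v ^ 2 - (24 / 5) * z * u ^ 9 * v ^ 2 + (48 / 5) * z ^ 2 * u ^ 9 * v ^ 2 + (12 / 5) * u ^ 8 * v ^ 3 + (12 / 5) * z * u ^ 8 * v ^ 3 - (84 / 5) * z ^ 2 * u ^ 8 * v ^ 3 - (36 / 5) * u ^ 7 * v ^ 4 - (36 / 5) * z * u ^ 7 * v ^ 4 + (132 / 5) * z ^ 2 * u ^ 7 * v ^ 4 + (48 / 5) * u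 ^ 6 * v ^ 5 + (48 / 5) * z * u ^ 6 * v ^ 5 - (216 / 5) * z ^ 2 * u ^ 6 * v ^ 5 - (216 / 5) * u ^ 5 * v ^ 6 - (216 / 5) * z * u ^ 5 * v ^ 6 - (48 / 5) * z ^ 2 * u ^ 5 * v ^ 6 - (132 / 5) * u ^ 4 * v ^ 7 - (132 / 5) * z * u ^ 4 * v ^ 7 - (36 / 5) * z ^ 2 * u ^ 4 * v ^ 7 - (84 / 5) * u ^ 3 * v ^ 8 - (84 / 5) * z * u ^ 3 * v ^ 8 - (12 / 5) * z ^ 2 * u ^ 3 * v ^ 8 - (48 / 5) * u ^ 2 * v ^ 9 - (48 / 5) * z * u ^ 2 * v ^ 9 - (24 / 5) * z ^ 2 * u ^ 2 * v ^ 9 - (36 / 5) * u * v ^ 10 - (36 / 5) * z * u * v ^ 10 + (12 / 5) * z ^ 2 * u * v ^ 10) * hz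

theorem kTu_kT {z : K} (hz : z ^ 4 + z ^ 3 + z ^ 2 + z + 1 = 0) (u v : K) :
    kTu z (kTu z u v) (kTv z u v) = -u := by
  have h := kTa_sq_add hz u v
  simp only [kTu, kTv]
  linear_combination u * h

theorem kTv_kT {z : K} (hz : z ^ 4 + z ^ 3 + z ^ 2 + z + 1 = 0) (u v : K) :
    kTv z (kTu z u v) (kTv z u v) = -v := by
  have h := kTa_sq_add hz u v
  simp only [kTu, kTv]
  linear_combination v * h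

theorem kxQ_T {z : K} (hz : z ^ 4 + z ^ 3 + z ^ 2 + z + 1 = 0) (u v : K) :
    kxQ (kTu z u v) (kTv z u v) = kxP z u v := by
  have h := kxP_T hz (kTu z u v) (kTv z u v)
  rw [kTu_kT hz, kTv_kT hz] at h
  rw [← h]
  simp only [kxP]; ring

theorem kyQ_T {z : K} (hz : z ^ 4 + z ^ 3 + z ^ 2 + z + 1 = 0) (u v : K) :
    kyQ (kTu z u v) (kTv z u v) = kyP z u v := by
  have h := kyP_T hz (kTu z u v) (kTv z u v)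
  rw [kTu_kT hz, kTv_kT hz] at h
  have h2 : kyQ (kTu z u v) (kTv z u v) = -kyP z (-u) (-v) := by rw [h]; ring
  rw [h2]
  simp only [kyP]; ring

end Fermat.Agent.P7.helper73
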