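import Fermat.Agent.P7.helper73_FamScal
import Fermat.Agent.P7.helper59_FamEx
import Fermat.Agent.P7.helper66_FamRat

/-!
# P7 / S52, module FAM: `helper47.FamStatement` (helper73)

Assembly: base point (helper59), rationality of the family (helper66), the two Galois statements
about short models (`galIso`, `galScal`), and the passage to short models (helper19).
-/

set_option autoImplicit false

open WeierstrassCurve WeierstrassCurve.Affine
open scoped WeierstrassCurve.Affine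

namespace Fermat.Agent.P7.helper73

open Fermat.Agent.P7.helper80 Fermat.Agent.P7.helper47 Fermat.Agent.P7.helper19

section Conv

variable {K : Type*} [Field K]

theorem kleinH_eq_kH (a b : K) : kleinH a b = kH a b := by
  simp only [kleinH, kH]

theorem kleinT_eq_kT (a b : K) : kleinT a b = kT a b := by
  simp only [kleinT, kT]

theorem famA_eq_famU (a b t : K) : famA a b t = famU a b (-t) := by
  simp only [famA, famU, kleinWa, kW1]
  ring

theorem famB_eq_famV (a b t : K) : famB a b t = famV a b (-t) := by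
  simp only [famB, famV, kleinWb, kW2]
  ring

end Conv

/-- a point of the cone over `(c₄, c₆)` of `W` is a Klein point of the short model of `W` -/
theorem isKP_short (W : WeierstrassCurve ℤ) (hΔ : W.Δ ≠ 0) {a b : CQb}
    (hH : kH a b = -((W.c₄ : ℤ) : CQb)) (hT : kT a b = -((W.c₆ : ℤ) : CQb)) :
    IsKP ((shortQ ((W.c₄ : ℤ) : ℚ) ((W.c₆ : ℤ) : ℚ))⁄(AlgebraicClosure ℚ)) a b where
  a₁ := by
    show algebraMap ℚ CQb (shortQ ((W.c₄ : ℤ) : ℚ) ((W.c₆ : ℤ) : ℚ)).a₁ = 0
    simp [shortQ]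
  a₂ := by
    show algebraMap ℚ CQb (shortQ ((W.c₄ : ℤ) : ℚ) ((W.c₆ : ℤ) : ℚ)).a₂ = 0
    simp [shortQ]
  a₃ := by
    show algebraMap ℚ CQb (shortQ ((W.c₄ : ℤ) : ℚ) ((W.c₆ : ℤ) : ℚ)).a₃ = 0
    simp [shortQ]
  a₄ := by
    show algebraMap ℚ CQb (shortQ ((W.c₄ : ℤ) : ℚ) ((W.c₆ : ℤ) : ℚ)).a₄ = 27 * kH a b
    rw [hH]
    simp only [shortQ, map_mul, map_neg, map_ofNat, map_intCast]
    ring
  a₆ := by
    show algebraMap ℚ CQb (shortQ ((W.c₄ : ℤ) : ℚ) ((W.c₆ : ℤ) : ℚ)).a₆ = 54 * kT a b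
    rw [hT]
    simp only [shortQ, map_mul, map_neg, map_ofNat, map_intCast]
    ring
  hF := by
    intro h0
    apply hΔ
    have h1 := kT_sq_add_kH_cube a b
    rw [h0, hH, hT] at h1
    have h2 : ((W.c₄ ^ 3 - W.c₆ ^ 2 : ℤ) : CQb) = 0 := by
      push_cast
      linear_combination -h1
    have h3 : W.c₄ ^ 3 - W.c₆ ^ 2 = 0 := by exact_mod_cast h2
    have h4 := W.c_relation
    have h5 : (1728 : ℤ) * W.Δ = 0 := by rw [h4, h3]
    rcases mul_eq_zero.mp h5 with h' | h'
    · norm_num at h'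
    · exact h'

/-- **[FAM]** every integral model with `Δ ≠ 0` has a base point. -/
theorem fam : FamStatement := by
  intro W hΔ
  obtain ⟨a, b, hH, hT⟩ := Fermat.Agent.P7.helper59.exists_kleinBase_of_curve W hΔ
  have h := isKP_short W hΔ ((kleinH_eq_kH a b).symm.trans hH) ((kleinT_eq_kT a b).symm.trans hT)
  refine ⟨a, b, ⟨hH, hT, Fermat.Agent.P7.helper66.fam_rat hH hT, ?_, ?_⟩⟩
  · intro t W' hΔ' h4 h6
    have e1 : famU a b (algebraMap ℚ CQb (-t)) = famA a b (algebraMap ℚ CQb t) := by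
      rw [map_neg, famA_eq_famU]
    have e2 : famV a b (algebraMap ℚ CQb (-t)) = famB a b (algebraMap ℚ CQb t) := by
      rw [map_neg, famB_eq_famV]
    have k : IsKP ((shortQ ((W'.c₄ : ℤ) : ℚ) ((W'.c₆ : ℤ) : ℚ))⁄(AlgebraicClosure ℚ))
        (famU a b (algebraMap ℚ CQb (-t))) (famV a b (algebraMap ℚ CQb (-t))) := by
      rw [e1, e2]
      refine isKP_short W' hΔ' ?_ ?_
      · rw [h4, famC4, neg_neg, kleinH_eq_kH]
      · rw [h6, famC6, neg_neg, kleinT_eq_kT]
    obtain ⟨e, he⟩ := galIso _ _ _ _ (-t) a b h k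
    exact exists_equiv_of_short W W' 5 e he
  · intro σ hσ
    obtain ⟨ε, hε, h1, h2⟩ := galScal _ _ a b h σ (fun x => by
      have e1 := hσ ((shortTors W 5).symm x)
      have e2 := congrArg (shortTors W 5) e1
      rw [shortTors_smul, AddEquiv.apply_symm_apply] at e2
      exact e2)
    refine ⟨ε, ?_, h1, h2⟩
    rw [show (10 : ℕ) = 5 * 2 from rfl, pow_mul, hε, one_pow]

end Fermat.Agent.P7.helper73
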