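import Fermat.Agent.P7.helper73_FamPts
import Fermat.Agent.P7.helper19_FamVC

/-!
# P7 / S52, module FAM: the two Galois statements about short models (helper73)

Interface between the Galois part of FAM (`helper73_FamGal*`) and the final assembly of
`helper47.FamStatement`.  Both statements are about the short models
`shortQ c₄ c₆ : y² = x³ - 27 c₄ x - 54 c₆` over `ℚ` and Klein points `(u, v)` over `ℚ̄`.
-/

set_option autoImplicit false

open WeierstrassCurve WeierstrassCurve.Affine
open scoped WeierstrassCurve.Affine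

namespace Fermat.Agent.P7.helper73

open Fermat.Agent.P7.helper47 Fermat.Agent.P7.helper19

/-- the `5`-torsion of the short model over `ℚ̄` (shape of `helper19.exists_equiv_of_short`) -/
abbrev ShTors (c₄ c₆ : ℚ) : Type :=
  Submodule.torsionBy ℤ ((shortQ c₄ c₆)⁄(AlgebraicClosure ℚ)).Point ((5 : ℕ) : ℤ)

/-- **[GAL-ISO]** two short models carrying Klein points `v` and `v + t w(v)` (`t` rational)
have Galois-isomorphic `5`-torsion. -/
def GalIsoStatement : Prop :=
  ∀ (c₄ c₆ c₄' c₆' t : ℚ) (u v : CQb),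
    IsKP ((shortQ c₄ c₆)⁄(AlgebraicClosure ℚ)) u v →
    IsKP ((shortQ c₄' c₆')⁄(AlgebraicClosure ℚ))
      (famU u v (algebraMap ℚ CQb t)) (famV u v (algebraMap ℚ CQb t)) →
    ∃ e : ShTors c₄ c₆ ≃+ ShTors c₄' c₆', ∀ (σ : CGQ) (x : ShTors c₄ c₆), e (σ • x) = σ • e x

/-- **[GAL-SCAL]** an automorphism fixing the `5`-torsion of a short model pointwise moves a
Klein point of the model by a fifth root of unity. -/
def GalScalStatement : Prop :=
  ∀ (c₄ c₆ : ℚ) (u v : CQb),
    IsKP ((shortQ c₄ c₆)⁄(AlgebraicClosure ℚ)) u v →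
    ∀ σ : CGQ, (∀ x : ShTors c₄ c₆, σ • x = x) →
      ∃ ε : CQb, ε ^ 5 = 1 ∧ σ u = ε * u ∧ σ v = ε * v

end Fermat.Agent.P7.helper73
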