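import Mathlib

/-!
# P7 / S52, module FAM: the isomorphism of `5`-torsion defined by two bases (helper73)

Abstract linear algebra: if `(P, Q)` is a "basis modulo `5`" of the `5`-torsion of an abelian
group `A` and `(P', Q')` one of `A'`, there is an additive equivalence
`torsionBy ℤ A 5 ≃+ torsionBy ℤ A' 5` with `x • P + y • Q ↦ x • P' + y • Q'`.
-/

set_option autoImplicit false

namespace Fermat.Agent.P7.helper73

/-- `(P, Q)` is a basis of the `5`-torsion of `A`. -/
structure IsBasis5 {A : Type*} [AddCommGroup A] (P Q : A) : Prop where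
  hP : (5 : ℕ) • P = 0
  hQ : (5 : ℕ) • Q = 0
  indep : ∀ m n : ℤ, m • P + n • Q = 0 → (5 : ℤ) ∣ m ∧ (5 : ℤ) ∣ n
  span : ∀ R : A, (5 : ℕ) • R = 0 → ∃ a b : ℤ, R = a • P + b • Q

section

variable {A A' : Type*} [AddCommGroup A] [AddCommGroup A'] {P Q : A} {P' Q' : A'}

theorem IsBasis5.zsmul_five_P (h : IsBasis5 P Q) : (5 : ℤ) • P = 0 := by
  have := h.hP
  rwa [← natCast_zsmul] at this

theorem IsBasis5.zsmul_five_Q (h : IsBasis5 P Q) : (5 : ℤ) • Q = 0 := by
  have := h.hQ
  rwa [← natCast_zsmul] at this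

theorem IsBasis5.combo_mem (h : IsBasis5 P Q) (x y : ℤ) :
    x • P + y • Q ∈ Submodule.torsionBy ℤ A ((5 : ℕ) : ℤ) := by
  rw [Submodule.mem_torsionBy_iff]
  push_cast
  rw [smul_add, smul_comm, h.zsmul_five_P, smul_zero, smul_comm, h.zsmul_five_Q, smul_zero,
    add_zero]

theorem IsBasis5.combo_eq_zero_of_dvd (h : IsBasis5 P Q) {x y : ℤ} (hx : (5 : ℤ) ∣ x)
    (hy : (5 : ℤ) ∣ y) : x • P + y • Q = 0 := by
  obtain ⟨c, rfl⟩ := hx
  obtain ⟨d, rfl⟩ := hy
  rw [mul_comm, mul_zsmul, h.zsmul_five_P, smul_zero, mul_comm, mul_zsmul, h.zsmul_five_Q,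
    smul_zero, add_zero]

/-- transfer of relations from one basis to another -/
theorem IsBasis5.transfer (h : IsBasis5 P Q) (h' : IsBasis5 P' Q') {x y x' y' : ℤ}
    (e : x • P + y • Q = x' • P + y' • Q) : x • P' + y • Q' = x' • P' + y' • Q' := by
  have h0 : (x - x') • P + (y - y') • Q = 0 := by
    have e1 : (x - x') • P + (y - y') • Q = (x • P + y • Q) - (x' • P + y' • Q) := by
      rw [sub_smul, sub_smul]; abel
    rw [e1, e, sub_self]
  obtain ⟨h1, h2⟩ := h.indep _ _ h0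
  have h3 := h'.combo_eq_zero_of_dvd h1 h2
  have e2 : (x - x') • P' + (y - y') • Q' = (x • P' + y • Q') - (x' • P' + y' • Q') := by
    rw [sub_smul, sub_smul]; abel
  rw [e2] at h3
  exact sub_eq_zero.1 h3

/-- the underlying function -/
noncomputable def IsBasis5.fn (h : IsBasis5 P Q) (P' Q' : A')
    (R : Submodule.torsionBy ℤ A ((5 : ℕ) : ℤ)) : A' :=
  (Classical.choose (h.span R.1 (by
      have := R.2
      rw [Submodule.mem_torsionBy_iff, natCast_zsmul] at this
      exact this))) • P' +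
  (Classical.choose (Classical.choose_spec (h.span R.1 (by
      have := R.2
      rw [Submodule.mem_torsionBy_iff, natCast_zsmul] at this
      exact this)))) • Q'

theorem IsBasis5.fn_spec (h : IsBasis5 P Q) (h' : IsBasis5 P' Q')
    (R : Submodule.torsionBy ℤ A ((5 : ℕ) : ℤ)) {x y : ℤ} (e : R.1 = x • P + y • Q) :
    h.fn P' Q' R = x • P' + y • Q' := by
  unfold IsBasis5.fn
  apply h.transfer h'
  have hR : (5 : ℕ) • R.1 = 0 := by
    have := R.2
    rw [Submodule.mem_torsionBy_iff, natCast_zsmul] at this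
    exact this
  rw [← e]
  exact (Classical.choose_spec (Classical.choose_spec (h.span R.1 hR))).symm

/-- **the isomorphism defined by two bases** -/
theorem IsBasis5.exists_equiv (h : IsBasis5 P Q) (h' : IsBasis5 P' Q') :
    ∃ ψ : Submodule.torsionBy ℤ A ((5 : ℕ) : ℤ) ≃+ Submodule.torsionBy ℤ A' ((5 : ℕ) : ℤ),
      ∀ (R : Submodule.torsionBy ℤ A ((5 : ℕ) : ℤ)) (x y : ℤ), R.1 = x • P + y • Q →
        (ψ R).1 = x • P' + y • Q' := by
  have hrep : ∀ R : Submodule.torsionBy ℤ A ((5 : ℕ) : ℤ), ∃ x y : ℤ, R.1 = x • P + y • Q := by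
    intro R
    have hR : (5 : ℕ) • R.1 = 0 := by
      have := R.2
      rw [Submodule.mem_torsionBy_iff, natCast_zsmul] at this
      exact this
    exact h.span R.1 hR
  have hrep' : ∀ R : Submodule.torsionBy ℤ A' ((5 : ℕ) : ℤ), ∃ x y : ℤ,
      R.1 = x • P' + y • Q' := by
    intro R
    have hR : (5 : ℕ) • R.1 = 0 := by
      have := R.2
      rw [Submodule.mem_torsionBy_iff, natCast_zsmul] at this
      exact this
    exact h'.span R.1 hR
  let f : Submodule.torsionBy ℤ A ((5 : ℕ) : ℤ) → Submodule.torsionBy ℤ A' ((5 : ℕ) : ℤ) :=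
    fun R => ⟨h.fn P' Q' R, by
      obtain ⟨x, y, e⟩ := hrep R
      rw [h.fn_spec h' R e]
      exact h'.combo_mem x y⟩
  have hf : ∀ (R : Submodule.torsionBy ℤ A ((5 : ℕ) : ℤ)) (x y : ℤ), R.1 = x • P + y • Q →
      (f R).1 = x • P' + y • Q' := fun R x y e => h.fn_spec h' R e
  have hadd : ∀ R S, f (R + S) = f R + f S := by
    intro R S
    obtain ⟨x, y, e⟩ := hrep R
    obtain ⟨x', y', e'⟩ := hrep S
    apply Subtype.ext
    have eRS : (R + S).1 = (x + x') • P + (y + y') • Q := by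
      rw [Submodule.coe_add, e, e', add_zsmul, add_zsmul]
      abel
    rw [hf _ _ _ eRS, Submodule.coe_add, hf _ _ _ e, hf _ _ _ e', add_zsmul, add_zsmul]
    abel
  have hinj : Function.Injective f := by
    intro R S hRS
    obtain ⟨x, y, e⟩ := hrep R
    obtain ⟨x', y', e'⟩ := hrep S
    have h1 := congrArg Subtype.val hRS
    rw [hf _ _ _ e, hf _ _ _ e'] at h1
    apply Subtype.ext
    rw [e, e']
    exact h'.transfer h h1
  have hsurj : Function.Surjective f := by
    intro R'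
    obtain ⟨x, y, e⟩ := hrep' R'
    refine ⟨⟨x • P + y • Q, h.combo_mem x y⟩, ?_⟩
    apply Subtype.ext
    rw [hf _ x y rfl, e]
  exact ⟨AddEquiv.ofBijective (AddMonoidHom.mk' f hadd) ⟨hinj, hsurj⟩, hf⟩

end

end Fermat.Agent.P7.helper73
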