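import Fermat.Agent.P7.helper73_FamOrbit
import Fermat.Agent.P7.helper73_FamLin
import Fermat.Agent.P7.helper73_FamIface

/-!
# P7 / S52, module FAM: the Galois action on Klein's universal points (helper73)

`σ ∈ Gal(ℚ̄/ℚ)` acts on the universal points of a curve `E` over `ℚ` by acting on the Klein
point `(u, v)` and on the root of unity `z`:
`σ • P_z(v) = P_{σ z}(σ v)`, `σ • Q(v) = Q(σ v)`.
-/

set_option autoImplicit false
set_option linter.unusedSimpArgs false

open WeierstrassCurve WeierstrassCurve.Affine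
open scoped WeierstrassCurve.Affine

namespace Fermat.Agent.P7.helper73

open Fermat.Agent.P7.helper80 Fermat.Agent.P7.helper47

section Map

variable {K L : Type*} [Field K] [Field L] (f : K →+* L)

theorem map_kH (u v : K) : f (kH u v) = kH (f u) (f v) := by
  simp only [kH, map_add, map_sub, map_mul, map_pow, map_neg, map_ofNat]

theorem map_kT (u v : K) : f (kT u v) = kT (f u) (f v) := by
  simp only [kT, map_add, map_sub, map_mul, map_pow, map_neg, map_ofNat]

theorem map_kF (u v : K) : f (kF u v) = kF (f u) (f v) := by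
  simp only [kF, map_add, map_sub, map_mul, map_pow, map_neg, map_ofNat]

theorem map_kW1 (u v : K) : f (kW1 u v) = kW1 (f u) (f v) := by
  simp only [kW1, map_add, map_sub, map_mul, map_pow, map_neg, map_ofNat]

theorem map_kW2 (u v : K) : f (kW2 u v) = kW2 (f u) (f v) := by
  simp only [kW2, map_add, map_sub, map_mul, map_pow, map_neg, map_ofNat]

theorem map_famU (u v t : K) : f (famU u v t) = famU (f u) (f v) (f t) := by
  simp only [famU, map_add, map_mul, map_kW1]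

theorem map_famV (u v t : K) : f (famV u v t) = famV (f u) (f v) (f t) := by
  simp only [famV, map_add, map_mul, map_kW2]

theorem map_kxQ (u v : K) : f (kxQ u v) = kxQ (f u) (f v) := by
  simp only [kxQ, map_add, map_sub, map_mul, map_pow, map_neg, map_ofNat]

theorem map_kyQ (u v : K) : f (kyQ u v) = kyQ (f u) (f v) := by
  simp only [kyQ, map_add, map_sub, map_mul, map_pow, map_neg, map_ofNat]

theorem map_kxP (z u v : K) : f (kxP z u v) = kxP (f z) (f u) (f v) := by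
  simp only [kxP, map_add, map_sub, map_mul, map_pow, map_neg, map_ofNat, map_div₀]

theorem map_kyP (z u v : K) : f (kyP z u v) = kyP (f z) (f u) (f v) := by
  simp only [kyP, map_add, map_sub, map_mul, map_pow, map_neg, map_ofNat, map_div₀]

end Map

section Gal

variable {E : WeierstrassCurve ℚ} {u v z : CQb}

theorem IsPrim5.gal (hz : IsPrim5 z) (σ : CGQ) : IsPrim5 (σ z) := by
  unfold IsPrim5 at *
  have := congrArg σ hz
  simpa only [map_add, map_pow, map_one, map_zero] using this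

theorem IsKP.gal (h : IsKP (E⁄CQb) u v) (σ : CGQ) : IsKP (E⁄CQb) (σ u) (σ v) where
  a₁ := h.a₁
  a₂ := h.a₂
  a₃ := h.a₃
  a₄ := by
    have h1 := congrArg σ h.a₄
    have h2 : σ ((E⁄CQb).a₄) = (E⁄CQb).a₄ := σ.commutes E.a₄
    rw [h2] at h1
    rw [h1, map_mul, map_ofNat]
    exact congrArg _ (map_kH (σ : CQb →+* CQb) u v)
  a₆ := by
    have h1 := congrArg σ h.a₆
    have h2 : σ ((E⁄CQb).a₆) = (E⁄CQb).a₆ := σ.commutes E.a₆
    rw [h2] at h1
    rw [h1, map_mul, map_ofNat]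
    exact congrArg _ (map_kT (σ : CQb →+* CQb) u v)
  hF := by
    intro h0
    apply h.hF
    have h1 : σ (kF u v) = 0 := by
      rw [← h0]
      exact map_kF (σ : CQb →+* CQb) u v
    exact (map_eq_zero σ).1 h1

theorem smul_ptP (h : IsKP (E⁄CQb) u v) (hz : IsPrim5 z) (σ : CGQ) :
    σ • (ptP h hz : (E⁄CQb).Point) = ptP (h.gal σ) (hz.gal σ) := by
  rw [Point.algEquiv_smul_def]
  unfold ptP
  rw [Point.map_some]
  simp only [Point.some.injEq]
  exact ⟨map_kxP (σ : CQb →+* CQb) z u v, map_kyP (σ : CQb →+* CQb) z u v⟩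

theorem smul_ptQ (h : IsKP (E⁄CQb) u v) (σ : CGQ) :
    σ • (ptQ h : (E⁄CQb).Point) = ptQ (h.gal σ) := by
  rw [Point.algEquiv_smul_def]
  unfold ptQ
  rw [Point.map_some]
  simp only [Point.some.injEq]
  exact ⟨map_kxQ (σ : CQb →+* CQb) u v, map_kyQ (σ : CQb →+* CQb) u v⟩

end Gal

section Basis

variable {K : Type*} [Field K] [CharZero K] [DecidableEq K] {E : WeierstrassCurve K} {u v z : K}

/-- `P_{z^k} = k • P_z` for `1 ≤ k < 5` -/
theorem ptP_pow (h : IsKP E u v) (hz : IsPrim5 z) {k : ℕ} (hk1 : 1 ≤ k) (hk5 : k < 5)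
    (hz' : IsPrim5 (z ^ k)) : ptP h hz' = k • ptP h hz := by
  interval_cases k
  · rw [one_nsmul]
    exact ptP_congr h _ _ (pow_one z)
  · exact (two_ptP h hz).symm
  · exact (three_ptP h hz).symm
  · rw [four_ptP h hz]
    exact ptP_pow_four h hz

/-- the universal points form a basis of the `5`-torsion -/
theorem isBasis5 [IsAlgClosed K] (h : IsKP E u v) (hz : IsPrim5 z) :
    IsBasis5 (ptP h hz) (ptQ h) where
  hP := five_ptP h hz
  hQ := five_ptQ h
  indep := fun _ _ e => indep h hz e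
  span := by
    intro R hR
    obtain ⟨a, b, -, -, e⟩ := exists_combo h hz R hR
    exact ⟨a, b, by rw [natCast_zsmul, natCast_zsmul]; exact e⟩

end Basis

section Gal2

variable {E : WeierstrassCurve ℚ} {u v z : CQb}

theorem exists_isPrim5 : ∃ z : CQb, IsPrim5 z := by
  have hdeg : (Polynomial.cyclotomic 5 CQb).degree ≠ 0 := by
    rw [Polynomial.degree_cyclotomic]
    decide
  obtain ⟨z, hz⟩ := IsAlgClosed.exists_root (Polynomial.cyclotomic 5 CQb) hdeg
  refine ⟨z, ?_⟩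
  unfold IsPrim5
  have : Fact (Nat.Prime 5) := ⟨by norm_num⟩
  rw [Polynomial.cyclotomic_prime, Polynomial.IsRoot.def, Polynomial.eval_finsetSum] at hz
  simp only [Finset.sum_range_succ, Finset.sum_range_zero, Polynomial.eval_pow,
    Polynomial.eval_X] at hz
  linear_combination hz

theorem gal_pow (hz : IsPrim5 z) (σ : CGQ) : ∃ k : ℕ, 1 ≤ k ∧ k < 5 ∧ σ z = z ^ k := by
  obtain ⟨m, hm, e⟩ := exists_pow_of_pow_five hz (hz.gal σ).pow_five
  refine ⟨m, ?_, hm, e⟩
  rcases Nat.eq_zero_or_pos m with h0 | h0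
  · exfalso
    rw [h0, pow_zero] at e
    exact (hz.gal σ).ne_one e
  · exact h0

/-- `σ • P_z(v) = k • P_z(σ v)` where `σ z = z ^ k` -/
theorem smul_ptP' (h : IsKP (E⁄CQb) u v) (hz : IsPrim5 z) (σ : CGQ) :
    ∃ k : ℕ, 1 ≤ k ∧ k < 5 ∧ σ z = z ^ k ∧
      σ • (ptP h hz : (E⁄CQb).Point) = k • ptP (h.gal σ) hz := by
  obtain ⟨k, hk1, hk5, e⟩ := gal_pow hz σ
  refine ⟨k, hk1, hk5, e, ?_⟩
  have hz' : IsPrim5 (z ^ k) := e ▸ hz.gal σ
  rw [smul_ptP h hz σ, ← ptP_pow (h.gal σ) hz hk1 hk5 hz']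
  exact ptP_congr _ _ _ e

end Gal2

section Law

theorem isKP_fam_zero {K : Type*} [Field K] {E : WeierstrassCurve K} {u v : K}
    (h : IsKP E u v) : IsKP E (famU u v 0) (famV u v 0) := by
  have e1 : famU u v 0 = u := by simp [famU]
  have e2 : famV u v 0 = v := by simp [famV]
  rw [e1, e2]
  exact h

theorem famU_zero {K : Type*} [Field K] (u v : K) : famU u v 0 = u := by simp [famU]

theorem famV_zero {K : Type*} [Field K] (u v : K) : famV u v 0 = v := by simp [famV]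

variable {E E' : WeierstrassCurve ℚ} {u v z : CQb}

theorem smul_ptP_of (h : IsKP (E⁄CQb) u v) (hz : IsPrim5 z) (σ : CGQ) {k : ℕ} (hk1 : 1 ≤ k)
    (hk5 : k < 5) (e : σ z = z ^ k) :
    σ • (ptP h hz : (E⁄CQb).Point) = k • ptP (h.gal σ) hz := by
  have hz' : IsPrim5 (z ^ k) := e ▸ hz.gal σ
  rw [smul_ptP h hz σ, ← ptP_pow (h.gal σ) hz hk1 hk5 hz']
  exact ptP_congr _ _ _ e

theorem IsKP.gal_fam (t : ℚ)
    (k : IsKP (E'⁄CQb) (famU u v (algebraMap ℚ CQb t)) (famV u v (algebraMap ℚ CQb t)))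
    (σ : CGQ) :
    IsKP (E'⁄CQb) (famU (σ u) (σ v) (algebraMap ℚ CQb t))
      (famV (σ u) (σ v) (algebraMap ℚ CQb t)) := by
  have h1 := k.gal σ
  have e1 : σ (famU u v (algebraMap ℚ CQb t)) = famU (σ u) (σ v) (algebraMap ℚ CQb t) := by
    have := map_famU (σ : CQb →+* CQb) u v (algebraMap ℚ CQb t)
    rw [show (σ : CQb →+* CQb) (algebraMap ℚ CQb t) = algebraMap ℚ CQb t from σ.commutes t]
      at this
    exact this
  have e2 : σ (famV u v (algebraMap ℚ CQb t)) = famV (σ u) (σ v) (algebraMap ℚ CQb t) := by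
    have := map_famV (σ : CQb →+* CQb) u v (algebraMap ℚ CQb t)
    rw [show (σ : CQb →+* CQb) (algebraMap ℚ CQb t) = algebraMap ℚ CQb t from σ.commutes t]
      at this
    exact this
  rw [e1, e2] at h1
  exact h1

theorem gal_fam_eq (t : ℚ) (σ : CGQ) :
    σ (famU u v (algebraMap ℚ CQb t)) = famU (σ u) (σ v) (algebraMap ℚ CQb t) ∧
    σ (famV u v (algebraMap ℚ CQb t)) = famV (σ u) (σ v) (algebraMap ℚ CQb t) := by
  constructor
  · have := map_famU (σ : CQb →+* CQb) u v (algebraMap ℚ CQb t)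
    rw [show (σ : CQb →+* CQb) (algebraMap ℚ CQb t) = algebraMap ℚ CQb t from σ.commutes t]
      at this
    exact this
  · have := map_famV (σ : CQb →+* CQb) u v (algebraMap ℚ CQb t)
    rw [show (σ : CQb →+* CQb) (algebraMap ℚ CQb t) = algebraMap ℚ CQb t from σ.commutes t]
      at this
    exact this

/-- **the Galois law**: `σ` acts on the bases `(P, Q)` of all members of the family by the same
integer matrix. -/
theorem gal_law (h : IsKP (E⁄CQb) u v) (hz : IsPrim5 z) (t : ℚ)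
    (k : IsKP (E'⁄CQb) (famU u v (algebraMap ℚ CQb t)) (famV u v (algebraMap ℚ CQb t)))
    (σ : CGQ) :
    ∃ n₁ n₂ n₃ n₄ : ℤ,
      σ • (ptP h hz : (E⁄CQb).Point) = n₁ • ptP h hz + n₂ • ptQ h ∧
      σ • (ptQ h : (E⁄CQb).Point) = n₃ • ptP h hz + n₄ • ptQ h ∧
      σ • (ptP k hz : (E'⁄CQb).Point) = n₁ • ptP k hz + n₂ • ptQ k ∧
      σ • (ptQ k : (E'⁄CQb).Point) = n₃ • ptP k hz + n₄ • ptQ k := by
  obtain ⟨m₁, m₂, m₃, m₄, hm⟩ := Orb.label hz (orbit h (h.gal σ) hz)
  obtain ⟨j, hj1, hj5, hσz⟩ := gal_pow hz σ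
  -- the base curve, `t = 0`
  have a1 := hm (E⁄CQb) 0 (isKP_fam_zero h) (isKP_fam_zero (h.gal σ))
  rw [ptP_congr' (isKP_fam_zero (h.gal σ)) (h.gal σ) hz (famU_zero _ _) (famV_zero _ _),
    ptP_congr' (isKP_fam_zero h) h hz (famU_zero _ _) (famV_zero _ _),
    ptQ_congr' (isKP_fam_zero (h.gal σ)) (h.gal σ) (famU_zero _ _) (famV_zero _ _),
    ptQ_congr' (isKP_fam_zero h) h (famU_zero _ _) (famV_zero _ _)] at a1
  -- the member `t`
  have a2 := hm (E'⁄CQb) (algebraMap ℚ CQb t) k (k.gal_fam t σ)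
  rw [ptP_congr' (k.gal_fam t σ) (k.gal σ) hz (gal_fam_eq t σ).1.symm (gal_fam_eq t σ).2.symm,
    ptQ_congr' (k.gal_fam t σ) (k.gal σ) (gal_fam_eq t σ).1.symm (gal_fam_eq t σ).2.symm] at a2
  refine ⟨j * m₁, j * m₂, m₃, m₄, ?_, ?_, ?_, ?_⟩
  · rw [smul_ptP_of h hz σ hj1 hj5 hσz, a1.1, ← natCast_zsmul, smul_add, smul_smul, smul_smul]
  · rw [smul_ptQ h σ, a1.2]
  · rw [smul_ptP_of k hz σ hj1 hj5 hσz, a2.1, ← natCast_zsmul, smul_add, smul_smul, smul_smul]
  · rw [smul_ptQ k σ, a2.2]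

end Law

section Iso

open Fermat.Agent.P7.helper19

theorem combo_combo {A : Type*} [AddCommGroup A] (a b n₁ n₂ n₃ n₄ : ℤ) (P Q : A) :
    a • (n₁ • P + n₂ • Q) + b • (n₃ • P + n₄ • Q) =
      (a * n₁ + b * n₃) • P + (a * n₂ + b * n₄) • Q := by
  simp only [smul_add, smul_smul, add_smul]
  abel

theorem gal_smul_add {E : WeierstrassCurve ℚ} (σ : CGQ) (A B : (E⁄CQb).Point) :
    σ • (A + B) = σ • A + σ • B :=
  (Point.map σ.toAlgHom).map_add A B

theorem gal_smul_combo {E : WeierstrassCurve ℚ} (σ : CGQ) (a b : ℤ) (A B : (E⁄CQb).Point) :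
    σ • (a • A + b • B) = a • (σ • A) + b • (σ • B) := by
  rw [gal_smul_add, Point.algEquiv_smul_zsmul, Point.algEquiv_smul_zsmul]

/-- **[GAL-ISO]** -/
theorem galIso : GalIsoStatement := by
  intro c₄ c₆ c₄' c₆' t u v h k
  obtain ⟨z, hz⟩ := exists_isPrim5
  have hb := isBasis5 h hz
  have hb' := isBasis5 k hz
  obtain ⟨ψ, hψ⟩ := hb.exists_equiv hb'
  refine ⟨ψ, ?_⟩
  intro σ x
  obtain ⟨n₁, n₂, n₃, n₄, e1, e2, e3, e4⟩ := gal_law h hz t k σ
  have hx5 : (5 : ℕ) • x.1 = 0 := by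
    have := x.2
    rw [Submodule.mem_torsionBy_iff, natCast_zsmul] at this
    exact this
  obtain ⟨a, b, hab⟩ := hb.span x.1 hx5
  apply Subtype.ext
  have hσx : (σ • x).1 = (a * n₁ + b * n₃) • ptP h hz + (a * n₂ + b * n₄) • ptQ h := by
    show σ • x.1 = _
    rw [hab, gal_smul_combo, e1, e2]
    exact combo_combo a b n₁ n₂ n₃ n₄ _ _
  rw [hψ _ _ _ hσx]
  show _ = σ • (ψ x).1
  rw [hψ x a b hab, gal_smul_combo, e3, e4]
  exact (combo_combo a b n₁ n₂ n₃ n₄ _ _).symm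

end Iso

end Fermat.Agent.P7.helper73
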