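import Mathlib
import Fermat.Agent.P7.helper73_FamData
import Fermat.Agent.P7.helper73_FamDataT

/-!
# P7 / S52, module FAM: derived laws (helper73)

* `kT_T` : invariance of `kT` under Klein's `T` (from the on-curve identities);
* primitive fifth roots of unity: `z ^ 5 = 1`, `z ≠ 1`, and `z ^ 2`, `z ^ 3`, `z ^ 4` are again
  roots of `X⁴ + X³ + X² + X + 1`;
* scalar laws: for `e ^ 5 = 1` the forms `kH, kT, kxP, kyP, kxQ, kyQ` are invariant under
  `(u, v) ↦ (e u, e v)`, `kF ↦ e ^ 2 kF`, `w ↦ e w`;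
* the family `v_t = v + t w(v)` commutes with `S`, `T`, scalars.
-/

set_option autoImplicit false
set_option linter.unusedSectionVars false
set_option linter.unusedVariables false

namespace Fermat.Agent.P7.helper73

open Fermat.Agent.P7.helper80

variable {K : Type*} [Field K] [CharZero K]

/-- `IsPrim5 z` : `z` is a primitive fifth root of unity. -/
def IsPrim5 (z : K) : Prop := z ^ 4 + z ^ 3 + z ^ 2 + z + 1 = 0

theorem IsPrim5.pow_five {z : K} (hz : IsPrim5 z) : z ^ 5 = 1 := by
  unfold IsPrim5 at hz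
  linear_combination (z - 1) * hz

theorem IsPrim5.ne_one {z : K} (hz : IsPrim5 z) : z ≠ 1 := by
  rintro rfl
  unfold IsPrim5 at hz
  norm_num at hz

theorem IsPrim5.ne_zero {z : K} (hz : IsPrim5 z) : z ≠ 0 := by
  rintro rfl
  unfold IsPrim5 at hz
  norm_num at hz

theorem IsPrim5.sq {z : K} (hz : IsPrim5 z) : IsPrim5 (z ^ 2) := by
  unfold IsPrim5 at hz ⊢
  linear_combination (z ^ 4 - z ^ 3 + z ^ 2 - z + 1) * hz

theorem IsPrim5.pow_four {z : K} (hz : IsPrim5 z) : IsPrim5 (z ^ 4) := by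
  have h := hz.sq.sq
  rwa [← pow_mul] at h

theorem IsPrim5.pow_three {z : K} (hz : IsPrim5 z) : IsPrim5 (z ^ 3) := by
  have h := hz.pow_four.sq
  have h5 := hz.pow_five
  have e : (z ^ 4) ^ 2 = z ^ 3 := by
    calc (z ^ 4) ^ 2 = z ^ 5 * z ^ 3 := by ring
      _ = z ^ 3 := by rw [h5, one_mul]
  rwa [e] at h

/-- invariance of `kT` under Klein's `T`. -/
theorem kT_T {z : K} (hz : z ^ 4 + z ^ 3 + z ^ 2 + z + 1 = 0) (u v : K) :
    kT (kTu z u v) (kTv z u v) = kT u v := by
  have h1 := kyP_sq hz (kTu z u v) (kTv z u v)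
  rw [kxP_T hz, kyP_T hz, kH_T hz] at h1
  have h2 := kyQ_sq u v
  linear_combination (-1 / 54 : K) * h1 + (1 / 54 : K) * h2

section scalar

variable {e : K} (he : e ^ 5 = 1) (u v : K)
include he

theorem kH_e : kH (e * u) (e * v) = kH u v := by
  rw [kH_smul, show e ^ 20 = (e ^ 5) ^ 4 by ring, he]; ring

theorem kT_e : kT (e * u) (e * v) = kT u v := by
  rw [kT_smul, show e ^ 30 = (e ^ 5) ^ 6 by ring, he]; ring

theorem kF_e : kF (e * u) (e * v) = e ^ 2 * kF u v := by
  rw [kF_smul, show e ^ 12 = (e ^ 5) ^ 2 * e ^ 2 by ring, he]; ring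

theorem kW1_e : kW1 (e * u) (e * v) = e * kW1 u v := by
  have : kW1 (e * u) (e * v) = e ^ 11 * kW1 u v := by simp only [kW1]; ring
  rw [this, show e ^ 11 = (e ^ 5) ^ 2 * e by ring, he]; ring

theorem kW2_e : kW2 (e * u) (e * v) = e * kW2 u v := by
  have : kW2 (e * u) (e * v) = e ^ 11 * kW2 u v := by simp only [kW2]; ring
  rw [this, show e ^ 11 = (e ^ 5) ^ 2 * e by ring, he]; ring

theorem kxQ_e : kxQ (e * u) (e * v) = kxQ u v := by
  have : kxQ (e * u) (e * v) = e ^ 10 * kxQ u v := by simp only [kxQ]; ring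
  rw [this, show e ^ 10 = (e ^ 5) ^ 2 by ring, he]; ring

theorem kyQ_e : kyQ (e * u) (e * v) = kyQ u v := by
  have : kyQ (e * u) (e * v) = e ^ 15 * kyQ u v := by simp only [kyQ]; ring
  rw [this, show e ^ 15 = (e ^ 5) ^ 3 by ring, he]; ring

theorem kxP_e (z : K) : kxP z (e * u) (e * v) = kxP z u v := by
  have : kxP z (e * u) (e * v) = e ^ 10 * kxP z u v := by simp only [kxP]; ring
  rw [this, show e ^ 10 = (e ^ 5) ^ 2 by ring, he]; ring

theorem kyP_e (z : K) : kyP z (e * u) (e * v) = kyP z u v := by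
  have : kyP z (e * u) (e * v) = e ^ 15 * kyP z u v := by simp only [kyP]; ring
  rw [this, show e ^ 15 = (e ^ 5) ^ 3 by ring, he]; ring

end scalar

/-- negation `v ↦ -v` -/
theorem kxP_neg (z u v : K) : kxP z (-u) (-v) = kxP z u v := by simp only [kxP]; ring

theorem kyP_neg (z u v : K) : kyP z (-u) (-v) = -kyP z u v := by simp only [kyP]; ring

theorem kxQ_neg (u v : K) : kxQ (-u) (-v) = kxQ u v := by simp only [kxQ]; ring

theorem kyQ_neg (u v : K) : kyQ (-u) (-v) = -kyQ u v := by simp only [kyQ]; ring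

/-! ### the family commutes with the symmetries -/

theorem famU_S {z : K} (hz : z ^ 4 + z ^ 3 + z ^ 2 + z + 1 = 0) (u v t : K) :
    famU (z * u) v t = z * famU u v t := by
  simp only [famU, kW1_S hz]; ring

theorem famV_S {z : K} (hz : z ^ 4 + z ^ 3 + z ^ 2 + z + 1 = 0) (u v t : K) :
    famV (z * u) v t = famV u v t := by
  simp only [famV, kW2_S hz]

theorem famU_e {e : K} (he : e ^ 5 = 1) (u v t : K) :
    famU (e * u) (e * v) t = e * famU u v t := by
  simp only [famU, kW1_e he]; ring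

theorem famV_e {e : K} (he : e ^ 5 = 1) (u v t : K) :
    famV (e * u) (e * v) t = e * famV u v t := by
  simp only [famV, kW2_e he]; ring

theorem famU_T {z : K} (hz : z ^ 4 + z ^ 3 + z ^ 2 + z + 1 = 0) (u v t : K) :
    famU (kTu z u v) (kTv z u v) t = kTu z (famU u v t) (famV u v t) := by
  have h := kW1_T hz u v
  unfold famU famV
  rw [h]
  simp only [kTu]; ring

theorem famV_T {z : K} (hz : z ^ 4 + z ^ 3 + z ^ 2 + z + 1 = 0) (u v t : K) :
    famV (kTu z u v) (kTv z u v) t = kTv z (famU u v t) (famV u v t) := by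
  have h := kW2_T hz u v
  unfold famU famV
  rw [h]
  simp only [kTv]; ring

theorem famU_U (u v t : K) : famU (-v) u t = -famV u v t := by
  simp only [famU, famV, kW1_U]; ring

theorem famV_U (u v t : K) : famV (-v) u t = famU u v t := by
  simp only [famU, famV, kW2_U]

end Fermat.Agent.P7.helper73
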