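import Mathlib
import Fermat.Agent.P7.helper73_FamLaws

/-!
# P7 / S52, module FAM: the universal points as points of a short Weierstrass curve (helper73)

For a short curve `E : y² = x³ + a₄ x + a₆` over a field `K` of characteristic `0` and a point
`(u, v)` of Klein's cone over `E` (`a₄ = 27 kH u v`, `a₆ = 54 kT u v`, `kF u v ≠ 0`):
the points `ptP z`, `ptQ`, `pt2Q` of `E`, their group relations and transformation laws.
-/

set_option autoImplicit false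
set_option linter.unusedSectionVars false
set_option linter.unusedVariables false

open WeierstrassCurve WeierstrassCurve.Affine

namespace Fermat.Agent.P7.helper73

open Fermat.Agent.P7.helper80

variable {K : Type*} [Field K] [CharZero K] [DecidableEq K]

/-! ### the group law on a short curve, in cleared form -/

section short

variable {E : WeierstrassCurve K}

theorem equation_short (h₁ : E.a₁ = 0) (h₂ : E.a₂ = 0) (h₃ : E.a₃ = 0) (x y : K) :
    E.toAffine.Equation x y ↔ y ^ 2 = x ^ 3 + E.a₄ * x + E.a₆ := by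
  rw [Affine.equation_iff]
  simp only [toAffine, h₁, h₂, h₃]
  constructor <;> intro h <;> linear_combination h

theorem nonsingular_short (h₁ : E.a₁ = 0) (h₂ : E.a₂ = 0) (h₃ : E.a₃ = 0) {x y : K}
    (he : y ^ 2 = x ^ 3 + E.a₄ * x + E.a₆) (hy : y ≠ 0) : E.toAffine.Nonsingular x y := by
  rw [Affine.nonsingular_iff]
  refine ⟨(equation_short h₁ h₂ h₃ x y).2 he, Or.inr ?_⟩
  simp only [toAffine, h₁, h₃]
  intro h
  apply hy
  have h2 : (2 : K) * y = 0 := by linear_combination h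
  rcases mul_eq_zero.1 h2 with h' | h'
  · exact absurd h' (by norm_num)
  · exact h'

theorem neg_short (h₁ : E.a₁ = 0) (h₃ : E.a₃ = 0) {x y : K}
    (hP : E.toAffine.Nonsingular x y) (hP' : E.toAffine.Nonsingular x (-y)) :
    -Point.some x y hP = Point.some x (-y) hP' := by
  rw [Point.neg_some]
  simp only [Point.some.injEq, true_and]
  simp only [Affine.negY, toAffine, h₁, h₃]
  ring

theorem add_short (h₁ : E.a₁ = 0) (h₂ : E.a₂ = 0) (h₃ : E.a₃ = 0) {x₁ y₁ x₂ y₂ x₃ y₃ l : K}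
    (hP₁ : E.toAffine.Nonsingular x₁ y₁) (hP₂ : E.toAffine.Nonsingular x₂ y₂)
    (hP₃ : E.toAffine.Nonsingular x₃ y₃) (hx : x₁ ≠ x₂)
    (hl : l * (x₁ - x₂) = y₁ - y₂) (hx₃ : x₃ = l ^ 2 - x₁ - x₂)
    (hy₃ : y₃ = -(l * (x₃ - x₁) + y₁)) :
    Point.some x₁ y₁ hP₁ + Point.some x₂ y₂ hP₂ = Point.some x₃ y₃ hP₃ := by
  rw [Point.add_of_X_ne hx]
  have hs : E.toAffine.slope x₁ x₂ y₁ y₂ = l := by
    rw [Affine.slope_of_X_ne hx]
    have : x₁ - x₂ ≠ 0 := sub_ne_zero.2 hx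
    field_simp
    linear_combination -hl
  simp only [Point.some.injEq]
  have hX : E.toAffine.addX x₁ x₂ (E.toAffine.slope x₁ x₂ y₁ y₂) = x₃ := by
    rw [hs, hx₃]
    simp only [Affine.addX, toAffine, h₁, h₂]
    ring
  refine ⟨hX, ?_⟩
  simp only [Affine.addY, Affine.negAddY, Affine.negY]
  rw [hX, hs, hy₃]
  simp only [toAffine, h₁, h₃]
  ring

theorem dbl_short (h₁ : E.a₁ = 0) (h₂ : E.a₂ = 0) (h₃ : E.a₃ = 0) {x₁ y₁ x₃ y₃ l : K}
    (hP₁ : E.toAffine.Nonsingular x₁ y₁)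
    (hP₃ : E.toAffine.Nonsingular x₃ y₃) (hy : y₁ ≠ 0)
    (hl : l * (2 * y₁) = 3 * x₁ ^ 2 + E.a₄) (hx₃ : x₃ = l ^ 2 - 2 * x₁)
    (hy₃ : y₃ = -(l * (x₃ - x₁) + y₁)) :
    (2 : ℕ) • Point.some x₁ y₁ hP₁ = Point.some x₃ y₃ hP₃ := by
  rw [two_nsmul]
  have hne : y₁ ≠ E.toAffine.negY x₁ y₁ := by
    simp only [Affine.negY, toAffine, h₁, h₃]
    intro h
    apply hy
    have h2 : (2 : K) * y₁ = 0 := by linear_combination h
    rcases mul_eq_zero.1 h2 with h' | h'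
    · exact absurd h' (by norm_num)
    · exact h'
  rw [Point.add_self_of_Y_ne hne]
  have hs : E.toAffine.slope x₁ x₁ y₁ y₁ = l := by
    rw [Affine.slope_of_Y_ne rfl hne]
    simp only [Affine.negY, toAffine, h₁, h₂, h₃]
    have : (2 : K) * y₁ ≠ 0 := mul_ne_zero (by norm_num) hy
    have h2 : y₁ - (-y₁ - 0 * x₁ - 0) = 2 * y₁ := by ring
    rw [h2]
    field_simp
    linear_combination -hl
  simp only [Point.some.injEq]
  have hX : E.toAffine.addX x₁ x₁ (E.toAffine.slope x₁ x₁ y₁ y₁) = x₃ := by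
    rw [hs, hx₃]
    simp only [Affine.addX, toAffine, h₁, h₂]
    ring
  refine ⟨hX, ?_⟩
  simp only [Affine.addY, Affine.negAddY, Affine.negY]
  rw [hX, hs, hy₃]
  simp only [toAffine, h₁, h₃]
  ring

end short

/-! ### points of Klein's cone over a short curve -/

/-- `IsKP E u v`: `E` is the short curve `y² = x³ + 27 kH(u,v) x + 54 kT(u,v)` and `(u, v)` is
not a cusp. -/
structure IsKP (E : WeierstrassCurve K) (u v : K) : Prop where
  a₁ : E.a₁ = 0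
  a₂ : E.a₂ = 0
  a₃ : E.a₃ = 0
  a₄ : E.a₄ = 27 * kH u v
  a₆ : E.a₆ = 54 * kT u v
  hF : kF u v ≠ 0

section pts

variable {E : WeierstrassCurve K} {u v z : K}

theorem IsKP.sqF (h : IsKP E u v) : kF u v ^ 2 ≠ 0 := pow_ne_zero 2 h.hF

theorem IsKP.u_ne (h : IsKP E u v) : u ≠ 0 := by
  rintro rfl
  exact h.hF (by simp [kF])

theorem IsKP.v_ne (h : IsKP E u v) : v ≠ 0 := by
  rintro rfl
  exact h.hF (by simp [kF])

theorem IsKP.kyP_ne (h : IsKP E u v) (hz : IsPrim5 z) : kyP z u v ≠ 0 := by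
  intro h0
  have := kC3_mul hz u v
  rw [h0, zero_mul] at this
  exact h.sqF this.symm

theorem IsKP.kyQ_ne (h : IsKP E u v) : kyQ u v ≠ 0 := by
  intro h0
  have := kC4_mul u v
  rw [h0, zero_mul] at this
  exact h.sqF this.symm

theorem IsKP.kxQ_ne_kxP (h : IsKP E u v) (hz : IsPrim5 z) : kxQ u v ≠ kxP z u v := by
  intro h0
  have := kC1_mul hz u v
  rw [h0, sub_self, zero_mul] at this
  exact h.sqF this.symm

theorem IsKP.kxQ_ne_kxP2 (h : IsKP E u v) (hz : IsPrim5 z) : kxQ u v ≠ kxP (z ^ 2) u v := by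
  intro h0
  have := kC2_mul hz u v
  rw [h0, sub_self, zero_mul] at this
  exact h.sqF this.symm

/-- the transformed points are again Klein points of the same curve -/
theorem IsKP.S (h : IsKP E u v) (hz : IsPrim5 z) : IsKP E (z * u) v where
  a₁ := h.a₁
  a₂ := h.a₂
  a₃ := h.a₃
  a₄ := by rw [h.a₄, kH_S hz]
  a₆ := by rw [h.a₆, kT_S hz]
  hF := by rw [kF_S hz]; exact mul_ne_zero hz.ne_zero h.hF

theorem IsKP.T (h : IsKP E u v) (hz : IsPrim5 z) : IsKP E (kTu z u v) (kTv z u v) where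
  a₁ := h.a₁
  a₂ := h.a₂
  a₃ := h.a₃
  a₄ := by rw [h.a₄, kH_T hz]
  a₆ := by rw [h.a₆, kT_T hz]
  hF := by rw [kF_T hz]; exact h.hF

theorem IsKP.U (h : IsKP E u v) : IsKP E (-v) u where
  a₁ := h.a₁
  a₂ := h.a₂
  a₃ := h.a₃
  a₄ := by rw [h.a₄, kH_U]
  a₆ := by rw [h.a₆, kT_U]
  hF := by rw [kF_U]; exact h.hF

theorem IsKP.scal (h : IsKP E u v) {e : K} (he : e ^ 5 = 1) : IsKP E (e * u) (e * v) where
  a₁ := h.a₁
  a₂ := h.a₂
  a₃ := h.a₃
  a₄ := by rw [h.a₄, kH_e he]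
  a₆ := by rw [h.a₆, kT_e he]
  hF := by
    rw [kF_e he]
    have he0 : e ≠ 0 := by
      rintro rfl
      norm_num at he
    exact mul_ne_zero (pow_ne_zero 2 he0) h.hF

theorem IsKP.nonsingP (h : IsKP E u v) (hz : IsPrim5 z) :
    E.toAffine.Nonsingular (kxP z u v) (kyP z u v) :=
  nonsingular_short h.a₁ h.a₂ h.a₃
    (by rw [h.a₄, h.a₆]; linear_combination kyP_sq hz u v) (h.kyP_ne hz)

theorem IsKP.nonsingQ (h : IsKP E u v) :
    E.toAffine.Nonsingular (kxQ u v) (kyQ u v) :=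
  nonsingular_short h.a₁ h.a₂ h.a₃
    (by rw [h.a₄, h.a₆]; linear_combination kyQ_sq u v) h.kyQ_ne

theorem IsKP.ky2Q_ne (h : IsKP E u v) : ky2Q u v ≠ 0 := by
  have h1 := h.U.kyQ_ne
  rw [kyQ_U] at h1
  exact neg_ne_zero.1 h1

theorem IsKP.nonsing2Q (h : IsKP E u v) :
    E.toAffine.Nonsingular (kx2Q u v) (ky2Q u v) :=
  nonsingular_short h.a₁ h.a₂ h.a₃
    (by rw [h.a₄, h.a₆]; linear_combination ky2Q_sq u v) h.ky2Q_ne

/-- the universal point `P_z(u, v)` -/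
def ptP (h : IsKP E u v) (hz : IsPrim5 z) : E.toAffine.Point :=
  Point.some (kxP z u v) (kyP z u v) (h.nonsingP hz)

/-- the universal point `Q(u, v)` -/
def ptQ (h : IsKP E u v) : E.toAffine.Point :=
  Point.some (kxQ u v) (kyQ u v) h.nonsingQ

/-- the universal point `2 Q(u, v)` -/
def pt2Q (h : IsKP E u v) : E.toAffine.Point :=
  Point.some (kx2Q u v) (ky2Q u v) h.nonsing2Q

theorem ptP_ne_zero (h : IsKP E u v) (hz : IsPrim5 z) : ptP h hz ≠ 0 := Point.some_ne_zero _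

theorem ptQ_ne_zero (h : IsKP E u v) : ptQ h ≠ 0 := Point.some_ne_zero _

theorem ptP_congr (h : IsKP E u v) {z z' : K} (hz : IsPrim5 z) (hz' : IsPrim5 z') (e : z = z') :
    ptP h hz = ptP h hz' := by
  subst e; rfl

theorem ptP_congr' {u' v' : K} (h : IsKP E u v) (h' : IsKP E u' v') (hz : IsPrim5 z)
    (eu : u = u') (ev : v = v') : ptP h hz = ptP h' hz := by
  subst eu; subst ev; rfl

theorem ptQ_congr' {u' v' : K} (h : IsKP E u v) (h' : IsKP E u' v')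
    (eu : u = u') (ev : v = v') : ptQ h = ptQ h' := by
  subst eu; subst ev; rfl

theorem ptP_eq_iff {u' v' : K} (h : IsKP E u v) (h' : IsKP E u' v') (hz : IsPrim5 z) :
    ptP h hz = ptP h' hz ↔ kxP z u v = kxP z u' v' ∧ kyP z u v = kyP z u' v' := by
  simp only [ptP, Point.some.injEq]

/-! ### group relations -/

theorem two_ptP (h : IsKP E u v) (hz : IsPrim5 z) : (2 : ℕ) • ptP h hz = ptP h hz.sq :=
  dbl_short h.a₁ h.a₂ h.a₃ _ _ (h.kyP_ne hz)
    (by rw [h.a₄]; exact ksP_mul hz u v) (kxP_dbl hz u v) (kyP_dbl hz u v)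

theorem ptP_pow_four (h : IsKP E u v) (hz : IsPrim5 z) : ptP h hz.pow_four = -ptP h hz := by
  have e := neg_short h.a₁ h.a₃ (h.nonsingP hz)
    (by have := h.nonsingP hz.pow_four; rwa [kxP_inv hz, kyP_inv hz] at this)
  unfold ptP
  rw [e]
  simp only [Point.some.injEq]
  exact ⟨kxP_inv hz u v, kyP_inv hz u v⟩

theorem four_ptP (h : IsKP E u v) (hz : IsPrim5 z) : (4 : ℕ) • ptP h hz = -ptP h hz := by
  have h1 : (4 : ℕ) • ptP h hz = (2 : ℕ) • ((2 : ℕ) • ptP h hz) := by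
    rw [← mul_nsmul]
  rw [h1, two_ptP h hz, two_ptP h hz.sq, ← ptP_pow_four h hz]
  exact ptP_congr h _ _ (by ring)

theorem five_ptP (h : IsKP E u v) (hz : IsPrim5 z) : (5 : ℕ) • ptP h hz = 0 := by
  have h1 : (5 : ℕ) • ptP h hz = (4 : ℕ) • ptP h hz + ptP h hz := by
    rw [succ_nsmul]
  rw [h1, four_ptP h hz, neg_add_cancel]

theorem three_ptP (h : IsKP E u v) (hz : IsPrim5 z) : (3 : ℕ) • ptP h hz = ptP h hz.pow_three := by
  -- `3 P = -2 P = -P_{z²} = P_{(z²)⁴} = P_{z³}`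
  have h5 := five_ptP h hz
  have h2 := two_ptP h hz
  have e1 : (3 : ℕ) • ptP h hz = -((2 : ℕ) • ptP h hz) := by
    rw [eq_neg_iff_add_eq_zero, ← add_nsmul]
    exact h5
  rw [e1, h2, ← ptP_pow_four h hz.sq]
  refine ptP_congr h _ _ ?_
  have h5z := hz.pow_five
  calc (z ^ 2) ^ 4 = z ^ 5 * z ^ 3 := by ring
    _ = z ^ 3 := by rw [h5z, one_mul]

theorem two_ptQ (h : IsKP E u v) : (2 : ℕ) • ptQ h = pt2Q h :=
  dbl_short h.a₁ h.a₂ h.a₃ _ _ h.kyQ_ne
    (by rw [h.a₄]; exact ksQ_mul u v) (kx2Q_eq u v) (ky2Q_eq u v)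

theorem two_pt2Q (h : IsKP E u v) : (2 : ℕ) • pt2Q h = -ptQ h := by
  have hn : E.toAffine.Nonsingular (kxQ u v) (-kyQ u v) :=
    nonsingular_short h.a₁ h.a₂ h.a₃
      (by rw [h.a₄, h.a₆]; linear_combination kyQ_sq u v) (neg_ne_zero.2 h.kyQ_ne)
  have e := neg_short h.a₁ h.a₃ h.nonsingQ hn
  unfold ptQ
  rw [e]
  exact dbl_short h.a₁ h.a₂ h.a₃ _ _ h.ky2Q_ne
    (by rw [h.a₄]; exact ks2Q_mul u v) (kxQ_eq u v) (kyQ_eq u v)

theorem four_ptQ (h : IsKP E u v) : (4 : ℕ) • ptQ h = -ptQ h := by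
  have h1 : (4 : ℕ) • ptQ h = (2 : ℕ) • ((2 : ℕ) • ptQ h) := by
    rw [← mul_nsmul]
  rw [h1, two_ptQ, two_pt2Q]

theorem five_ptQ (h : IsKP E u v) : (5 : ℕ) • ptQ h = 0 := by
  have h1 : (5 : ℕ) • ptQ h = (4 : ℕ) • ptQ h + ptQ h := by
    rw [succ_nsmul]
  rw [h1, four_ptQ h, neg_add_cancel]

/-! ### transformation laws -/

theorem ptP_S (h : IsKP E u v) (hz : IsPrim5 z) : ptP (h.S hz) hz = ptP h hz := by
  unfold ptP
  simp only [Point.some.injEq]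
  exact ⟨kxP_S hz u v, kyP_S hz u v⟩

theorem ptQ_S (h : IsKP E u v) (hz : IsPrim5 z) : ptQ (h.S hz) = ptQ h + ptP h hz :=
  (add_short h.a₁ h.a₂ h.a₃ h.nonsingQ (h.nonsingP hz) (h.S hz).nonsingQ (h.kxQ_ne_kxP hz)
    (klPQ_mul hz u v) (kxQ_S hz u v) (kyQ_S hz u v)).symm

theorem ptP_T (h : IsKP E u v) (hz : IsPrim5 z) : ptP (h.T hz) hz = -ptQ h := by
  have hn : E.toAffine.Nonsingular (kxQ u v) (-kyQ u v) :=
    nonsingular_short h.a₁ h.a₂ h.a₃
      (by rw [h.a₄, h.a₆]; linear_combination kyQ_sq u v) (neg_ne_zero.2 h.kyQ_ne)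
  have e := neg_short h.a₁ h.a₃ h.nonsingQ hn
  unfold ptQ
  rw [e]
  unfold ptP
  simp only [Point.some.injEq]
  exact ⟨kxP_T hz u v, kyP_T hz u v⟩

theorem ptQ_T (h : IsKP E u v) (hz : IsPrim5 z) : ptQ (h.T hz) = ptP h hz := by
  unfold ptP ptQ
  simp only [Point.some.injEq]
  exact ⟨kxQ_T hz u v, kyQ_T hz u v⟩

theorem ptP_U (h : IsKP E u v) (hz : IsPrim5 z) : ptP h.U hz = (2 : ℕ) • ptP h hz := by
  rw [two_ptP h hz]
  unfold ptP
  simp only [Point.some.injEq]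
  exact ⟨kxP_U hz u v, kyP_U hz u v⟩

theorem ptQ_U (h : IsKP E u v) : ptQ h.U = -((2 : ℕ) • ptQ h) := by
  rw [two_ptQ h]
  have hn : E.toAffine.Nonsingular (kx2Q u v) (-ky2Q u v) :=
    nonsingular_short h.a₁ h.a₂ h.a₃
      (by rw [h.a₄, h.a₆]; linear_combination ky2Q_sq u v) (neg_ne_zero.2 h.ky2Q_ne)
  have e := neg_short h.a₁ h.a₃ h.nonsing2Q hn
  unfold pt2Q
  rw [e]
  unfold ptQ
  simp only [Point.some.injEq]
  exact ⟨kxQ_U u v, kyQ_U u v⟩

theorem ptP_scal (h : IsKP E u v) (hz : IsPrim5 z) {e : K} (he : e ^ 5 = 1) :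
    ptP (h.scal he) hz = ptP h hz := by
  unfold ptP
  simp only [Point.some.injEq]
  exact ⟨kxP_e he u v z, kyP_e he u v z⟩

theorem ptQ_scal (h : IsKP E u v) {e : K} (he : e ^ 5 = 1) :
    ptQ (h.scal he) = ptQ h := by
  unfold ptQ
  simp only [Point.some.injEq]
  exact ⟨kxQ_e he u v, kyQ_e he u v⟩

end pts

end Fermat.Agent.P7.helper73
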