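import Mathlib
import Fermat.Agent.P7.helper73_FamPts
import Fermat.Agent.P6.helper78_TorsionCard

/-!
# P7 / S52, module FAM: `P_z(v), Q(v)` is a basis of `E[5]` (helper73)

For a Klein point `(u, v)` of a short curve `E` over an algebraically closed field of
characteristic `0`: the points `ptP`, `ptQ` are independent of order `5`, and every point killed
by `5` is `a • ptP + b • ptQ` with `a, b < 5` (`#E[5] = 25`, helper78).
-/

set_option autoImplicit false
set_option linter.unusedSectionVars false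
set_option linter.unusedVariables false

open WeierstrassCurve WeierstrassCurve.Affine

namespace Fermat.Agent.P7.helper73

open Fermat.Agent.P7.helper80

variable {K : Type*} [Field K] [CharZero K] [DecidableEq K]
variable {E : WeierstrassCurve K} {u v z : K}

theorem IsKP.Δ_ne (h : IsKP E u v) : E.Δ ≠ 0 := by
  have e : E.Δ = -(2 ^ 12 * 3 ^ 12) * kF u v ^ 5 := by
    simp only [WeierstrassCurve.Δ, WeierstrassCurve.b₂, WeierstrassCurve.b₄, WeierstrassCurve.b₆,
      WeierstrassCurve.b₈, h.a₁, h.a₂, h.a₃, h.a₄, h.a₆]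
    linear_combination (-(2 ^ 6 * 3 ^ 9) : K) * kT_sq_add_kH_cube u v
  rw [e]
  exact mul_ne_zero (by norm_num) (pow_ne_zero 5 h.hF)

theorem kxP_pow_three (hz : IsPrim5 z) (u v : K) : kxP (z ^ 3) u v = kxP (z ^ 2) u v := by
  have h1 := kxP_inv hz.sq u v
  have e : (z ^ 2) ^ 4 = z ^ 3 := by
    have h5z := hz.pow_five
    calc (z ^ 2) ^ 4 = z ^ 5 * z ^ 3 := by ring
      _ = z ^ 3 := by rw [h5z, one_mul]
  rwa [e] at h1

/-- reduction of a multiple modulo `5` -/
theorem nsmul_mod_five {A : Type*} [AddCommGroup A] {R : A} (hR : (5 : ℕ) • R = 0) (k : ℕ) :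
    k • R = (k % 5) • R := by
  conv_lhs => rw [← Nat.div_add_mod k 5]
  rw [add_nsmul, mul_nsmul, hR, smul_zero, zero_add]

theorem zsmul_eq_nsmul_mod_five {A : Type*} [AddCommGroup A] {R : A} (hR : (5 : ℕ) • R = 0)
    (m : ℤ) : m • R = (m % 5).toNat • R := by
  have h5 : (5 : ℤ) • R = 0 := by
    have := hR
    rwa [← natCast_zsmul] at this
  have hm : m = 5 * (m / 5) + m % 5 := (Int.mul_ediv_add_emod m 5).symm
  have hnn : 0 ≤ m % 5 := Int.emod_nonneg m (by norm_num)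
  conv_lhs => rw [hm]
  rw [add_zsmul, mul_comm, mul_zsmul, h5, smul_zero, zero_add]
  conv_lhs => rw [← Int.toNat_of_nonneg hnn]
  rw [natCast_zsmul]

theorem ptQ_ne_nsmul_ptP (h : IsKP E u v) (hz : IsPrim5 z) (k : ℕ) :
    ptQ h ≠ k • ptP h hz := by
  rw [nsmul_mod_five (five_ptP h hz) k]
  have hk : k % 5 < 5 := Nat.mod_lt _ (by norm_num)
  intro hQ
  interval_cases (k % 5)
  · rw [zero_nsmul] at hQ
    exact ptQ_ne_zero h hQ
  · rw [one_nsmul] at hQ
    unfold ptQ ptP at hQ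
    simp only [Point.some.injEq] at hQ
    exact h.kxQ_ne_kxP hz hQ.1
  · rw [two_ptP h hz] at hQ
    unfold ptQ ptP at hQ
    simp only [Point.some.injEq] at hQ
    exact h.kxQ_ne_kxP2 hz hQ.1
  · rw [three_ptP h hz] at hQ
    unfold ptQ ptP at hQ
    simp only [Point.some.injEq] at hQ
    exact h.kxQ_ne_kxP2 hz (hQ.1.trans (kxP_pow_three hz u v))
  · rw [four_ptP h hz, ← ptP_pow_four h hz] at hQ
    unfold ptQ ptP at hQ
    simp only [Point.some.injEq] at hQ
    exact h.kxQ_ne_kxP hz (hQ.1.trans (kxP_inv hz u v))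

/-- a point `R ≠ 0` killed by `5` is not killed by an integer prime to `5` -/
theorem dvd_of_zsmul_eq_zero {A : Type*} [AddCommGroup A] {R : A} (hR : (5 : ℕ) • R = 0)
    (hR0 : R ≠ 0) {m : ℤ} (hm : m • R = 0) : (5 : ℤ) ∣ m := by
  by_contra hnd
  have hcop : IsCoprime m 5 := by
    have hp : Prime (5 : ℤ) := Int.prime_iff_natAbs_prime.2 (by norm_num)
    exact (hp.irreducible.coprime_iff_not_dvd.2 hnd).symm
  obtain ⟨x, y, hxy⟩ := hcop
  have h5 : (5 : ℤ) • R = 0 := by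
    have := hR
    rwa [← natCast_zsmul] at this
  apply hR0
  calc R = (1 : ℤ) • R := (one_zsmul R).symm
    _ = (x * m + y * 5) • R := by rw [hxy]
    _ = x • (m • R) + y • ((5 : ℤ) • R) := by rw [add_zsmul, mul_zsmul, mul_zsmul]
    _ = 0 := by rw [hm, h5, smul_zero, smul_zero, add_zero]

/-- **independence** of `P_z(v)` and `Q(v)` -/
theorem indep (h : IsKP E u v) (hz : IsPrim5 z) {m n : ℤ}
    (hmn : m • ptP h hz + n • ptQ h = 0) : (5 : ℤ) ∣ m ∧ (5 : ℤ) ∣ n := by
  have h5P := five_ptP h hz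
  have h5Q := five_ptQ h
  have hn : (5 : ℤ) ∣ n := by
    by_contra hnd
    have hp : Prime (5 : ℤ) := Int.prime_iff_natAbs_prime.2 (by norm_num)
    have hcop : IsCoprime n 5 := (hp.irreducible.coprime_iff_not_dvd.2 hnd).symm
    obtain ⟨x, y, hxy⟩ := hcop
    have h5 : (5 : ℤ) • ptQ h = 0 := by
      have := h5Q
      rwa [← natCast_zsmul] at this
    have hnQ : n • ptQ h = -(m • ptP h hz) := by
      rw [eq_neg_iff_add_eq_zero, add_comm]; exact hmn
    have hQ : ptQ h = (-(x * m)) • ptP h hz := by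
      calc ptQ h = (1 : ℤ) • ptQ h := (one_zsmul _).symm
        _ = (x * n + y * 5) • ptQ h := by rw [hxy]
        _ = x • (n • ptQ h) + y • ((5 : ℤ) • ptQ h) := by
            rw [add_zsmul, mul_zsmul, mul_zsmul]
        _ = (-(x * m)) • ptP h hz := by
            rw [hnQ, h5, smul_zero, add_zero, neg_zsmul, mul_zsmul, smul_neg]
    rw [zsmul_eq_nsmul_mod_five h5P] at hQ
    exact ptQ_ne_nsmul_ptP h hz _ hQ
  refine ⟨?_, hn⟩
  obtain ⟨c, rfl⟩ := hn
  have h5 : (5 : ℤ) • ptQ h = 0 := by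
    have := h5Q
    rwa [← natCast_zsmul] at this
  have hm : m • ptP h hz = 0 := by
    rw [mul_comm, mul_zsmul, h5, smul_zero, add_zero] at hmn
    exact hmn
  exact dvd_of_zsmul_eq_zero h5P (ptP_ne_zero h hz) hm

/-- **basis**: every point killed by `5` is a combination of `P_z(v)` and `Q(v)`. -/
theorem exists_combo [IsAlgClosed K] (h : IsKP E u v) (hz : IsPrim5 z)
    (R : E.toAffine.Point) (hR : (5 : ℕ) • R = 0) :
    ∃ a b : ℕ, a < 5 ∧ b < 5 ∧ R = a • ptP h hz + b • ptQ h := by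
  have hcard : Nat.card {Q : E.toAffine.Point // (5 : ℕ) • Q = 0} = 5 ^ 2 :=
    Fermat.Agent.P6.helper78.card_nsmul_eq_zero' E h.Δ_ne (by norm_num)
      (by exact_mod_cast (by norm_num : (5 : ℕ) ≠ 0))
  have : Finite {Q : E.toAffine.Point // (5 : ℕ) • Q = 0} :=
    Nat.finite_of_card_ne_zero (by rw [hcard]; norm_num)
  let Φ : Fin 5 × Fin 5 → {Q : E.toAffine.Point // (5 : ℕ) • Q = 0} := fun ab =>
    ⟨(ab.1 : ℕ) • ptP h hz + (ab.2 : ℕ) • ptQ h, by
      rw [smul_add, smul_comm, five_ptP h hz, smul_zero, smul_comm, five_ptQ h, smul_zero,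
        add_zero]⟩
  have hinj : Function.Injective Φ := by
    rintro ⟨a, b⟩ ⟨a', b'⟩ hab
    have h1 : (a : ℕ) • ptP h hz + (b : ℕ) • ptQ h = (a' : ℕ) • ptP h hz + (b' : ℕ) • ptQ h :=
      congrArg Subtype.val hab
    have h2 : (((a : ℕ) : ℤ) - ((a' : ℕ) : ℤ)) • ptP h hz
        + (((b : ℕ) : ℤ) - ((b' : ℕ) : ℤ)) • ptQ h = 0 := by
      have e : (((a : ℕ) : ℤ) - ((a' : ℕ) : ℤ)) • ptP h hz
          + (((b : ℕ) : ℤ) - ((b' : ℕ) : ℤ)) • ptQ h
          = ((a : ℕ) • ptP h hz + (b : ℕ) • ptQ h)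
            - ((a' : ℕ) • ptP h hz + (b' : ℕ) • ptQ h) := by
        rw [sub_zsmul, sub_zsmul]
        simp only [natCast_zsmul]
        abel
      rw [e, h1, sub_self]
    obtain ⟨ha, hb⟩ := indep h hz h2
    have ha1 := a.isLt
    have ha2 := a'.isLt
    have hb1 := b.isLt
    have hb2 := b'.isLt
    have e1 : (a : ℕ) = (a' : ℕ) := by omega
    have e2 : (b : ℕ) = (b' : ℕ) := by omega
    exact Prod.ext (Fin.ext e1) (Fin.ext e2)
  have hbij : Function.Bijective Φ := by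
    refine (Nat.bijective_iff_injective_and_card Φ).2 ⟨hinj, ?_⟩
    rw [hcard, Nat.card_prod, Nat.card_eq_fintype_card, Fintype.card_fin]
    norm_num
  obtain ⟨⟨a, b⟩, hab⟩ := hbij.2 ⟨R, hR⟩
  exact ⟨a, b, a.isLt, b.isLt, (congrArg Subtype.val hab).symm⟩

end Fermat.Agent.P7.helper73
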