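import Mathlib
import Fermat.Agent.P7.helper73_FamTors

/-!
# P7 / S52, module FAM: rigidity and the orbit theorem (helper73)

* `rigid` : `X₁(5)`-rigidity: two Klein points of the same curve with the same point `P_z`
  have the same fifth powers of coordinates;
* `Orb z u v a b` : `(a, b)` is obtained from `(u, v)` by a word in `S = diag(z, 1)`, Klein's `T`,
  `U` and the scalars `μ₅`;
* `orbit` : over an algebraically closed field, any two Klein points of the same curve lie in
  one orbit (`fibre = orbit`);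
* `Orb.label` : the action on the basis `(P_z, Q)` is by an integral matrix which is the same
  for all members of the family `v_t = v + t w(v)`.
-/

set_option autoImplicit false
set_option linter.unusedSectionVars false
set_option linter.unusedVariables false

open WeierstrassCurve WeierstrassCurve.Affine

namespace Fermat.Agent.P7.helper73

open Fermat.Agent.P7.helper80

variable {K : Type*} [Field K] [CharZero K] [DecidableEq K]
variable {E : WeierstrassCurve K} {u v z : K}

/-- the fifth roots of unity are the powers of `z` -/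
theorem exists_pow_of_pow_five (hz : IsPrim5 z) {e : K} (he : e ^ 5 = 1) :
    ∃ m : ℕ, m < 5 ∧ e = z ^ m := by
  have hprod : (e - 1) * (e - z) * (e - z ^ 2) * (e - z ^ 3) * (e - z ^ 4) = 0 := by
    unfold IsPrim5 at hz
    linear_combination he + (-e ^ 4 + z * e ^ 3 + z ^ 3 * e ^ 3 - z ^ 3 * e ^ 2
      - z ^ 5 * e ^ 2 + z ^ 6 * e + 1 - z + z ^ 5 - z ^ 6) * hz
  rcases mul_eq_zero.1 hprod with h | h
  · rcases mul_eq_zero.1 h with h | h
    · rcases mul_eq_zero.1 h with h | h
      · rcases mul_eq_zero.1 h with h | h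
        · exact ⟨0, by norm_num, by rw [pow_zero]; exact sub_eq_zero.1 h⟩
        · exact ⟨1, by norm_num, by rw [pow_one]; exact sub_eq_zero.1 h⟩
      · exact ⟨2, by norm_num, sub_eq_zero.1 h⟩
    · exact ⟨3, by norm_num, sub_eq_zero.1 h⟩
  · exact ⟨4, by norm_num, sub_eq_zero.1 h⟩

/-- **`X₁(5)`-rigidity** -/
theorem rigid {u' v' : K} (h : IsKP E u v) (h' : IsKP E u' v') (hz : IsPrim5 z)
    (hP : ptP h' hz = ptP h hz) : u' ^ 5 = u ^ 5 ∧ v' ^ 5 = v ^ 5 := by
  obtain ⟨hx, hy⟩ := (ptP_eq_iff h' h hz).1 hP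
  have hH : kH u' v' = kH u v := by
    have := h.a₄.symm.trans h'.a₄
    exact (mul_left_cancel₀ (by norm_num : (27 : K) ≠ 0) this).symm
  have hy0 := h.kyP_ne hz
  have h2y : (2 : K) * kyP z u v ≠ 0 := mul_ne_zero two_ne_zero hy0
  have hs : ksP z u' v' = ksP z u v := by
    have e1 := ksP_mul hz u v
    have e2 := ksP_mul hz u' v'
    rw [hx, hy, hH] at e2
    exact mul_right_cancel₀ h2y (e2.trans e1.symm)
  have ha2 : 3 * kxP z u v - ksP z u v ^ 2 ≠ 0 := by
    intro h0
    have := kL2_mul hz u v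
    rw [h0, zero_mul] at this
    exact h2y this.symm
  have hL : kL2 z u' v' = kL2 z u v := by
    have e1 := kL2_mul hz u v
    have e2 := kL2_mul hz u' v'
    rw [hx, hy, hs] at e2
    exact mul_left_cancel₀ ha2 (e2.trans e1.symm)
  constructor
  · have e1 := kU5_eq hz u v
    have e2 := kU5_eq hz u' v'
    rw [hs, hL] at e2
    exact mul_left_cancel₀ (by norm_num : (90 : K) ≠ 0) (e2.trans e1.symm)
  · have e1 := kV5_eq hz u v
    have e2 := kV5_eq hz u' v'
    rw [hs, hL] at e2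
    exact mul_left_cancel₀ (by norm_num : (90 : K) ≠ 0) (e2.trans e1.symm)

/-- consequence of rigidity: the second point is `(e₁ u, e₂ v)` with fifth roots of unity -/
theorem rigid' {u' v' : K} (h : IsKP E u v) (h' : IsKP E u' v') (hz : IsPrim5 z)
    (hP : ptP h' hz = ptP h hz) :
    ∃ (m : ℕ) (e : K), e ^ 5 = 1 ∧ u' = z ^ m * (e * u) ∧ v' = e * v := by
  obtain ⟨hu, hv⟩ := rigid h h' hz hP
  have hu0 := h.u_ne
  have hv0 := h.v_ne
  have he₂ : (v' / v) ^ 5 = 1 := by
    rw [div_pow, hv, div_self (pow_ne_zero 5 hv0)]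
  have he₁ : (u' / u) ^ 5 = 1 := by
    rw [div_pow, hu, div_self (pow_ne_zero 5 hu0)]
  have he₂0 : v' / v ≠ 0 := by
    intro h0
    rw [h0] at he₂
    norm_num at he₂
  have hq : ((u' / u) / (v' / v)) ^ 5 = 1 := by
    rw [div_pow, he₁, he₂, div_one]
  obtain ⟨m, -, hm⟩ := exists_pow_of_pow_five hz hq
  have hv'0 : v' ≠ 0 := h'.v_ne
  refine ⟨m, v' / v, he₂, ?_, ?_⟩
  · rw [← hm]
    field_simp
  · field_simp

/-- the orbit of `(u, v)` under the group generated by `S`, `T`, `U` and `μ₅` -/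
inductive Orb (z : K) (u v : K) : K → K → Prop
  | refl : Orb z u v u v
  | S {a b : K} : Orb z u v a b → Orb z u v (z * a) b
  | T {a b : K} : Orb z u v a b → Orb z u v (kTu z a b) (kTv z a b)
  | U {a b : K} : Orb z u v a b → Orb z u v (-b) a
  | scal {a b : K} (e : K) (he : e ^ 5 = 1) : Orb z u v a b → Orb z u v (e * a) (e * b)

theorem Orb.isKP (hz : IsPrim5 z) {a b : K} (o : Orb z u v a b) (h : IsKP E u v) :
    IsKP E a b := by
  induction o with
  | refl => exact h
  | S _ ih => exact ih.S hz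
  | T _ ih => exact ih.T hz
  | U _ ih => exact ih.U
  | scal e he _ ih => exact ih.scal he

theorem Orb.Spow (hz : IsPrim5 z) {a b : K} (o : Orb z u v a b) (m : ℕ) :
    Orb z u v (z ^ m * a) b := by
  induction m with
  | zero => simpa using o
  | succ n ih =>
    have := ih.S
    have e : z * (z ^ n * a) = z ^ (n + 1) * a := by ring
    rwa [e] at this

/-- the family `v ↦ v_t` maps orbits to orbits -/
theorem Orb.fam (hz : IsPrim5 z) {a b : K} (o : Orb z u v a b) (t : K) :
    Orb z (famU u v t) (famV u v t) (famU a b t) (famV a b t) := by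
  induction o with
  | refl => exact Orb.refl
  | @S a b _ ih =>
    have := ih.S
    rwa [← famU_S hz, ← famV_S hz a b t] at this
  | @T a b _ ih =>
    have := ih.T
    rwa [← famU_T hz, ← famV_T hz] at this
  | @U a b _ ih =>
    have := ih.U
    rwa [← famU_U, ← famV_U a b t] at this
  | @scal a b e he _ ih =>
    have := ih.scal e he
    rwa [← famU_e he, ← famV_e he] at this

/-- invariance of `kH`, `kT` along an orbit -/
theorem Orb.kH_eq (hz : IsPrim5 z) {a b : K} (o : Orb z u v a b) : kH a b = kH u v := by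
  induction o with
  | refl => rfl
  | S _ ih => rw [kH_S hz, ih]
  | T _ ih => rw [kH_T hz, ih]
  | U _ ih => rw [kH_U, ih]
  | scal e he _ ih => rw [kH_e he, ih]

theorem Orb.kT_eq (hz : IsPrim5 z) {a b : K} (o : Orb z u v a b) : kT a b = kT u v := by
  induction o with
  | refl => rfl
  | S _ ih => rw [kT_S hz, ih]
  | T _ ih => rw [kT_T hz, ih]
  | U _ ih => rw [kT_U, ih]
  | scal e he _ ih => rw [kT_e he, ih]

theorem two_nsmul_combo {A : Type*} [AddCommGroup A] (m₁ m₂ : ℤ) (P Q : A) :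
    (2 : ℕ) • (m₁ • P + m₂ • Q) = (2 * m₁) • P + (2 * m₂) • Q := by
  simp only [two_nsmul, two_mul, add_zsmul]
  abel

theorem neg_two_nsmul_combo {A : Type*} [AddCommGroup A] (m₁ m₂ : ℤ) (P Q : A) :
    -((2 : ℕ) • (m₁ • P + m₂ • Q)) = (-(2 * m₁)) • P + (-(2 * m₂)) • Q := by
  simp only [two_nsmul, two_mul, add_zsmul, neg_zsmul]
  abel

/-- **label matrices**: along an orbit the basis `(P_z, Q)` transforms by an integral matrix,
the same for all members of the family. -/
theorem Orb.label (hz : IsPrim5 z) {a b : K} (o : Orb z u v a b) :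
    ∃ m₁ m₂ m₃ m₄ : ℤ, ∀ (E' : WeierstrassCurve K) (t : K)
      (k : IsKP E' (famU u v t) (famV u v t)) (k' : IsKP E' (famU a b t) (famV a b t)),
      ptP k' hz = m₁ • ptP k hz + m₂ • ptQ k ∧ ptQ k' = m₃ • ptP k hz + m₄ • ptQ k := by
  induction o with
  | refl =>
    refine ⟨1, 0, 0, 1, fun E' t k k' => ⟨?_, ?_⟩⟩
    · rw [one_zsmul, zero_zsmul, add_zero]
    · rw [one_zsmul, zero_zsmul, zero_add]
  | @S a b o ih =>
    obtain ⟨m₁, m₂, m₃, m₄, H⟩ := ih
    refine ⟨m₁, m₂, m₃ + m₁, m₄ + m₂, fun E' t k k'' => ?_⟩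
    have k' : IsKP E' (famU a b t) (famV a b t) := (o.fam hz t).isKP hz k
    obtain ⟨hP, hQ⟩ := H E' t k k'
    have e1 : ptP k'' hz = ptP (k'.S hz) hz :=
      ptP_congr' _ _ hz (famU_S hz a b t) (famV_S hz a b t)
    have e2 : ptQ k'' = ptQ (k'.S hz) :=
      ptQ_congr' _ _ (famU_S hz a b t) (famV_S hz a b t)
    rw [e1, ptP_S k' hz, e2, ptQ_S k' hz, hP, hQ]
    refine ⟨rfl, ?_⟩
    rw [add_zsmul, add_zsmul]
    abel
  | @T a b o ih =>
    obtain ⟨m₁, m₂, m₃, m₄, H⟩ := ih
    refine ⟨-m₃, -m₄, m₁, m₂, fun E' t k k'' => ?_⟩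
    have k' : IsKP E' (famU a b t) (famV a b t) := (o.fam hz t).isKP hz k
    obtain ⟨hP, hQ⟩ := H E' t k k'
    have e1 : ptP k'' hz = ptP (k'.T hz) hz :=
      ptP_congr' _ _ hz (famU_T hz a b t) (famV_T hz a b t)
    have e2 : ptQ k'' = ptQ (k'.T hz) :=
      ptQ_congr' _ _ (famU_T hz a b t) (famV_T hz a b t)
    rw [e1, ptP_T k' hz, e2, ptQ_T k' hz, hP, hQ]
    refine ⟨?_, rfl⟩
    rw [neg_zsmul, neg_zsmul]
    abel
  | @U a b o ih =>
    obtain ⟨m₁, m₂, m₃, m₄, H⟩ := ih
    refine ⟨2 * m₁, 2 * m₂, -(2 * m₃), -(2 * m₄), fun E' t k k'' => ?_⟩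
    have k' : IsKP E' (famU a b t) (famV a b t) := (o.fam hz t).isKP hz k
    obtain ⟨hP, hQ⟩ := H E' t k k'
    have e1 : ptP k'' hz = ptP k'.U hz :=
      ptP_congr' _ _ hz (famU_U a b t) (famV_U a b t)
    have e2 : ptQ k'' = ptQ k'.U :=
      ptQ_congr' _ _ (famU_U a b t) (famV_U a b t)
    rw [e1, ptP_U k' hz, e2, ptQ_U k', hP, hQ]
    exact ⟨two_nsmul_combo _ _ _ _, neg_two_nsmul_combo _ _ _ _⟩
  | @scal a b e he o ih =>
    obtain ⟨m₁, m₂, m₃, m₄, H⟩ := ih
    refine ⟨m₁, m₂, m₃, m₄, fun E' t k k'' => ?_⟩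
    have k' : IsKP E' (famU a b t) (famV a b t) := (o.fam hz t).isKP hz k
    obtain ⟨hP, hQ⟩ := H E' t k k'
    have e1 : ptP k'' hz = ptP (k'.scal he) hz :=
      ptP_congr' _ _ hz (famU_e he a b t) (famV_e he a b t)
    have e2 : ptQ k'' = ptQ (k'.scal he) :=
      ptQ_congr' _ _ (famU_e he a b t) (famV_e he a b t)
    rw [e1, ptP_scal k' hz he, e2, ptQ_scal k' he, hP, hQ]
    exact ⟨rfl, rfl⟩

/-! ### the orbit theorem -/

/-- `Reach h hz R`: some point of the orbit of `(u, v)` has `P_z = R`. -/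
def Reach (h : IsKP E u v) (hz : IsPrim5 z) (R : E.toAffine.Point) : Prop :=
  ∃ (a b : K) (_ : Orb z u v a b) (k : IsKP E a b), ptP k hz = R

theorem Reach.two (h : IsKP E u v) (hz : IsPrim5 z) {R : E.toAffine.Point}
    (hR : Reach h hz R) : Reach h hz ((2 : ℕ) • R) := by
  obtain ⟨a, b, o, k, rfl⟩ := hR
  exact ⟨-b, a, o.U, k.U, ptP_U k hz⟩

theorem Reach.two_pow (h : IsKP E u v) (hz : IsPrim5 z) {R : E.toAffine.Point}
    (hR : Reach h hz R) (j : ℕ) : Reach h hz ((2 ^ j : ℕ) • R) := by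
  induction j with
  | zero => simpa using hR
  | succ n ih =>
    have := ih.two
    rw [← mul_nsmul] at this
    have e : 2 ^ (n + 1) = 2 ^ n * 2 := pow_succ 2 n
    rw [e]
    exact this

theorem ptPQ_Spow (h : IsKP E u v) (hz : IsPrim5 z) (m : ℕ) (k : IsKP E (z ^ m * u) v) :
    ptP k hz = ptP h hz ∧ ptQ k = ptQ h + m • ptP h hz := by
  induction m with
  | zero =>
    have eu : z ^ 0 * u = u := by ring
    exact ⟨ptP_congr' _ _ hz eu rfl, by rw [zero_nsmul, add_zero]; exact ptQ_congr' _ _ eu rfl⟩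
  | succ n ih =>
    have kn : IsKP E (z ^ n * u) v := (Orb.refl.Spow hz n).isKP hz h
    obtain ⟨hP, hQ⟩ := ih kn
    have eu : z ^ (n + 1) * u = z * (z ^ n * u) := by ring
    have e1 : ptP k hz = ptP (kn.S hz) hz := ptP_congr' _ _ hz eu rfl
    have e2 : ptQ k = ptQ (kn.S hz) := ptQ_congr' _ _ eu rfl
    rw [e1, e2, ptP_S kn hz, ptQ_S kn hz, hP, hQ]
    refine ⟨rfl, ?_⟩
    rw [succ_nsmul]
    abel

theorem Reach.base (h : IsKP E u v) (hz : IsPrim5 z) : Reach h hz (ptP h hz) :=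
  ⟨u, v, Orb.refl, h, rfl⟩

theorem Reach.TS (h : IsKP E u v) (hz : IsPrim5 z) (m : ℕ) :
    Reach h hz (-(ptQ h + m • ptP h hz)) := by
  have o : Orb z u v (z ^ m * u) v := Orb.refl.Spow hz m
  have k : IsKP E (z ^ m * u) v := o.isKP hz h
  refine ⟨_, _, o.T, k.T hz, ?_⟩
  rw [ptP_T k hz, (ptPQ_Spow h hz m k).2]

/-- arithmetic of combinations modulo `5` -/
theorem combo_eq_of_dvd {A : Type*} [AddCommGroup A] {P Q : A} (hP : (5 : ℕ) • P = 0)
    (hQ : (5 : ℕ) • Q = 0) {a b j m : ℕ} (h1 : 5 ∣ a + 2 ^ j * m) (h2 : 5 ∣ b + 2 ^ j) :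
    a • P + b • Q = (2 ^ j : ℕ) • (-(Q + m • P)) := by
  obtain ⟨c, hc⟩ := h1
  obtain ⟨d, hd⟩ := h2
  have e : (a • P + b • Q) - (2 ^ j : ℕ) • (-(Q + m • P))
      = (a + 2 ^ j * m) • P + (b + 2 ^ j) • Q := by
    rw [smul_neg, sub_neg_eq_add, smul_add, add_nsmul, add_nsmul, mul_nsmul']
    abel
  rw [← sub_eq_zero, e, hc, hd, mul_nsmul, hP, mul_nsmul, hQ, smul_zero, smul_zero, add_zero]

theorem nsmul_eq_of_dvd {A : Type*} [AddCommGroup A] {P : A} (hP : (5 : ℕ) • P = 0)
    {a c : ℕ} (h1 : a % 5 = c % 5) : a • P = c • P := by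
  rw [nsmul_mod_five hP a, nsmul_mod_five hP c, h1]

/-- every nonzero point killed by `5` is `P_z` of a point of the orbit -/
theorem reach_all [IsAlgClosed K] (h : IsKP E u v) (hz : IsPrim5 z) (R : E.toAffine.Point)
    (hR : (5 : ℕ) • R = 0) (hR0 : R ≠ 0) : Reach h hz R := by
  obtain ⟨a, b, ha, hb, rfl⟩ := exists_combo h hz R hR
  have hP := five_ptP h hz
  have hQ := five_ptQ h
  have key : ∀ j m : ℕ, 5 ∣ a + 2 ^ j * m → 5 ∣ b + 2 ^ j →
      Reach h hz (a • ptP h hz + b • ptQ h) := fun j m h1 h2 => by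
    rw [combo_eq_of_dvd hP hQ h1 h2]
    exact (Reach.TS h hz m).two_pow h hz j
  have key0 : ∀ j : ℕ, b = 0 → a % 5 = 2 ^ j % 5 → Reach h hz (a • ptP h hz + b • ptQ h) :=
    fun j hb0 h1 => by
      rw [hb0, zero_nsmul, add_zero, nsmul_eq_of_dvd hP h1]
      exact (Reach.base h hz).two_pow h hz j
  interval_cases b
  · -- `b = 0`
    interval_cases a
    · exfalso; apply hR0; simp
    · exact key0 0 rfl (by norm_num)
    · exact key0 1 rfl (by norm_num)
    · exact key0 3 rfl (by norm_num)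
    · exact key0 2 rfl (by norm_num)
  · interval_cases a
    · exact key 2 0 (by norm_num) (by norm_num)
    · exact key 2 1 (by norm_num) (by norm_num)
    · exact key 2 2 (by norm_num) (by norm_num)
    · exact key 2 3 (by norm_num) (by norm_num)
    · exact key 2 4 (by norm_num) (by norm_num)
  · interval_cases a
    · exact key 3 0 (by norm_num) (by norm_num)
    · exact key 3 3 (by norm_num) (by norm_num)
    · exact key 3 1 (by norm_num) (by norm_num)
    · exact key 3 4 (by norm_num) (by norm_num)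
    · exact key 3 2 (by norm_num) (by norm_num)
  · interval_cases a
    · exact key 1 0 (by norm_num) (by norm_num)
    · exact key 1 2 (by norm_num) (by norm_num)
    · exact key 1 4 (by norm_num) (by norm_num)
    · exact key 1 1 (by norm_num) (by norm_num)
    · exact key 1 3 (by norm_num) (by norm_num)
  · interval_cases a
    · exact key 0 0 (by norm_num) (by norm_num)
    · exact key 0 4 (by norm_num) (by norm_num)
    · exact key 0 3 (by norm_num) (by norm_num)
    · exact key 0 2 (by norm_num) (by norm_num)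
    · exact key 0 1 (by norm_num) (by norm_num)

/-- **fibre = orbit**: over an algebraically closed field of characteristic `0`, any two Klein
points of the same curve lie in one orbit. -/
theorem orbit [IsAlgClosed K] {u' v' : K} (h : IsKP E u v) (h' : IsKP E u' v')
    (hz : IsPrim5 z) : Orb z u v u' v' := by
  obtain ⟨a, b, o, k, hk⟩ := reach_all h hz (ptP h' hz) (five_ptP h' hz) (ptP_ne_zero h' hz)
  obtain ⟨m, e, he, hu, hv⟩ := rigid' k h' hz hk.symm
  rw [hu, hv]
  exact (o.scal e he).Spow hz m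

end Fermat.Agent.P7.helper73
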