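import Fermat.Agent.P7.helper73_FamGal

/-!
# P7 / S52, module FAM: automorphisms fixing the `5`-torsion (helper73)

If `σ` fixes `E[5]` pointwise, then `σ (u, v) = ε (u, v)` with `ε ^ 5 = 1` for every Klein point
`(u, v)` of `E` (`GalScalStatement`).
-/

set_option autoImplicit false

open WeierstrassCurve WeierstrassCurve.Affine
open scoped WeierstrassCurve.Affine

namespace Fermat.Agent.P7.helper73

open Fermat.Agent.P7.helper80 Fermat.Agent.P7.helper47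

section Core

variable {K : Type*} [Field K] [CharZero K] [DecidableEq K] {E : WeierstrassCurve K} {u v z : K}

theorem lin_aux {A : Type*} [AddCommGroup A] (P Q : A) (m : ℕ) (a c : ℤ)
    (e : Q = c • Q + m • (a • P)) : ((m : ℤ) * a) • P + (c - 1) • Q = 0 := by
  have h1 : ((m : ℤ) * a) • P + (c - 1) • Q = (c • Q + m • (a • P)) - Q := by
    rw [mul_smul, sub_smul, one_smul, natCast_zsmul]
    abel
  rw [h1, ← e, sub_self]

theorem scal_core {u' v' x₁ x₂ : K} (h : IsKP E u v) (hx : IsKP E x₁ x₂) (h' : IsKP E u' v')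
    (hz : IsPrim5 z) (a c : ℤ) (hxP : ptP hx hz = a • ptP h hz) (hxQ : ptQ hx = c • ptQ h)
    (eP : ptP h' hz = ptP hx hz) (eQ : ptQ h' = ptQ h) :
    (5 : ℤ) ∣ c - 1 ∧ ∃ (m : ℕ) (e : K), (5 : ℤ) ∣ (m : ℤ) * a ∧ e ^ 5 = 1 ∧
      u' = z ^ m * (e * x₁) ∧ v' = e * x₂ := by
  obtain ⟨m, e, he, hu, hv⟩ := rigid' hx h' hz eP
  subst hu hv
  have q := (ptPQ_Spow (hx.scal he) hz m h').2
  rw [ptQ_scal hx he, ptP_scal hx hz he, hxP, hxQ, eQ] at q
  obtain ⟨d1, d2⟩ := indep h hz (lin_aux _ _ m a c q)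
  exact ⟨d2, m, e, d1, he, rfl, rfl⟩

theorem ptPQ_U1 (h : IsKP E u v) (hz : IsPrim5 z) :
    ptP h.U hz = (2 : ℤ) • ptP h hz ∧ ptQ h.U = (-2 : ℤ) • ptQ h := by
  constructor
  · rw [ptP_U h hz, ← natCast_zsmul]; rfl
  · rw [ptQ_U h, neg_smul, ← natCast_zsmul]; rfl

theorem ptPQ_U2 (h : IsKP E u v) (hz : IsPrim5 z) :
    ptP h.U.U hz = (4 : ℤ) • ptP h hz ∧ ptQ h.U.U = (4 : ℤ) • ptQ h := by
  obtain ⟨a1, a2⟩ := ptPQ_U1 h hz
  obtain ⟨b1, b2⟩ := ptPQ_U1 h.U hz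
  constructor
  · rw [b1, a1, smul_smul]; norm_num
  · rw [b2, a2, smul_smul]; norm_num

theorem ptPQ_U3 (h : IsKP E u v) (hz : IsPrim5 z) :
    ptP h.U.U.U hz = (8 : ℤ) • ptP h hz ∧ ptQ h.U.U.U = (-8 : ℤ) • ptQ h := by
  obtain ⟨a1, a2⟩ := ptPQ_U2 h hz
  obtain ⟨b1, b2⟩ := ptPQ_U1 h.U.U hz
  constructor
  · rw [b1, a1, smul_smul]; norm_num
  · rw [b2, a2, smul_smul]; norm_num

/-- **rigidity of the full level structure**: a Klein point `(u', v')` of `E` with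
`P(u', v') = j • P(u, v)` (`1 ≤ j < 5`) and `Q(u', v') = Q(u, v)` is `ε (u, v)`, `ε ^ 5 = 1`. -/
theorem scal_of_PQ {u' v' : K} (h : IsKP E u v) (h' : IsKP E u' v') (hz : IsPrim5 z) {j : ℕ}
    (hj1 : 1 ≤ j) (hj5 : j < 5) (eP : ptP h' hz = j • ptP h hz) (eQ : ptQ h' = ptQ h) :
    ∃ e : K, e ^ 5 = 1 ∧ u' = e * u ∧ v' = e * v := by
  interval_cases j
  · -- `j = 1`
    rw [one_nsmul] at eP
    obtain ⟨-, m, e, d, he, hu, hv⟩ := scal_core h h h' hz 1 1 (one_smul _ _).symm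
      (one_smul _ _).symm eP eQ
    rw [mul_one] at d
    obtain ⟨c, hc⟩ := d
    have hm : m = 5 * c.toNat := by omega
    have hzm : z ^ m = 1 := by
      rw [hm, pow_mul, hz.pow_five, one_pow]
    rw [hzm, one_mul] at hu
    exact ⟨e, he, hu, hv⟩
  · -- `j = 2`
    exfalso
    obtain ⟨a1, a2⟩ := ptPQ_U1 h hz
    have eP' : ptP h' hz = ptP h.U hz := by
      rw [eP, a1, ← natCast_zsmul]; rfl
    obtain ⟨d, -⟩ := scal_core h h.U h' hz 2 (-2) a1 a2 eP' eQ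
    omega
  · -- `j = 3`
    exfalso
    obtain ⟨a1, a2⟩ := ptPQ_U3 h hz
    have eP' : ptP h' hz = ptP h.U.U.U hz := by
      rw [eP, a1, zsmul_eq_nsmul_mod_five (five_ptP h hz)]; rfl
    obtain ⟨d, -⟩ := scal_core h h.U.U.U h' hz 8 (-8) a1 a2 eP' eQ
    omega
  · -- `j = 4`
    exfalso
    obtain ⟨a1, a2⟩ := ptPQ_U2 h hz
    have eP' : ptP h' hz = ptP h.U.U hz := by
      rw [eP, a1, ← natCast_zsmul]; rfl
    obtain ⟨d, -⟩ := scal_core h h.U.U h' hz 4 4 a1 a2 eP' eQ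
    omega

end Core

section Scal

open Fermat.Agent.P7.helper19

/-- **[GAL-SCAL]** -/
theorem galScal : GalScalStatement := by
  intro c₄ c₆ u v h σ hσ
  obtain ⟨z, hz⟩ := exists_isPrim5
  have hb := isBasis5 h hz
  have hP := congrArg Subtype.val (hσ ⟨ptP h hz, hb.combo_mem 1 0 |> fun m => by
    simpa using m⟩)
  have hQ := congrArg Subtype.val (hσ ⟨ptQ h, hb.combo_mem 0 1 |> fun m => by
    simpa using m⟩)
  change σ • (ptP h hz : ((shortQ c₄ c₆)⁄CQb).Point) = ptP h hz at hP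
  change σ • (ptQ h : ((shortQ c₄ c₆)⁄CQb).Point) = ptQ h at hQ
  rw [smul_ptQ h σ] at hQ
  obtain ⟨j, hj1, hj5, hσz⟩ := gal_pow hz σ
  rw [smul_ptP_of h hz σ hj1 hj5 hσz] at hP
  -- invert `j` modulo `5`
  have h5 := five_ptP (h.gal σ) hz
  have key : ∃ j' : ℕ, 1 ≤ j' ∧ j' < 5 ∧ ptP (h.gal σ) hz = j' • ptP h hz := by
    interval_cases j
    · exact ⟨1, by norm_num, by norm_num, by rw [← hP, one_nsmul, one_nsmul]⟩
    · exact ⟨3, by norm_num, by norm_num, by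
        rw [← hP, ← mul_nsmul, nsmul_mod_five h5]; norm_num⟩
    · exact ⟨2, by norm_num, by norm_num, by
        rw [← hP, ← mul_nsmul, nsmul_mod_five h5]; norm_num⟩
    · exact ⟨4, by norm_num, by norm_num, by
        rw [← hP, ← mul_nsmul, nsmul_mod_five h5]; norm_num⟩
  obtain ⟨j', hj1', hj5', eP⟩ := key
  exact scal_of_PQ h (h.gal σ) hz hj1' hj5' eP hQ

end Scal

end Fermat.Agent.P7.helper73
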