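import Mathlib

/-!
# P7 / S52 / CE (helper75): the count `deg x(φG − G) = #W(k)`, part 1

`k` a finite field with `q` elements, `W` a Weierstrass curve over `k`, `R = k[X] ⊕ k[X] Y` its
coordinate ring, `Y^q = u + v Y`.  The numerator of `x(φG − G)` over the denominator
`D² = (X^q − X)²` is

  `n = -N(M) - (a₂ + X^q + X) D²`,  `M = Y^q + Y + a₁ X + a₃`  (`N` = the norm to `k[X]`).

This file: the norm relation `u² − u v e − v² f = −f^q`, the explicit form of `n`, and
`n` is monic of degree `2q + 1`.
-/

set_option autoImplicit false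
set_option linter.unusedSectionVars false
set_option linter.unusedVariables false
set_option linter.style.haveILetI false

open Polynomial
open scoped Polynomial.Bivariate

noncomputable section

namespace Fermat.Agent.P7.helper75

open WeierstrassCurve WeierstrassCurve.Affine

section Count

variable {k : Type*} [Field k] [Fintype k] (W : Affine k)

/-- `f = X³ + a₂X² + a₄X + a₆` -/
def cF : k[X] := X ^ 3 + C W.a₂ * X ^ 2 + C W.a₄ * X + C W.a₆

/-- `e = a₁X + a₃` -/
def cE : k[X] := C W.a₁ * X + C W.a₃

variable (k) in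
/-- `D = X^q − X` -/
def cD : k[X] := X ^ Fintype.card k - X

/-- the numerator of `x(φG − G)` -/
def cNum (u v : k[X]) : k[X] :=
  -((u + cE W) ^ 2 - (u + cE W) * (v + 1) * cE W - (v + 1) ^ 2 * cF W)
    - (C W.a₂ + X ^ Fintype.card k + X) * cD k ^ 2

/-- `(u, v)` are the coordinates of `Y^q` -/
def IsFrobCoeff (u v : k[X]) : Prop :=
  u • (1 : W.CoordinateRing) + v • CoordinateRing.mk W Y = (CoordinateRing.mk W Y) ^ Fintype.card k

lemma exists_isFrobCoeff : ∃ u v : k[X], IsFrobCoeff W u v :=
  CoordinateRing.exists_smul_basis_eq _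

lemma card_ge_two : 2 ≤ Fintype.card k := Fintype.one_lt_card

lemma neg_pow_card (g : k[X]) : (-g) ^ Fintype.card k = -(g ^ Fintype.card k) := by
  obtain ⟨p, hp, n, hpp, hq⟩ := FiniteField.card' k
  haveI := hp
  haveI : Fact p.Prime := ⟨hpp⟩
  rw [hq, neg_pow, neg_one_pow_expChar_pow, neg_one_mul]

lemma cF_pow_card : cF W ^ Fintype.card k =
    X ^ (3 * Fintype.card k) + C W.a₂ * X ^ (2 * Fintype.card k) + C W.a₄ * X ^ Fintype.card k
      + C W.a₆ := by
  rw [← FiniteField.expand_card, cF]
  simp only [map_add, map_mul, map_pow, expand_C, expand_X]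
  rw [← pow_mul, ← pow_mul, mul_comm (Fintype.card k) 3, mul_comm (Fintype.card k) 2]

lemma cE_pow_card : cE W ^ Fintype.card k = C W.a₁ * X ^ Fintype.card k + C W.a₃ := by
  rw [← FiniteField.expand_card, cE]
  simp only [map_add, map_mul, expand_C, expand_X]

variable {W}

lemma norm_Y : Algebra.norm k[X] (CoordinateRing.mk W Y) = - cF W := by
  have h := CoordinateRing.norm_smul_basis (W' := W) 0 1
  rw [zero_smul, one_smul, zero_add] at h
  rw [h, cF]
  ring

/-- the norm relation -/
lemma norm_rel {u v : k[X]} (h : IsFrobCoeff W u v) :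
    u ^ 2 - u * v * cE W - v ^ 2 * cF W = -(cF W ^ Fintype.card k) := by
  have h1 := CoordinateRing.norm_smul_basis (W' := W) u v
  rw [h, map_pow, norm_Y, neg_pow_card] at h1
  rw [h1, cE, cF]

/-- the explicit form of the numerator -/
lemma cNum_eq {u v : k[X]} (h : IsFrobCoeff W u v) :
    cNum W u v = X ^ (2 * Fintype.card k + 1) + (X ^ (Fintype.card k + 2)
      + C (2 * W.a₂) * X ^ (Fintype.card k + 1) + C W.a₄ * X ^ Fintype.card k + C W.a₄ * X
      + C (2 * W.a₆) + (2 * v * cF W - u * cE W + v * cE W ^ 2)) := by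
  have h1 := norm_rel h
  have h2 := cF_pow_card W
  have e1 : (X : k[X]) ^ (3 * Fintype.card k) = (X ^ Fintype.card k) ^ 3 := by
    rw [← pow_mul, mul_comm]
  have e2 : (X : k[X]) ^ (2 * Fintype.card k) = (X ^ Fintype.card k) ^ 2 := by
    rw [← pow_mul, mul_comm]
  have e3 : (X : k[X]) ^ (2 * Fintype.card k + 1) = (X ^ Fintype.card k) ^ 2 * X := by
    rw [pow_succ, e2]
  have e4 : (X : k[X]) ^ (Fintype.card k + 2) = X ^ Fintype.card k * X ^ 2 := pow_add _ _ _
  have e5 : (X : k[X]) ^ (Fintype.card k + 1) = X ^ Fintype.card k * X := pow_succ _ _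
  rw [e1, e2] at h2
  rw [h2] at h1
  rw [cNum, cD, e3, e4, e5]
  have e6 : (C (2 * W.a₂) : k[X]) = 2 * C W.a₂ := by rw [C_mul]; rfl
  have e7 : (C (2 * W.a₆) : k[X]) = 2 * C W.a₆ := by rw [C_mul]; rfl
  rw [e6, e7]
  rw [cF] at h1 ⊢
  linear_combination (-1 : k[X]) * h1

/-! ### Degrees -/

lemma natDegree_cF_le : (cF W).natDegree ≤ 3 := by
  unfold cF
  compute_degree

lemma natDegree_cE_le : (cE W).natDegree ≤ 1 := by
  unfold cE
  compute_degree

lemma natDegree_cF_pow_card : (cF W ^ Fintype.card k).natDegree = 3 * Fintype.card k := by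
  rw [cF_pow_card]
  have hq := card_ge_two (k := k)
  compute_degree!
  all_goals omega

/-- the degree bounds for `u`, `v` -/
lemma natDegree_bounds {u v : k[X]} (h : IsFrobCoeff W u v) :
    2 * u.natDegree ≤ 3 * Fintype.card k ∧ 2 * v.natDegree + 3 ≤ 3 * Fintype.card k := by
  have hq := card_ge_two (k := k)
  have h1 := CoordinateRing.degree_norm_smul_basis (W' := W) u v
  have h2 : Algebra.norm k[X] (u • (1 : W.CoordinateRing) + v • CoordinateRing.mk W Y) =
      -(cF W ^ Fintype.card k) := by
    rw [h, map_pow, norm_Y, neg_pow_card]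
  have h3 : (cF W ^ Fintype.card k) ≠ 0 := by
    intro h0
    have := natDegree_cF_pow_card (W := W)
    rw [h0, natDegree_zero] at this
    omega
  rw [h2, degree_neg, degree_eq_natDegree h3, natDegree_cF_pow_card] at h1
  constructor
  · by_cases hu : u = 0
    · rw [hu, natDegree_zero]; omega
    · have h4 : 2 • u.degree ≤ ((3 * Fintype.card k : ℕ) : WithBot ℕ) := by
        rw [h1]; exact le_max_left _ _
      rw [degree_eq_natDegree hu] at h4
      have h5 : ((2 * u.natDegree : ℕ) : WithBot ℕ) ≤ ((3 * Fintype.card k : ℕ) : WithBot ℕ) := by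
        convert h4 using 1
        simp [two_mul]
      exact_mod_cast h5
  · by_cases hv : v = 0
    · rw [hv, natDegree_zero]; omega
    · have h4 : 2 • v.degree + 3 ≤ ((3 * Fintype.card k : ℕ) : WithBot ℕ) := by
        rw [h1]; exact le_max_right _ _
      rw [degree_eq_natDegree hv] at h4
      have h5 : ((2 * v.natDegree + 3 : ℕ) : WithBot ℕ) ≤
          ((3 * Fintype.card k : ℕ) : WithBot ℕ) := by
        convert h4 using 1
        simp [two_mul]
      exact_mod_cast h5

/-- the lower part of the numerator -/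
def cLow (W : Affine k) (u v : k[X]) : k[X] :=
  X ^ (Fintype.card k + 2) + C (2 * W.a₂) * X ^ (Fintype.card k + 1)
    + C W.a₄ * X ^ Fintype.card k + C W.a₄ * X + C (2 * W.a₆)
    + (2 * v * cF W - u * cE W + v * cE W ^ 2)

lemma natDegree_cLow_lt {u v : k[X]} (h : IsFrobCoeff W u v) :
    (cLow W u v).natDegree < 2 * Fintype.card k + 1 := by
  have hq := card_ge_two (k := k)
  obtain ⟨hu, hv⟩ := natDegree_bounds h
  have hF := natDegree_cF_le (W := W)
  have hE := natDegree_cE_le (W := W)
  have h1 : (2 * v * cF W).natDegree ≤ v.natDegree + 3 := by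
    calc (2 * v * cF W).natDegree ≤ (2 * v).natDegree + (cF W).natDegree := natDegree_mul_le
      _ ≤ v.natDegree + 3 := by
        have : (2 * v).natDegree ≤ v.natDegree := by
          calc (2 * v).natDegree ≤ (2 : k[X]).natDegree + v.natDegree := natDegree_mul_le
            _ = v.natDegree := by
              have : ((2 : k[X])).natDegree = 0 := natDegree_ofNat 2
              rw [this, zero_add]
        omega
  have h2 : (u * cE W).natDegree ≤ u.natDegree + 1 := by
    calc (u * cE W).natDegree ≤ u.natDegree + (cE W).natDegree := natDegree_mul_le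
      _ ≤ u.natDegree + 1 := by omega
  have h3 : (v * cE W ^ 2).natDegree ≤ v.natDegree + 2 := by
    calc (v * cE W ^ 2).natDegree ≤ v.natDegree + (cE W ^ 2).natDegree := natDegree_mul_le
      _ ≤ v.natDegree + 2 * (cE W).natDegree := by
        have := natDegree_pow_le (p := cE W) (n := 2)
        omega
      _ ≤ v.natDegree + 2 := by omega
  have h4 : (2 * v * cF W - u * cE W + v * cE W ^ 2).natDegree ≤ 2 * Fintype.card k := by
    refine (natDegree_add_le _ _).trans (max_le ((natDegree_sub_le _ _).trans (max_le ?_ ?_)) ?_)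
    · omega
    · omega
    · omega
  have h5 : (X ^ (Fintype.card k + 2) + C (2 * W.a₂) * X ^ (Fintype.card k + 1)
    + C W.a₄ * X ^ Fintype.card k + C W.a₄ * X + C (2 * W.a₆) : k[X]).natDegree ≤
      2 * Fintype.card k := by
    compute_degree
    omega
  unfold cLow
  exact lt_of_le_of_lt ((natDegree_add_le _ _).trans (max_le h5 h4)) (Nat.lt_succ_self _)

lemma cNum_eq' {u v : k[X]} (h : IsFrobCoeff W u v) :
    cNum W u v = X ^ (2 * Fintype.card k + 1) + cLow W u v := by
  rw [cNum_eq h, cLow]

/-- **(i)** the numerator is monic of degree `2q + 1` -/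
theorem monic_cNum {u v : k[X]} (h : IsFrobCoeff W u v) : (cNum W u v).Monic := by
  rw [cNum_eq' h]
  apply monic_X_pow_add
  exact lt_of_le_of_lt degree_le_natDegree (by exact_mod_cast natDegree_cLow_lt h)

theorem natDegree_cNum {u v : k[X]} (h : IsFrobCoeff W u v) :
    (cNum W u v).natDegree = 2 * Fintype.card k + 1 := by
  rw [cNum_eq' h]
  have h1 : (cLow W u v).degree < ((X : k[X]) ^ (2 * Fintype.card k + 1)).degree := by
    rw [degree_X_pow]
    exact lt_of_le_of_lt degree_le_natDegree (by exact_mod_cast natDegree_cLow_lt h)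
  rw [natDegree_add_eq_left_of_degree_lt h1, natDegree_X_pow]

end Count

end Fermat.Agent.P7.helper75
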