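import Fermat.Agent.P7.helper75_CECount1

/-!
# P7 / S52 / CE (helper75): the count, part 2: the values of `u`, `v` at the points of `k`
-/

set_option autoImplicit false
set_option linter.unusedSectionVars false
set_option linter.unusedVariables false
set_option linter.style.haveILetI false
set_option linter.unusedSimpArgs false

open Polynomial
open scoped Polynomial.Bivariate

noncomputable section

namespace Fermat.Agent.P7.helper75

open WeierstrassCurve WeierstrassCurve.Affine

section Eval

variable {k : Type*} [Field k] (W : Affine k) {L : Type*} [CommRing L] [Algebra k L]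

/-- the Weierstrass equation for a pair of elements of a `k`-algebra -/
def EqnIn (c d : L) : Prop :=
  d ^ 2 + (algebraMap k L W.a₁ * c + algebraMap k L W.a₃) * d =
    c ^ 3 + algebraMap k L W.a₂ * c ^ 2 + algebraMap k L W.a₄ * c + algebraMap k L W.a₆

variable {W}

/-- evaluation of the coordinate ring at a point `(c, d)` with coordinates in a `k`-algebra -/
def evPt (c d : L) (h : EqnIn W c d) : W.CoordinateRing →+* L :=
  AdjoinRoot.lift (Polynomial.eval₂RingHom (algebraMap k L) c) d (by
    rw [Affine.polynomial]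
    simp only [eval₂_add, eval₂_sub, eval₂_mul, eval₂_pow, eval₂_X, eval₂_C,
      Polynomial.coe_eval₂RingHom]
    rw [EqnIn] at h
    linear_combination h)

lemma evPt_mk_Y (c d : L) (h : EqnIn W c d) : evPt c d h (CoordinateRing.mk W Y) = d := by
  unfold evPt
  rw [AdjoinRoot.lift_mk, eval₂_X]

lemma evPt_smul_basis (c d : L) (h : EqnIn W c d) (p r : k[X]) :
    evPt c d h (p • (1 : W.CoordinateRing) + r • CoordinateRing.mk W Y) =
      aeval c p + aeval c r * d := by
  rw [CoordinateRing.smul, CoordinateRing.smul, mul_one, map_add, map_mul, evPt_mk_Y]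
  unfold evPt
  rw [AdjoinRoot.lift_mk, AdjoinRoot.lift_mk, eval₂_C, eval₂_C]
  rfl

end Eval

section Values

variable {k : Type*} [Field k] [Fintype k] {W : Affine k}

lemma eqnIn_iff (c d : k) : EqnIn W c d ↔ W.Equation c d := by
  rw [Affine.equation_iff, EqnIn]
  simp only [Algebra.algebraMap_self, RingHom.id_apply]
  constructor
  · intro h; linear_combination h
  · intro h; linear_combination h

/-- the basic relation at a point with coordinates in a `k`-algebra -/
lemma frob_at {L : Type*} [CommRing L] [Algebra k L] {u v : k[X]} (h : IsFrobCoeff W u v)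
    (c d : L) (hcd : EqnIn W c d) : aeval c u + aeval c v * d = d ^ Fintype.card k := by
  have := congrArg (evPt c d hcd) h
  rw [evPt_smul_basis, map_pow, evPt_mk_Y] at this
  exact this

/-- **case (ii)**: two distinct points above `c` -/
theorem values_two {u v : k[X]} (h : IsFrobCoeff W u v) {c d₁ d₂ : k}
    (h₁ : W.Equation c d₁) (h₂ : W.Equation c d₂) (hne : d₁ ≠ d₂) :
    u.eval c = 0 ∧ v.eval c = 1 := by
  have e1 := frob_at h c d₁ ((eqnIn_iff c d₁).mpr h₁)
  have e2 := frob_at h c d₂ ((eqnIn_iff c d₂).mpr h₂)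
  rw [FiniteField.pow_card] at e1 e2
  simp only [coe_aeval_eq_eval] at e1 e2
  have hv : v.eval c = 1 := by
    have : (v.eval c - 1) * (d₁ - d₂) = 0 := by linear_combination e1 - e2
    rcases mul_eq_zero.mp this with h0 | h0
    · exact sub_eq_zero.mp h0
    · exact absurd (sub_eq_zero.mp h0) hne
  refine ⟨?_, hv⟩
  rw [hv] at e1
  linear_combination e1

/-- **case (iii)**: a double point above `c` -/
theorem values_one {u v : k[X]} (h : IsFrobCoeff W u v) {c d : k}
    (h₁ : W.Equation c d) (hd : 2 * d + W.a₁ * c + W.a₃ = 0) :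
    u.eval c = d ∧ v.eval c = 0 := by
  have heq := (eqnIn_iff (W := W) c d).mpr h₁
  rw [EqnIn] at heq
  simp only [Algebra.algebraMap_self, RingHom.id_apply] at heq
  -- the point `(c, d + ε)` over the dual numbers
  have hE : EqnIn W (algebraMap k (DualNumber k) c)
      (algebraMap k (DualNumber k) d + DualNumber.eps) := by
    rw [EqnIn]
    apply TrivSqZeroExt.ext
    · simp only [TrivSqZeroExt.fst_add, TrivSqZeroExt.fst_mul, TrivSqZeroExt.fst_pow,
        TrivSqZeroExt.algebraMap_eq_inl, TrivSqZeroExt.fst_inl, DualNumber.fst_eps, add_zero]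
      exact heq
    · simp only [TrivSqZeroExt.snd_add, TrivSqZeroExt.snd_mul, TrivSqZeroExt.snd_pow,
        TrivSqZeroExt.algebraMap_eq_inl, TrivSqZeroExt.snd_inl, TrivSqZeroExt.fst_inl,
        TrivSqZeroExt.fst_add, DualNumber.fst_eps, DualNumber.snd_eps, add_zero, zero_add,
        smul_eq_mul, MulOpposite.smul_eq_mul_unop, MulOpposite.unop_op, mul_zero, smul_zero,
        TrivSqZeroExt.fst_mul, TrivSqZeroExt.fst_pow]
      simp
      linear_combination hd
  have e1 := frob_at h _ _ hE
  rw [aeval_algebraMap_apply, aeval_algebraMap_apply] at e1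
  simp only [coe_aeval_eq_eval] at e1
  have e2 := congrArg TrivSqZeroExt.snd e1
  have e3 := congrArg TrivSqZeroExt.fst e1
  have hq0 : ((Fintype.card k : ℕ) : k) = 0 := FiniteField.cast_card_eq_zero k
  simp only [TrivSqZeroExt.snd_add, TrivSqZeroExt.snd_mul, TrivSqZeroExt.snd_pow,
    TrivSqZeroExt.algebraMap_eq_inl, TrivSqZeroExt.snd_inl, TrivSqZeroExt.fst_inl,
    TrivSqZeroExt.fst_add, DualNumber.fst_eps, DualNumber.snd_eps, add_zero, zero_add,
    smul_eq_mul, MulOpposite.smul_eq_mul_unop, MulOpposite.unop_op, mul_zero, smul_zero,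
    mul_one, nsmul_eq_mul, hq0, zero_mul] at e2
  simp only [TrivSqZeroExt.fst_add, TrivSqZeroExt.fst_mul, TrivSqZeroExt.fst_pow,
    TrivSqZeroExt.algebraMap_eq_inl, TrivSqZeroExt.fst_inl, DualNumber.fst_eps, add_zero,
    FiniteField.pow_card] at e3
  refine ⟨?_, e2⟩
  rw [e2, zero_mul, add_zero] at e3
  exact e3

/-- an element of an extension field fixed by the `q`-power map lies in `k` -/
lemma mem_range_of_pow_card_eq {L : Type*} [Field L] [Algebra k L] (x : L)
    (hx : x ^ Fintype.card k = x) : ∃ a : k, algebraMap k L a = x := by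
  classical
  have hroots : Multiset.card (X ^ Fintype.card k - X : k[X]).roots =
      (X ^ Fintype.card k - X : k[X]).natDegree := by
    rw [FiniteField.roots_X_pow_card_sub_X, FiniteField.X_pow_card_sub_X_natDegree_eq k
      Fintype.one_lt_card]
    rfl
  have hprod := C_leadingCoeff_mul_prod_multiset_X_sub_C hroots
  have hmonic : (X ^ Fintype.card k - X : k[X]).Monic :=
    monic_X_pow_sub (by
      rw [degree_X]
      exact_mod_cast Fintype.one_lt_card)
  rw [hmonic.leadingCoeff, C_1, one_mul, FiniteField.roots_X_pow_card_sub_X] at hprod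
  have h1 : aeval x (X ^ Fintype.card k - X : k[X]) = 0 := by
    simp only [map_sub, map_pow, aeval_X]
    rw [hx, sub_self]
  rw [← hprod] at h1
  rw [map_multiset_prod, Multiset.map_map] at h1
  rw [Multiset.prod_eq_zero_iff] at h1
  obtain ⟨a, -, ha⟩ := Multiset.mem_map.mp h1
  refine ⟨a, ?_⟩
  simp only [Function.comp_apply, map_sub, aeval_X, aeval_C] at ha
  exact (sub_eq_zero.mp ha).symm

/-- **case (iv)**: no point above `c` -/
theorem values_zero {u v : k[X]} (h : IsFrobCoeff W u v) {c : k}
    (hc : ∀ d : k, ¬ W.Equation c d) :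
    u.eval c = -(W.a₁ * c + W.a₃) ∧ v.eval c = -1 := by
  classical
  set e : k := W.a₁ * c + W.a₃ with he
  set f : k := c ^ 3 + W.a₂ * c ^ 2 + W.a₄ * c + W.a₆ with hf
  -- the quadratic `Q = X² + e X − f`
  set Q : k[X] := X ^ 2 + C e * X - C f with hQ
  have hQdeg : Q.natDegree = 2 := by
    rw [hQ]
    compute_degree!
  have hQmonic : Q.Monic := by
    rw [hQ]
    monicity!
  have hQroots : Q.roots = 0 := by
    rw [Multiset.eq_zero_iff_forall_notMem]
    intro d hd
    rw [mem_roots hQmonic.ne_zero, IsRoot.def, hQ] at hd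
    simp only [eval_add, eval_sub, eval_mul, eval_pow, eval_X, eval_C] at hd
    apply hc d
    rw [Affine.equation_iff]
    linear_combination hd
  have hQirr : Irreducible Q :=
    (hQmonic.irreducible_iff_roots_eq_zero_of_degree_le_three (by omega) (by omega)).mpr hQroots
  haveI : Fact (Irreducible Q) := ⟨hQirr⟩
  -- the field `L = k[X]/(Q)` and the root `d₁`
  set d₁ : AdjoinRoot Q := AdjoinRoot.root Q with hd₁
  have hroot : d₁ ^ 2 + algebraMap k (AdjoinRoot Q) e * d₁ - algebraMap k (AdjoinRoot Q) f = 0 := by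
    have := AdjoinRoot.eval₂_root Q
    rw [hQ] at this
    simp only [eval₂_add, eval₂_sub, eval₂_mul, eval₂_pow, eval₂_X, eval₂_C] at this
    exact this
  have hE : EqnIn W (algebraMap k (AdjoinRoot Q) c) d₁ := by
    rw [EqnIn]
    have e1 : algebraMap k (AdjoinRoot Q) e = algebraMap k (AdjoinRoot Q) W.a₁ *
        algebraMap k (AdjoinRoot Q) c + algebraMap k (AdjoinRoot Q) W.a₃ := by
      rw [he, map_add, map_mul]
    have e2 : algebraMap k (AdjoinRoot Q) f = algebraMap k (AdjoinRoot Q) c ^ 3 +
        algebraMap k (AdjoinRoot Q) W.a₂ * algebraMap k (AdjoinRoot Q) c ^ 2 +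
        algebraMap k (AdjoinRoot Q) W.a₄ * algebraMap k (AdjoinRoot Q) c +
        algebraMap k (AdjoinRoot Q) W.a₆ := by
      rw [hf]
      simp only [map_add, map_mul, map_pow]
    rw [← e1, ← e2]
    linear_combination hroot
  have e1 := frob_at h _ _ hE
  rw [aeval_algebraMap_apply, aeval_algebraMap_apply] at e1
  simp only [coe_aeval_eq_eval] at e1
  -- `d₁ ∉ k`
  have hnot : ∀ a : k, algebraMap k (AdjoinRoot Q) a ≠ d₁ := by
    intro a ha
    apply hc a
    rw [Affine.equation_iff]
    have h2 := hroot
    rw [← ha, ← map_pow, ← map_mul, ← map_add, ← map_sub] at h2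
    have h3 := (map_eq_zero_iff _ (algebraMap k (AdjoinRoot Q)).injective).mp h2
    linear_combination h3
  -- `d₂ = d₁ ^ q` is the other root
  set d₂ : AdjoinRoot Q := d₁ ^ Fintype.card k with hd₂
  have hne : d₂ ≠ d₁ := by
    intro h0
    obtain ⟨a, ha⟩ := mem_range_of_pow_card_eq (k := k) d₁ h0
    exact hnot a ha
  have hroot₂ : d₂ ^ 2 + algebraMap k (AdjoinRoot Q) e * d₂ - algebraMap k (AdjoinRoot Q) f = 0 := by
    obtain ⟨p, hp, n, hpp, hq⟩ := FiniteField.card' k
    haveI := hp
    haveI : Fact p.Prime := ⟨hpp⟩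
    haveI : CharP (AdjoinRoot Q) p := charP_of_injective_algebraMap
      (algebraMap k (AdjoinRoot Q)).injective p
    have h2 : (d₁ ^ 2 + algebraMap k (AdjoinRoot Q) e * d₁ - algebraMap k (AdjoinRoot Q) f) ^
        Fintype.card k = 0 := by
      rw [hroot, zero_pow (by have := card_ge_two (k := k); omega)]
    rw [hq, sub_pow_char_pow, add_pow_char_pow, mul_pow, ← hq, ← pow_mul, mul_comm 2, pow_mul,
      ← map_pow, ← map_pow, FiniteField.pow_card, FiniteField.pow_card] at h2
    exact h2
  have hsum : d₂ = -d₁ - algebraMap k (AdjoinRoot Q) e := by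
    have h2 : (d₂ - d₁) * (d₂ + d₁ + algebraMap k (AdjoinRoot Q) e) = 0 := by
      linear_combination hroot₂ - hroot
    rcases mul_eq_zero.mp h2 with h3 | h3
    · exact absurd (sub_eq_zero.mp h3) hne
    · linear_combination h3
  rw [hsum] at e1
  -- compare coefficients
  have e2 : algebraMap k (AdjoinRoot Q) (u.eval c + e) +
      algebraMap k (AdjoinRoot Q) (v.eval c + 1) * d₁ = 0 := by
    rw [map_add (algebraMap k (AdjoinRoot Q)) (u.eval c) e,
      map_add (algebraMap k (AdjoinRoot Q)) (v.eval c) 1, map_one]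
    linear_combination e1
  have hv : v.eval c + 1 = 0 := by
    by_contra hv0
    apply hnot (-(u.eval c + e) / (v.eval c + 1))
    have hv1 : algebraMap k (AdjoinRoot Q) (v.eval c + 1) ≠ 0 := by
      rw [Ne, map_eq_zero_iff _ (algebraMap k (AdjoinRoot Q)).injective]
      exact hv0
    rw [map_div₀, map_neg]
    field_simp
    linear_combination -e2
  have hu : u.eval c + e = 0 := by
    rw [hv, map_zero, zero_mul, add_zero] at e2
    exact (map_eq_zero_iff _ (algebraMap k (AdjoinRoot Q)).injective).mp e2
  exact ⟨by linear_combination hu, by linear_combination hv⟩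

end Values

end Fermat.Agent.P7.helper75
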