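import Fermat.Agent.P7.helper75_CECount2

/-!
# P7 / S52 / CE (helper75): the count, part 3: the order of the numerator at the points of `k`
-/

set_option autoImplicit false
set_option linter.unusedSectionVars false
set_option linter.unusedVariables false
set_option linter.style.haveILetI false
set_option linter.unusedSimpArgs false

open Polynomial
open scoped Polynomial.Bivariate

noncomputable section

namespace Fermat.Agent.P7.helper75

open WeierstrassCurve WeierstrassCurve.Affine

section Orders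

variable {k : Type*} [Field k] [Fintype k] {W : Affine k}

lemma eval_cD (c : k) : (cD k).eval c = 0 := by
  rw [cD]
  simp only [eval_sub, eval_pow, eval_X, FiniteField.pow_card, sub_self]

lemma eval_cE (c : k) : (cE W).eval c = W.a₁ * c + W.a₃ := by
  rw [cE]
  simp only [eval_add, eval_mul, eval_C, eval_X]

lemma eval_cF (c : k) : (cF W).eval c = c ^ 3 + W.a₂ * c ^ 2 + W.a₄ * c + W.a₆ := by
  rw [cF]
  simp only [eval_add, eval_mul, eval_C, eval_X, eval_pow]

lemma eval_cNum (u v : k[X]) (c : k) : (cNum W u v).eval c =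
    -((u.eval c + (W.a₁ * c + W.a₃)) ^ 2 -
      (u.eval c + (W.a₁ * c + W.a₃)) * (v.eval c + 1) * (W.a₁ * c + W.a₃) -
      (v.eval c + 1) ^ 2 * (c ^ 3 + W.a₂ * c ^ 2 + W.a₄ * c + W.a₆)) := by
  rw [cNum]
  simp only [eval_sub, eval_neg, eval_mul, eval_pow, eval_add, eval_one, eval_cD, eval_cE,
    eval_cF]
  ring

/-- **(ii)** two distinct points above `c`: the numerator does not vanish at `c` -/
theorem eval_cNum_ne_zero {u v : k[X]} (h : IsFrobCoeff W u v) {c d₁ d₂ : k}
    (h₁ : W.Equation c d₁) (h₂ : W.Equation c d₂) (hne : d₁ ≠ d₂) :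
    (cNum W u v).eval c ≠ 0 := by
  obtain ⟨hu, hv⟩ := values_two h h₁ h₂ hne
  rw [eval_cNum, hu, hv]
  rw [Affine.equation_iff] at h₁ h₂
  have hsum : d₁ + d₂ + (W.a₁ * c + W.a₃) = 0 := by
    have : (d₁ - d₂) * (d₁ + d₂ + (W.a₁ * c + W.a₃)) = 0 := by linear_combination h₁ - h₂
    rcases mul_eq_zero.mp this with h0 | h0
    · exact absurd (sub_eq_zero.mp h0) hne
    · exact h0
  have key : -((0 + (W.a₁ * c + W.a₃)) ^ 2 - (0 + (W.a₁ * c + W.a₃)) * (1 + 1) *
      (W.a₁ * c + W.a₃) - (1 + 1) ^ 2 * (c ^ 3 + W.a₂ * c ^ 2 + W.a₄ * c + W.a₆)) =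
      (d₁ - d₂) ^ 2 := by
    linear_combination (-4 : k) * h₁ + (3 * d₁ + (W.a₁ * c + W.a₃) - d₂) * hsum
  rw [key]
  exact pow_ne_zero 2 (sub_ne_zero.mpr hne)

/-- **(iv)** no point above `c`: the numerator vanishes to order `≥ 2` at `c` -/
theorem sq_dvd_cNum {u v : k[X]} (h : IsFrobCoeff W u v) {c : k}
    (hc : ∀ d : k, ¬ W.Equation c d) : (X - C c) ^ 2 ∣ cNum W u v := by
  obtain ⟨hu, hv⟩ := values_zero h hc
  have h0 : (X - C c) ∣ u + cE W := by
    rw [dvd_iff_isRoot, IsRoot, eval_add, eval_cE, hu]; ring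
  have h1 : (X - C c) ∣ v + 1 := by
    rw [dvd_iff_isRoot, IsRoot, eval_add, eval_one, hv]; ring
  have hD : (X - C c) ∣ cD k := by
    rw [dvd_iff_isRoot, IsRoot, eval_cD]
  obtain ⟨a, ha⟩ := h0
  obtain ⟨b, hb⟩ := h1
  obtain ⟨e, he⟩ := hD
  refine ⟨-(a ^ 2 - a * b * cE W - b ^ 2 * cF W) -
    (C W.a₂ + X ^ Fintype.card k + X) * e ^ 2, ?_⟩
  rw [cNum, ha, hb, he]; ring

omit [Fintype k] in
lemma eval_derivative_of_sq_dvd {p : k[X]} {c : k} (h : (X - C c) ^ 2 ∣ p) :
    (derivative p).eval c = 0 := by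
  obtain ⟨g, rfl⟩ := h
  simp only [derivative_mul, derivative_pow, derivative_sub, derivative_X, derivative_C,
    eval_add, eval_mul, eval_pow, eval_sub, eval_X, eval_C, sub_self]
  simp

lemma eval_derivative_cNum (u v : k[X]) (c : k) :
    (derivative (cNum W u v)).eval c =
      -((2 * (u.eval c + (W.a₁ * c + W.a₃)) - (v.eval c + 1) * (W.a₁ * c + W.a₃)) *
          ((derivative u).eval c + W.a₁)
        - ((u.eval c + (W.a₁ * c + W.a₃)) * (W.a₁ * c + W.a₃) +
            2 * (v.eval c + 1) * (c ^ 3 + W.a₂ * c ^ 2 + W.a₄ * c + W.a₆)) *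
              (derivative v).eval c
        - (u.eval c + (W.a₁ * c + W.a₃)) * (v.eval c + 1) * W.a₁
        - (v.eval c + 1) ^ 2 * (3 * c ^ 2 + 2 * W.a₂ * c + W.a₄)) := by
  have hD : (cD k).eval c = 0 := eval_cD c
  have e1 : (cE W).eval c = W.a₁ * c + W.a₃ := eval_cE c
  have e2 : (cF W).eval c = c ^ 3 + W.a₂ * c ^ 2 + W.a₄ * c + W.a₆ := eval_cF c
  have e3 : (derivative (cE W)).eval c = W.a₁ := by
    rw [cE]; simp
  have e4 : (derivative (cF W)).eval c = 3 * c ^ 2 + 2 * W.a₂ * c + W.a₄ := by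
    rw [cF]; simp; ring
  rw [cNum]
  simp only [sq, derivative_sub, derivative_neg, derivative_mul, derivative_add, derivative_one,
    eval_sub, eval_neg, eval_mul, eval_add, eval_one, hD, e1, e2, e3, e4, mul_zero, zero_mul,
    add_zero, sub_zero]
  ring

/-- **(iii)** a double point above `c` (nonsingular): the numerator has a simple zero at `c` -/
theorem cNum_simple_zero {u v : k[X]} (h : IsFrobCoeff W u v) {c d : k}
    (hns : W.Nonsingular c d) (hd : 2 * d + W.a₁ * c + W.a₃ = 0) :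
    (cNum W u v).eval c = 0 ∧ (derivative (cNum W u v)).eval c ≠ 0 := by
  rw [Affine.nonsingular_iff'] at hns
  obtain ⟨heq, hsing⟩ := hns
  obtain ⟨hu, hv⟩ := values_one h heq hd
  have hX : W.a₁ * d - (3 * c ^ 2 + 2 * W.a₂ * c + W.a₄) ≠ 0 := by
    rcases hsing with h1 | h1
    · exact h1
    · exact absurd hd h1
  rw [Affine.equation_iff] at heq
  constructor
  · rw [eval_cNum, hu, hv]
    linear_combination (-1 : k) * heq
  · rw [eval_derivative_cNum, hu, hv]
    intro h0
    apply hX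
    linear_combination (-1 : k) * h0 + (-(derivative u).eval c
      + (d + (W.a₁ * c + W.a₃)) * (derivative v).eval c) * hd
      - 2 * (derivative v).eval c * heq

theorem not_sq_dvd_cNum {u v : k[X]} (h : IsFrobCoeff W u v) {c d : k}
    (hns : W.Nonsingular c d) (hd : 2 * d + W.a₁ * c + W.a₃ = 0) :
    ¬ (X - C c) ^ 2 ∣ cNum W u v := fun hdiv =>
  (cNum_simple_zero h hns hd).2 (eval_derivative_of_sq_dvd hdiv)

theorem not_dvd_cNum {u v : k[X]} (h : IsFrobCoeff W u v) {c d₁ d₂ : k}
    (h₁ : W.Equation c d₁) (h₂ : W.Equation c d₂) (hne : d₁ ≠ d₂) :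
    ¬ (X - C c) ∣ cNum W u v := fun hdiv =>
  eval_cNum_ne_zero h h₁ h₂ hne (dvd_iff_isRoot.mp hdiv)

end Orders

section Trichotomy

variable {k : Type*} [Field k] {W : Affine k}

/-- the other root of the quadratic -/
lemma equation_other {c d : k} (h : W.Equation c d) :
    W.Equation c (-d - (W.a₁ * c + W.a₃)) := by
  rw [Affine.equation_iff] at h ⊢
  linear_combination h

lemma trichotomy (W : Affine k) (c : k) :
    (∀ d, ¬ W.Equation c d) ∨
    (∃ d, W.Equation c d ∧ 2 * d + W.a₁ * c + W.a₃ = 0) ∨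
    (∃ d₁ d₂, W.Equation c d₁ ∧ W.Equation c d₂ ∧ d₁ ≠ d₂) := by
  by_cases h : ∃ d, W.Equation c d
  · obtain ⟨d, hd⟩ := h
    by_cases h2 : 2 * d + W.a₁ * c + W.a₃ = 0
    · exact Or.inr (Or.inl ⟨d, hd, h2⟩)
    · refine Or.inr (Or.inr ⟨d, -d - (W.a₁ * c + W.a₃), hd, equation_other hd, ?_⟩)
      intro h3
      apply h2
      linear_combination h3
  · exact Or.inl (fun d hd => h ⟨d, hd⟩)

/-- the number of points of `W` above `c` -/
def nPts (W : Affine k) (c : k) : ℕ := Nat.card {d : k // W.Equation c d}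

lemma nPts_zero {c : k} (h : ∀ d, ¬ W.Equation c d) : nPts W c = 0 := by
  haveI : IsEmpty {d : k // W.Equation c d} := ⟨fun d => h d.1 d.2⟩
  rw [nPts, Nat.card_of_isEmpty]

lemma nPts_one {c d : k} (h : W.Equation c d) (hd : 2 * d + W.a₁ * c + W.a₃ = 0) :
    nPts W c = 1 := by
  haveI : Unique {d : k // W.Equation c d} :=
    { default := ⟨d, h⟩
      uniq := by
        rintro ⟨d', h'⟩
        apply Subtype.ext
        show d' = d
        rw [Affine.equation_iff] at h h'
        have : (d' - d) ^ 2 = 0 := by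
          linear_combination h' - h - (d' - d) * hd
        exact sub_eq_zero.mp (pow_eq_zero_iff (two_ne_zero)|>.mp this) }
  rw [nPts, Nat.card_unique]

lemma nPts_two {c d₁ d₂ : k} (h₁ : W.Equation c d₁) (h₂ : W.Equation c d₂) (hne : d₁ ≠ d₂) :
    nPts W c = 2 := by
  rw [nPts, Nat.card_eq_two_iff]
  refine ⟨⟨d₁, h₁⟩, ⟨d₂, h₂⟩, fun h => hne (congrArg Subtype.val h), ?_⟩
  rw [Set.eq_univ_iff_forall]
  rintro ⟨d', h'⟩
  have e1 := h₁
  have e2 := h₂
  have e' := h'
  rw [Affine.equation_iff] at e1 e2 e'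
  have hsum : d₁ + d₂ + (W.a₁ * c + W.a₃) = 0 := by
    have : (d₁ - d₂) * (d₁ + d₂ + (W.a₁ * c + W.a₃)) = 0 := by linear_combination e1 - e2
    rcases mul_eq_zero.mp this with h0 | h0
    · exact absurd (sub_eq_zero.mp h0) hne
    · exact h0
  have : (d' - d₁) * (d' - d₂) = 0 := by
    linear_combination e' - e1 - (d' - d₁) * hsum
  rcases mul_eq_zero.mp this with h0 | h0
  · left
    exact Subtype.ext (sub_eq_zero.mp h0)
  · right
    exact Subtype.ext (sub_eq_zero.mp h0)

lemma nPts_le_two (W : Affine k) (c : k) : nPts W c ≤ 2 := by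
  rcases trichotomy W c with h | ⟨d, h, hd⟩ | ⟨d₁, d₂, h₁, h₂, hne⟩
  · rw [nPts_zero h]; omega
  · rw [nPts_one h hd]; omega
  · rw [nPts_two h₁ h₂ hne]

lemma sum_nPts [Fintype k] (W : Affine k) :
    ∑ c : k, nPts W c = Nat.card {p : k × k // W.Equation p.1 p.2} := by
  rw [Nat.card_congr (Equiv.subtypeProdEquivSigmaSubtype (fun c d => W.Equation c d)),
    Nat.card_sigma]
  rfl

lemma card_point [Fintype k] (W : Affine k) :
    Nat.card W.Point = Nat.card {p : k × k // W.Nonsingular p.1 p.2} + 1 := by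
  rw [Nat.card_congr W.nonsingularPointEquiv]
  haveI : Finite {p : k × k // W.Nonsingular p.1 p.2} := inferInstance
  exact Finite.card_option

end Trichotomy

section Assembly

variable {k : Type*} [Field k] [Fintype k] {W : Affine k}

lemma monic_cD : (cD k).Monic := by
  rw [cD]
  apply monic_X_pow_sub
  rw [degree_X]
  exact_mod_cast (Fintype.one_lt_card : 1 < Fintype.card k)

lemma natDegree_cD : (cD k).natDegree = Fintype.card k := by
  rw [cD]
  exact FiniteField.X_pow_card_sub_X_natDegree_eq k Fintype.one_lt_card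

lemma cD_eq_prod : cD k = ∏ c : k, (X - C c) := by
  classical
  have hroots : Multiset.card (cD k).roots = (cD k).natDegree := by
    rw [natDegree_cD, cD, FiniteField.roots_X_pow_card_sub_X]
    rfl
  have := prod_multiset_X_sub_C_of_monic_of_roots_card_eq monic_cD hroots
  rw [cD, FiniteField.roots_X_pow_card_sub_X] at this
  exact this.symm

/-- the common factor of the numerator and the denominator -/
def cG (W : Affine k) : k[X] := ∏ c : k, (X - C c) ^ (2 - nPts W c)

/-- the reduced denominator -/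
def cDen (W : Affine k) : k[X] := ∏ c : k, (X - C c) ^ nPts W c

lemma monic_cG (W : Affine k) : (cG W).Monic :=
  monic_prod_of_monic _ _ fun c _ => (monic_X_sub_C c).pow _

lemma monic_cDen (W : Affine k) : (cDen W).Monic :=
  monic_prod_of_monic _ _ fun c _ => (monic_X_sub_C c).pow _

lemma cG_mul_cDen (W : Affine k) : cG W * cDen W = cD k ^ 2 := by
  rw [cG, cDen, cD_eq_prod, ← Finset.prod_mul_distrib, ← Finset.prod_pow]
  refine Finset.prod_congr rfl fun c _ => ?_
  rw [← pow_add, Nat.sub_add_cancel (nPts_le_two W c)]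

lemma natDegree_cDen (W : Affine k) :
    (cDen W).natDegree = Nat.card {p : k × k // W.Equation p.1 p.2} := by
  rw [cDen, natDegree_prod_of_monic _ _ fun c _ => (monic_X_sub_C c).pow _, ← sum_nPts]
  refine Finset.sum_congr rfl fun c _ => ?_
  rw [(monic_X_sub_C c).natDegree_pow, natDegree_X_sub_C, mul_one]

lemma pow_dvd_cNum {u v : k[X]} (h : IsFrobCoeff W u v) (c : k) :
    (X - C c) ^ (2 - nPts W c) ∣ cNum W u v := by
  rcases trichotomy W c with h0 | ⟨d, h1, hd⟩ | ⟨d₁, d₂, h₁, h₂, hne⟩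
  · rw [nPts_zero h0]
    exact sq_dvd_cNum h h0
  · rw [nPts_one h1 hd]
    have : (cNum W u v).eval c = 0 := by
      obtain ⟨hu, hv⟩ := values_one h h1 hd
      rw [Affine.equation_iff] at h1
      rw [eval_cNum, hu, hv]
      linear_combination (-1 : k) * h1
    simpa using dvd_iff_isRoot.mpr this
  · rw [nPts_two h₁ h₂ hne]
    simp

lemma cG_dvd_cNum {u v : k[X]} (h : IsFrobCoeff W u v) : cG W ∣ cNum W u v := by
  rw [cG]
  apply Fintype.prod_dvd_of_coprime
  · intro c c' hcc'
    exact ((pairwise_coprime_X_sub_C (Function.injective_id (α := k))) hcc').pow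
  · exact pow_dvd_cNum h

lemma pow_dvd_cG (W : Affine k) (c : k) : (X - C c) ^ (2 - nPts W c) ∣ cG W := by
  rw [cG]
  exact Finset.dvd_prod_of_mem (fun c : k => (X - C c) ^ (2 - nPts W c)) (Finset.mem_univ c)

/-- **Manin's count, polynomial form.**  `x(φG − G) = cNum / D²` in lowest terms is
`num / cDen` with `deg cDen = #{affine points}` and `deg num = deg cDen + 1`. -/
theorem count_aux {u v : k[X]} (h : IsFrobCoeff W u v)
    (hns : ∀ c d, W.Equation c d → W.Nonsingular c d) :
    ∃ num : k[X], cNum W u v = cG W * num ∧ IsCoprime num (cDen W) ∧ num.Monic ∧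
      num.natDegree = (cDen W).natDegree + 1 := by
  obtain ⟨num, hnum⟩ := cG_dvd_cNum h
  have hmon : num.Monic := (monic_cG W).of_mul_monic_left (hnum ▸ monic_cNum h)
  refine ⟨num, hnum, ?_, hmon, ?_⟩
  · rw [cDen]
    apply IsCoprime.prod_right
    intro c _
    have hdvd : ∀ {m : ℕ}, 2 - nPts W c + 1 = m → (X - C c) ∣ num →
        (X - C c) ^ m ∣ cNum W u v := by
      intro m hm hdiv
      rw [hnum, ← hm, pow_succ]
      exact mul_dvd_mul (pow_dvd_cG W c) hdiv
    rcases trichotomy W c with h0 | ⟨d, h1, hd⟩ | ⟨d₁, d₂, h₁, h₂, hne⟩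
    · rw [nPts_zero h0, pow_zero]
      exact isCoprime_one_right
    · apply IsCoprime.pow_right
      apply IsCoprime.symm
      rw [(irreducible_X_sub_C c).coprime_iff_not_dvd]
      intro hdiv
      exact not_sq_dvd_cNum h (hns c d h1) hd (hdvd (by rw [nPts_one h1 hd]) hdiv)
    · apply IsCoprime.pow_right
      apply IsCoprime.symm
      rw [(irreducible_X_sub_C c).coprime_iff_not_dvd]
      intro hdiv
      have := hdvd (m := 1) (by rw [nPts_two h₁ h₂ hne]) hdiv
      rw [pow_one] at this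
      exact not_dvd_cNum h h₁ h₂ hne this
  · have e1 : (cNum W u v).natDegree = (cG W).natDegree + num.natDegree := by
      rw [hnum, (monic_cG W).natDegree_mul hmon]
    have e2 : (cD k ^ 2).natDegree = (cG W).natDegree + (cDen W).natDegree := by
      rw [← cG_mul_cDen, (monic_cG W).natDegree_mul (monic_cDen W)]
    rw [natDegree_cNum h] at e1
    rw [monic_cD.natDegree_pow, natDegree_cD] at e2
    omega

/-- **Manin's count** for a curve with `Δ ≠ 0`: degrees in terms of `#W(k)`. -/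
theorem count (hΔ : W.Δ ≠ 0) {u v : k[X]} (h : IsFrobCoeff W u v) :
    ∃ g num den : k[X], cNum W u v = g * num ∧ cD k ^ 2 = g * den ∧ IsCoprime num den ∧
      num.Monic ∧ den.Monic ∧ num.natDegree = Nat.card W.Point ∧
      den.natDegree + 1 = Nat.card W.Point := by
  have hns : ∀ c d, W.Equation c d → W.Nonsingular c d := fun c d hcd =>
    (W.equation_iff_nonsingular_of_Δ_ne_zero hΔ).mp hcd
  obtain ⟨num, h1, h2, h3, h4⟩ := count_aux h hns
  have hcard : Nat.card W.Point = (cDen W).natDegree + 1 := by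
    rw [card_point, natDegree_cDen]
    congr 1
    apply Nat.card_congr
    exact Equiv.subtypeEquivRight fun p =>
      (W.equation_iff_nonsingular_of_Δ_ne_zero hΔ).symm
  refine ⟨cG W, num, cDen W, h1, (cG_mul_cDen W).symm, h2, h3, monic_cDen W, ?_, ?_⟩
  · rw [h4, hcard]
  · rw [hcard]

end Assembly

end Fermat.Agent.P7.helper75
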