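import Mathlib
import Fermat.Agent.P7.helper47_ChoiceDefs
import Fermat.Agent.P7.helper80_KleinBezout

/-!
# P7 / S52 [COP] + [SPEC], common part (helper83): integrality of a Klein base point

For a valuation subring `A` of a field `L` whose residue characteristic is prime to `30`:
if `H(a, b)` and `T(a, b)` lie in `A` then `a, b ∈ A` (`mem_of_kleinH_kleinT`), and the
residue calculus of the Klein forms (`res_kleinH`, ...).
-/

set_option autoImplicit false
set_option linter.unusedSimpArgs false

namespace Fermat.Agent.P7.helper83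

open Fermat.Agent.P7.helper47 Fermat.Agent.P7.helper80

section Maps

variable {R S : Type*} [CommRing R] [CommRing S] {F : Type*} [FunLike F R S] [RingHomClass F R S]
  (φ : F)

theorem map_kleinF (a b : R) : φ (kleinF a b) = kleinF (φ a) (φ b) := by
  simp only [kleinF, map_mul, map_add, map_sub, map_pow, map_neg, map_ofNat]

theorem map_kleinH (a b : R) : φ (kleinH a b) = kleinH (φ a) (φ b) := by
  simp only [kleinH, map_mul, map_add, map_sub, map_pow, map_neg, map_ofNat]

theorem map_kleinT (a b : R) : φ (kleinT a b) = kleinT (φ a) (φ b) := by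
  simp only [kleinT, map_mul, map_add, map_sub, map_pow, map_neg, map_ofNat]

theorem map_kleinWa (a b : R) : φ (kleinWa a b) = kleinWa (φ a) (φ b) := by
  simp only [kleinWa, map_mul, map_add, map_sub, map_pow, map_neg, map_ofNat]

theorem map_kleinWb (a b : R) : φ (kleinWb a b) = kleinWb (φ a) (φ b) := by
  simp only [kleinWb, map_mul, map_add, map_sub, map_pow, map_neg, map_ofNat]

theorem kleinF_smul (c a b : R) : kleinF (c * a) (c * b) = c ^ 12 * kleinF a b := by
  simp only [kleinF]; ring

theorem kleinH_smul (c a b : R) : kleinH (c * a) (c * b) = c ^ 20 * kleinH a b := by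
  simp only [kleinH]; ring

theorem kleinT_smul (c a b : R) : kleinT (c * a) (c * b) = c ^ 30 * kleinT a b := by
  simp only [kleinT]; ring

theorem kleinWa_smul (c a b : R) : kleinWa (c * a) (c * b) = c ^ 11 * kleinWa a b := by
  simp only [kleinWa]; ring

theorem kleinWb_smul (c a b : R) : kleinWb (c * a) (c * b) = c ^ 11 * kleinWb a b := by
  simp only [kleinWb]; ring

theorem kleinH_eq_kH (a b : R) : kleinH a b = kH a b := rfl

theorem kleinT_eq_kT (a b : R) : kleinT a b = kT a b := rfl

theorem kleinF_eq_kF (a b : R) : kleinF a b = kF a b := rfl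

end Maps

section Val

variable {L : Type*} [Field L] (A : ValuationSubring L)

/-- the residue of an element of `A`, as a function on `L` (junk value `0` outside `A`). -/
noncomputable def rs (x : L) : IsLocalRing.ResidueField A :=
  open Classical in if h : x ∈ A then IsLocalRing.residue A ⟨x, h⟩ else 0

variable {A}

theorem rs_of_mem {x : L} (h : x ∈ A) : rs A x = IsLocalRing.residue A ⟨x, h⟩ := by
  simp [rs, h]

theorem rs_eq_zero_iff {x : L} (h : x ∈ A) : rs A x = 0 ↔ x ∈ A.nonunits := by
  rw [rs_of_mem h, IsLocalRing.residue_eq_zero_iff, ValuationSubring.valuation_lt_one_iff,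
    ValuationSubring.mem_nonunits_iff]

theorem rs_add {x y : L} (hx : x ∈ A) (hy : y ∈ A) : rs A (x + y) = rs A x + rs A y := by
  rw [rs_of_mem hx, rs_of_mem hy, rs_of_mem (A.add_mem _ _ hx hy), ← map_add]
  rfl

theorem rs_mul {x y : L} (hx : x ∈ A) (hy : y ∈ A) : rs A (x * y) = rs A x * rs A y := by
  rw [rs_of_mem hx, rs_of_mem hy, rs_of_mem (A.mul_mem _ _ hx hy), ← map_mul]
  rfl

theorem rs_one : rs A (1 : L) = 1 := by
  rw [rs_of_mem A.one_mem, ← map_one (IsLocalRing.residue A)]
  rfl

/-- the residue of a polynomial expression: transport along the subtype. -/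
theorem rs_coe (x : A) : rs A (x : L) = IsLocalRing.residue A x := by
  rw [rs_of_mem x.2]

theorem nonunits_mul_mem {x y : L} (hx : x ∈ A.nonunits) (hy : y ∈ A) : x * y ∈ A.nonunits := by
  rw [ValuationSubring.mem_nonunits_iff] at hx ⊢
  rw [← ValuationSubring.valuation_le_one_iff] at hy
  rw [map_mul]
  calc A.valuation x * A.valuation y ≤ A.valuation x * 1 := by gcongr
    _ = A.valuation x := mul_one _
    _ < 1 := hx

theorem nonunits_pow_mem {x : L} (hx : x ∈ A.nonunits) {n : ℕ} (hn : n ≠ 0) :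
    x ^ n ∈ A.nonunits := by
  rw [ValuationSubring.mem_nonunits_iff] at hx ⊢
  rw [map_pow]
  exact pow_lt_one₀ zero_le hx hn

theorem mem_of_nonunits {x : L} (hx : x ∈ A.nonunits) : x ∈ A := by
  rw [ValuationSubring.mem_nonunits_iff] at hx
  rw [← ValuationSubring.valuation_le_one_iff]
  exact hx.le

theorem residue_eq_zero_iff_coe (y : A) :
    IsLocalRing.residue A y = 0 ↔ (y : L) ∈ A.nonunits := by
  rw [IsLocalRing.residue_eq_zero_iff, ValuationSubring.valuation_lt_one_iff,
    ValuationSubring.mem_nonunits_iff]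

theorem natCast_residue_ne_zero {n : ℕ} (h : (n : L) ∉ A.nonunits) :
    (n : IsLocalRing.ResidueField A) ≠ 0 := by
  intro h0
  apply h
  have h1 : IsLocalRing.residue A (n : A) = 0 := by rw [map_natCast]; exact h0
  have h2 := (residue_eq_zero_iff_coe (n : A)).1 h1
  simpa using h2

/-- **Integrality of a Klein base point**: if the residue characteristic of `A` is prime to `30`
and `H(a, b)`, `T(a, b)` are integral at `A`, then `a` and `b` are integral at `A`. -/
theorem mem_of_kleinH_kleinT (A : ValuationSubring L)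
    (h2 : ((2 : ℕ) : L) ∉ A.nonunits) (h3 : ((3 : ℕ) : L) ∉ A.nonunits)
    (h5 : ((5 : ℕ) : L) ∉ A.nonunits)
    {a b : L} (hH : kleinH a b ∈ A) (hT : kleinT a b ∈ A) : a ∈ A ∧ b ∈ A := by
  have k2 : (2 : IsLocalRing.ResidueField A) ≠ 0 := by
    simpa using natCast_residue_ne_zero h2
  have k3 : (3 : IsLocalRing.ResidueField A) ≠ 0 := by
    simpa using natCast_residue_ne_zero h3
  have k5 : (5 : IsLocalRing.ResidueField A) ≠ 0 := by
    simpa using natCast_residue_ne_zero h5
  -- the key step: a primitive integral vector is not a common zero modulo the maximal ideal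
  have key : ∀ (c : L) (α β : A), c ∈ A.nonunits → (α : L) = c * a → (β : L) = c * b →
      IsLocalRing.residue A α = 0 ∧ IsLocalRing.residue A β = 0 := by
    intro c α β hc hα hβ
    have hc20 : c ^ 20 * kleinH a b ∈ A.nonunits :=
      nonunits_mul_mem (nonunits_pow_mem hc (by norm_num)) hH
    have hc30 : c ^ 30 * kleinT a b ∈ A.nonunits :=
      nonunits_mul_mem (nonunits_pow_mem hc (by norm_num)) hT
    rw [← kleinH_smul, ← hα, ← hβ] at hc20
    rw [← kleinT_smul, ← hα, ← hβ] at hc30
    have e1 : kleinH (α : L) (β : L) = ((kleinH α β : A) : L) :=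
      (map_kleinH A.subtype α β).symm
    have e2 : kleinT (α : L) (β : L) = ((kleinT α β : A) : L) :=
      (map_kleinT A.subtype α β).symm
    rw [e1, ← residue_eq_zero_iff_coe, map_kleinH] at hc20
    rw [e2, ← residue_eq_zero_iff_coe, map_kleinT] at hc30
    exact eq_zero_of_kH_kT k2 k3 k5 hc20 hc30
  by_contra hcon
  rcases le_total (A.valuation a) (A.valuation b) with hab | hab
  · have hb : b ∉ A := fun hb => hcon
      ⟨(A.valuation_le_one_iff a).1 (hab.trans ((A.valuation_le_one_iff b).2 hb)), hb⟩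
    have hb1 : 1 < A.valuation b := by
      rw [← not_le]
      exact fun h => hb ((A.valuation_le_one_iff b).1 h)
    have hb0 : b ≠ 0 := by
      rintro rfl
      simp at hb1
    have hinv : b⁻¹ ∈ A.nonunits := by
      rw [ValuationSubring.mem_nonunits_iff, map_inv₀]
      exact inv_lt_one_of_one_lt₀ hb1
    have ha' : b⁻¹ * a ∈ A := by
      rw [← ValuationSubring.valuation_le_one_iff, map_mul, map_inv₀]
      rw [inv_mul_le_iff₀ (lt_trans zero_lt_one hb1), mul_one]
      exact hab
    have h := key b⁻¹ ⟨b⁻¹ * a, ha'⟩ 1 hinv rfl (by simp [hb0])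
    rw [map_one] at h
    exact one_ne_zero h.2
  · have ha : a ∉ A := fun ha => hcon
      ⟨ha, (A.valuation_le_one_iff b).1 (hab.trans ((A.valuation_le_one_iff a).2 ha))⟩
    have ha1 : 1 < A.valuation a := by
      rw [← not_le]
      exact fun h => ha ((A.valuation_le_one_iff a).1 h)
    have ha0 : a ≠ 0 := by
      rintro rfl
      simp at ha1
    have hinv : a⁻¹ ∈ A.nonunits := by
      rw [ValuationSubring.mem_nonunits_iff, map_inv₀]
      exact inv_lt_one_of_one_lt₀ ha1
    have hb' : a⁻¹ * b ∈ A := by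
      rw [← ValuationSubring.valuation_le_one_iff, map_mul, map_inv₀]
      rw [inv_mul_le_iff₀ (lt_trans zero_lt_one ha1), mul_one]
      exact hab
    have h := key a⁻¹ 1 ⟨a⁻¹ * b, hb'⟩ hinv (by simp [ha0]) rfl
    rw [map_one] at h
    exact one_ne_zero h.1

/-! ### Residue characteristic -/

theorem charP_residue {ℓ : ℕ} (hℓ : ℓ.Prime) (hA : A.LiesOverPrime ℓ) :
    CharP (IsLocalRing.ResidueField A) ℓ := by
  refine (CharP.charP_iff_prime_eq_zero hℓ).mpr ?_
  have h : ((ℓ : A) : L) ∈ A.nonunits := by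
    have : (ℓ : L) ∈ A.nonunits := hA
    simpa using this
  have h1 := (residue_eq_zero_iff_coe (ℓ : A)).2 h
  rwa [map_natCast] at h1

theorem intCast_residue_ne_zero {ℓ : ℕ} (hℓ : ℓ.Prime) (hA : A.LiesOverPrime ℓ) {z : ℤ}
    (hz : ¬ (ℓ : ℤ) ∣ z) : ((z : ℤ) : IsLocalRing.ResidueField A) ≠ 0 := by
  have := charP_residue hℓ hA
  intro h
  exact hz ((CharP.intCast_eq_zero_iff (IsLocalRing.ResidueField A) ℓ z).mp h)

theorem intCast_residue_eq_zero {ℓ : ℕ} (hℓ : ℓ.Prime) (hA : A.LiesOverPrime ℓ) {z : ℤ}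
    (hz : (ℓ : ℤ) ∣ z) : ((z : ℤ) : IsLocalRing.ResidueField A) = 0 := by
  have := charP_residue hℓ hA
  exact (CharP.intCast_eq_zero_iff (IsLocalRing.ResidueField A) ℓ z).mpr hz

theorem natCast_notMem_nonunits {ℓ : ℕ} (hℓ : ℓ.Prime) (hA : A.LiesOverPrime ℓ) {n : ℕ}
    (hn : ¬ (ℓ : ℤ) ∣ (n : ℤ)) : ((n : ℕ) : L) ∉ A.nonunits := by
  intro h
  have h1 : ((n : A) : L) ∈ A.nonunits := by simpa using h
  have h2 := (residue_eq_zero_iff_coe (n : A)).2 h1
  rw [map_natCast] at h2
  have h3 := intCast_residue_ne_zero hℓ hA hn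
  rw [Int.cast_natCast] at h3
  exact h3 h2

end Val

section FieldLevel

variable {k : Type*} [Field k]

theorem fam_det (α β t : k) :
    famA α β t * kleinWb α β - famB α β t * kleinWa α β = -12 * kleinF α β := by
  have h := klein_det α β
  simp only [famA, famB]
  linear_combination h

theorem twelve_ne_zero (h2 : (2 : k) ≠ 0) (h3 : (3 : k) ≠ 0) : (12 : k) ≠ 0 := by
  have : (12 : k) = 2 ^ 2 * 3 := by norm_num
  rw [this]
  exact mul_ne_zero (pow_ne_zero _ h2) h3

/-- a member of the family is a primitive vector -/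
theorem fam_ne_zero (h2 : (2 : k) ≠ 0) (h3 : (3 : k) ≠ 0) {α β : k} (hf : kleinF α β ≠ 0)
    (t : k) : ¬ (famA α β t = 0 ∧ famB α β t = 0) := by
  rintro ⟨hA, hB⟩
  have h := fam_det α β t
  rw [hA, hB, zero_mul, zero_mul, sub_zero] at h
  exact mul_ne_zero (neg_ne_zero.mpr (twelve_ne_zero h2 h3)) hf h.symm

/-- **[COP]** over a field: `c₄` and `c₆` of a member of the family have no common zero. -/
theorem cop_field (h2 : (2 : k) ≠ 0) (h3 : (3 : k) ≠ 0) (h5 : (5 : k) ≠ 0) {α β : k}
    (hf : kleinF α β ≠ 0) (t : k) (hH : famC4 α β t = 0) : famC6 α β t ≠ 0 := by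
  intro hT
  simp only [famC4, famC6, neg_eq_zero] at hH hT
  exact fam_ne_zero h2 h3 hf t (eq_zero_of_kH_kT h2 h3 h5 hH hT)

theorem kleinH_one_I (j : k) (hj : j ^ 2 = -1) : kleinH 1 j = 492 + 456 * j := by
  unfold kleinH
  have h4 : j ^ 4 = 1 := by linear_combination (j ^ 2 - 1) * hj
  have e5 : j ^ 5 = j := by linear_combination j * h4
  have e10 : j ^ 10 = -1 := by linear_combination (j ^ 8 - j ^ 6 + j ^ 4 - j ^ 2 + 1) * hj
  have e15 : j ^ 15 = -j := by linear_combination (j ^ 13 - j ^ 11 + j ^ 9 - j ^ 7 + j ^ 5 - j ^ 3 + j) * hj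
  have e20 : j ^ 20 = 1 := by linear_combination (j ^ 10 - 1) * e10
  simp only [one_pow, one_mul]
  rw [e5, e10, e15, e20]
  ring

theorem kleinH_one_I_ne_zero (h2 : (2 : k) ≠ 0) (h3 : (3 : k) ≠ 0) (h5 : (5 : k) ≠ 0) (j : k)
    (hj : j ^ 2 = -1) : kleinH 1 j ≠ 0 := by
  rw [kleinH_one_I j hj]
  intro h
  have h1 : (450000 : k) = 0 := by
    have : (450000 : k) = (492 + 456 * j) * (492 - 456 * j) := by
      linear_combination (207936 : k) * hj
    rw [this, h, zero_mul]
  have h3' : (450000 : k) = 2 ^ 4 * 3 ^ 2 * 5 ^ 5 := by norm_num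
  rw [h3'] at h1
  exact mul_ne_zero (mul_ne_zero (pow_ne_zero _ h2) (pow_ne_zero _ h3)) (pow_ne_zero _ h5) h1

/-- **[SPEC]** over a field: the member of the family proportional to `(1, j)`, `j ^ 2 = -1`,
has `c₆ = 0` and `c₄ ≠ 0`. -/
theorem spec_field (h2 : (2 : k) ≠ 0) (h3 : (3 : k) ≠ 0) (h5 : (5 : k) ≠ 0) {α β j t : k}
    (hf : kleinF α β ≠ 0) (hj : j ^ 2 = -1)
    (ht : t * (kleinWa α β * j - kleinWb α β) = -(α * j - β)) :
    famC6 α β t = 0 ∧ famC4 α β t ≠ 0 := by
  have hB : famB α β t = famA α β t * j := by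
    simp only [famA, famB]
    linear_combination (-1 : k) * ht
  have hT : kleinT (famA α β t) (famB α β t) = 0 := by
    have := kleinT_smul (famA α β t) 1 j
    rw [mul_one] at this
    rw [hB, this, kleinT_one_I j hj, mul_zero]
  have hH : kleinH (famA α β t) (famB α β t) = famA α β t ^ 20 * kleinH 1 j := by
    have := kleinH_smul (famA α β t) 1 j
    rw [mul_one] at this
    rw [hB, this]
  have hA0 : famA α β t ≠ 0 := by
    intro h0
    apply fam_ne_zero h2 h3 hf t
    refine ⟨h0, ?_⟩
    rw [hB, h0, zero_mul]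
  refine ⟨?_, ?_⟩
  · simp only [famC6, hT, neg_zero]
  · simp only [famC4, hH, ne_eq, neg_eq_zero]
    exact mul_ne_zero (pow_ne_zero _ hA0) (kleinH_one_I_ne_zero h2 h3 h5 j hj)

end FieldLevel

section Transport

variable {R S : Type*} [CommRing R] [CommRing S] {F : Type*} [FunLike F R S] [RingHomClass F R S]
  (φ : F)

theorem map_famA (a b t : R) : φ (famA a b t) = famA (φ a) (φ b) (φ t) := by
  simp only [famA, map_add, map_mul, map_kleinWa]

theorem map_famB (a b t : R) : φ (famB a b t) = famB (φ a) (φ b) (φ t) := by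
  simp only [famB, map_add, map_mul, map_kleinWb]

theorem map_famC4 (a b t : R) : φ (famC4 a b t) = famC4 (φ a) (φ b) (φ t) := by
  simp only [famC4, map_neg, map_kleinH, map_famA, map_famB]

theorem map_famC6 (a b t : R) : φ (famC6 a b t) = famC6 (φ a) (φ b) (φ t) := by
  simp only [famC6, map_neg, map_kleinT, map_famA, map_famB]

variable {L : Type*} [Field L] {A : ValuationSubring L}

theorem residue_famC4 (α β : A) (t C : ℤ)
    (h : ((C : ℤ) : L) = famC4 (α : L) (β : L) ((t : ℤ) : L)) :
    ((C : ℤ) : IsLocalRing.ResidueField A) =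
      famC4 (IsLocalRing.residue A α) (IsLocalRing.residue A β)
        ((t : ℤ) : IsLocalRing.ResidueField A) := by
  have h1 : ((C : ℤ) : A) = famC4 α β ((t : ℤ) : A) := by
    apply Subtype.ext
    have e := map_famC4 A.subtype α β ((t : ℤ) : A)
    rw [map_intCast] at e
    change ((((C : ℤ) : A) : A) : L) = A.subtype (famC4 α β ((t : ℤ) : A))
    rw [e]
    simpa using h
  have h2 := congrArg (IsLocalRing.residue A) h1
  rwa [map_intCast, map_famC4, map_intCast] at h2

theorem residue_famC6 (α β : A) (t C : ℤ)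
    (h : ((C : ℤ) : L) = famC6 (α : L) (β : L) ((t : ℤ) : L)) :
    ((C : ℤ) : IsLocalRing.ResidueField A) =
      famC6 (IsLocalRing.residue A α) (IsLocalRing.residue A β)
        ((t : ℤ) : IsLocalRing.ResidueField A) := by
  have h1 : ((C : ℤ) : A) = famC6 α β ((t : ℤ) : A) := by
    apply Subtype.ext
    have e := map_famC6 A.subtype α β ((t : ℤ) : A)
    rw [map_intCast] at e
    change ((((C : ℤ) : A) : A) : L) = A.subtype (famC6 α β ((t : ℤ) : A))
    rw [e]
    simpa using h
  have h2 := congrArg (IsLocalRing.residue A) h1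
  rwa [map_intCast, map_famC6, map_intCast] at h2

end Transport

end Fermat.Agent.P7.helper83
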