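import Mathlib
import Fermat.Agent.P7.helper83_KleinInt
import Fermat.Agent.S54.helper91_Frobenius

/-!
# P7 / S52 [COP] + [SPEC] (helper83): the two CHOICE modules about the Klein family

* `copStatement : helper47.CopStatement` : outside `30 Δ(W)` the invariants `c₄(t)`, `c₆(t)` of
  an integral member of the family have no common prime factor;
* `specStatement : helper47.SpecStatement` : the member with `j = 1728` modulo an auxiliary
  prime `r` at which a Frobenius element acts trivially on `E[5]` and fixes `√-1`.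

Both are proved in the residue field of a valuation subring of `ℚ̄` over the prime; the base
point `(a, b)` is integral there by `mem_of_kleinH_kleinT` (Bezout certificate of helper80).
Only the fields `hH`, `hT`, `scal` of `helper47.IsFamBase` are used.
-/

set_option autoImplicit false

namespace Fermat.Agent.P7.helper83

open Fermat.Agent.P7.helper47 Fermat.Agent.P7.helper80

/-- the residue data of a base point at a prime not dividing `30 Δ` -/
theorem base_data (W : WeierstrassCurve ℤ) (a b : CQb) (_hΔ : W.Δ ≠ 0)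
    (hH : kleinH a b = -((W.c₄ : ℤ) : CQb)) (hT : kleinT a b = -((W.c₆ : ℤ) : CQb))
    (ℓ : ℕ) (hℓ : ℓ.Prime) (hℓΔ : ¬ (ℓ : ℤ) ∣ 30 * W.Δ) (A : ValuationSubring CQb)
    (hA : A.LiesOverPrime ℓ) :
    (2 : IsLocalRing.ResidueField A) ≠ 0 ∧ (3 : IsLocalRing.ResidueField A) ≠ 0 ∧
      (5 : IsLocalRing.ResidueField A) ≠ 0 ∧
      ∃ α β : A, (α : CQb) = a ∧ (β : CQb) = b ∧
        kleinF (IsLocalRing.residue A α) (IsLocalRing.residue A β) ≠ 0 := by
  have d2 : ¬ (ℓ : ℤ) ∣ ((2 : ℕ) : ℤ) := fun h => hℓΔ (h.trans ⟨15 * W.Δ, by push_cast; ring⟩)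
  have d3 : ¬ (ℓ : ℤ) ∣ ((3 : ℕ) : ℤ) := fun h => hℓΔ (h.trans ⟨10 * W.Δ, by push_cast; ring⟩)
  have d5 : ¬ (ℓ : ℤ) ∣ ((5 : ℕ) : ℤ) := fun h => hℓΔ (h.trans ⟨6 * W.Δ, by push_cast; ring⟩)
  have dΔ : ¬ (ℓ : ℤ) ∣ W.Δ := fun h => hℓΔ (h.trans ⟨30, by ring⟩)
  have k2 : (2 : IsLocalRing.ResidueField A) ≠ 0 := by
    simpa using intCast_residue_ne_zero hℓ hA d2
  have k3 : (3 : IsLocalRing.ResidueField A) ≠ 0 := by
    simpa using intCast_residue_ne_zero hℓ hA d3
  have k5 : (5 : IsLocalRing.ResidueField A) ≠ 0 := by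
    simpa using intCast_residue_ne_zero hℓ hA d5
  have kΔ := intCast_residue_ne_zero hℓ hA dΔ
  have hHA : kleinH a b ∈ A := by
    rw [hH]
    exact A.neg_mem _ (intCast_mem A _)
  have hTA : kleinT a b ∈ A := by
    rw [hT]
    exact A.neg_mem _ (intCast_mem A _)
  obtain ⟨ha, hb⟩ := mem_of_kleinH_kleinT A (natCast_notMem_nonunits hℓ hA d2)
    (natCast_notMem_nonunits hℓ hA d3) (natCast_notMem_nonunits hℓ hA d5) hHA hTA
  refine ⟨k2, k3, k5, ⟨a, ha⟩, ⟨b, hb⟩, rfl, rfl, ?_⟩
  set α : A := ⟨a, ha⟩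
  set β : A := ⟨b, hb⟩
  have e1 : kleinH α β = -((W.c₄ : ℤ) : A) := by
    apply Subtype.ext
    have := map_kleinH A.subtype α β
    change ((kleinH α β : A) : CQb) = _
    change ((kleinH α β : A) : CQb) = kleinH a b at this
    rw [this, hH]
    simp
  have e2 : kleinT α β = -((W.c₆ : ℤ) : A) := by
    apply Subtype.ext
    have := map_kleinT A.subtype α β
    change ((kleinT α β : A) : CQb) = _
    change ((kleinT α β : A) : CQb) = kleinT a b at this
    rw [this, hT]
    simp
  have r1 := congrArg (IsLocalRing.residue A) e1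
  have r2 := congrArg (IsLocalRing.residue A) e2
  rw [map_kleinH, map_neg, map_intCast] at r1
  rw [map_kleinT, map_neg, map_intCast] at r2
  have hrel := klein_relation (IsLocalRing.residue A α) (IsLocalRing.residue A β)
  rw [r1, r2] at hrel
  intro hf
  rw [hf] at hrel
  have hc : ((1728 * W.Δ : ℤ) : IsLocalRing.ResidueField A) = 0 := by
    have h : ((1728 * W.Δ : ℤ) : IsLocalRing.ResidueField A) =
        ((W.c₄ ^ 3 - W.c₆ ^ 2 : ℤ) : IsLocalRing.ResidueField A) :=
      congrArg (fun z : ℤ => (z : IsLocalRing.ResidueField A)) W.c_relation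
    rw [h]
    push_cast
    linear_combination (-1 : IsLocalRing.ResidueField A) * hrel
  rw [Int.cast_mul] at hc
  rcases mul_eq_zero.mp hc with h | h
  · have : ((1728 : ℤ) : IsLocalRing.ResidueField A) = 2 ^ 6 * 3 ^ 3 := by norm_num
    rw [this] at h
    exact mul_ne_zero (pow_ne_zero _ k2) (pow_ne_zero _ k3) h
  · exact kΔ h

/-- **[COP]** (helper47_ChoiceDefs shape, verbatim). -/
theorem copStatement : CopStatement := by
  intro W a b hΔ hH hT ℓ hℓ hℓΔ t C₄ C₆ hC4 hC6 hd4 hd6
  obtain ⟨A, hA⟩ := Fermat.Agent.S54.helper91.exists_valuationSubring_liesOver hℓ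
  obtain ⟨k2, k3, k5, α, β, rfl, rfl, hf⟩ := base_data W a b hΔ hH hT ℓ hℓ hℓΔ A hA
  have e4 := residue_famC4 α β t C₄ hC4
  have e6 := residue_famC6 α β t C₆ hC6
  rw [intCast_residue_eq_zero hℓ hA hd4] at e4
  rw [intCast_residue_eq_zero hℓ hA hd6] at e6
  exact cop_field k2 k3 k5 hf _ e4.symm e6.symm

/-! ### Frobenius elements and the prime field -/

section Frob

variable {K L : Type*} [Field K] [Field L] [Algebra K L]

theorem frob_residue {A : ValuationSubring L} {σ : L ≃ₐ[K] L} {q : ℕ}
    (h : A.IsFrobeniusAt σ q) (x y : A) (hxy : (y : L) = σ (x : L)) :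
    IsLocalRing.residue A y = IsLocalRing.residue A x ^ q := by
  obtain ⟨hσ, h⟩ := h
  have h1 := h (IsLocalRing.residue A x)
  rw [← IsLocalRing.ResidueField.residue_smul] at h1
  rw [← h1]
  congr 1
  apply Subtype.ext
  rw [hxy]
  rfl

/-- an element of a field of characteristic `r` fixed by the `r`-power map is the image of an
integer -/
theorem exists_intCast_of_pow_eq {k : Type*} [Field k] {r : ℕ} (hr : r.Prime) [CharP k r]
    {x : k} (hx : x ^ r = x) : ∃ n : ℤ, (n : k) = x := by
  have : Fact r.Prime := ⟨hr⟩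
  exact (mem_bot_iff_intCast r k).1 ((Subfield.mem_bot_iff_pow_eq_self k r).2 hx)

end Frob

/-- **[SPEC]** (helper47_ChoiceDefs shape, verbatim). -/
theorem specStatement : SpecStatement := by
  intro W a b hΔ hab r hr hrΔ A hA φ hφ htriv hi
  obtain ⟨k2, k3, k5, α, β, hα, hβ, hf⟩ := base_data W a b hΔ hab.hH hab.hT r hr hrΔ A hA
  have := charP_residue hr hA
  -- a square root of `-1`
  obtain ⟨i, hi2⟩ : ∃ i : CQb, i ^ 2 = -1 := IsAlgClosed.exists_pow_nat_eq (-1 : CQb) two_pos
  have hiA : i ∈ A := by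
    rcases A.mem_or_inv_mem i with h | h
    · exact h
    · have e : i = -i⁻¹ := by
        have hi0 : i ≠ 0 := by
          rintro rfl
          norm_num at hi2
        field_simp
        linear_combination hi2
      rw [e]
      exact A.neg_mem _ h
  -- the choice of the sign
  obtain ⟨J, hJ2, hJd⟩ : ∃ J : A, (J : CQb) ^ 2 = -1 ∧
      kleinWa (IsLocalRing.residue A α) (IsLocalRing.residue A β) * IsLocalRing.residue A J
        - kleinWb (IsLocalRing.residue A α) (IsLocalRing.residue A β) ≠ 0 := by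
    by_contra hcon
    push Not at hcon
    have h1 := hcon ⟨i, hiA⟩ hi2
    have h2 := hcon (-⟨i, hiA⟩) (by
      change (-i) ^ 2 = -1
      rw [neg_sq, hi2])
    rw [map_neg] at h2
    have hι : IsLocalRing.residue A ⟨i, hiA⟩ ^ 2 = -1 := by
      have e : (⟨i, hiA⟩ : A) ^ 2 = -1 := Subtype.ext (by
        change i ^ 2 = -1
        exact hi2)
      rw [← map_pow, e, map_neg, map_one]
    have hι0 : IsLocalRing.residue A ⟨i, hiA⟩ ≠ 0 := by
      intro h0
      rw [h0] at hι
      norm_num at hι
    have hwa : kleinWa (IsLocalRing.residue A α) (IsLocalRing.residue A β) = 0 := by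
      have h3 : 2 * (kleinWa (IsLocalRing.residue A α) (IsLocalRing.residue A β) *
          IsLocalRing.residue A ⟨i, hiA⟩) = 0 := by
        linear_combination h1 - h2
      rcases mul_eq_zero.mp h3 with h | h
      · exact absurd h k2
      · exact (mul_eq_zero.mp h).resolve_right hι0
    have hwb : kleinWb (IsLocalRing.residue A α) (IsLocalRing.residue A β) = 0 := by
      rw [hwa, zero_mul, zero_sub, neg_eq_zero] at h1
      exact h1
    have hdet := klein_det (IsLocalRing.residue A α) (IsLocalRing.residue A β)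
    rw [hwa, hwb, mul_zero, mul_zero, sub_zero] at hdet
    exact mul_ne_zero (neg_ne_zero.mpr (twelve_ne_zero k2 k3)) hf hdet.symm
  -- the parameter `t*`
  set dA : A := kleinWa α β * J - kleinWb α β with hdA
  set nA : A := -(α * J - β) with hnA
  have hres_d : IsLocalRing.residue A dA =
      kleinWa (IsLocalRing.residue A α) (IsLocalRing.residue A β) * IsLocalRing.residue A J
        - kleinWb (IsLocalRing.residue A α) (IsLocalRing.residue A β) := by
    rw [hdA, map_sub, map_mul, map_kleinWa, map_kleinWb]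
  have hunit : IsUnit dA := by
    by_contra hnu
    have : dA ∈ IsLocalRing.maximalIdeal A := (IsLocalRing.mem_maximalIdeal dA).2 hnu
    rw [← IsLocalRing.residue_eq_zero_iff, hres_d] at this
    exact hJd this
  obtain ⟨u, hu⟩ := hunit.exists_right_inv
  set T : A := nA * u with hT
  have hTd : T * dA = nA := by
    rw [hT, mul_assoc, mul_comm u dA, hu, mul_one]
  -- `φ` fixes `t*`
  obtain ⟨ε, hε, hεa, hεb⟩ := hab.scal φ htriv
  have hε0 : ε ≠ 0 := by
    rintro rfl
    norm_num at hε
  have hφJ : φ (J : CQb) = (J : CQb) := hi _ hJ2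
  have hdL : (dA : CQb) = kleinWa a b * (J : CQb) - kleinWb a b := by
    have := map_kleinWa A.subtype α β
    have := map_kleinWb A.subtype α β
    rw [hdA, ← hα, ← hβ]
    change (kleinWa α β : A).1 * J.1 - (kleinWb α β : A).1 = _
    simp_all
  have hnL : (nA : CQb) = -(a * (J : CQb) - b) := by
    rw [hnA, ← hα, ← hβ]
    rfl
  have hφd : φ (dA : CQb) = ε * (dA : CQb) := by
    rw [hdL, map_sub, map_mul, map_kleinWa, map_kleinWb, hεa, hεb, kleinWa_smul, kleinWb_smul,
      hφJ]
    have e11 : ε ^ 11 = ε := by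
      rw [pow_succ, hε, one_mul]
    rw [e11]
    ring
  have hφn : φ (nA : CQb) = ε * (nA : CQb) := by
    rw [hnL, map_neg, map_sub, map_mul, hεa, hεb, hφJ]
    ring
  have hd0 : (dA : CQb) ≠ 0 := by
    intro h0
    have : dA = 0 := Subtype.ext h0
    rw [this] at hu
    rw [zero_mul] at hu
    exact zero_ne_one hu
  have hTL : (T : CQb) * (dA : CQb) = (nA : CQb) := by
    have := congrArg (fun z : A => (z : CQb)) hTd
    exact this
  have hφT : (T : CQb) = φ (T : CQb) := by
    have h1 := congrArg φ hTL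
    rw [map_mul, hφd, hφn] at h1
    have h2 : φ (T : CQb) * (dA : CQb) = (nA : CQb) := by
      apply mul_left_cancel₀ hε0
      linear_combination h1
    apply mul_right_cancel₀ hd0
    rw [hTL, h2]
  -- the residue of `t*` lies in the prime field
  have hfrob := frob_residue hφ T T hφT
  obtain ⟨t₁, ht₁⟩ := exists_intCast_of_pow_eq hr hfrob.symm
  refine ⟨t₁, ?_⟩
  intro t C₄ C₆ hdvd hC4 hC6
  have htt : ((t : ℤ) : IsLocalRing.ResidueField A) = IsLocalRing.residue A T := by
    have h0 := intCast_residue_eq_zero hr hA hdvd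
    rw [Int.cast_sub, sub_eq_zero] at h0
    rw [h0, ht₁]
  have hJres : IsLocalRing.residue A J ^ 2 = -1 := by
    have e : J ^ 2 = -1 := Subtype.ext (by
      change (J : CQb) ^ 2 = -1
      exact hJ2)
    rw [← map_pow, e, map_neg, map_one]
  have hkey : ((t : ℤ) : IsLocalRing.ResidueField A) *
      (kleinWa (IsLocalRing.residue A α) (IsLocalRing.residue A β) * IsLocalRing.residue A J
        - kleinWb (IsLocalRing.residue A α) (IsLocalRing.residue A β)) =
      -(IsLocalRing.residue A α * IsLocalRing.residue A J - IsLocalRing.residue A β) := by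
    rw [htt, ← hres_d, ← map_mul, hTd, hnA, map_neg, map_sub, map_mul]
  obtain ⟨h6, h4⟩ := spec_field k2 k3 k5 hf hJres hkey
  have e4 := residue_famC4 α β t C₄ (by rw [hα, hβ]; exact hC4)
  have e6 := residue_famC6 α β t C₆ (by rw [hα, hβ]; exact hC6)
  rw [h6] at e6
  constructor
  · exact (CharP.intCast_eq_zero_iff (IsLocalRing.ResidueField A) r C₆).mp e6
  · intro hd
    apply h4
    rw [← e4]
    exact intCast_residue_eq_zero hr hA hd

end Fermat.Agent.P7.helper83
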