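import Fermat.Agent.P7.helper92_ManinDefs

/-!
# P7 / S52, package [CE-MANIN], leaf [DEG-BIQ] (helper88, task 917)

`rdegBiq : helper92.RdegBiqStatement`: if `s + t` and `s * t` are given by the biquadratic
forms in `r₁, r₂` (denominator `(r₁ - r₂) ^ 2`) then `rdeg s + rdeg t ≤ 2 rdeg r₁ + 2 rdeg r₂`.

Proof: explicit Gauss lemma for `(d₁ T - n₁) (d₂ T - n₂)` (content ideal is the unit ideal,
by a direct `IsCoprime` computation), then a three-case degree count.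
-/

set_option autoImplicit false

open Polynomial

namespace Fermat.Agent.P7.helper88

open Fermat.Agent.S13.helper64 Fermat.Agent.P7.helper92

/-- Explicit Gauss lemma: the coefficients `d₁ d₂`, `n₁ d₂ + n₂ d₁`, `n₁ n₂` of
`(d₁ T + n₁) (d₂ T + n₂)` generate the unit ideal when `(n₁, d₁) = (n₂, d₂) = 1`;
so a common multiple relation forces `d₁ d₂ ∣ C₀`. -/
lemma biq_dvd {R : Type*} [CommRing R] (n1 d1 n2 d2 C0 C1 C2 : R)
    (hc1 : IsCoprime n1 d1) (hc2 : IsCoprime n2 d2)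
    (h1 : (n1 * d2 + n2 * d1) * C0 = C1 * (d1 * d2))
    (h2 : n1 * n2 * C0 = C2 * (d1 * d2)) : d1 * d2 ∣ C0 := by
  have hA : d1 * d2 ∣ C0 * (d1 * d2) := Dvd.intro_left _ rfl
  have hB : d1 * d2 ∣ C0 * (n1 * n2) := ⟨C2, by rw [mul_comm C0, h2]; ring⟩
  have hS : d1 * d2 ∣ C0 * (n1 * d2 + n2 * d1) := ⟨C1, by rw [mul_comm C0, h1]; ring⟩
  have hsq1 : d1 * d2 ∣ C0 * (n1 * d2) ^ 2 := by
    have e : C0 * (n1 * d2) ^ 2
        = (n1 * d2) * (C0 * (n1 * d2 + n2 * d1)) - (d1 * d2) * (C0 * (n1 * n2)) := by ring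
    rw [e]
    exact dvd_sub (Dvd.dvd.mul_left hS _) (Dvd.dvd.mul_left hB _)
  have hsq2 : d1 * d2 ∣ C0 * (n2 * d1) ^ 2 := by
    have e : C0 * (n2 * d1) ^ 2
        = (n2 * d1) * (C0 * (n1 * d2 + n2 * d1)) - (d1 * d2) * (C0 * (n1 * n2)) := by ring
    rw [e]
    exact dvd_sub (Dvd.dvd.mul_left hS _) (Dvd.dvd.mul_left hB _)
  -- `d2 ^ 2` and `d1 ^ 2`
  have hd2 : d1 * d2 ∣ C0 * d2 ^ 2 := by
    obtain ⟨u, v, huv⟩ := (hc1.pow_left (m := 2))
    have e : C0 * d2 ^ 2 = u * (C0 * (n1 * d2) ^ 2) + (v * d2) * (C0 * (d1 * d2)) := by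
      have : C0 * d2 ^ 2 = C0 * d2 ^ 2 * (u * n1 ^ 2 + v * d1) := by rw [huv, mul_one]
      rw [this]; ring
    rw [e]
    exact dvd_add (Dvd.dvd.mul_left hsq1 _) (Dvd.dvd.mul_left hA _)
  have hd1 : d1 * d2 ∣ C0 * d1 ^ 2 := by
    obtain ⟨u, v, huv⟩ := (hc2.pow_left (m := 2))
    have e : C0 * d1 ^ 2 = u * (C0 * (n2 * d1) ^ 2) + (v * d1) * (C0 * (d1 * d2)) := by
      have : C0 * d1 ^ 2 = C0 * d1 ^ 2 * (u * n2 ^ 2 + v * d2) := by rw [huv, mul_one]
      rw [this]; ring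
    rw [e]
    exact dvd_add (Dvd.dvd.mul_left hsq2 _) (Dvd.dvd.mul_left hA _)
  -- `n2`
  have hn2 : d1 * d2 ∣ C0 * n2 := by
    obtain ⟨u, v, huv⟩ := (hc1.pow_right (n := 2))
    have e : C0 * n2 = u * (C0 * (n1 * n2)) + (v * n2) * (C0 * d1 ^ 2) := by
      have : C0 * n2 = C0 * n2 * (u * n1 + v * d1 ^ 2) := by rw [huv, mul_one]
      rw [this]; ring
    rw [e]
    exact dvd_add (Dvd.dvd.mul_left hB _) (Dvd.dvd.mul_left hd1 _)
  obtain ⟨u, v, huv⟩ := (hc2.pow_right (n := 2))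
  have e : C0 = u * (C0 * n2) + v * (C0 * d2 ^ 2) := by
    calc C0 = C0 * (u * n2 + v * d2 ^ 2) := by rw [huv, mul_one]
      _ = u * (C0 * n2) + v * (C0 * d2 ^ 2) := by ring
  rw [e]
  exact dvd_add (Dvd.dvd.mul_left hn2 _) (Dvd.dvd.mul_left hd2 _)

variable {k : Type} [Field k]

lemma natDegree_le_of_mul_right (x e : k[X]) (he : e ≠ 0) (H : ℕ)
    (h : (x * e).natDegree ≤ H) : x.natDegree ≤ H := by
  by_cases hx : x = 0
  · subst hx; simp
  · rw [natDegree_mul hx he] at h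
    omega

/-- The polynomial core of [DEG-BIQ]. -/
lemma biq_core (n1 d1 n2 d2 C0 C1 C2 : k[X]) (hd1 : d1 ≠ 0) (hd2 : d2 ≠ 0)
    (hc1 : IsCoprime n1 d1) (hc2 : IsCoprime n2 d2) (hC0 : C0 ≠ 0)
    (h1 : (n1 * d2 + n2 * d1) * C0 = C1 * (d1 * d2))
    (h2 : n1 * n2 * C0 = C2 * (d1 * d2)) (H : ℕ)
    (hH0 : C0.natDegree ≤ H) (hH1 : C1.natDegree ≤ H) (hH2 : C2.natDegree ≤ H) :
    max n1.natDegree d1.natDegree + max n2.natDegree d2.natDegree ≤ H := by
  obtain ⟨e, he⟩ := biq_dvd n1 d1 n2 d2 C0 C1 C2 hc1 hc2 h1 h2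
  have hd : d1 * d2 ≠ 0 := mul_ne_zero hd1 hd2
  have he0 : e ≠ 0 := by
    rintro rfl
    exact hC0 (by rw [he, mul_zero])
  have hC1 : C1 = (n1 * d2 + n2 * d1) * e := by
    apply mul_right_cancel₀ hd
    rw [← h1, he]; ring
  have hC2 : C2 = n1 * n2 * e := by
    apply mul_right_cancel₀ hd
    rw [← h2, he]; ring
  have b0 : (d1 * d2).natDegree ≤ H := natDegree_le_of_mul_right _ e he0 H (by rw [← he]; exact hH0)
  have b1 : (n1 * d2 + n2 * d1).natDegree ≤ H :=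
    natDegree_le_of_mul_right _ e he0 H (by rw [← hC1]; exact hH1)
  have b2 : (n1 * n2).natDegree ≤ H :=
    natDegree_le_of_mul_right _ e he0 H (by rw [← hC2]; exact hH2)
  rw [natDegree_mul hd1 hd2] at b0
  rcases le_or_gt n1.natDegree d1.natDegree with c1 | c1
  · rcases le_or_gt n2.natDegree d2.natDegree with c2 | c2
    · rw [max_eq_right c1, max_eq_right c2]; exact b0
    · -- `n2 d1` dominates
      have hn2 : n2 ≠ 0 := by
        rintro rfl
        simp at c2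
      rw [max_eq_right c1, max_eq_left c2.le]
      have hlt : (n1 * d2).natDegree < (n2 * d1).natDegree := by
        rw [natDegree_mul hn2 hd1]
        by_cases hn1 : n1 = 0
        · subst hn1; simp only [zero_mul, natDegree_zero]; omega
        · rw [natDegree_mul hn1 hd2]; omega
      rw [natDegree_add_eq_right_of_natDegree_lt hlt, natDegree_mul hn2 hd1] at b1
      omega
  · have hn1 : n1 ≠ 0 := by
      rintro rfl
      simp at c1
    rcases le_or_gt n2.natDegree d2.natDegree with c2 | c2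
    · rw [max_eq_left c1.le, max_eq_right c2]
      have hlt : (n2 * d1).natDegree < (n1 * d2).natDegree := by
        rw [natDegree_mul hn1 hd2]
        by_cases hn2 : n2 = 0
        · subst hn2; simp only [zero_mul, natDegree_zero]; omega
        · rw [natDegree_mul hn2 hd1]; omega
      rw [natDegree_add_eq_left_of_natDegree_lt hlt, natDegree_mul hn1 hd2] at b1
      omega
    · have hn2 : n2 ≠ 0 := by
        rintro rfl
        simp at c2
      rw [max_eq_left c1.le, max_eq_left c2.le]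
      rw [natDegree_mul hn1 hn2] at b2
      exact b2

section degrees

variable (p1 q1 p2 q2 : k[X]) (a b : ℕ) (c2 c4 c6 c8 : k)

lemma natDegree_oddT_sq_le (hp1 : p1.natDegree ≤ a) (hq1 : q1.natDegree ≤ a)
    (hp2 : p2.natDegree ≤ b) (hq2 : q2.natDegree ≤ b) :
    (oddT p1 q1 p2 q2 ^ 2).natDegree ≤ 2 * a + 2 * b := by
  unfold oddT
  compute_degree
  omega

lemma natDegree_sumNum_le (hp1 : p1.natDegree ≤ a) (hq1 : q1.natDegree ≤ a)
    (hp2 : p2.natDegree ≤ b) (hq2 : q2.natDegree ≤ b) :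
    (sumNum (C c2) (C c4) (C c6) p1 q1 p2 q2).natDegree ≤ 2 * a + 2 * b := by
  unfold sumNum
  compute_degree
  omega

lemma natDegree_prodNum_le (hp1 : p1.natDegree ≤ a) (hq1 : q1.natDegree ≤ a)
    (hp2 : p2.natDegree ≤ b) (hq2 : q2.natDegree ≤ b) :
    (prodNum (C c4) (C c6) (C c8) p1 q1 p2 q2).natDegree ≤ 2 * a + 2 * b := by
  unfold prodNum
  compute_degree
  omega

end degrees

/-- **[DEG-BIQ]** -/
theorem rdegBiq : RdegBiqStatement := by
  intro k _ V r₁ r₂ s t hne hsum hprod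
  set φ : k[X] →+* RatFunc k := algebraMap k[X] (RatFunc k) with hφ
  have hφinj : Function.Injective φ := IsFractionRing.injective k[X] (RatFunc k)
  set p1 := r₁.num with hp1
  set q1 := r₁.denom with hq1
  set p2 := r₂.num with hp2
  set q2 := r₂.denom with hq2
  set n1 := s.num with hn1
  set d1 := s.denom with hd1
  set n2 := t.num with hn2
  set d2 := t.denom with hd2
  have hq1' : φ q1 ≠ 0 := (map_ne_zero_iff φ hφinj).mpr r₁.denom_ne_zero
  have hq2' : φ q2 ≠ 0 := (map_ne_zero_iff φ hφinj).mpr r₂.denom_ne_zero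
  have hd1' : φ d1 ≠ 0 := (map_ne_zero_iff φ hφinj).mpr s.denom_ne_zero
  have hd2' : φ d2 ≠ 0 := (map_ne_zero_iff φ hφinj).mpr t.denom_ne_zero
  have er1 : r₁ = φ p1 / φ q1 := (RatFunc.num_div_denom r₁).symm
  have er2 : r₂ = φ p2 / φ q2 := (RatFunc.num_div_denom r₂).symm
  have es : s = φ n1 / φ d1 := (RatFunc.num_div_denom s).symm
  have et : t = φ n2 / φ d2 := (RatFunc.num_div_denom t).symm
  have eC : ∀ c : k, RatFunc.C c = φ (C c) := fun c => (RatFunc.algebraMap_C c).symm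
  set C0 : k[X] := oddT p1 q1 p2 q2 ^ 2 with hC0
  set C1 : k[X] := sumNum (C V.b₂) (C V.b₄) (C V.b₆) p1 q1 p2 q2 with hC1
  set C2 : k[X] := prodNum (C V.b₄) (C V.b₆) (C V.b₈) p1 q1 p2 q2 with hC2
  -- images of the three forms
  have f0 : φ C0 = (r₁ - r₂) ^ 2 * (φ q1 * φ q2) ^ 2 := by
    rw [hC0, er1, er2]
    simp only [oddT, map_pow, map_sub, map_mul]
    field_simp
  have f1 : φ C1 = sumNum (RatFunc.C V.b₂) (RatFunc.C V.b₄) (RatFunc.C V.b₆) r₁ 1 r₂ 1
      * (φ q1 * φ q2) ^ 2 := by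
    rw [hC1, er1, er2, eC, eC, eC]
    simp only [sumNum, map_pow, map_mul, map_add, map_ofNat]
    field_simp
  have f2 : φ C2 = prodNum (RatFunc.C V.b₄) (RatFunc.C V.b₆) (RatFunc.C V.b₈) r₁ 1 r₂ 1
      * (φ q1 * φ q2) ^ 2 := by
    rw [hC2, er1, er2, eC, eC, eC]
    simp only [prodNum, map_pow, map_sub, map_mul, map_add]
    field_simp
  have hC0ne : C0 ≠ 0 := by
    intro h0
    have : φ C0 = 0 := by rw [h0, map_zero]
    rw [f0] at this
    rcases mul_eq_zero.mp this with h | h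
    · exact hne (sub_eq_zero.mp ((pow_eq_zero_iff (two_ne_zero)).mp h))
    · exact (mul_ne_zero hq1' hq2') ((pow_eq_zero_iff (two_ne_zero)).mp h)
  have g1 : (s + t) * φ C0 = φ C1 := by
    rw [f0, f1, ← hsum]; ring
  have g2 : s * t * φ C0 = φ C2 := by
    rw [f0, f2, ← hprod]; ring
  have h1 : (n1 * d2 + n2 * d1) * C0 = C1 * (d1 * d2) := by
    apply hφinj
    simp only [map_mul, map_add]
    rw [← g1, es, et]
    field_simp
  have h2 : n1 * n2 * C0 = C2 * (d1 * d2) := by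
    apply hφinj
    simp only [map_mul]
    rw [← g2, es, et]
    field_simp
  have hb1p : p1.natDegree ≤ rdeg r₁ := le_max_left _ _
  have hb1q : q1.natDegree ≤ rdeg r₁ := le_max_right _ _
  have hb2p : p2.natDegree ≤ rdeg r₂ := le_max_left _ _
  have hb2q : q2.natDegree ≤ rdeg r₂ := le_max_right _ _
  exact biq_core n1 d1 n2 d2 C0 C1 C2 s.denom_ne_zero t.denom_ne_zero
    s.isCoprime_num_denom t.isCoprime_num_denom hC0ne h1 h2 (2 * rdeg r₁ + 2 * rdeg r₂)
    (natDegree_oddT_sq_le p1 q1 p2 q2 _ _ hb1p hb1q hb2p hb2q)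
    (natDegree_sumNum_le p1 q1 p2 q2 _ _ _ _ _ hb1p hb1q hb2p hb2q)
    (natDegree_prodNum_le p1 q1 p2 q2 _ _ _ _ _ hb1p hb1q hb2p hb2q)

end Fermat.Agent.P7.helper88
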