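import Fermat.Agent.P7.helper92_ManinDefs

/-!
# P7 / S52, module CE, package [CE-MANIN], row [DEG-BIQ] (helper89, second prover)

`rdegBiq : helper92.RdegBiqStatement` : if `s + t` and `s * t` are given by the biquadratic forms
`sumNum / oddT²` and `prodNum / oddT²` in `r₁ ≠ r₂` then
`rdeg s + rdeg t ≤ 2 rdeg r₁ + 2 rdeg r₂`.

Proof ("explicit Gauss lemma"): write `s = p / u`, `t = p' / u'` in lowest terms and put
`g = u u'`, `m = p u' + p' u`, `n = p p'`.  These three polynomials generate the unit ideal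
(`exists_bezout3`), hence the homogenised forms `A* = oddT²`, `B* = sumNum`, `C* = prodNum`
(evaluated at numerators and denominators of `r₁, r₂`) are `e g`, `e m`, `e n` for one polynomial
`e ≠ 0`.  Finally `rdeg s + rdeg t ≤ max (deg g) (deg m) (deg n)` by a case distinction and
`deg A*, deg B*, deg C* ≤ 2 rdeg r₁ + 2 rdeg r₂` because the forms have bidegree `(2, 2)`.
Mathlib only (plus the definitions of `helper64_XOnly` / `helper92_ManinDefs`).
-/

set_option autoImplicit false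

open Polynomial
open Fermat.Agent.S13.helper64 Fermat.Agent.P7.helper92

namespace Fermat.Agent.P7.helper89

namespace RdegBiq

/-! ### ring homomorphisms and the forms -/

section maps

variable {A B : Type*} [CommRing A] [CommRing B] (f : A →+* B)

lemma map_sumNum (b₂ b₄ b₆ X₁ Z₁ X₂ Z₂ : A) :
    f (sumNum b₂ b₄ b₆ X₁ Z₁ X₂ Z₂) = sumNum (f b₂) (f b₄) (f b₆) (f X₁) (f Z₁) (f X₂) (f Z₂) := by
  simp only [sumNum, map_add, map_mul, map_pow, map_ofNat]

lemma map_prodNum (b₄ b₆ b₈ X₁ Z₁ X₂ Z₂ : A) :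
    f (prodNum b₄ b₆ b₈ X₁ Z₁ X₂ Z₂) = prodNum (f b₄) (f b₆) (f b₈) (f X₁) (f Z₁) (f X₂) (f Z₂) := by
  simp only [prodNum, map_add, map_sub, map_mul, map_pow]

lemma map_oddT (X₁ Z₁ X₂ Z₂ : A) :
    f (oddT X₁ Z₁ X₂ Z₂) = oddT (f X₁) (f Z₁) (f X₂) (f Z₂) := by
  simp only [oddT, map_sub, map_mul]

end maps

/-! ### the Bezout certificate -/

/-- If `(p, u)` and `(p', u')` are coprime pairs then `u u'`, `p u' + p' u`, `p p'` generate the
unit ideal. -/
theorem exists_bezout3 {R : Type*} [CommRing R] {p u p' u' : R} (h : IsCoprime p u)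
    (h' : IsCoprime p' u') :
    ∃ α β γ : R, α * (u * u') + β * (p * u' + p' * u) + γ * (p * p') = 1 := by
  obtain ⟨a, b, hab⟩ := h
  obtain ⟨a', b', hab'⟩ := h'
  refine ⟨b * b' * (1 + (a * b' - b * a') * (p * u')) - (a * b' - b * a') ^ 2 * (p * p'),
    b * a' * (1 + (a * b' - b * a') * (p * u')) + (a * b' - b * a') ^ 2 * (p * u'),
    a * a' * (1 + (a * b' - b * a') * (p * u')), ?_⟩
  linear_combination ((1 + (a * b' - b * a') * (p * u')) * (a' * p' + b' * u')) * hab
    + (1 + (a * b' - b * a') * (p * u')) * hab'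

/-- Common factor: if `m A = B g`, `n A = C g` and `(g, m, n)` is the unit ideal (with `g ≠ 0` in
a domain) then `A = e g`, `B = e m`, `C = e n`. -/
theorem exists_common_factor {R : Type*} [CommRing R] [IsDomain R] {g m n A B C : R}
    (hg : g ≠ 0) (hbez : ∃ α β γ : R, α * g + β * m + γ * n = 1)
    (h1 : m * A = B * g) (h2 : n * A = C * g) :
    ∃ e : R, A = e * g ∧ B = e * m ∧ C = e * n := by
  obtain ⟨α, β, γ, hb⟩ := hbez
  refine ⟨α * A + β * B + γ * C, ?_, ?_, ?_⟩
  · linear_combination (-A) * hb + β * h1 + γ * h2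
  · apply mul_right_cancel₀ hg
    linear_combination (-(m * A)) * hb + (β * m - 1) * h1 + (γ * m) * h2
  · apply mul_right_cancel₀ hg
    linear_combination (-(n * A)) * hb + (β * n) * h1 + (γ * n - 1) * h2

/-! ### degrees -/

section degrees

variable {k : Type} [Field k]

/-- `max (deg p) (deg u) + max (deg p') (deg u')` is bounded by the maximum of the degrees of
`u u'`, `p u' + p' u`, `p p'`. -/
theorem max_add_max_le {p u p' u' : k[X]} (hu : u ≠ 0) (hu' : u' ≠ 0) {D : ℕ}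
    (hg : (u * u').natDegree ≤ D) (hm : (p * u' + p' * u).natDegree ≤ D)
    (hn : (p * p').natDegree ≤ D) :
    max p.natDegree u.natDegree + max p'.natDegree u'.natDegree ≤ D := by
  rcases le_or_gt p.natDegree u.natDegree with h | h
  · rcases le_or_gt p'.natDegree u'.natDegree with h' | h'
    · rw [max_eq_right h, max_eq_right h', ← natDegree_mul hu hu']
      exact hg
    · -- `deg p ≤ deg u`, `deg u' < deg p'`
      have hp' : p' ≠ 0 := by
        rintro rfl
        simp at h'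
      rw [max_eq_right h, max_eq_left h'.le]
      have hlt : (p * u').natDegree < (p' * u).natDegree := by
        rw [natDegree_mul hp' hu]
        calc (p * u').natDegree ≤ p.natDegree + u'.natDegree := natDegree_mul_le
          _ < p'.natDegree + u.natDegree := by omega
      have := natDegree_add_eq_left_of_natDegree_lt hlt
      rw [add_comm] at this
      rw [this, natDegree_mul hp' hu] at hm
      omega
  · have hp : p ≠ 0 := by
      rintro rfl
      simp at h
    rcases le_or_gt p'.natDegree u'.natDegree with h' | h'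
    · rw [max_eq_left h.le, max_eq_right h']
      have hlt : (p' * u).natDegree < (p * u').natDegree := by
        rw [natDegree_mul hp hu']
        calc (p' * u).natDegree ≤ p'.natDegree + u.natDegree := natDegree_mul_le
          _ < p.natDegree + u'.natDegree := by omega
      have := natDegree_add_eq_left_of_natDegree_lt hlt
      rw [this, natDegree_mul hp hu'] at hm
      exact hm
    · have hp' : p' ≠ 0 := by
        rintro rfl
        simp at h'
      rw [max_eq_left h.le, max_eq_left h'.le, ← natDegree_mul hp hp']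
      exact hn

/-- a factor has smaller degree -/
lemma natDegree_le_of_eq_mul {e x y : k[X]} (he : e ≠ 0) (h : y = e * x) :
    x.natDegree ≤ y.natDegree := by
  rcases eq_or_ne x 0 with rfl | hx
  · simp
  · rw [h, natDegree_mul he hx]
    omega

/-- monomials of bidegree `(2, 2)` -/
lemma mem_degreeLE_term {D₁ D₂ : ℕ} {y₁ y₁' y₂ y₂' : k[X]} (h₁ : y₁.natDegree ≤ D₁)
    (h₁' : y₁'.natDegree ≤ D₁) (h₂ : y₂.natDegree ≤ D₂) (h₂' : y₂'.natDegree ≤ D₂) :
    y₁ * y₁' * (y₂ * y₂') ∈ degreeLE k ((2 * D₁ + 2 * D₂ : ℕ) : WithBot ℕ) := by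
  rw [mem_degreeLE, ← natDegree_le_iff_degree_le]
  have := natDegree_mul_le_of_le (natDegree_mul_le_of_le h₁ h₁') (natDegree_mul_le_of_le h₂ h₂')
  omega

variable {D₁ D₂ : ℕ} {x₁ z₁ x₂ z₂ : k[X]}

lemma natDegree_sumNum_le (b₂ b₄ b₆ : k) (hx₁ : x₁.natDegree ≤ D₁) (hz₁ : z₁.natDegree ≤ D₁)
    (hx₂ : x₂.natDegree ≤ D₂) (hz₂ : z₂.natDegree ≤ D₂) :
    (sumNum (C b₂) (C b₄) (C b₆) x₁ z₁ x₂ z₂).natDegree ≤ 2 * D₁ + 2 * D₂ := by
  have e : sumNum (C b₂) (C b₄) (C b₆) x₁ z₁ x₂ z₂ =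
      (2 : k) • (x₁ * x₁ * (x₂ * z₂)) + (2 : k) • (x₁ * z₁ * (x₂ * x₂))
        + b₂ • (x₁ * z₁ * (x₂ * z₂)) + b₄ • (x₁ * z₁ * (z₂ * z₂))
        + b₄ • (z₁ * z₁ * (x₂ * z₂)) + b₆ • (z₁ * z₁ * (z₂ * z₂)) := by
    simp only [sumNum, smul_eq_C_mul, map_ofNat]
    ring
  rw [natDegree_le_iff_degree_le, ← mem_degreeLE, e]
  refine Submodule.add_mem _ (Submodule.add_mem _ (Submodule.add_mem _ (Submodule.add_mem _
    (Submodule.add_mem _ ?_ ?_) ?_) ?_) ?_) ?_ <;>
  · apply Submodule.smul_mem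
    apply mem_degreeLE_term <;> assumption

lemma natDegree_prodNum_le (b₄ b₆ b₈ : k) (hx₁ : x₁.natDegree ≤ D₁) (hz₁ : z₁.natDegree ≤ D₁)
    (hx₂ : x₂.natDegree ≤ D₂) (hz₂ : z₂.natDegree ≤ D₂) :
    (prodNum (C b₄) (C b₆) (C b₈) x₁ z₁ x₂ z₂).natDegree ≤ 2 * D₁ + 2 * D₂ := by
  have e : prodNum (C b₄) (C b₆) (C b₈) x₁ z₁ x₂ z₂ =
      (1 : k) • (x₁ * x₁ * (x₂ * x₂)) + (-b₄) • (x₁ * z₁ * (x₂ * z₂))
        + (-b₆) • (x₁ * z₁ * (z₂ * z₂)) + (-b₆) • (z₁ * z₁ * (x₂ * z₂))
        + (-b₈) • (z₁ * z₁ * (z₂ * z₂)) := by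
    simp only [prodNum, smul_eq_C_mul, map_neg, map_one]
    ring
  rw [natDegree_le_iff_degree_le, ← mem_degreeLE, e]
  refine Submodule.add_mem _ (Submodule.add_mem _ (Submodule.add_mem _
    (Submodule.add_mem _ ?_ ?_) ?_) ?_) ?_ <;>
  · apply Submodule.smul_mem
    apply mem_degreeLE_term <;> assumption

lemma natDegree_oddT_sq_le (hx₁ : x₁.natDegree ≤ D₁) (hz₁ : z₁.natDegree ≤ D₁)
    (hx₂ : x₂.natDegree ≤ D₂) (hz₂ : z₂.natDegree ≤ D₂) :
    (oddT x₁ z₁ x₂ z₂ ^ 2).natDegree ≤ 2 * D₁ + 2 * D₂ := by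
  have e : oddT x₁ z₁ x₂ z₂ ^ 2 =
      (1 : k) • (x₁ * x₁ * (z₂ * z₂)) + (-2 : k) • (x₁ * z₁ * (x₂ * z₂))
        + (1 : k) • (z₁ * z₁ * (x₂ * x₂)) := by
    simp only [oddT, smul_eq_C_mul, map_neg, map_one, map_ofNat]
    ring
  rw [natDegree_le_iff_degree_le, ← mem_degreeLE, e]
  refine Submodule.add_mem _ (Submodule.add_mem _ ?_ ?_) ?_ <;>
  · apply Submodule.smul_mem
    apply mem_degreeLE_term <;> assumption

end degrees

end RdegBiq

open RdegBiq

/-- **[DEG-BIQ]** (`helper92.RdegBiqStatement`, verbatim). -/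
theorem rdegBiq : RdegBiqStatement := by
  intro k _ V r₁ r₂ s t hne h1 h2
  have hinj : Function.Injective (algebraMap k[X] (RatFunc k)) := RatFunc.algebraMap_injective k
  have key : ∀ r : RatFunc k,
      r * algebraMap k[X] (RatFunc k) r.denom = algebraMap k[X] (RatFunc k) r.num := by
    intro r
    have hd : algebraMap k[X] (RatFunc k) r.denom ≠ 0 :=
      (map_ne_zero_iff _ hinj).mpr (RatFunc.denom_ne_zero r)
    calc r * algebraMap k[X] (RatFunc k) r.denom
        = algebraMap k[X] (RatFunc k) r.num / algebraMap k[X] (RatFunc k) r.denom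
            * algebraMap k[X] (RatFunc k) r.denom := by rw [RatFunc.num_div_denom]
      _ = algebraMap k[X] (RatFunc k) r.num := div_mul_cancel₀ _ hd
  -- the homogenised forms
  set Ast : k[X] := oddT r₁.num r₁.denom r₂.num r₂.denom ^ 2 with hAst
  set Bst : k[X] := sumNum (C V.b₂) (C V.b₄) (C V.b₆) r₁.num r₁.denom r₂.num r₂.denom with hBst
  set Cst : k[X] := prodNum (C V.b₄) (C V.b₆) (C V.b₈) r₁.num r₁.denom r₂.num r₂.denom with hCst
  -- the two polynomial identities
  have E1 : (s.num * t.denom + t.num * s.denom) * Ast = Bst * (s.denom * t.denom) := by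
    apply hinj
    rw [hAst, hBst]
    simp only [map_mul, map_add, map_pow, map_sumNum, map_oddT, RatFunc.algebraMap_C, ← key]
    simp only [sumNum, oddT] at h1 ⊢
    linear_combination (algebraMap k[X] (RatFunc k) s.denom * algebraMap k[X] (RatFunc k) t.denom
      * algebraMap k[X] (RatFunc k) r₁.denom ^ 2 * algebraMap k[X] (RatFunc k) r₂.denom ^ 2) * h1
  have E2 : (s.num * t.num) * Ast = Cst * (s.denom * t.denom) := by
    apply hinj
    rw [hAst, hCst]
    simp only [map_mul, map_pow, map_prodNum, map_oddT, RatFunc.algebraMap_C, ← key]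
    simp only [prodNum, oddT] at h2 ⊢
    linear_combination (algebraMap k[X] (RatFunc k) s.denom * algebraMap k[X] (RatFunc k) t.denom
      * algebraMap k[X] (RatFunc k) r₁.denom ^ 2 * algebraMap k[X] (RatFunc k) r₂.denom ^ 2) * h2
  -- `A* ≠ 0`
  have hA0 : Ast ≠ 0 := by
    intro h0
    have h3 : oddT r₁.num r₁.denom r₂.num r₂.denom = 0 := by
      rw [hAst] at h0
      exact pow_eq_zero_iff (two_ne_zero) |>.mp h0
    have h4 := congrArg (algebraMap k[X] (RatFunc k)) h3
    rw [map_oddT, map_zero] at h4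
    simp only [oddT, ← key] at h4
    have hd₁ : algebraMap k[X] (RatFunc k) r₁.denom ≠ 0 :=
      (map_ne_zero_iff _ hinj).mpr (RatFunc.denom_ne_zero r₁)
    have hd₂ : algebraMap k[X] (RatFunc k) r₂.denom ≠ 0 :=
      (map_ne_zero_iff _ hinj).mpr (RatFunc.denom_ne_zero r₂)
    apply hne
    apply mul_right_cancel₀ (mul_ne_zero hd₁ hd₂)
    linear_combination h4
  have hg0 : s.denom * t.denom ≠ 0 := mul_ne_zero (RatFunc.denom_ne_zero s) (RatFunc.denom_ne_zero t)
  -- common factor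
  obtain ⟨e, heA, heB, heC⟩ := exists_common_factor hg0
    (exists_bezout3 (RatFunc.isCoprime_num_denom s) (RatFunc.isCoprime_num_denom t)) E1 E2
  have he : e ≠ 0 := by
    rintro rfl
    exact hA0 (by rw [heA, zero_mul])
  -- degree bounds
  have hx₁ : r₁.num.natDegree ≤ rdeg r₁ := le_max_left _ _
  have hz₁ : r₁.denom.natDegree ≤ rdeg r₁ := le_max_right _ _
  have hx₂ : r₂.num.natDegree ≤ rdeg r₂ := le_max_left _ _
  have hz₂ : r₂.denom.natDegree ≤ rdeg r₂ := le_max_right _ _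
  have dA : Ast.natDegree ≤ 2 * rdeg r₁ + 2 * rdeg r₂ := natDegree_oddT_sq_le hx₁ hz₁ hx₂ hz₂
  have dB : Bst.natDegree ≤ 2 * rdeg r₁ + 2 * rdeg r₂ :=
    natDegree_sumNum_le _ _ _ hx₁ hz₁ hx₂ hz₂
  have dC : Cst.natDegree ≤ 2 * rdeg r₁ + 2 * rdeg r₂ :=
    natDegree_prodNum_le _ _ _ hx₁ hz₁ hx₂ hz₂
  exact max_add_max_le (RatFunc.denom_ne_zero s) (RatFunc.denom_ne_zero t)
    ((natDegree_le_of_eq_mul he heA).trans dA) ((natDegree_le_of_eq_mul he heB).trans dB)
    ((natDegree_le_of_eq_mul he heC).trans dC)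

end Fermat.Agent.P7.helper89
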