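import Fermat.Agent.S51.Three

/-!
# P7 / S52 (helper92): irreducibility mod `3` from ONE auxiliary prime, without Frobenius

For an integral Weierstrass curve `W` with `Δ ≠ 0`:

* `irr3_of_no_rat_root` : if `ψ₃ = 3x⁴ + b₂x³ + 3b₄x² + 3b₆x + b₈` has no rational root, then
  `W.ModRepIsIrreducible 3` (contrapositive of `S51.exists_three_data`);
* `psi3_root_mod_of_rat_root` : a rational root of `ψ₃` gives a root modulo every prime `q ≠ 3`;
* `irr3_of_no_root_mod` : if for ONE prime `q ≠ 3` the reduction of `ψ₃` has no root in `ZMod q`,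
  then `W.ModRepIsIrreducible 3`.

No reduction map, no Frobenius, no point count.
-/

set_option autoImplicit false

namespace Fermat.Agent.P7.helper92

open WeierstrassCurve

/-- the value of `ψ₃` of the integral model `W` in a commutative ring `R` -/
def psi3At (W : WeierstrassCurve ℤ) {R : Type*} [CommRing R] (x : R) : R :=
  3 * x ^ 4 + (W.b₂ : R) * x ^ 3 + 3 * (W.b₄ : R) * x ^ 2 + 3 * (W.b₆ : R) * x + (W.b₈ : R)

/-- no rational root of `ψ₃` ⇒ irreducible mod `3` -/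
theorem irr3_of_no_rat_root (W : WeierstrassCurve ℤ) (hΔ : W.Δ ≠ 0)
    (h : ∀ x : ℚ, psi3At W x ≠ 0) : W.ModRepIsIrreducible 3 := by
  by_contra hirr
  obtain ⟨x₃, hx₃⟩ := Fermat.Agent.S51.exists_three_data W hΔ hirr
  exact h x₃ hx₃

/-- clearing denominators, over a field -/
lemma psi3_clear {F : Type*} [Field F] (n d b₂ b₄ b₆ b₈ : F) (hd : d ≠ 0) :
    (3 * (n / d) ^ 4 + b₂ * (n / d) ^ 3 + 3 * b₄ * (n / d) ^ 2 + 3 * b₆ * (n / d) + b₈) * d ^ 4 =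
      3 * n ^ 4 + b₂ * n ^ 3 * d + 3 * b₄ * n ^ 2 * d ^ 2 + 3 * b₆ * n * d ^ 3 + b₈ * d ^ 4 := by
  field_simp

/-- a rational root of `ψ₃` gives a root modulo every prime `q ≠ 3` -/
theorem psi3_root_mod_of_rat_root (W : WeierstrassCurve ℤ) (q : ℕ) [hq : Fact q.Prime]
    (hq3 : q ≠ 3) {x : ℚ} (hx : psi3At W x = 0) : ∃ y : ZMod q, psi3At W y = 0 := by
  -- clear denominators
  have hden : ((x.den : ℤ) : ℚ) ≠ 0 := by
    have := x.den_nz
    exact_mod_cast this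
  have hxe : x = ((x.num : ℤ) : ℚ) / ((x.den : ℤ) : ℚ) := by
    have := (Rat.num_div_den x).symm
    exact_mod_cast this
  have hZ : (3 * x.num ^ 4 + W.b₂ * x.num ^ 3 * (x.den : ℤ) + 3 * W.b₄ * x.num ^ 2 * (x.den : ℤ) ^ 2
      + 3 * W.b₆ * x.num * (x.den : ℤ) ^ 3 + W.b₈ * (x.den : ℤ) ^ 4 : ℤ) = 0 := by
    have h1 := psi3_clear ((x.num : ℤ) : ℚ) ((x.den : ℤ) : ℚ) (W.b₂ : ℚ) (W.b₄ : ℚ) (W.b₆ : ℚ)
      (W.b₈ : ℚ) hden
    rw [← hxe] at h1
    have h2 : psi3At W x = 3 * x ^ 4 + (W.b₂ : ℚ) * x ^ 3 + 3 * (W.b₄ : ℚ) * x ^ 2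
        + 3 * (W.b₆ : ℚ) * x + (W.b₈ : ℚ) := rfl
    rw [← h2, hx, zero_mul] at h1
    have h3 : (((3 * x.num ^ 4 + W.b₂ * x.num ^ 3 * (x.den : ℤ)
        + 3 * W.b₄ * x.num ^ 2 * (x.den : ℤ) ^ 2
        + 3 * W.b₆ * x.num * (x.den : ℤ) ^ 3 + W.b₈ * (x.den : ℤ) ^ 4 : ℤ)) : ℚ) = 0 := by
      push_cast
      exact h1.symm
    exact_mod_cast h3
  -- `q` does not divide the denominator
  have hqd : ¬ (q : ℤ) ∣ (x.den : ℤ) := by
    intro hd
    have hq' : Prime (q : ℤ) := Nat.prime_iff_prime_int.mp hq.out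
    have hdn : (x.den : ℤ) ∣ 3 * x.num ^ 4 :=
      ⟨-(W.b₂ * x.num ^ 3 + 3 * W.b₄ * x.num ^ 2 * (x.den : ℤ)
        + 3 * W.b₆ * x.num * (x.den : ℤ) ^ 2 + W.b₈ * (x.den : ℤ) ^ 3), by
        linear_combination hZ⟩
    have h3n : (q : ℤ) ∣ 3 * x.num ^ 4 := hd.trans hdn
    rcases hq'.dvd_or_dvd h3n with h3 | hn
    · have h3' : q ∣ 3 := by exact_mod_cast h3
      exact hq3 ((Nat.prime_dvd_prime_iff_eq hq.out Nat.prime_three).mp h3')
    · have hn' : (q : ℤ) ∣ x.num := hq'.dvd_of_dvd_pow hn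
      have hcop : Nat.Coprime x.num.natAbs x.den := x.reduced
      have h1 : q ∣ x.num.natAbs := Int.natCast_dvd.mp hn'
      have h2 : q ∣ x.den := by exact_mod_cast hd
      have := Nat.dvd_gcd h1 h2
      rw [hcop.gcd_eq_one] at this
      exact hq.out.one_lt.ne' (Nat.dvd_one.mp this)
  have hu : (((x.den : ℤ)) : ZMod q) ≠ 0 := by
    intro h0
    exact hqd ((ZMod.intCast_zmod_eq_zero_iff_dvd _ _).mp h0)
  refine ⟨((x.num : ℤ) : ZMod q) / (((x.den : ℤ)) : ZMod q), ?_⟩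
  have hcast := congrArg (Int.cast : ℤ → ZMod q) hZ
  push_cast at hcast
  have h1 := psi3_clear ((x.num : ℤ) : ZMod q) (((x.den : ℤ)) : ZMod q) (W.b₂ : ZMod q)
    (W.b₄ : ZMod q) (W.b₆ : ZMod q) (W.b₈ : ZMod q) hu
  have h2 : psi3At W (((x.num : ℤ) : ZMod q) / (((x.den : ℤ)) : ZMod q)) *
      (((x.den : ℤ)) : ZMod q) ^ 4 = 0 := by
    unfold psi3At
    rw [h1]
    push_cast
    exact hcast
  exact (mul_eq_zero.mp h2).resolve_right (pow_ne_zero 4 hu)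

/-- **IRR3 criterion**: if the reduction of `ψ₃` modulo ONE prime `q ≠ 3` has no root in
`ZMod q`, then the mod `3` representation of `W` is irreducible. -/
theorem irr3_of_no_root_mod (W : WeierstrassCurve ℤ) (hΔ : W.Δ ≠ 0) (q : ℕ) [Fact q.Prime]
    (hq3 : q ≠ 3) (h : ∀ y : ZMod q, psi3At W y ≠ 0) : W.ModRepIsIrreducible 3 := by
  refine irr3_of_no_rat_root W hΔ (fun x hx => ?_)
  obtain ⟨y, hy⟩ := psi3_root_mod_of_rat_root W q hq3 hx
  exact h y hy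

end Fermat.Agent.P7.helper92
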