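import Fermat.Agent.P7.helper92_ManinKX
import Fermat.Agent.P7.helper97_MulCore
import Fermat.Agent.P7.helper52_CEFinal

/-!
# P7 / S52, [CE-MANIN], row MAN-SMALL: `GenStatement`, `FrobStatement`, `ConstStatement`
(helper92, second prover)
-/

set_option autoImplicit false

open WeierstrassCurve WeierstrassCurve.Affine Polynomial
open scoped WeierstrassCurve.Affine Classical Polynomial.Bivariate

namespace Fermat.Agent.P7.helper92

open Fermat.Agent.P6.helper78 Fermat.Agent.P7.helper52

lemma rdeg_X' {k : Type} [Field k] : rdeg (RatFunc.X : RatFunc k) = 1 := by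
  unfold rdeg
  rw [RatFunc.num_X, RatFunc.denom_X]
  simp

lemma rdeg_pow' {k : Type} [Field k] (r : RatFunc k) (n : ℕ) : rdeg (r ^ n) = n * rdeg r :=
  Fermat.Agent.P7.helper97.ratDeg_pow k r n

lemma exists_C_of_rdeg_eq_zero {k : Type} [Field k] (r : RatFunc k) (h : rdeg r = 0) :
    ∃ c : k, r = RatFunc.C c := by
  unfold rdeg at h
  have h1 : r.num.natDegree = 0 := by omega
  have h2 : r.denom.natDegree = 0 := by omega
  obtain ⟨a, ha⟩ := Polynomial.natDegree_eq_zero.mp h1
  obtain ⟨b, hb⟩ := Polynomial.natDegree_eq_zero.mp h2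
  refine ⟨a / b, ?_⟩
  rw [← RatFunc.num_div_denom r, ← ha, ← hb, map_div₀, RatFunc.algebraMap_C,
    RatFunc.algebraMap_C]

section small

variable (W : WeierstrassCurve ℤ) (k : Type) [Field k]

/-- **[MAN-GEN]** -/
theorem gen : GenStatement := by
  intro W k _ hΔ
  refine ⟨Point.some (xK W k) (yK W k) (nonsingular_gen W k hΔ), ⟨_, rfl⟩, ?_, ?_⟩
  · rw [some_mem_manG_iff]
    refine ⟨?_, invKHom_yK W k⟩
    rw [← kxHom_X, invKHom_kxHom]
  · rw [manH_some, ← kxHom_X, xdeg_kxHom, rdeg_X']
    rfl

lemma invPt_eq_mapPt : invPt W k = mapPt W (invK W k) := rfl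

/-- **[MAN-FROB]** -/
theorem frob : FrobStatement := by
  intro W ℓ _ k _ _ hΔ P hP
  constructor
  · rw [mem_manG_iff] at hP ⊢
    rw [invPt_eq_mapPt, frobKPt_map, ← invPt_eq_mapPt, hP, map_neg]
  · rcases manG_cases W k hΔ P hP with rfl | ⟨r, y, h, rfl⟩
    · rw [map_zero, manH_zero, mul_zero]
    · have e : ∃ h', frobKPt W k ℓ (Point.some (kxHom W k r) y h)
          = Point.some (kxHom W k (r ^ ℓ)) (y ^ ℓ) h' := by
        have e1 : kxHom W k (r ^ ℓ) = (kxHom W k r) ^ ℓ := map_pow _ _ _
        rw [e1]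
        exact ⟨_, rfl⟩
      obtain ⟨h', e⟩ := e
      rw [e, manH_some_kx, manH_some_kx, rdeg_pow']
      push_cast
      ring

/-- **[MAN-CONST]** -/
theorem const : ConstStatement := by
  intro W k _ _ hΔ P hP h0
  rcases manG_cases W k hΔ P hP with rfl | ⟨r, y, h, rfl⟩
  · exact ⟨0, rfl⟩
  · rw [manH_some_kx] at h0
    have h0' : rdeg r = 0 := by exact_mod_cast h0
    obtain ⟨c, rfl⟩ := exists_C_of_rdeg_eq_zero r h0'
    -- `y` is integral over `k`
    have heq := h.1
    rw [Affine.equation_iff] at heq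
    rw [kxHom_C] at heq
    simp only [WeierstrassCurve.map_a₁, WeierstrassCurve.map_a₂, WeierstrassCurve.map_a₃,
      WeierstrassCurve.map_a₄, WeierstrassCurve.map_a₆, eq_intCast] at heq
    have hint : IsIntegral k y := by
      refine ⟨Polynomial.X ^ 2 + Polynomial.C ((W.a₁ : k) * c + (W.a₃ : k)) * Polynomial.X
        - Polynomial.C (c ^ 3 + (W.a₂ : k) * c ^ 2 + (W.a₄ : k) * c + (W.a₆ : k)), ?_, ?_⟩
      · have hdeg : (Polynomial.C ((W.a₁ : k) * c + (W.a₃ : k)) * Polynomial.X
            - Polynomial.C (c ^ 3 + (W.a₂ : k) * c ^ 2 + (W.a₄ : k) * c + (W.a₆ : k))).degree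
              < ((2 : ℕ) : WithBot ℕ) := by
          refine lt_of_le_of_lt (Polynomial.degree_sub_le _ _) ?_
          refine max_lt ?_ ?_
          · refine lt_of_le_of_lt (Polynomial.degree_C_mul_X_le _) ?_
            exact_mod_cast one_lt_two
          · refine lt_of_le_of_lt Polynomial.degree_C_le ?_
            exact_mod_cast zero_lt_two
        rw [add_sub_assoc]
        exact Polynomial.monic_X_pow_add hdeg
      · simp only [Polynomial.eval₂_sub, Polynomial.eval₂_add, Polynomial.eval₂_mul,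
          Polynomial.eval₂_pow, Polynomial.eval₂_X, Polynomial.eval₂_C, map_add, map_mul,
          map_pow, algebraMap_KE_intCast]
        linear_combination heq
    obtain ⟨d, hd⟩ := exists_algebraMap_eq_of_isIntegral hint
    subst hd
    have hns : (W.map (Int.castRingHom k)).toAffine.Nonsingular c d := by
      rw [← Affine.equation_iff_nonsingular_of_Δ_ne_zero hΔ, Affine.equation_iff]
      apply (algebraMap k (KE W k)).injective
      simp only [WeierstrassCurve.map_a₁, WeierstrassCurve.map_a₂, WeierstrassCurve.map_a₃,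
        WeierstrassCurve.map_a₄, WeierstrassCurve.map_a₆, eq_intCast, map_add, map_mul,
        map_pow, algebraMap_KE_intCast]
      exact heq
    refine ⟨Point.some c d hns, ?_⟩
    have e : ∃ h', constPt W k (Point.some c d hns)
        = Point.some (algebraMap k (KE W k) c) (algebraMap k (KE W k) d) h' := ⟨_, rfl⟩
    obtain ⟨h', e⟩ := e
    rw [e]
    congr 1
    exact kxHom_C W k c

end small

end Fermat.Agent.P7.helper92
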