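import Fermat.Agent.P7.helper92_ManinDefs

/-!
# P7 / S52, [CE-MANIN]: the x-only formula for `x(A+B) * x(A-B)` (helper92)

Companion of `helper64.sumNum_eq`.
-/

set_option autoImplicit false

open WeierstrassCurve WeierstrassCurve.Affine

namespace Fermat.Agent.P7.helper92

section field

variable {F : Type*} [Field F] {W : Affine F}

/-- `x(A+B) (x₁ - x₂)²` in terms of the chord. -/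
lemma addX_mul_sq (x₁ x₂ u ℓ : F) (hℓ : ℓ * (x₁ - x₂) = u) :
    W.addX x₁ x₂ ℓ * (x₁ - x₂) ^ 2 =
      u ^ 2 + W.a₁ * u * (x₁ - x₂) - (W.a₂ + x₁ + x₂) * (x₁ - x₂) ^ 2 := by
  simp only [addX]
  linear_combination (ℓ * (x₁ - x₂) + u + W.a₁ * (x₁ - x₂)) * hℓ

/-- x-only formula for `x(A+B) * x(A-B)`. -/
lemma prodNum_eq {x₁ y₁ x₂ y₂ : F} (h₁ : W.Equation x₁ y₁) (h₂ : W.Equation x₂ y₂) (ℓp ℓm : F)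
    (hx : x₁ ≠ x₂)
    (hp : ℓp * (x₁ - x₂) = y₁ - y₂) (hm : ℓm * (x₁ - x₂) = y₁ - W.negY x₂ y₂) :
    prodNum W.b₄ W.b₆ W.b₈ x₁ 1 x₂ 1 =
      W.addX x₁ x₂ ℓp * W.addX x₁ x₂ ℓm * (x₁ - x₂) ^ 2 := by
  have ht : (x₁ - x₂) ^ 2 ≠ 0 := pow_ne_zero 2 (sub_ne_zero.mpr hx)
  have hA := addX_mul_sq (W := W) x₁ x₂ (y₁ - y₂) ℓp hp
  have hB := addX_mul_sq (W := W) x₁ x₂ (y₁ - W.negY x₂ y₂) ℓm hm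
  apply mul_right_cancel₀ ht
  have e : W.addX x₁ x₂ ℓp * W.addX x₁ x₂ ℓm * (x₁ - x₂) ^ 2 * (x₁ - x₂) ^ 2 =
      (W.addX x₁ x₂ ℓp * (x₁ - x₂) ^ 2) * (W.addX x₁ x₂ ℓm * (x₁ - x₂) ^ 2) := by ring
  rw [e, hA, hB]
  rw [equation_iff] at h₁ h₂
  simp only [prodNum, negY, WeierstrassCurve.b₄, WeierstrassCurve.b₆, WeierstrassCurve.b₈]
  linear_combination
    (-(W.a₁ ^ 2 * x₁ * x₂ - W.a₁ ^ 2 * x₂ ^ 2 + W.a₁ * W.a₃ * x₁ - W.a₁ * W.a₃ * x₂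
      + W.a₁ * x₁ * y₁ - 2 * W.a₁ * x₂ * y₂ - W.a₂ * x₁ ^ 2 + 4 * W.a₂ * x₁ * x₂
      - 2 * W.a₂ * x₂ ^ 2 + W.a₃ * y₁ - 2 * W.a₃ * y₂ + W.a₄ * x₁ + W.a₆ - x₁ ^ 3
      + 2 * x₁ ^ 2 * x₂ + 2 * x₁ * x₂ ^ 2 - 2 * x₂ ^ 3 + y₁ ^ 2 - 2 * y₂ ^ 2)) * h₁ +
    (-(-W.a₁ ^ 2 * x₁ ^ 2 + W.a₁ ^ 2 * x₁ * x₂ - W.a₁ * W.a₃ * x₁ + W.a₁ * W.a₃ * x₂
      + W.a₁ * x₂ * y₂ - 4 * W.a₂ * x₁ ^ 2 + 4 * W.a₂ * x₁ * x₂ - W.a₂ * x₂ ^ 2 + W.a₃ * y₂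
      - 2 * W.a₄ * x₁ + W.a₄ * x₂ - W.a₆ - 4 * x₁ ^ 3 + 2 * x₁ ^ 2 * x₂ + 2 * x₁ * x₂ ^ 2
      - x₂ ^ 3 + y₂ ^ 2)) * h₂

end field

end Fermat.Agent.P7.helper92
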