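import Fermat.Agent.P7.helper92_ManinDefs

/-!
# P7 / S52, module CE, package [CE-MANIN], row [PAR-DUP] (helper94)

`dup_of (hKX : KXStatement) (hD : RdegDupStatement) : DupStatement`:
`h (2 X) = 4 h X` for `X ∈ G = {X | ι X = -X}`.

`X = (kxHom r, y)`.  If `y = negY x y` then `2 X = 0` and `ψ₂²(r) = 0`, so `r` is algebraic over
`k`, hence constant and `h X = 0`.  Otherwise `x(2 X) = kxHom s`, and the duplication formula
`x(2 X) ψ₂²(x) = dblX(x)` pulls back along the injective `kxHom` to `s * dblZ(r, 1) = dblX(r, 1)`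
with `dblZ(r, 1) ≠ 0`, so `rdeg s = 4 rdeg r` by [DEG-DUP].
-/

set_option autoImplicit false
set_option linter.unusedSectionVars false
set_option linter.style.haveILetI false
set_option linter.unusedVariables false
set_option linter.unusedSimpArgs false

open WeierstrassCurve WeierstrassCurve.Affine Polynomial
open scoped WeierstrassCurve.Affine Classical Polynomial.Bivariate

namespace Fermat.Agent.P7.helper94

open Fermat.Agent.P6.helper78 Fermat.Agent.P7.helper52 Fermat.Agent.P7.helper92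
open Fermat.Agent.S13.helper64

/-! ## Degrees of constants -/

section Rdeg

variable {k : Type} [Field k]

lemma rdeg_C (c : k) : rdeg (RatFunc.C c) = 0 := by
  unfold rdeg
  rw [RatFunc.num_C, RatFunc.denom_C]
  simp

/-- an algebraic rational function is constant, of degree `0` -/
lemma rdeg_eq_zero_of_isAlgebraic {r : RatFunc k} (h : IsAlgebraic k r) : rdeg r = 0 := by
  by_contra hne
  have h1 : ¬ ∃ c, r = RatFunc.C c := by
    rintro ⟨c, rfl⟩
    exact hne (rdeg_C c)
  exact RatFunc.transcendental_of_ne_C r h1 h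

/-- the polynomial `ψ₂² = 4 X³ + b₂ X² + 2 b₄ X + b₆` -/
noncomputable def psiPoly (V : WeierstrassCurve k) : Polynomial k :=
  C 4 * X ^ 3 + C V.b₂ * X ^ 2 + C (2 * V.b₄) * X + C V.b₆

lemma psiPoly_ne_zero (V : WeierstrassCurve k) (hΔ : V.Δ ≠ 0) : psiPoly V ≠ 0 := by
  intro hp
  have h3 : (psiPoly V).coeff 3 = 0 := by rw [hp]; simp
  have h2 : (psiPoly V).coeff 2 = 0 := by rw [hp]; simp
  have h0 : (psiPoly V).coeff 0 = 0 := by rw [hp]; simp
  simp [psiPoly, Polynomial.coeff_X, Polynomial.coeff_C, Polynomial.coeff_X_pow] at h3 h2 h0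
  apply hΔ
  have h8 : (8 : k) = 0 := by
    have : (8 : k) = 2 * 4 := by norm_num
    rw [this, h3, mul_zero]
  simp only [WeierstrassCurve.Δ]
  rw [h2, h0]
  linear_combination (-V.b₄ ^ 3) * h8

lemma aeval_psiPoly (V : WeierstrassCurve k) (r : RatFunc k) :
    Polynomial.aeval r (psiPoly V) =
      dblZ (RatFunc.C V.b₂) (RatFunc.C V.b₄) (RatFunc.C V.b₆) r 1 := by
  simp only [psiPoly, dblZ, map_add, map_mul, map_pow, Polynomial.aeval_X, Polynomial.aeval_C,
    RatFunc.algebraMap_eq_C, map_ofNat]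
  ring

/-- direct form of the second lemma of [DEG-DUP] -/
lemma rdeg_eq_zero_of_dblZ (V : WeierstrassCurve k) (hΔ : V.Δ ≠ 0) (r : RatFunc k)
    (h : dblZ (RatFunc.C V.b₂) (RatFunc.C V.b₄) (RatFunc.C V.b₆) r 1 = 0) : rdeg r = 0 := by
  apply rdeg_eq_zero_of_isAlgebraic
  exact ⟨psiPoly V, psiPoly_ne_zero V hΔ, by rw [aeval_psiPoly, h]⟩

end Rdeg

/-! ## The statement -/

section Main

variable (W : WeierstrassCurve ℤ) (k : Type) [Field k]

lemma kxHom_C_intCast (kx : IsKX W k) (n : ℤ) :
    kxHom W k (RatFunc.C ((n : ℤ) : k)) = ((n : ℤ) : KE W k) := by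
  rw [kx.kx_C, map_intCast]

lemma kxHom_C_b₂ (kx : IsKX W k) :
    kxHom W k (RatFunc.C (W.map (Int.castRingHom k)).b₂) =
      (W.map (Int.castRingHom (KE W k))).b₂ := by
  rw [WeierstrassCurve.map_b₂, WeierstrassCurve.map_b₂]
  exact kxHom_C_intCast W k kx _

lemma kxHom_C_b₄ (kx : IsKX W k) :
    kxHom W k (RatFunc.C (W.map (Int.castRingHom k)).b₄) =
      (W.map (Int.castRingHom (KE W k))).b₄ := by
  rw [WeierstrassCurve.map_b₄, WeierstrassCurve.map_b₄]
  exact kxHom_C_intCast W k kx _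

lemma kxHom_C_b₆ (kx : IsKX W k) :
    kxHom W k (RatFunc.C (W.map (Int.castRingHom k)).b₆) =
      (W.map (Int.castRingHom (KE W k))).b₆ := by
  rw [WeierstrassCurve.map_b₆, WeierstrassCurve.map_b₆]
  exact kxHom_C_intCast W k kx _

lemma kxHom_C_b₈ (kx : IsKX W k) :
    kxHom W k (RatFunc.C (W.map (Int.castRingHom k)).b₈) =
      (W.map (Int.castRingHom (KE W k))).b₈ := by
  rw [WeierstrassCurve.map_b₈, WeierstrassCurve.map_b₈]
  exact kxHom_C_intCast W k kx _

/-- `kxHom` of the duplication denominator -/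
lemma kxHom_dblZ (kx : IsKX W k) (r : RatFunc k) :
    kxHom W k (dblZ (RatFunc.C (W.map (Int.castRingHom k)).b₂)
        (RatFunc.C (W.map (Int.castRingHom k)).b₄)
        (RatFunc.C (W.map (Int.castRingHom k)).b₆) r 1) =
      dblZ (W.map (Int.castRingHom (KE W k))).b₂ (W.map (Int.castRingHom (KE W k))).b₄
        (W.map (Int.castRingHom (KE W k))).b₆ (kxHom W k r) 1 := by
  simp only [dblZ, map_add, map_mul, map_pow, map_one, map_ofNat, kxHom_C_b₂ W k kx,
    kxHom_C_b₄ W k kx, kxHom_C_b₆ W k kx]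

/-- `kxHom` of the duplication numerator -/
lemma kxHom_dblX (kx : IsKX W k) (r : RatFunc k) :
    kxHom W k (dblX (RatFunc.C (W.map (Int.castRingHom k)).b₄)
        (RatFunc.C (W.map (Int.castRingHom k)).b₆)
        (RatFunc.C (W.map (Int.castRingHom k)).b₈) r 1) =
      dblX (W.map (Int.castRingHom (KE W k))).b₄ (W.map (Int.castRingHom (KE W k))).b₆
        (W.map (Int.castRingHom (KE W k))).b₈ (kxHom W k r) 1 := by
  simp only [dblX, map_sub, map_mul, map_pow, map_one, map_ofNat, kxHom_C_b₄ W k kx,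
    kxHom_C_b₆ W k kx, kxHom_C_b₈ W k kx]

/-- the `x`-coordinate of a point of `G` lies in `k(x)` -/
lemma exists_kxHom_eq_of_mem_manG (kx : IsKX W k) {x y : KE W k}
    {h : (W.map (Int.castRingHom (KE W k))).toAffine.Nonsingular x y}
    (hX : (Point.some x y h : PtK W (KE W k)) ∈ manG W k) :
    ∃ r : RatFunc k, kxHom W k r = x := by
  rw [mem_manG_iff] at hX
  obtain ⟨hh, h1⟩ : ∃ hh, invPt W k (Point.some x y h) =
      (Point.some (invK W k x) (invK W k y) hh : PtK W (KE W k)) := ⟨_, rfl⟩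
  rw [h1, Point.neg_some] at hX
  have h2 := (Point.some.injEq _ _ _ _ _ _).mp hX
  exact kx.fixed x h2.1

lemma xdeg_kxHom (kx : IsKX W k) (r : RatFunc k) : xdeg W k (kxHom W k r) = (rdeg r : ℤ) := by
  unfold xdeg
  have hex : ∃ r' : RatFunc k, kxHom W k r' = kxHom W k r := ⟨r, rfl⟩
  rw [dif_pos hex, kx.inj hex.choose_spec]

lemma manH_some_kxHom (kx : IsKX W k) (r : RatFunc k) {x y : KE W k}
    {h : (W.map (Int.castRingHom (KE W k))).toAffine.Nonsingular x y} (hr : kxHom W k r = x) :
    manH W k (Point.some x y h) = (rdeg r : ℤ) := by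
  show xdeg W k x = _
  rw [← hr, xdeg_kxHom W k kx]

end Main

/-- **[PAR-DUP]** -/
theorem dup_of (hKX : KXStatement) (hD : RdegDupStatement) : DupStatement := by
  intro W k _ hΔ X hX
  have kx := hKX W k hΔ
  rcases X with _ | ⟨x, y, h⟩
  · show manH W k (0 + 0) = 4 * manH W k 0
    rw [add_zero, manH_zero, mul_zero]
  · obtain ⟨r, hr⟩ := exists_kxHom_eq_of_mem_manG W k kx hX
    have hmanH := manH_some_kxHom W k kx r (h := h) hr
    have hψ : kxHom W k (dblZ (RatFunc.C (W.map (Int.castRingHom k)).b₂)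
        (RatFunc.C (W.map (Int.castRingHom k)).b₄)
        (RatFunc.C (W.map (Int.castRingHom k)).b₆) r 1) =
        (y - (W.map (Int.castRingHom (KE W k))).toAffine.negY x y) ^ 2 := by
      rw [kxHom_dblZ W k kx, hr]
      exact psi2sq_eq h.1
    by_cases hy : y = (W.map (Int.castRingHom (KE W k))).toAffine.negY x y
    · rw [Point.add_self_of_Y_eq hy, hmanH]
      have hz : dblZ (RatFunc.C (W.map (Int.castRingHom k)).b₂)
          (RatFunc.C (W.map (Int.castRingHom k)).b₄)
          (RatFunc.C (W.map (Int.castRingHom k)).b₆) r 1 = 0 := by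
        apply kx.inj
        rw [hψ, map_zero, sub_eq_zero.mpr hy]
        ring
      rw [rdeg_eq_zero_of_dblZ _ hΔ r hz]
      rfl
    · have hadd := Point.add_self_of_Y_ne (h₁ := h) hy
      have h2X := (manG W k).add_mem hX hX
      rw [hadd] at h2X ⊢
      obtain ⟨s, hs⟩ := exists_kxHom_eq_of_mem_manG W k kx h2X
      rw [manH_some_kxHom W k kx s hs, hmanH]
      have hψne : y - (W.map (Int.castRingHom (KE W k))).toAffine.negY x y ≠ 0 :=
        sub_ne_zero.mpr hy
      have hℓ : (W.map (Int.castRingHom (KE W k))).toAffine.slope x x y y *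
          (y - (W.map (Int.castRingHom (KE W k))).toAffine.negY x y) =
          3 * x ^ 2 + 2 * (W.map (Int.castRingHom (KE W k))).toAffine.a₂ * x +
            (W.map (Int.castRingHom (KE W k))).toAffine.a₄ -
            (W.map (Int.castRingHom (KE W k))).toAffine.a₁ * y := by
        rw [slope_of_Y_ne rfl hy, div_mul_cancel₀ _ hψne]
      have hrel := dblX_eq_addX_mul h.1 _ hℓ
      have hz : dblZ (RatFunc.C (W.map (Int.castRingHom k)).b₂)
          (RatFunc.C (W.map (Int.castRingHom k)).b₄)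
          (RatFunc.C (W.map (Int.castRingHom k)).b₆) r 1 ≠ 0 := by
        intro h0
        have h1 := congrArg (kxHom W k) h0
        rw [hψ, map_zero] at h1
        exact hψne ((pow_eq_zero_iff (two_ne_zero)).1 h1)
      have hsz : s * dblZ (RatFunc.C (W.map (Int.castRingHom k)).b₂)
          (RatFunc.C (W.map (Int.castRingHom k)).b₄)
          (RatFunc.C (W.map (Int.castRingHom k)).b₆) r 1 =
          dblX (RatFunc.C (W.map (Int.castRingHom k)).b₄)
            (RatFunc.C (W.map (Int.castRingHom k)).b₆)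
            (RatFunc.C (W.map (Int.castRingHom k)).b₈) r 1 := by
        apply kx.inj
        rw [map_mul, hs, kxHom_dblZ W k kx, kxHom_dblX W k kx, hr]
        exact hrel.symm
      have h4 := hD k (W.map (Int.castRingHom k)) hΔ r s hz hsz
      rw [h4]
      push_cast
      ring

end Fermat.Agent.P7.helper94
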