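import Fermat.Agent.P7.helper52_ManinAC
import Fermat.Agent.P7.helper97_ManinMul

/-!
# P7 / S52 CE-MANIN [MAN-MUL] in the shape `helper52.MulACStatement`, verbatim, unconditional
-/

set_option autoImplicit false

namespace Fermat.Agent.P7.helper97

/-- **[MAN-MUL]** for algebraically closed constants, in the shape of `helper52_ManinAC`. -/
theorem mulAC52 : Fermat.Agent.P7.helper52.MulACStatement :=
  fun W ℓ _ hgood k _ _ _ P₀ hP₀ => mulAC W ℓ hgood k P₀ hP₀

end Fermat.Agent.P7.helper97
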