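import Fermat.Agent.P7.helper92_ManinDefs
import Fermat.Agent.P7.helper97_DegComp

/-!
# P7 / S52 CE-MANIN row P7-MAN-DEGCOMP: `RdegCompStatement` (helper92 shape), verbatim

Adapter from `helper97.ratDeg_comp`: a `k`-algebra endomorphism `σ` of `k(X)` is the
substitution `f ↦ f ∘ σ X`.
-/

set_option autoImplicit false

open Polynomial

namespace Fermat.Agent.P7.helper97

/-- A `k`-algebra endomorphism of `k(X)` is substitution of `σ X`. -/
theorem algHom_eq_ratComp {k : Type} [Field k] (σ : RatFunc k →ₐ[k] RatFunc k)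
    (f : RatFunc k) : σ f = ratComp f (σ RatFunc.X) := by
  have hpoly : ∀ p : k[X], σ (algebraMap k[X] (RatFunc k) p) = aeval (σ RatFunc.X) p := by
    intro p
    rw [aeval_algHom_apply, ← RatFunc.algebraMap_X, aeval_algebraMap_apply, aeval_X_left_apply]
  conv_lhs => rw [← f.num_div_denom]
  rw [map_div₀, hpoly, hpoly, ratComp_def]

/-- **[DEG-COMP]**, row P7-MAN-DEGCOMP, in the shape of `helper92_ManinDefs`. -/
theorem rdegComp : Fermat.Agent.P7.helper92.RdegCompStatement := by
  intro k _ σ f
  show ratDeg (σ f) = ratDeg f * ratDeg (σ RatFunc.X)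
  rw [algHom_eq_ratComp σ f, ratDeg_comp]

end Fermat.Agent.P7.helper97
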