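import Fermat.Agent.P7.helper92_ManinDefs
import Fermat.Agent.P7.helper97_DegComp

/-!
# P7 / S52 CE-MANIN row P7-MAN-DEGDUP: `RdegDupStatement` (helper92 shape), verbatim

The duplication formula `x ↦ dblX / dblZ` has exact degree `4` when `Δ ≠ 0`: numerator and
denominator are coprime polynomials (`bezout_dbl`) of degrees `4` and `≤ 3`, and the degree of a
substitution `P(r) / Q(r)` with `P, Q` coprime is `max (deg P) (deg Q) * deg r`
(`ratDeg_aeval_div`, the coprime-pair form of `helper97.ratDeg_comp`).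
-/

set_option autoImplicit false

open Polynomial

namespace Fermat.Agent.P7.helper97

/-- Degree of a substitution into a quotient of coprime polynomials. -/
theorem ratDeg_aeval_div {k : Type*} [Field k] {p q : k[X]} (hpq : IsCoprime p q)
    (S : RatFunc k) :
    ratDeg (aeval S p / aeval S q) = max p.natDegree q.natDegree * ratDeg S := by
  set a := S.num with ha
  set b := S.denom with hb
  have hab : IsCoprime a b := S.isCoprime_num_denom
  have hb0 : b ≠ 0 := S.denom_ne_zero
  set D := max p.natDegree q.natDegree with hD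
  have hb' : algebraMap k[X] (RatFunc k) b ≠ 0 :=
    (map_ne_zero_iff _ (RatFunc.algebraMap_injective k)).mpr hb0
  have hS : S = algebraMap k[X] (RatFunc k) a / algebraMap k[X] (RatFunc k) b :=
    (S.num_div_denom).symm
  have key : ∀ (r : k[X]), r.natDegree ≤ D →
      algebraMap k[X] (RatFunc k) (hom2 D r a b) =
        aeval S r * algebraMap k[X] (RatFunc k) b ^ D := by
    intro r hr
    have := map_hom2 D r (IsScalarTower.toAlgHom k k[X] (RatFunc k)) a b
    rw [IsScalarTower.coe_toAlgHom'] at this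
    rw [this, hom2_eq_aeval_mul hr _ hb', ← hS]
  have hcop := isCoprime_hom2 hpq hab hb0
  have hmax := max_natDegree_hom2 (a := a) (b := b) hpq hab
  have hSd : ratDeg S = max a.natDegree b.natDegree := rfl
  rw [hSd, ← hmax]
  by_cases hQ : hom2 D q a b = 0
  · have hq0 : aeval S q = 0 := by
      have h1 := key q (le_max_right _ _)
      rw [hQ, map_zero] at h1
      exact (mul_eq_zero.mp h1.symm).resolve_right (pow_ne_zero _ hb')
    rw [hq0, div_zero, ratDeg_zero, hQ, natDegree_zero]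
    rw [hQ] at hcop
    have hu : IsUnit (hom2 D p a b) := isCoprime_zero_right.mp hcop
    rw [natDegree_eq_zero_of_isUnit hu, max_self]
  · have hcomp : aeval S p / aeval S q = algebraMap k[X] (RatFunc k) (hom2 D p a b) /
        algebraMap k[X] (RatFunc k) (hom2 D q a b) := by
      rw [key p (le_max_left _ _), key q (le_max_right _ _),
        mul_div_mul_right _ _ (pow_ne_zero _ hb')]
    rw [hcomp, ratDeg_div_of_isCoprime hQ hcop]

section Dup

variable {k : Type} [Field k] (V : WeierstrassCurve k)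

/-- The numerator `X⁴ - b₄ X² - 2 b₆ X - b₈` of the duplication formula. -/
noncomputable def dupNum : k[X] := X ^ 4 - C V.b₄ * X ^ 2 - C (2 * V.b₆) * X - C V.b₈

/-- The denominator `4 X³ + b₂ X² + 2 b₄ X + b₆` of the duplication formula. -/
noncomputable def dupDen : k[X] := C 4 * X ^ 3 + C V.b₂ * X ^ 2 + C (2 * V.b₄) * X + C V.b₆

lemma dupNum_natDegree : (dupNum V).natDegree = 4 := by
  unfold dupNum
  compute_degree!

lemma dupDen_natDegree_le : (dupDen V).natDegree ≤ 3 := by
  unfold dupDen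
  compute_degree

lemma dup_bezout :
    (-(C 48 * X ^ 2 + C (8 * V.b₂) * X - C (V.b₂ ^ 2) + C (32 * V.b₄))) * dupNum V +
      (C 12 * X ^ 3 - C V.b₂ * X ^ 2 - C (10 * V.b₄) * X + C (V.b₂ * V.b₄) - C (27 * V.b₆)) *
        dupDen V = C V.Δ := by
  have hb : C (4 * V.b₈) = C (V.b₂ * V.b₆ - V.b₄ ^ 2) := by rw [V.b_relation]
  simp only [dupNum, dupDen, WeierstrassCurve.Δ, map_mul, map_add, map_sub, map_neg, map_pow,
    map_ofNat] at hb ⊢
  linear_combination (12 * X ^ 2 + 2 * C V.b₂ * X + 8 * C V.b₄) * hb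

lemma dup_isCoprime (hΔ : V.Δ ≠ 0) : IsCoprime (dupNum V) (dupDen V) := by
  refine ⟨C V.Δ⁻¹ * (-(C 48 * X ^ 2 + C (8 * V.b₂) * X - C (V.b₂ ^ 2) + C (32 * V.b₄))),
    C V.Δ⁻¹ * (C 12 * X ^ 3 - C V.b₂ * X ^ 2 - C (10 * V.b₄) * X + C (V.b₂ * V.b₄) -
      C (27 * V.b₆)), ?_⟩
  rw [mul_assoc, mul_assoc, ← mul_add, dup_bezout, ← C_mul, inv_mul_cancel₀ hΔ, C_1]

lemma aeval_dupNum (r : RatFunc k) :
    aeval r (dupNum V) =
      Fermat.Agent.S13.helper64.dblX (RatFunc.C V.b₄) (RatFunc.C V.b₆) (RatFunc.C V.b₈) r 1 := by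
  simp only [dupNum, Fermat.Agent.S13.helper64.dblX, map_sub, map_mul, map_pow, aeval_X, aeval_C,
    RatFunc.algebraMap_eq_C, map_ofNat, one_pow, mul_one]

lemma aeval_dupDen (r : RatFunc k) :
    aeval r (dupDen V) =
      Fermat.Agent.S13.helper64.dblZ (RatFunc.C V.b₂) (RatFunc.C V.b₄) (RatFunc.C V.b₆) r 1 := by
  simp only [dupDen, Fermat.Agent.S13.helper64.dblZ, map_add, map_mul, map_pow, aeval_X, aeval_C,
    RatFunc.algebraMap_eq_C, map_ofNat, one_pow, mul_one, one_mul]

end Dup

/-- **[DEG-DUP]**, row P7-MAN-DEGDUP, in the shape of `helper92_ManinDefs`. -/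
theorem rdegDup : Fermat.Agent.P7.helper92.RdegDupStatement := by
  intro k _ V hΔ r s hZ hs
  have hs' : s = aeval r (dupNum V) / aeval r (dupDen V) := by
    rw [aeval_dupNum, aeval_dupDen, eq_div_iff hZ, hs]
  show ratDeg s = 4 * ratDeg r
  rw [hs', ratDeg_aeval_div (dup_isCoprime V hΔ), dupNum_natDegree,
    max_eq_left (le_trans (dupDen_natDegree_le V) (by norm_num))]

end Fermat.Agent.P7.helper97
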