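import Mathlib
import Fermat.Agent.S13.LocalRedA

/-!
# P7 / S52 (c) [RED-HOM]: reduction at a valuation subring is a group homomorphism

For a field `L`, a valuation subring `A` with residue field `k_A`, and a Weierstrass curve `WA`
over `A` whose reduction `Wk = WA.map (residue A)` has nonzero discriminant, the reduction map
`redPt : WL(L) → Wk(k_A)` (`WL = WA.map A.subtype`) is additive.  General Weierstrass form, all
residue characteristics.  The kernel is `Fermat.Agent.S13.InKer A.valuation`.

Main results: `redPt_add`, `redHom`, `redPt_eq_zero_iff`, `redPt_injOn_torsion`.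
-/

set_option autoImplicit false

namespace Fermat.Agent.P7.helper97

open WeierstrassCurve WeierstrassCurve.Affine

/-! ### Algebraic identities -/

section Identities

/-- The chord identity: the difference of the two curve equations. -/
lemma chord_identity {R : Type*} [CommRing R] (W : Affine R) {x₁ y₁ x₂ y₂ : R}
    (h₁ : W.Equation x₁ y₁) (h₂ : W.Equation x₂ y₂) :
    (y₁ - y₂) * (y₁ - W.negY x₂ y₂) =
      (x₁ - x₂) * (x₁ ^ 2 + x₁ * x₂ + x₂ ^ 2 + W.a₂ * (x₁ + x₂) + W.a₄ - W.a₁ * y₁) := by
  rw [equation_iff] at h₁ h₂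
  simp only [negY]
  linear_combination h₁ - h₂

/-- The slope through two points `P`, `Q` with `y(P) ≠ y(-Q)`, as a quotient with denominator
`y(P) - y(-Q)` (uniform in the chord and tangent cases). -/
lemma slope_eq_of_den_ne_zero {F : Type*} [Field F] [DecidableEq F] (W : Affine F)
    {x₁ y₁ x₂ y₂ : F} (h₁ : W.Equation x₁ y₁) (h₂ : W.Equation x₂ y₂)
    (hd : y₁ - W.negY x₂ y₂ ≠ 0) :
    W.slope x₁ x₂ y₁ y₂ =
      (x₁ ^ 2 + x₁ * x₂ + x₂ ^ 2 + W.a₂ * (x₁ + x₂) + W.a₄ - W.a₁ * y₁) /
        (y₁ - W.negY x₂ y₂) := by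
  have hy : y₁ ≠ W.negY x₂ y₂ := sub_ne_zero.mp hd
  by_cases hx : x₁ = x₂
  · rcases Y_eq_of_X_eq h₁ h₂ hx with hyy | hyy
    · subst hx; subst hyy
      rw [slope_of_Y_ne rfl hy]
      congr 1
      ring
    · exact absurd hyy hy
  · rw [slope_of_X_ne hx, div_eq_div_iff (sub_ne_zero.mpr hx) hd, chord_identity W h₁ h₂]
    ring

lemma some_eq_some_of_eq {R : Type*} [CommRing R] {W : Affine R} {x y x' y' : R}
    (h : W.Nonsingular x y) (h' : W.Nonsingular x' y') (hx : x = x') (hy : y = y') :
    Point.some x y h = Point.some x' y' h' := by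
  subst hx; subst hy; rfl

end Identities

/-! ### The reduction map -/

variable {L : Type*} [Field L] (A : ValuationSubring L)

/-- The residue of an element of `L` (`0` outside `A`). -/
noncomputable def rd (x : L) : IsLocalRing.ResidueField A :=
  open Classical in if h : x ∈ A then IsLocalRing.residue A ⟨x, h⟩ else 0

lemma rd_of_mem {x : L} (h : x ∈ A) : rd A x = IsLocalRing.residue A ⟨x, h⟩ := by
  simp only [rd, dif_pos h]

@[simp] lemma rd_subtype (a : A) : rd A (A.subtype a) = IsLocalRing.residue A a := by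
  have h : A.subtype a ∈ A := a.2
  rw [rd_of_mem A h]
  rfl

/-- The reduction map on points (no hypotheses; junk value `0` if the reduced point is not a
nonsingular point of `Wk`). -/
noncomputable def redPt {WL : WeierstrassCurve L}
    (Wk : WeierstrassCurve (IsLocalRing.ResidueField A)) :
    WL.toAffine.Point → Wk.toAffine.Point
  | .zero => 0
  | .some x y _ => open Classical in
      if h : x ∈ A ∧ Wk.toAffine.Nonsingular (rd A x) (rd A y) then .some (rd A x) (rd A y) h.2
      else 0

@[simp] lemma redPt_zero {WL : WeierstrassCurve L}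
    (Wk : WeierstrassCurve (IsLocalRing.ResidueField A)) :
    redPt A Wk (0 : WL.toAffine.Point) = 0 := rfl

lemma redPt_of_not_mem {WL : WeierstrassCurve L}
    (Wk : WeierstrassCurve (IsLocalRing.ResidueField A)) {x y : L}
    (h : WL.toAffine.Nonsingular x y) (hx : x ∉ A) :
    redPt A Wk (Point.some x y h) = 0 := by
  simp only [redPt]
  rw [dif_neg]
  exact fun h' => hx h'.1

lemma redPt_subtype {WL : WeierstrassCurve L}
    (Wk : WeierstrassCurve (IsLocalRing.ResidueField A)) {a b : A}
    (h : WL.toAffine.Nonsingular (A.subtype a) (A.subtype b))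
    (hk : Wk.toAffine.Nonsingular (IsLocalRing.residue A a) (IsLocalRing.residue A b)) :
    redPt A Wk (Point.some _ _ h) = Point.some _ _ hk := by
  simp only [redPt]
  have h' : A.subtype a ∈ A ∧ Wk.toAffine.Nonsingular (rd A (A.subtype a)) (rd A (A.subtype b)) :=
    ⟨a.2, by rw [rd_subtype, rd_subtype]; exact hk⟩
  rw [dif_pos h']
  exact some_eq_some_of_eq _ _ (rd_subtype A a) (rd_subtype A b)

lemma redPt_subtype' {WL : WeierstrassCurve L}
    (Wk : WeierstrassCurve (IsLocalRing.ResidueField A)) {a b : A} {x y : L}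
    (h : WL.toAffine.Nonsingular x y) (hx : x = A.subtype a) (hy : y = A.subtype b)
    (hk : Wk.toAffine.Nonsingular (IsLocalRing.residue A a) (IsLocalRing.residue A b)) :
    redPt A Wk (Point.some x y h) = Point.some _ _ hk := by
  subst hx; subst hy
  exact redPt_subtype A Wk h hk


/-! ### Integral points -/

section Setup

variable {A}
variable (WA : WeierstrassCurve A)

lemma subtype_injective : Function.Injective (A.subtype : A → L) := Subtype.coe_injective

lemma map_subtype_a_mem :
    (WA.map A.subtype).a₁ ∈ A ∧ (WA.map A.subtype).a₂ ∈ A ∧ (WA.map A.subtype).a₃ ∈ A ∧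
      (WA.map A.subtype).a₄ ∈ A ∧ (WA.map A.subtype).a₆ ∈ A :=
  ⟨(WA.a₁).2, (WA.a₂).2, (WA.a₃).2, (WA.a₄).2, (WA.a₆).2⟩

/-- On an integral curve, a point with integral `x` has integral `y`. -/
lemma mem_y_of_mem_x {x y : L} (h : (WA.map A.subtype).toAffine.Equation x y) (hx : x ∈ A) :
    y ∈ A := by
  obtain ⟨h₁, h₂, h₃, h₄, h₆⟩ := map_subtype_a_mem WA
  have := Fermat.Agent.S13.v_y_le_one_of_v_x_le_one A.valuation (WA.map A.subtype).toAffine
    ((A.valuation_le_one_iff _).mpr h₁) ((A.valuation_le_one_iff _).mpr h₂)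
    ((A.valuation_le_one_iff _).mpr h₃) ((A.valuation_le_one_iff _).mpr h₄)
    ((A.valuation_le_one_iff _).mpr h₆) h ((A.valuation_le_one_iff _).mpr hx)
  exact (A.valuation_le_one_iff _).mp this

lemma equation_subtype_iff {a b : A} :
    (WA.map A.subtype).toAffine.Equation (A.subtype a) (A.subtype b) ↔
      WA.toAffine.Equation a b :=
  map_equation WA.toAffine subtype_injective a b

/-- The reduction of an integral point is a nonsingular point of the reduced curve. -/
lemma nonsingular_residue (hΔ : (WA.map (IsLocalRing.residue A)).Δ ≠ 0) {a b : A}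
    (h : WA.toAffine.Equation a b) :
    (WA.map (IsLocalRing.residue A)).toAffine.Nonsingular
      (IsLocalRing.residue A a) (IsLocalRing.residue A b) :=
  (equation_iff_nonsingular_of_Δ_ne_zero hΔ).mp (Equation.map (IsLocalRing.residue A) h)

lemma nonsingular_residue' (hΔ : (WA.map (IsLocalRing.residue A)).Δ ≠ 0) {a b : A}
    (h : (WA.map A.subtype).toAffine.Nonsingular (A.subtype a) (A.subtype b)) :
    (WA.map (IsLocalRing.residue A)).toAffine.Nonsingular
      (IsLocalRing.residue A a) (IsLocalRing.residue A b) :=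
  nonsingular_residue WA hΔ ((equation_subtype_iff WA).mp h.1)

/-- Every affine point with integral `x` is of the form `(A.subtype a, A.subtype b)`. -/
lemma exists_lift {x y : L} (h : (WA.map A.subtype).toAffine.Equation x y) (hx : x ∈ A) :
    ∃ a b : A, x = A.subtype a ∧ y = A.subtype b :=
  ⟨⟨x, hx⟩, ⟨y, mem_y_of_mem_x WA h hx⟩, rfl, rfl⟩

lemma residue_eq_iff {a b : A} :
    IsLocalRing.residue A a = IsLocalRing.residue A b ↔
      A.subtype a - A.subtype b ∈ A.nonunits := by
  rw [← sub_eq_zero, ← map_sub, IsLocalRing.residue_eq_zero_iff,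
    ValuationSubring.mem_nonunits_iff_exists_mem_maximalIdeal]
  constructor
  · intro h
    exact ⟨(a - b).2, h⟩
  · rintro ⟨_, h⟩
    exact h

lemma isUnit_of_residue_ne_zero {a : A} (h : IsLocalRing.residue A a ≠ 0) : IsUnit a :=
  (IsLocalRing.residue_ne_zero_iff_isUnit a).mp h


/-! ### The sum of two integral points whose reductions are not opposite -/

/-- If the slope through two integral points is integral and reduces to the slope through the
reduced points, then the sum is integral and reduces to the sum. -/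
lemma add_of_slope [DecidableEq L] [DecidableEq (IsLocalRing.ResidueField A)]
    (hΔ : (WA.map (IsLocalRing.residue A)).Δ ≠ 0) {a₁ b₁ a₂ b₂ l : A}
    (h₁ : (WA.map A.subtype).toAffine.Nonsingular (A.subtype a₁) (A.subtype b₁))
    (h₂ : (WA.map A.subtype).toAffine.Nonsingular (A.subtype a₂) (A.subtype b₂))
    (hxy : ¬(A.subtype a₁ = A.subtype a₂ ∧
      A.subtype b₁ = (WA.map A.subtype).toAffine.negY (A.subtype a₂) (A.subtype b₂)))
    (hxyk : ¬(IsLocalRing.residue A a₁ = IsLocalRing.residue A a₂ ∧
      IsLocalRing.residue A b₁ = (WA.map (IsLocalRing.residue A)).toAffine.negY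
        (IsLocalRing.residue A a₂) (IsLocalRing.residue A b₂)))
    (hl : (WA.map A.subtype).toAffine.slope (A.subtype a₁) (A.subtype a₂) (A.subtype b₁)
      (A.subtype b₂) = A.subtype l)
    (hlk : (WA.map (IsLocalRing.residue A)).toAffine.slope (IsLocalRing.residue A a₁)
      (IsLocalRing.residue A a₂) (IsLocalRing.residue A b₁) (IsLocalRing.residue A b₂) =
        IsLocalRing.residue A l) :
    (∃ (a₃ b₃ : A) (h₃ : (WA.map A.subtype).toAffine.Nonsingular (A.subtype a₃) (A.subtype b₃)),
      Point.some _ _ h₁ + Point.some _ _ h₂ = Point.some _ _ h₃) ∧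
    redPt A (WA.map (IsLocalRing.residue A)) (Point.some _ _ h₁ + Point.some _ _ h₂) =
      redPt A (WA.map (IsLocalRing.residue A)) (Point.some _ _ h₁) +
        redPt A (WA.map (IsLocalRing.residue A)) (Point.some _ _ h₂) := by
  have hx3 : (WA.map A.subtype).toAffine.addX (A.subtype a₁) (A.subtype a₂)
      ((WA.map A.subtype).toAffine.slope (A.subtype a₁) (A.subtype a₂) (A.subtype b₁)
        (A.subtype b₂)) = A.subtype (WA.toAffine.addX a₁ a₂ l) := by
    rw [hl]; exact map_addX A.subtype a₁ a₂ l
  have hy3 : (WA.map A.subtype).toAffine.addY (A.subtype a₁) (A.subtype a₂) (A.subtype b₁)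
      ((WA.map A.subtype).toAffine.slope (A.subtype a₁) (A.subtype a₂) (A.subtype b₁)
        (A.subtype b₂)) = A.subtype (WA.toAffine.addY a₁ a₂ b₁ l) := by
    rw [hl]; exact map_addY A.subtype a₁ b₁ a₂ l
  have hns := nonsingular_add h₁ h₂ hxy
  have hns3 : (WA.map A.subtype).toAffine.Nonsingular (A.subtype (WA.toAffine.addX a₁ a₂ l))
      (A.subtype (WA.toAffine.addY a₁ a₂ b₁ l)) := by
    rw [← hx3, ← hy3]; exact hns
  have hsum : Point.some _ _ h₁ + Point.some _ _ h₂ = Point.some _ _ hns3 := by
    rw [Point.add_some hxy]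
    exact some_eq_some_of_eq _ _ hx3 hy3
  refine ⟨⟨_, _, hns3, hsum⟩, ?_⟩
  have hk₁ := nonsingular_residue' WA hΔ h₁
  have hk₂ := nonsingular_residue' WA hΔ h₂
  have hk₃ := nonsingular_residue' WA hΔ hns3
  rw [hsum, redPt_subtype A _ h₁ hk₁, redPt_subtype A _ h₂ hk₂, redPt_subtype A _ hns3 hk₃,
    Point.add_some hxyk]
  refine some_eq_some_of_eq _ _ ?_ ?_
  · rw [hlk]; exact (map_addX (IsLocalRing.residue A) a₁ a₂ l).symm
  · rw [hlk]; exact (map_addY (IsLocalRing.residue A) a₁ b₁ a₂ l).symm

lemma residue_negY (a b : A) :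
    IsLocalRing.residue A (WA.toAffine.negY a b) =
      (WA.map (IsLocalRing.residue A)).toAffine.negY (IsLocalRing.residue A a)
        (IsLocalRing.residue A b) :=
  (map_negY (IsLocalRing.residue A) a b).symm

lemma subtype_negY (a b : A) :
    A.subtype (WA.toAffine.negY a b) =
      (WA.map A.subtype).toAffine.negY (A.subtype a) (A.subtype b) :=
  (map_negY A.subtype a b).symm

/-- **Cases I and II**: two integral points whose reductions are not opposite have an integral
sum, and reduction is additive on them. -/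
theorem add_of_not_opposite [DecidableEq L] [DecidableEq (IsLocalRing.ResidueField A)]
    (hΔ : (WA.map (IsLocalRing.residue A)).Δ ≠ 0) {a₁ b₁ a₂ b₂ : A}
    (h₁ : (WA.map A.subtype).toAffine.Nonsingular (A.subtype a₁) (A.subtype b₁))
    (h₂ : (WA.map A.subtype).toAffine.Nonsingular (A.subtype a₂) (A.subtype b₂))
    (hxyk : ¬(IsLocalRing.residue A a₁ = IsLocalRing.residue A a₂ ∧
      IsLocalRing.residue A b₁ = (WA.map (IsLocalRing.residue A)).toAffine.negY
        (IsLocalRing.residue A a₂) (IsLocalRing.residue A b₂))) :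
    (∃ (a₃ b₃ : A) (h₃ : (WA.map A.subtype).toAffine.Nonsingular (A.subtype a₃) (A.subtype b₃)),
      Point.some _ _ h₁ + Point.some _ _ h₂ = Point.some _ _ h₃) ∧
    redPt A (WA.map (IsLocalRing.residue A)) (Point.some _ _ h₁ + Point.some _ _ h₂) =
      redPt A (WA.map (IsLocalRing.residue A)) (Point.some _ _ h₁) +
        redPt A (WA.map (IsLocalRing.residue A)) (Point.some _ _ h₂) := by
  have hxy : ¬(A.subtype a₁ = A.subtype a₂ ∧
      A.subtype b₁ = (WA.map A.subtype).toAffine.negY (A.subtype a₂) (A.subtype b₂)) := by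
    rintro ⟨hx, hy⟩
    apply hxyk
    have hx' : a₁ = a₂ := subtype_injective hx
    have hy' : b₁ = WA.toAffine.negY a₂ b₂ := by
      apply subtype_injective (A := A)
      rw [hy, subtype_negY]
    refine ⟨by rw [hx'], ?_⟩
    rw [hy', residue_negY]
  have he₁ := (equation_subtype_iff WA).mp h₁.1
  have he₂ := (equation_subtype_iff WA).mp h₂.1
  by_cases hx : IsLocalRing.residue A a₁ = IsLocalRing.residue A a₂
  · -- the denominator `y₁ - y(-Q)` is a unit
    have hy : IsLocalRing.residue A b₁ ≠ (WA.map (IsLocalRing.residue A)).toAffine.negY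
        (IsLocalRing.residue A a₂) (IsLocalRing.residue A b₂) := fun h => hxyk ⟨hx, h⟩
    have hdk : IsLocalRing.residue A (b₁ - WA.toAffine.negY a₂ b₂) ≠ 0 := by
      rw [map_sub, residue_negY]; exact sub_ne_zero.mpr hy
    obtain ⟨u, hu⟩ := isUnit_of_residue_ne_zero hdk
    set n : A := a₁ ^ 2 + a₁ * a₂ + a₂ ^ 2 + WA.a₂ * (a₁ + a₂) + WA.a₄ - WA.a₁ * b₁ with hn
    have hdL : A.subtype b₁ - (WA.map A.subtype).toAffine.negY (A.subtype a₂) (A.subtype b₂)
        ≠ 0 := by
      rw [← subtype_negY, ← map_sub, ← hu]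
      intro h0
      have : (u : A) = 0 := subtype_injective (by rw [h0, map_zero])
      exact u.ne_zero this
    have hdK : IsLocalRing.residue A b₁ - (WA.map (IsLocalRing.residue A)).toAffine.negY
        (IsLocalRing.residue A a₂) (IsLocalRing.residue A b₂) ≠ 0 := sub_ne_zero.mpr hy
    refine add_of_slope WA hΔ (l := n * ((u⁻¹ : Aˣ) : A)) h₁ h₂ hxy hxyk ?_ ?_
    · have e : A.subtype (n * ((u⁻¹ : Aˣ) : A)) * A.subtype (u : A) = A.subtype n := by
        rw [← map_mul, mul_assoc, Units.inv_mul, mul_one]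
      rw [slope_eq_of_den_ne_zero _ h₁.1 h₂.1 hdL, div_eq_iff hdL, ← subtype_negY, ← map_sub,
        ← hu, e, hn]
      simp only [map_sub, map_add, map_mul, map_pow, WeierstrassCurve.map_a₁,
        WeierstrassCurve.map_a₂, WeierstrassCurve.map_a₄]
    · have hk₁ := (nonsingular_residue' WA hΔ h₁).1
      have hk₂ := (nonsingular_residue' WA hΔ h₂).1
      have e : IsLocalRing.residue A (n * ((u⁻¹ : Aˣ) : A)) * IsLocalRing.residue A (u : A) =
          IsLocalRing.residue A n := by
        rw [← map_mul, mul_assoc, Units.inv_mul, mul_one]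
      rw [slope_eq_of_den_ne_zero _ hk₁ hk₂ hdK, div_eq_iff hdK, ← residue_negY, ← map_sub,
        ← hu, e, hn]
      simp only [map_sub, map_add, map_mul, map_pow, WeierstrassCurve.map_a₁,
        WeierstrassCurve.map_a₂, WeierstrassCurve.map_a₄]
  · -- the denominator `x₁ - x₂` is a unit
    have hdk : IsLocalRing.residue A (a₁ - a₂) ≠ 0 := by
      rw [map_sub]; exact sub_ne_zero.mpr hx
    obtain ⟨u, hu⟩ := isUnit_of_residue_ne_zero hdk
    have hxL : A.subtype a₁ ≠ A.subtype a₂ := by
      intro h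
      apply hx
      rw [subtype_injective h]
    have hdL : A.subtype a₁ - A.subtype a₂ ≠ 0 := sub_ne_zero.mpr hxL
    have hdK : IsLocalRing.residue A a₁ - IsLocalRing.residue A a₂ ≠ 0 := sub_ne_zero.mpr hx
    refine add_of_slope WA hΔ (l := (b₁ - b₂) * ((u⁻¹ : Aˣ) : A)) h₁ h₂ hxy hxyk ?_ ?_
    · rw [slope_of_X_ne hxL, div_eq_iff hdL, ← map_sub, ← map_sub, ← hu, ← map_mul, mul_assoc,
        Units.inv_mul, mul_one]
    · rw [slope_of_X_ne hx, div_eq_iff hdK, ← map_sub, ← map_sub, ← hu, ← map_mul, mul_assoc,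
        Units.inv_mul, mul_one]


/-! ### The kernel of reduction -/

lemma val_a_le_one :
    A.valuation (WA.map A.subtype).toAffine.a₁ ≤ 1 ∧ A.valuation (WA.map A.subtype).toAffine.a₂ ≤ 1 ∧
      A.valuation (WA.map A.subtype).toAffine.a₃ ≤ 1 ∧
      A.valuation (WA.map A.subtype).toAffine.a₄ ≤ 1 ∧
      A.valuation (WA.map A.subtype).toAffine.a₆ ≤ 1 := by
  obtain ⟨h₁, h₂, h₃, h₄, h₆⟩ := map_subtype_a_mem WA
  exact ⟨(A.valuation_le_one_iff _).mpr h₁, (A.valuation_le_one_iff _).mpr h₂,
    (A.valuation_le_one_iff _).mpr h₃, (A.valuation_le_one_iff _).mpr h₄,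
    (A.valuation_le_one_iff _).mpr h₆⟩

lemma inKer_some_iff {x y : L} (h : (WA.map A.subtype).toAffine.Nonsingular x y) :
    Fermat.Agent.S13.InKer A.valuation (Point.some x y h) ↔ x ∉ A := by
  rw [Fermat.Agent.S13.inKer_some, ← not_le, A.valuation_le_one_iff]

/-- The kernel of `redPt` is the kernel of reduction of `S13.LocalRedA`. -/
theorem redPt_eq_zero_iff (hΔ : (WA.map (IsLocalRing.residue A)).Δ ≠ 0)
    (P : (WA.map A.subtype).toAffine.Point) :
    redPt A (WA.map (IsLocalRing.residue A)) P = 0 ↔ Fermat.Agent.S13.InKer A.valuation P := by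
  cases P with
  | zero => exact ⟨fun _ => trivial, fun _ => rfl⟩
  | some x y h =>
    rw [inKer_some_iff]
    constructor
    · intro h0 hx
      obtain ⟨a, b, rfl, rfl⟩ := exists_lift WA h.1 hx
      rw [redPt_subtype A _ h (nonsingular_residue' WA hΔ h)] at h0
      exact Point.some_ne_zero _ h0
    · intro hx
      exact redPt_of_not_mem A _ h hx

lemma subtype_mem_nonunits_iff {c : A} :
    A.subtype c ∈ A.nonunits ↔ IsLocalRing.residue A c = 0 := by
  rw [IsLocalRing.residue_eq_zero_iff, ValuationSubring.mem_nonunits_iff_exists_mem_maximalIdeal]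
  constructor
  · rintro ⟨_, h⟩
    exact h
  · intro h
    exact ⟨c.2, h⟩

/-- **Case III**: two integral points with opposite reductions have their sum in the kernel. -/
theorem inKer_add_of_opposite [DecidableEq L]
    (hΔ : (WA.map (IsLocalRing.residue A)).Δ ≠ 0) {a₁ b₁ a₂ b₂ : A}
    (h₁ : (WA.map A.subtype).toAffine.Nonsingular (A.subtype a₁) (A.subtype b₁))
    (h₂ : (WA.map A.subtype).toAffine.Nonsingular (A.subtype a₂) (A.subtype b₂))
    (hx : IsLocalRing.residue A a₁ = IsLocalRing.residue A a₂)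
    (hy : IsLocalRing.residue A b₁ = (WA.map (IsLocalRing.residue A)).toAffine.negY
        (IsLocalRing.residue A a₂) (IsLocalRing.residue A b₂)) :
    Fermat.Agent.S13.InKer A.valuation (Point.some _ _ h₁ + Point.some _ _ h₂) := by
  have h₂' : (WA.map A.subtype).toAffine.Nonsingular (A.subtype a₂)
      ((WA.map A.subtype).toAffine.negY (A.subtype a₂) (A.subtype b₂)) :=
    (nonsingular_neg ..).mpr h₂
  have hneg : -Point.some _ _ h₂ = Point.some _ _ h₂' := Point.neg_some h₂
  by_cases hne : Point.some _ _ h₁ = Point.some _ _ h₂'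
  · rw [hne, ← hneg, neg_add_cancel]
    exact trivial
  · obtain ⟨m₁, m₂, -, -, -⟩ := map_subtype_a_mem WA
    have hk := nonsingular_residue' WA hΔ h₁
    have hXm : (WA.map A.subtype).toAffine.polynomialX.evalEval (A.subtype a₁) (A.subtype b₁) =
        A.subtype (WA.toAffine.polynomialX.evalEval a₁ b₁) := by
      rw [evalEval_polynomialX, evalEval_polynomialX]
      simp only [map_sub, map_add, map_mul, map_pow, WeierstrassCurve.map_a₁,
        WeierstrassCurve.map_a₂, WeierstrassCurve.map_a₄, map_ofNat]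
    have hYm : (WA.map A.subtype).toAffine.polynomialY.evalEval (A.subtype a₁) (A.subtype b₁) =
        A.subtype (WA.toAffine.polynomialY.evalEval a₁ b₁) := by
      rw [evalEval_polynomialY, evalEval_polynomialY]
      simp only [map_add, map_mul, WeierstrassCurve.map_a₁,
        WeierstrassCurve.map_a₃, map_ofNat]
    have hXk : (WA.map (IsLocalRing.residue A)).toAffine.polynomialX.evalEval
        (IsLocalRing.residue A a₁) (IsLocalRing.residue A b₁) =
        IsLocalRing.residue A (WA.toAffine.polynomialX.evalEval a₁ b₁) := by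
      rw [evalEval_polynomialX, evalEval_polynomialX]
      simp only [map_sub, map_add, map_mul, map_pow, WeierstrassCurve.map_a₁,
        WeierstrassCurve.map_a₂, WeierstrassCurve.map_a₄, map_ofNat]
    have hYk : (WA.map (IsLocalRing.residue A)).toAffine.polynomialY.evalEval
        (IsLocalRing.residue A a₁) (IsLocalRing.residue A b₁) =
        IsLocalRing.residue A (WA.toAffine.polynomialY.evalEval a₁ b₁) := by
      rw [evalEval_polynomialY, evalEval_polynomialY]
      simp only [map_add, map_mul, WeierstrassCurve.map_a₁,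
        WeierstrassCurve.map_a₃, map_ofNat]
    have hns : (WA.map A.subtype).toAffine.polynomialX.evalEval (A.subtype a₁) (A.subtype b₁)
          ∉ A.nonunits ∨
        (WA.map A.subtype).toAffine.polynomialY.evalEval (A.subtype a₁) (A.subtype b₁)
          ∉ A.nonunits := by
      rcases hk.2 with h | h
      · left
        rw [hXm, subtype_mem_nonunits_iff, ← hXk]
        exact h
      · right
        rw [hYm, subtype_mem_nonunits_iff, ← hYk]
        exact h
    have hXY : (WA.map A.subtype).toAffine.polynomialX.evalEval (A.subtype a₁) (A.subtype b₁) ∈ A ∧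
        (WA.map A.subtype).toAffine.polynomialY.evalEval (A.subtype a₁) (A.subtype b₁) ∈ A := by
      rw [hXm, hYm]
      exact ⟨Subtype.property _, Subtype.property _⟩
    have hxn : A.subtype a₁ - A.subtype a₂ ∈ A.nonunits := residue_eq_iff.mp hx
    have hyn : A.subtype b₁ - (WA.map A.subtype).toAffine.negY (A.subtype a₂) (A.subtype b₂)
        ∈ A.nonunits := by
      rw [← subtype_negY]
      apply residue_eq_iff.mp
      rw [hy, residue_negY]
    obtain ⟨x₃, y₃, h₃, he, hx₃⟩ :=
      Fermat.Agent.S13.exists_sub_eq_some_of_same_reduction_of_mem A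
        (WA.map A.subtype).toAffine m₁ m₂ h₁ h₂' a₁.2 a₂.2 hxn hyn hns hXY hne
    rw [← hneg, sub_neg_eq_add] at he
    rw [he, inKer_some_iff]
    exact hx₃

/-- **Case IV**: adding a point of the kernel to an integral point does not change the
reduction. -/
theorem add_inKer [DecidableEq L] [DecidableEq (IsLocalRing.ResidueField A)]
    (hΔ : (WA.map (IsLocalRing.residue A)).Δ ≠ 0) {a b : A}
    (h : (WA.map A.subtype).toAffine.Nonsingular (A.subtype a) (A.subtype b))
    {T : (WA.map A.subtype).toAffine.Point} (hT : Fermat.Agent.S13.InKer A.valuation T) :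
    ∃ (a₃ b₃ : A) (h₃ : (WA.map A.subtype).toAffine.Nonsingular (A.subtype a₃) (A.subtype b₃)),
      Point.some _ _ h + T = Point.some _ _ h₃ ∧
      IsLocalRing.residue A a₃ = IsLocalRing.residue A a ∧
      IsLocalRing.residue A b₃ = IsLocalRing.residue A b := by
  obtain ⟨v₁, v₂, v₃, v₄, v₆⟩ := val_a_le_one WA
  have hQ : ¬ Fermat.Agent.S13.InKer A.valuation (Point.some _ _ h) := by
    rw [inKer_some_iff]; exact fun h' => h' a.2
  -- the sum is not in the kernel
  have hP : ¬ Fermat.Agent.S13.InKer A.valuation (Point.some _ _ h + T) := by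
    intro hP
    apply hQ
    have := Fermat.Agent.S13.inKer_sub A.valuation _ v₁ v₂ v₃ v₄ v₆ hP hT
    rwa [add_sub_cancel_right] at this
  generalize hPe : Point.some _ _ h + T = P at hP
  cases P with
  | zero => exact absurd trivial hP
  | some x₃ y₃ h₃ =>
    rw [inKer_some_iff, not_not] at hP
    obtain ⟨a₃, b₃, rfl, rfl⟩ := exists_lift WA h₃.1 hP
    refine ⟨a₃, b₃, h₃, rfl, ?_⟩
    by_contra hcon
    -- then `T = P - Q` would be integral
    have h' : (WA.map A.subtype).toAffine.Nonsingular (A.subtype a)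
        (A.subtype (WA.toAffine.negY a b)) := by
      rw [subtype_negY]; exact (nonsingular_neg ..).mpr h
    have hneg : -Point.some _ _ h = Point.some _ _ h' := by
      rw [Point.neg_some h]
      exact some_eq_some_of_eq _ _ rfl (subtype_negY WA a b).symm
    have hTe : T = Point.some _ _ h₃ + Point.some _ _ h' := by
      rw [← hneg, ← hPe]; abel
    have hopp : ¬(IsLocalRing.residue A a₃ = IsLocalRing.residue A a ∧
        IsLocalRing.residue A b₃ = (WA.map (IsLocalRing.residue A)).toAffine.negY
          (IsLocalRing.residue A a) (IsLocalRing.residue A (WA.toAffine.negY a b))) := by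
      rw [residue_negY, negY_negY]
      exact hcon
    obtain ⟨⟨a₄, b₄, h₄, he⟩, -⟩ := add_of_not_opposite WA hΔ h₃ h' hopp
    rw [hTe, he, inKer_some_iff] at hT
    exact hT a₄.2

/-- **Reduction is additive** (curve given over `A`). -/
theorem redPt_add_aux [DecidableEq L] [DecidableEq (IsLocalRing.ResidueField A)]
    (hΔ : (WA.map (IsLocalRing.residue A)).Δ ≠ 0) (P Q : (WA.map A.subtype).toAffine.Point) :
    redPt A (WA.map (IsLocalRing.residue A)) (P + Q) =
      redPt A (WA.map (IsLocalRing.residue A)) P + redPt A (WA.map (IsLocalRing.residue A)) Q := by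
  obtain ⟨v₁, v₂, v₃, v₄, v₆⟩ := val_a_le_one WA
  by_cases hP : Fermat.Agent.S13.InKer A.valuation P
  · by_cases hQ : Fermat.Agent.S13.InKer A.valuation Q
    · rw [(redPt_eq_zero_iff WA hΔ P).mpr hP, (redPt_eq_zero_iff WA hΔ Q).mpr hQ,
        (redPt_eq_zero_iff WA hΔ (P + Q)).mpr
          (Fermat.Agent.S13.inKer_add A.valuation _ v₁ v₂ v₃ v₄ v₆ hP hQ), add_zero]
    · cases Q with
      | zero => exact absurd trivial hQ
      | some x y h =>
        rw [inKer_some_iff, not_not] at hQ
        obtain ⟨a, b, rfl, rfl⟩ := exists_lift WA h.1 hQ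
        obtain ⟨a₃, b₃, h₃, he, hx, hy⟩ := add_inKer WA hΔ h hP
        rw [(redPt_eq_zero_iff WA hΔ P).mpr hP, zero_add, add_comm, he,
          redPt_subtype A _ h₃ (nonsingular_residue' WA hΔ h₃),
          redPt_subtype A _ h (nonsingular_residue' WA hΔ h)]
        exact some_eq_some_of_eq _ _ hx hy
  · cases P with
    | zero => exact absurd trivial hP
    | some x₁ y₁ h₁ =>
      rw [inKer_some_iff, not_not] at hP
      obtain ⟨a₁, b₁, rfl, rfl⟩ := exists_lift WA h₁.1 hP
      by_cases hQ : Fermat.Agent.S13.InKer A.valuation Q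
      · obtain ⟨a₃, b₃, h₃, he, hx, hy⟩ := add_inKer WA hΔ h₁ hQ
        rw [(redPt_eq_zero_iff WA hΔ Q).mpr hQ, add_zero, he,
          redPt_subtype A _ h₃ (nonsingular_residue' WA hΔ h₃),
          redPt_subtype A _ h₁ (nonsingular_residue' WA hΔ h₁)]
        exact some_eq_some_of_eq _ _ hx hy
      · cases Q with
        | zero => exact absurd trivial hQ
        | some x₂ y₂ h₂ =>
          rw [inKer_some_iff, not_not] at hQ
          obtain ⟨a₂, b₂, rfl, rfl⟩ := exists_lift WA h₂.1 hQ
          by_cases hopp : IsLocalRing.residue A a₁ = IsLocalRing.residue A a₂ ∧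
              IsLocalRing.residue A b₁ = (WA.map (IsLocalRing.residue A)).toAffine.negY
                (IsLocalRing.residue A a₂) (IsLocalRing.residue A b₂)
          · rw [(redPt_eq_zero_iff WA hΔ _).mpr
                (inKer_add_of_opposite WA hΔ h₁ h₂ hopp.1 hopp.2),
              redPt_subtype A _ h₁ (nonsingular_residue' WA hΔ h₁),
              redPt_subtype A _ h₂ (nonsingular_residue' WA hΔ h₂),
              Point.add_of_Y_eq hopp.1 hopp.2]
          · exact (add_of_not_opposite WA hΔ h₁ h₂ hopp).2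

end Setup

/-! ### Consumer forms: arbitrary `WL`, `Wk` with the two compatibilities -/

section General

variable {A}
variable {WA : WeierstrassCurve A} {WL : WeierstrassCurve L}
  {Wk : WeierstrassCurve (IsLocalRing.ResidueField A)}

/-- `WL` is the generic fibre and `Wk` the (nonsingular) special fibre of the Weierstrass curve
`WA` over the valuation ring `A`. -/
structure RedSetup (WA : WeierstrassCurve A) (WL : WeierstrassCurve L)
    (Wk : WeierstrassCurve (IsLocalRing.ResidueField A)) : Prop where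
  eqL : WL = WA.map A.subtype
  eqk : Wk = WA.map (IsLocalRing.residue A)
  disc : Wk.Δ ≠ 0

/-- **[RED-HOM]** reduction at a valuation subring is additive (good reduction). -/
theorem redPt_add [DecidableEq L] [DecidableEq (IsLocalRing.ResidueField A)]
    (h : RedSetup WA WL Wk) (P Q : WL.toAffine.Point) :
    redPt A Wk (P + Q) = redPt A Wk P + redPt A Wk Q := by
  obtain ⟨rfl, rfl, hΔ⟩ := h
  exact redPt_add_aux WA hΔ P Q

/-- The reduction homomorphism. -/
noncomputable def redHom [DecidableEq L] [DecidableEq (IsLocalRing.ResidueField A)]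
    (h : RedSetup WA WL Wk) : WL.toAffine.Point →+ Wk.toAffine.Point where
  toFun := redPt A Wk
  map_zero' := rfl
  map_add' := redPt_add h

@[simp] lemma redHom_apply [DecidableEq L] [DecidableEq (IsLocalRing.ResidueField A)]
    (h : RedSetup WA WL Wk) (P : WL.toAffine.Point) : redHom h P = redPt A Wk P := rfl

theorem redPt_neg [DecidableEq L] [DecidableEq (IsLocalRing.ResidueField A)]
    (h : RedSetup WA WL Wk) (P : WL.toAffine.Point) : redPt A Wk (-P) = -redPt A Wk P :=
  (redHom h).map_neg P

theorem redPt_sub [DecidableEq L] [DecidableEq (IsLocalRing.ResidueField A)]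
    (h : RedSetup WA WL Wk) (P Q : WL.toAffine.Point) :
    redPt A Wk (P - Q) = redPt A Wk P - redPt A Wk Q :=
  (redHom h).map_sub P Q

theorem redPt_nsmul [DecidableEq L] [DecidableEq (IsLocalRing.ResidueField A)]
    (h : RedSetup WA WL Wk) (n : ℕ) (P : WL.toAffine.Point) :
    redPt A Wk (n • P) = n • redPt A Wk P :=
  (redHom h).map_nsmul n P

theorem redPt_zsmul [DecidableEq L] [DecidableEq (IsLocalRing.ResidueField A)]
    (h : RedSetup WA WL Wk) (n : ℤ) (P : WL.toAffine.Point) :
    redPt A Wk (n • P) = n • redPt A Wk P :=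
  (redHom h).map_zsmul n P

/-- The kernel of reduction. -/
theorem redPt_eq_zero_iff' (h : RedSetup WA WL Wk) (P : WL.toAffine.Point) :
    redPt A Wk P = 0 ↔ Fermat.Agent.S13.InKer A.valuation P := by
  obtain ⟨rfl, rfl, hΔ⟩ := h
  exact redPt_eq_zero_iff WA hΔ P

/-- The coordinates of the reduction of an integral point. -/
theorem redPt_some_of_mem (h : RedSetup WA WL Wk) {x y : L} (hns : WL.toAffine.Nonsingular x y)
    (hx : x ∈ A) :
    y ∈ A ∧ ∃ hk : Wk.toAffine.Nonsingular (rd A x) (rd A y),
      redPt A Wk (Point.some x y hns) = Point.some _ _ hk := by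
  obtain ⟨rfl, rfl, hΔ⟩ := h
  obtain ⟨a, b, rfl, rfl⟩ := exists_lift WA hns.1 hx
  have hk := nonsingular_residue' WA hΔ hns
  refine ⟨b.2, ?_⟩
  have hk' : (WA.map (IsLocalRing.residue A)).toAffine.Nonsingular (rd A (A.subtype a))
      (rd A (A.subtype b)) := by
    rw [rd_subtype, rd_subtype]; exact hk
  refine ⟨hk', ?_⟩
  rw [redPt_subtype A _ hns hk]
  exact some_eq_some_of_eq _ _ (rd_subtype A a).symm (rd_subtype A b).symm

/-- The kernel of reduction has no `n`-torsion for `n` a unit of `A`. -/
theorem eq_zero_of_redPt_eq_zero [DecidableEq L] (h : RedSetup WA WL Wk) {n : ℕ}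
    (hn : (n : L) ∉ A.nonunits) {P : WL.toAffine.Point} (hP : n • P = 0)
    (h0 : redPt A Wk P = 0) : P = 0 := by
  have hker := (redPt_eq_zero_iff' h P).mp h0
  obtain ⟨rfl, rfl, hΔ⟩ := h
  obtain ⟨v₁, v₂, v₃, v₄, v₆⟩ := val_a_le_one WA
  have hn1 : A.valuation (n : L) = 1 :=
    (Fermat.Agent.S13.valuation_eq_one_iff_mem_and_not_mem_nonunits A).mpr
      ⟨natCast_mem A n, hn⟩
  exact Fermat.Agent.S13.eq_zero_of_inKer_of_nsmul_eq_zero A.valuation _ v₁ v₂ v₃ v₄ v₆ hn1
    hker hP

/-- **Injectivity of reduction on torsion** of order a unit of `A`. -/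
theorem redPt_injOn_torsion [DecidableEq L] [DecidableEq (IsLocalRing.ResidueField A)]
    (h : RedSetup WA WL Wk) {n : ℕ} (hn : (n : L) ∉ A.nonunits) {P Q : WL.toAffine.Point}
    (hP : n • P = 0) (hQ : n • Q = 0) (hPQ : redPt A Wk P = redPt A Wk Q) : P = Q := by
  have h0 : redPt A Wk (P - Q) = 0 := by rw [redPt_sub h, hPQ, sub_self]
  have hn0 : n • (P - Q) = 0 := by rw [smul_sub, hP, hQ, sub_zero]
  exact sub_eq_zero.mp (eq_zero_of_redPt_eq_zero h hn hn0 h0)

/-- Compatibility with a map `σ : L → L` preserving `A` and inducing the `q`-power map on the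
residue field (coordinate form): the reduction of `(σ x, σ y)` is `(x̄ ^ q, ȳ ^ q)`. -/
theorem redPt_frob (h : RedSetup WA WL Wk) (σ : L → L) (q : ℕ)
    (hmem : ∀ x, σ x ∈ A ↔ x ∈ A) (hres : ∀ a ∈ A, σ a - a ^ q ∈ A.nonunits)
    {x y : L} (hns : WL.toAffine.Nonsingular x y) (hns' : WL.toAffine.Nonsingular (σ x) (σ y)) :
    (redPt A Wk (Point.some x y hns) = 0 ∧ redPt A Wk (Point.some _ _ hns') = 0) ∨
    ∃ (x' y' : IsLocalRing.ResidueField A) (hk : Wk.toAffine.Nonsingular x' y')
      (hk' : Wk.toAffine.Nonsingular (x' ^ q) (y' ^ q)),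
      redPt A Wk (Point.some x y hns) = Point.some _ _ hk ∧
      redPt A Wk (Point.some _ _ hns') = Point.some _ _ hk' := by
  have hrd : ∀ a ∈ A, rd A (σ a) = rd A a ^ q := by
    intro a ha
    have h1 := hres a ha
    have hσa : σ a ∈ A := (hmem a).mpr ha
    rw [rd_of_mem A hσa, rd_of_mem A ha, ← map_pow, ← sub_eq_zero, ← map_sub,
      IsLocalRing.residue_eq_zero_iff]
    obtain ⟨hm, hm'⟩ := ValuationSubring.mem_nonunits_iff_exists_mem_maximalIdeal.mp h1
    exact hm'
  by_cases hx : x ∈ A
  · right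
    obtain ⟨hy, hk, e⟩ := redPt_some_of_mem h hns hx
    obtain ⟨hy', hk', e'⟩ := redPt_some_of_mem h hns' ((hmem x).mpr hx)
    have hk'' : Wk.toAffine.Nonsingular (rd A x ^ q) (rd A y ^ q) := by
      rw [← hrd x hx, ← hrd y hy]; exact hk'
    refine ⟨_, _, hk, hk'', e, ?_⟩
    rw [e']
    exact some_eq_some_of_eq _ _ (hrd x hx) (hrd y hy)
  · left
    have h1 := h
    obtain ⟨rfl, rfl, hΔ⟩ := h1
    exact ⟨redPt_of_not_mem A _ hns hx, redPt_of_not_mem A _ hns' (fun h' => hx ((hmem x).mp h'))⟩

end General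

end Fermat.Agent.P7.helper97
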