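import Mathlib
import Fermat.Prelude.Def_EllipticCurve_FrobeniusTrace
import Fermat.Prelude.Def_FLTPrelim_Ramification
import Fermat.Prelude.Def_FLTPrelim_Modularity
import Fermat.Agent.P6.helper78_NDefs
import Fermat.Agent.P7.helper97_RedHom

/-!
# P7 / S52 (c) [RED-HOM], consumer form for integral models `W : WeierstrassCurve ℤ`

For a prime `ℓ` of good reduction of `W` and a place `A` of `ℚ̄` over `ℓ`, the reduction map
`W(ℚ̄) → W(k_A)` is an additive homomorphism, injective on torsion of order prime to `ℓ`, and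
compatible with Frobenius elements (in the vocabulary of `P6.helper78_NDefs`).
-/

set_option autoImplicit false

open scoped Pointwise
open WeierstrassCurve WeierstrassCurve.Affine
open scoped WeierstrassCurve.Affine

namespace Fermat.Agent.P7.helper97

open Fermat.Agent.P6.helper78

/-- **[RED-HOM]**, consumer form: additive reduction on all `ℚ̄`-points. -/
def RedHomStatement : Prop :=
  ∀ (W : WeierstrassCurve ℤ) (ℓ : ℕ), ℓ.Prime → W.IsGoodPrimeFor ℓ →
    ∀ (A : ValuationSubring NQbar), A.LiesOverPrime ℓ →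
    ∀ [DecidableEq (IsLocalRing.ResidueField A)],
      ∃ red : ((W.map (Int.castRingHom ℚ))⁄NQbar).Point →+ PtK W (IsLocalRing.ResidueField A),
        (∀ n : ℕ, ¬ ℓ ∣ n → ∀ P, n • P = 0 → red P = 0 → P = 0) ∧
        (∀ σ : NGQ, A.IsFrobeniusAt σ ℓ →
          ∀ P, IsFrobImage W (IsLocalRing.ResidueField A) ℓ (red P) (red (σ • P)))

/-- **[RED-HOM]**, consumer form on `E[p]`, `p` prime to `ℓ`: an injective additive map
compatible with Frobenius elements. -/
def RedTorsStatement : Prop :=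
  ∀ (W : WeierstrassCurve ℤ) (p ℓ : ℕ), ℓ.Prime → ¬ ℓ ∣ p → W.IsGoodPrimeFor ℓ →
    ∀ (A : ValuationSubring NQbar), A.LiesOverPrime ℓ →
    ∀ [DecidableEq (IsLocalRing.ResidueField A)],
      ∃ red : Tors W p →+ PtK W (IsLocalRing.ResidueField A),
        Function.Injective red ∧
        (∀ σ : NGQ, A.IsFrobeniusAt σ ℓ →
          ∀ P, IsFrobImage W (IsLocalRing.ResidueField A) ℓ (red P) (red (σ • P)))

section Places

variable {K L : Type*} [Field K] [Field L] [Algebra K L]

lemma mem_iff_of_mem_decomposition (A : ValuationSubring L) (σ : L ≃ₐ[K] L)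
    (hσ : σ ∈ A.decompositionSubgroup K) (x : L) : σ x ∈ A ↔ x ∈ A := by
  have h : σ • A = A := hσ
  constructor
  · intro hx
    have : σ x ∈ σ • A := by rw [h]; exact hx
    rw [ValuationSubring.mem_smul_pointwise_iff_exists] at this
    obtain ⟨y, hy, hxy⟩ := this
    have : y = x := σ.injective hxy
    rwa [← this]
  · intro hx
    rw [← h]
    exact ValuationSubring.smul_mem_pointwise_smul σ x A hx

lemma frob_sub_pow_mem_nonunits (A : ValuationSubring L) (σ : L ≃ₐ[K] L) (q : ℕ)
    (h : A.IsFrobeniusAt σ q) : ∀ a ∈ A, σ a - a ^ q ∈ A.nonunits := by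
  obtain ⟨hσ, h⟩ := h
  intro a ha
  have h1 := h (IsLocalRing.residue A ⟨a, ha⟩)
  rw [← IsLocalRing.ResidueField.residue_smul, ← map_pow, ← sub_eq_zero, ← map_sub,
    IsLocalRing.residue_eq_zero_iff, A.valuation_lt_one_iff] at h1
  rw [ValuationSubring.mem_nonunits_iff]
  exact h1

end Places

section CharP

variable {L : Type*} [Field L] (A : ValuationSubring L)

lemma residue_natCast_eq_zero {ℓ : ℕ} (hA : A.LiesOverPrime ℓ) :
    ((ℓ : ℕ) : IsLocalRing.ResidueField A) = 0 := by
  have h : (ℓ : L) ∈ A.nonunits := hA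
  obtain ⟨hm, hm'⟩ := ValuationSubring.mem_nonunits_iff_exists_mem_maximalIdeal.mp h
  have : IsLocalRing.residue A ⟨(ℓ : L), hm⟩ = 0 :=
    (IsLocalRing.residue_eq_zero_iff _).mpr hm'
  have e : (⟨(ℓ : L), hm⟩ : A) = ((ℓ : ℕ) : A) := Subtype.ext (by simp)
  rw [e, map_natCast] at this
  exact this

lemma charP_residueField {ℓ : ℕ} (hℓ : ℓ.Prime) (hA : A.LiesOverPrime ℓ) :
    CharP (IsLocalRing.ResidueField A) ℓ :=
  (CharP.charP_iff_prime_eq_zero hℓ).mpr (residue_natCast_eq_zero A hA)

lemma natCast_notMem_nonunits {ℓ : ℕ} (hℓ : ℓ.Prime) (hA : A.LiesOverPrime ℓ) {n : ℕ}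
    (hn : ¬ ℓ ∣ n) : (n : L) ∉ A.nonunits := by
  have := charP_residueField A hℓ hA
  intro h
  obtain ⟨hm, hm'⟩ := ValuationSubring.mem_nonunits_iff_exists_mem_maximalIdeal.mp h
  have h0 : IsLocalRing.residue A ⟨(n : L), hm⟩ = 0 :=
    (IsLocalRing.residue_eq_zero_iff _).mpr hm'
  have e : (⟨(n : L), hm⟩ : A) = ((n : ℕ) : A) := Subtype.ext (by simp)
  rw [e, map_natCast] at h0
  exact hn ((CharP.cast_eq_zero_iff (IsLocalRing.ResidueField A) ℓ n).mp h0)

end CharP

/-- The reduction setup attached to an integral model and a place of good reduction. -/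
theorem redSetup_of_good (W : WeierstrassCurve ℤ) {ℓ : ℕ} (hℓ : ℓ.Prime)
    (hgood : W.IsGoodPrimeFor ℓ) (A : ValuationSubring NQbar) (hA : A.LiesOverPrime ℓ) :
    RedSetup (W.map (Int.castRingHom A)) ((W.map (Int.castRingHom ℚ))⁄NQbar)
      (W.map (Int.castRingHom (IsLocalRing.ResidueField A))) := by
  refine ⟨?_, ?_, ?_⟩
  · show (W.map (Int.castRingHom ℚ)).map (algebraMap ℚ NQbar) =
      (W.map (Int.castRingHom A)).map A.subtype
    rw [WeierstrassCurve.map_map, WeierstrassCurve.map_map]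
    exact congrArg _ (RingHom.ext_int _ _)
  · rw [WeierstrassCurve.map_map]
    exact congrArg _ (RingHom.ext_int _ _)
  · have := charP_residueField A hℓ hA
    rw [WeierstrassCurve.map_Δ]
    intro h0
    exact hgood ((CharP.intCast_eq_zero_iff (IsLocalRing.ResidueField A) ℓ W.Δ).mp h0)

/-- **[RED-HOM]**, consumer form. -/
theorem redHomStatement : RedHomStatement := by
  intro W ℓ hℓ hgood A hA _
  have hS := redSetup_of_good W hℓ hgood A hA
  refine ⟨redHom hS, ?_, ?_⟩
  · intro n hn P hP h0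
    exact eq_zero_of_redPt_eq_zero hS (natCast_notMem_nonunits A hℓ hA hn) hP h0
  · intro σ hσ P
    cases P with
    | zero => exact rfl
    | some x y h =>
      obtain ⟨h', hmap⟩ : ∃ h' : ((W.map (Int.castRingHom ℚ))⁄NQbar).toAffine.Nonsingular
          (σ x) (σ y), σ • (Point.some x y h : ((W.map (Int.castRingHom ℚ))⁄NQbar).Point) =
            Point.some (σ x) (σ y) h' := ⟨_, rfl⟩
      rw [hmap]
      rcases redPt_frob hS σ ℓ (mem_iff_of_mem_decomposition A σ hσ.mem_decompositionSubgroup)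
        (frob_sub_pow_mem_nonunits A σ ℓ hσ) h h' with ⟨e, e'⟩ | ⟨x', y', hk, hk', e, e'⟩
      · rw [redHom_apply, redHom_apply, e, e']
        exact rfl
      · rw [redHom_apply, redHom_apply, e, e']
        exact ⟨rfl, rfl⟩

/-- **[RED-HOM]**, consumer form on torsion. -/
theorem redTorsStatement : RedTorsStatement := by
  intro W p ℓ hℓ hp hgood A hA _
  obtain ⟨red, hinj, hfrob⟩ := redHomStatement W ℓ hℓ hgood A hA
  refine ⟨red.comp (Submodule.torsionBy ℤ _ p).subtype.toAddMonoidHom, ?_, ?_⟩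
  · rw [injective_iff_map_eq_zero]
    intro P hP
    have h1 : (p : ℤ) • (P : ((W.map (Int.castRingHom ℚ))⁄NQbar).Point) = 0 :=
      (Submodule.mem_torsionBy_iff _ _).mp P.2
    have h2 : p • (P : ((W.map (Int.castRingHom ℚ))⁄NQbar).Point) = 0 := by
      rw [← h1, natCast_zsmul]
    exact Subtype.ext (hinj p hp _ h2 hP)
  · intro σ hσ P
    exact hfrob σ hσ P

end Fermat.Agent.P7.helper97
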